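import Mathlib

/-!
# TW / LG : the abstract matching lemma (helper18)

`twlg_match`: if `M` is (in the sense of the torsion-freeness hypotheses `hA1`, `hA2`) free over
`O[Δ]`, `Δ = ⟨a⟩` cyclic of order `p ^ n`, and `u` is a second operator of `p`-power order with
`(u - 1) M ⊆ (a - 1) M` ("`u = 1` on the coinvariants") and `u - 1` injective on `M / Φ_p(a) M`
("`u ≠ 1` on the characters of exact order `p`"), then `(a - 1) M = (u - 1) M`.

This replaces the strong local-global compatibility at a Taylor–Wiles prime by the qualitative facts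
"old ⇒ unramified" and "new ⇒ ramified".
-/

set_option autoImplicit false

namespace Fermat.Agent.TW

open Polynomial Finset

/-- the geometric sum `1 + a + ⋯ + a ^ (p - 1)` -/
def twlg_Phi {𝒜 : Type*} [CommRing 𝒜] (p : ℕ) (a : 𝒜) : 𝒜 := ∑ i ∈ range p, a ^ i

theorem twlg_Phi_mul {𝒜 : Type*} [CommRing 𝒜] (p : ℕ) (a : 𝒜) :
    twlg_Phi p a * (a - 1) = a ^ p - 1 := geom_sum_mul a p

section PolyId

variable (p : ℕ) [hp : Fact p.Prime]

/-- an integer polynomial that vanishes mod `p` is divisible by `p` -/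
theorem twlg_dvd_of_map_eq_zero (f : ℤ[X]) (h : f.map (Int.castRingHom (ZMod p)) = 0) :
    ∃ g : ℤ[X], f = C (p : ℤ) * g := by
  have : C (p : ℤ) ∣ f := by
    rw [Polynomial.C_dvd_iff_dvd_coeff]
    intro i
    have hi : (f.map (Int.castRingHom (ZMod p))).coeff i = 0 := by rw [h]; simp
    rw [Polynomial.coeff_map] at hi
    exact (ZMod.intCast_zmod_eq_zero_iff_dvd _ _).1 hi
  obtain ⟨g, hg⟩ := this
  exact ⟨g, hg⟩

/-- `Φ_p(1 + X) = X ^ (p - 1) + p (1 + X V₁)` -/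
theorem twlg_polyId1 : ∃ V : ℤ[X],
    ∑ i ∈ range p, (1 + X : ℤ[X]) ^ i = X ^ (p - 1) + C (p : ℤ) * (1 + X * V) := by
  have hp2 : 2 ≤ p := hp.out.two_le
  set F : ℤ[X] := ∑ i ∈ range p, (1 + X : ℤ[X]) ^ i with hF
  have hFX : F * X = (1 + X) ^ p - 1 := by
    have := geom_sum_mul (1 + X : ℤ[X]) p
    rwa [add_sub_cancel_left] at this
  have hmap : (F - X ^ (p - 1)).map (Int.castRingHom (ZMod p)) = 0 := by
    have h1 : (F.map (Int.castRingHom (ZMod p))) * X = X ^ (p - 1) * X := by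
      have := congrArg (Polynomial.map (Int.castRingHom (ZMod p))) hFX
      rw [Polynomial.map_mul, Polynomial.map_X] at this
      rw [this]
      simp only [Polynomial.map_sub, Polynomial.map_pow, Polynomial.map_add, Polynomial.map_one,
        Polynomial.map_X]
      rw [add_pow_char, one_pow, add_sub_cancel_left, ← pow_succ, Nat.sub_add_cancel (by omega)]
    have h2 := mul_right_cancel₀ (Polynomial.X_ne_zero) h1
    rw [Polynomial.map_sub, h2, Polynomial.map_pow, Polynomial.map_X, sub_self]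
  obtain ⟨W, hW⟩ := twlg_dvd_of_map_eq_zero p _ hmap
  have hW0 : W.coeff 0 = 1 := by
    have h0 := congrArg (fun f => Polynomial.coeff f 0) hW
    simp only [Polynomial.coeff_sub, Polynomial.coeff_C_mul] at h0
    have hF0 : F.coeff 0 = p := by
      rw [hF, Polynomial.finset_sum_coeff]
      have : ∀ i ∈ range p, ((1 + X : ℤ[X]) ^ i).coeff 0 = 1 := by
        intro i _
        rw [Polynomial.coeff_zero_eq_eval_zero]
        simp
      rw [Finset.sum_congr rfl this]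
      simp
    have hX0 : ((X : ℤ[X]) ^ (p - 1)).coeff 0 = 0 := by
      rw [Polynomial.coeff_X_pow]
      have : (0 : ℕ) ≠ p - 1 := by omega
      simp [this]
    rw [hF0, hX0, sub_zero] at h0
    have hpne : (p : ℤ) ≠ 0 := by exact_mod_cast hp.out.ne_zero
    have : (p : ℤ) * 1 = p * W.coeff 0 := by rw [mul_one]; exact h0
    exact (mul_left_cancel₀ hpne this).symm
  refine ⟨W.divX, ?_⟩
  have hWd : W = 1 + X * W.divX := by
    conv_lhs => rw [← Polynomial.divX_mul_X_add W, hW0]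
    simp [add_comm, mul_comm]
  rw [← hWd, ← hW]
  ring

/-- `X ^ (p ^ n) = ((1 + X) ^ (p ^ n) - 1) + p c` -/
theorem twlg_polyId2 (n : ℕ) : ∃ c : ℤ[X],
    (X : ℤ[X]) ^ p ^ n = ((1 + X) ^ p ^ n - 1) + C (p : ℤ) * c := by
  have hmap : ((X : ℤ[X]) ^ p ^ n - ((1 + X) ^ p ^ n - 1)).map (Int.castRingHom (ZMod p)) = 0 := by
    simp only [Polynomial.map_sub, Polynomial.map_pow, Polynomial.map_add, Polynomial.map_one,
      Polynomial.map_X]
    rw [add_pow_char_pow, one_pow, add_sub_cancel_left, sub_self]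
  obtain ⟨c, hc⟩ := twlg_dvd_of_map_eq_zero p _ hmap
  exact ⟨c, by rw [← hc]; ring⟩

end PolyId

section Eval

variable {𝒜 : Type*} [CommRing 𝒜] (p : ℕ) [hp : Fact p.Prime]

theorem twlg_id1 (x : 𝒜) : ∃ v : 𝒜,
    twlg_Phi p (1 + x) = x ^ (p - 1) + (p : 𝒜) * (1 + x * v) := by
  obtain ⟨V, hV⟩ := twlg_polyId1 p
  refine ⟨Polynomial.aeval x V, ?_⟩
  have := congrArg (Polynomial.aeval x) hV
  simpa [twlg_Phi, map_sum] using this

theorem twlg_id2 (x : 𝒜) (n : ℕ) : ∃ c : 𝒜,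
    x ^ p ^ n = ((1 + x) ^ p ^ n - 1) + (p : 𝒜) * c := by
  obtain ⟨c, hc⟩ := twlg_polyId2 p n
  refine ⟨Polynomial.aeval x c, ?_⟩
  have := congrArg (Polynomial.aeval x) hc
  simpa using this

end Eval

section TorsionUnit

variable {O 𝒜 Q : Type*} [CommRing O] [CommRing 𝒜] [Algebra O 𝒜] [AddCommGroup Q] [Module O Q]
  [Module 𝒜 Q] [IsScalarTower O 𝒜 Q] [Module.Finite O Q]
variable (p : ℕ) [hp : Fact p.Prime]

/-- the `O`-submodule `c • Q` -/
def twlg_img (c : 𝒜) : Submodule O Q :=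
  LinearMap.range ((LinearMap.lsmul 𝒜 Q c).restrictScalars O)

theorem twlg_mem_img {c : 𝒜} {q : Q} : q ∈ twlg_img (O := O) c ↔ ∃ q', q = c • q' := by
  constructor
  · rintro ⟨q', rfl⟩
    exact ⟨q', rfl⟩
  · rintro ⟨q', rfl⟩
    exact ⟨q', rfl⟩

theorem twlg_img_fg (c : 𝒜) : (twlg_img (O := O) (Q := Q) c).FG := by
  unfold twlg_img
  rw [LinearMap.range_eq_map]
  exact (Module.Finite.fg_top).map _

include hp in
/-- `W ^ p = 1`, `W ≡ 1 mod p`, `p` odd, no `p`-torsion ⟹ `W = 1`. -/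
theorem twlg_torsion_unit_core (hp2 : p ≠ 2) (hpJ : (p : O) ∈ Ideal.jacobson (⊥ : Ideal O))
    (htf : ∀ q : Q, p • q = 0 → q = 0) (W : 𝒜) (hW : ∀ q : Q, W ^ p • q = q)
    (hW1 : ∀ q : Q, ∃ q', (W - 1) • q = p • q') : ∀ q : Q, W • q = q := by
  have hp3 : 3 ≤ p := by
    have := hp.out.two_le
    omega
  set w : 𝒜 := W - 1 with hw
  obtain ⟨v, hv⟩ := twlg_id1 p w
  have hW' : (1 : 𝒜) + w = W := by rw [hw]; ring
  rw [hW'] at hv
  have hS : twlg_img (O := O) (Q := Q) w = ⊥ := by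
    apply Submodule.eq_bot_of_le_smul_of_le_jacobson_bot (Ideal.span {(p : O)}) _ (twlg_img_fg w)
    · intro s hs
      obtain ⟨q, rfl⟩ := twlg_mem_img.1 hs
      obtain ⟨q₁, hq₁⟩ := hW1 q
      obtain ⟨q₁', hq₁'⟩ := hW1 q₁
      -- the relation
      have hrel : twlg_Phi p W • (w • q) = 0 := by
        rw [smul_smul, twlg_Phi_mul, sub_smul, hW q, one_smul, sub_self]
      rw [hv] at hrel
      have e1 : w ^ (p - 1) = w ^ (p - 3) * w * w := by
        rw [mul_assoc, ← pow_two, ← pow_add]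
        congr 1
        omega
      have key : p • (w ^ (p - 1) • q₁ + w • q + (w * v) • (w • q)) = 0 := by
        have h1 : w ^ (p - 1) • (w • q) = p • (w ^ (p - 1) • q₁) := by
          rw [hq₁, smul_comm]
        have h2 : ((p : 𝒜) * (1 + w * v)) • (w • q) = p • (w • q + (w * v) • (w • q)) := by
          rw [mul_smul, Nat.cast_smul_eq_nsmul, add_smul, one_smul]
        rw [add_smul, h1, h2, ← smul_add] at hrel
        rw [← hrel]
        congr 1
        abel
      have key2 := htf _ key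
      have hs' : w • q = p • (w • (-(w ^ (p - 3) • q₁') - v • q₁)) := by
        have h1 : w ^ (p - 1) • q₁ = p • (w • (w ^ (p - 3) • q₁')) := by
          rw [e1, mul_smul, mul_smul, hq₁', smul_comm w p, smul_comm (w ^ (p - 3)) p,
            smul_comm (w ^ (p - 3)) w]
        have h2 : (w * v) • (w • q) = p • (w • (v • q₁)) := by
          rw [hq₁, mul_smul, smul_comm v p, smul_comm w p]
        rw [h1, h2] at key2
        rw [smul_sub, smul_neg, smul_sub, smul_neg]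
        calc w • q = (p • w • w ^ (p - 3) • q₁' + w • q + p • w • v • q₁)
              - p • w • w ^ (p - 3) • q₁' - p • w • v • q₁ := by abel
          _ = -(p • w • w ^ (p - 3) • q₁') - p • w • v • q₁ := by rw [key2]; abel
      rw [hs', ← Nat.cast_smul_eq_nsmul O]
      exact Submodule.smul_mem_smul (Ideal.mem_span_singleton_self _)
        (twlg_mem_img.2 ⟨_, rfl⟩)
    · exact (Ideal.span_le.2 (Set.singleton_subset_iff.2 hpJ))
  intro q
  have : w • q ∈ twlg_img (O := O) (Q := Q) w := twlg_mem_img.2 ⟨q, rfl⟩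
  rw [hS, Submodule.mem_bot, hw, sub_smul, one_smul, sub_eq_zero] at this
  exact this

theorem twlg_pow_smul_eq (c : 𝒜) (h : ∀ q : Q, c • q = q) (k : ℕ) (q : Q) : c ^ k • q = q := by
  induction k with
  | zero => simp
  | succ k ih => rw [pow_succ, mul_smul, h, ih]

include hp in
/-- `W` of `p`-power order, `W ≡ 1 mod p`, `p` odd, no `p`-torsion ⟹ `W = 1`. -/
theorem twlg_torsion_unit (hp2 : p ≠ 2) (hpJ : (p : O) ∈ Ideal.jacobson (⊥ : Ideal O))
    (htf : ∀ q : Q, p • q = 0 → q = 0) (k : ℕ) :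
    ∀ W : 𝒜, (∀ q : Q, W ^ p ^ k • q = q) → (∀ q : Q, ∃ q', (W - 1) • q = p • q') →
      ∀ q : Q, W • q = q := by
  induction k with
  | zero =>
    intro W hW _ q
    simpa using hW q
  | succ k ih =>
    intro W hW hW1
    apply twlg_torsion_unit_core p hp2 hpJ htf W _ hW1
    apply ih (W ^ p)
    · intro q
      rw [← pow_mul, ← pow_succ']
      exact hW q
    · intro q
      obtain ⟨q', hq'⟩ := hW1 q
      refine ⟨twlg_Phi p W • q', ?_⟩
      rw [← twlg_Phi_mul, mul_smul, hq', smul_comm]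

include hp in
/-- the matching lemma on the quotient `Q = M / Φ_p(a) M`. -/
theorem twlg_match_quot (hp2 : p ≠ 2) (hpJ : (p : O) ∈ Ideal.jacobson (⊥ : Ideal O))
    (a u : 𝒜) (N : ℕ)
    (hΦ : ∀ q : Q, twlg_Phi p a • q = 0)
    (htf : ∀ q : Q, p • q = 0 → q = 0)
    (hu : ∀ q : Q, u ^ p ^ N • q = q)
    (hH2 : ∀ q : Q, ∃ q', (u - 1) • q = (a - 1) • q')
    (hH3 : ∀ q : Q, (u - 1) • q = 0 → q = 0) :
    ∀ q : Q, ∃ q', (a - 1) • q = (u - 1) • q' := by
  have hp3 : 3 ≤ p := by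
    have := hp.out.two_le
    omega
  set x : 𝒜 := a - 1 with hx
  set y : 𝒜 := u - 1 with hy
  obtain ⟨vx0, hvx⟩ := twlg_id1 p x
  obtain ⟨vy0, hvy⟩ := twlg_id1 p y
  have hax : (1 : 𝒜) + x = a := by rw [hx]; ring
  have huy : (1 : 𝒜) + y = u := by rw [hy]; ring
  rw [hax] at hvx
  rw [huy] at hvy
  have e1 : ∀ q : Q, x ^ (p - 1) • q = -(p • ((1 + x * vx0) • q)) := by
    intro q
    have := hΦ q
    rw [hvx, add_smul, mul_smul, Nat.cast_smul_eq_nsmul] at this
    exact eq_neg_of_add_eq_zero_left this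
  have C0 : ∀ q : Q, x • q = 0 → q = 0 := by
    intro q hq
    have h1 : x ^ (p - 1) • q = 0 := by
      have : x ^ (p - 1) = x ^ (p - 2) * x := by
        rw [← pow_succ]
        congr 1
        omega
      rw [this, mul_smul, hq, smul_zero]
    have h2 := e1 q
    rw [h1] at h2
    have h3 : p • ((1 + x * vx0) • q) = 0 := neg_eq_zero.1 h2.symm
    have h4 := htf _ h3
    rw [add_smul, one_smul, mul_comm, mul_smul, hq, smul_zero, add_zero] at h4
    exact h4
  have C0' : ∀ (k : ℕ) (q : Q), x ^ k • q = 0 → q = 0 := by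
    intro k
    induction k with
    | zero =>
      intro q hq
      simpa using hq
    | succ k ih =>
      intro q hq
      rw [pow_succ, mul_smul] at hq
      exact C0 q (ih _ hq)
  have Cpow : ∀ (k : ℕ) (q : Q), ∃ q', y ^ k • q = x ^ k • q' := by
    intro k
    induction k with
    | zero =>
      intro q
      exact ⟨q, by simp⟩
    | succ k ih =>
      intro q
      obtain ⟨q1, h1⟩ := ih q
      obtain ⟨q2, h2⟩ := hH2 q1
      refine ⟨q2, ?_⟩
      rw [pow_succ', mul_smul, h1, smul_comm, h2, pow_succ, mul_smul]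
  have C1 : ∀ q : Q, ∃ q', y ^ (p - 1) • q = p • q' := by
    intro q
    obtain ⟨q1, h1⟩ := Cpow (p - 1) q
    refine ⟨-((1 + x * vx0) • q1), ?_⟩
    rw [h1, e1, smul_neg]
  have hup : ∀ q : Q, u ^ p • q = q := by
    apply twlg_torsion_unit p hp2 hpJ htf N (u ^ p)
    · intro q
      rw [pow_right_comm]
      exact twlg_pow_smul_eq _ hu p q
    · intro q
      obtain ⟨q1, h1⟩ := C1 (y • q)
      refine ⟨q1 + (1 + y * vy0) • (y • q), ?_⟩
      rw [← twlg_Phi_mul, mul_smul, hvy, add_smul, h1, mul_smul, Nat.cast_smul_eq_nsmul,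
        smul_add]
  have C3 : ∀ q : Q, twlg_Phi p u • q = 0 := by
    intro q
    apply hH3
    rw [smul_smul, mul_comm, twlg_Phi_mul, sub_smul, hup, one_smul, sub_self]
  have e2 : ∀ q : Q, y ^ (p - 1) • q = -(p • ((1 + y * vy0) • q)) := by
    intro q
    have := C3 q
    rw [hvy, add_smul, mul_smul, Nat.cast_smul_eq_nsmul] at this
    exact eq_neg_of_add_eq_zero_left this
  intro q
  obtain ⟨q2, hq2⟩ := Cpow (p - 2) ((1 + x * vx0) • q)
  refine ⟨q2 - x • (vy0 • q), ?_⟩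
  apply sub_eq_zero.1
  apply C0' (p - 2)
  have hAB : x ^ (p - 1) • ((1 + y * vy0) • q) = y ^ (p - 1) • ((1 + x * vx0) • q) := by
    rw [e1, e2, smul_comm (1 + x * vx0) (1 + y * vy0) q]
  have hB : y ^ (p - 1) • ((1 + x * vx0) • q) = x ^ (p - 2) • (y • q2) := by
    have : y ^ (p - 1) = y * y ^ (p - 2) := by
      rw [← pow_succ']
      congr 1
      omega
    rw [this, mul_smul, hq2, smul_comm]
  have hA : x ^ (p - 1) • ((1 + y * vy0) • q) =
      x ^ (p - 2) • (x • q + y • (x • (vy0 • q))) := by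
    have : x ^ (p - 1) = x ^ (p - 2) * x := by
      rw [← pow_succ]
      congr 1
      omega
    rw [this, mul_smul, add_smul, one_smul, smul_add, mul_smul, smul_comm x y]
  rw [hA, hB] at hAB
  rw [smul_sub, smul_sub, smul_sub, ← hAB, smul_add]
  abel

end TorsionUnit

section Main

variable {O 𝒜 M : Type*} [CommRing O] [CommRing 𝒜] [Algebra O 𝒜] [AddCommGroup M] [Module O M]
  [Module 𝒜 M] [IsScalarTower O 𝒜 M] [Module.Finite O M]
variable (p : ℕ) [hp : Fact p.Prime]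

include hp in
/-- first step: `(a - 1) M ⊆ (u - 1) M + φ M`, for any `φ` with `Φ_p(a) M ⊆ φ M` such that
`M / φ M` has no `p`-torsion and `u - 1` is injective on it. -/
theorem twlg_match_step1 (hp2 : p ≠ 2) (hpJ : (p : O) ∈ Ideal.jacobson (⊥ : Ideal O))
    (a u φ : 𝒜) (N : ℕ) (hu : ∀ m : M, u ^ p ^ N • m = m)
    (hφΦ : ∀ m : M, ∃ m', twlg_Phi p a • m = φ • m')
    (hA2 : ∀ m : M, (∃ m', p • m = φ • m') → ∃ m', m = φ • m')
    (hH2 : ∀ m : M, ∃ m', (u - 1) • m = (a - 1) • m')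
    (hH3 : ∀ m : M, (∃ m', (u - 1) • m = φ • m') → ∃ m', m = φ • m') :
    ∀ m : M, ∃ m₁ m₂, (a - 1) • m = (u - 1) • m₁ + φ • m₂ := by
  let P : Submodule 𝒜 M := LinearMap.range (LinearMap.lsmul 𝒜 M φ)
  have hP : ∀ m : M, m ∈ P ↔ ∃ m', m = φ • m' := by
    intro m
    constructor
    · rintro ⟨m', rfl⟩
      exact ⟨m', rfl⟩
    · rintro ⟨m', rfl⟩
      exact ⟨m', rfl⟩
  haveI hfin : Module.Finite O (M ⧸ P) :=
    Module.Finite.of_surjective ((P.mkQ).restrictScalars O) (Submodule.mkQ_surjective P)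
  intro m
  obtain ⟨q', hq'⟩ := twlg_match_quot (O := O) (Q := M ⧸ P) p hp2 hpJ a u N
    (by
      intro q
      obtain ⟨m0, rfl⟩ := Submodule.mkQ_surjective P q
      obtain ⟨m0', hm0'⟩ := hφΦ m0
      rw [← map_smul, Submodule.mkQ_apply, Submodule.Quotient.mk_eq_zero]
      exact (hP _).2 ⟨m0', hm0'⟩)
    (by
      intro q hq
      obtain ⟨m0, rfl⟩ := Submodule.mkQ_surjective P q
      rw [← map_nsmul, Submodule.mkQ_apply, Submodule.Quotient.mk_eq_zero] at hq
      rw [Submodule.mkQ_apply, Submodule.Quotient.mk_eq_zero]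
      exact (hP _).2 (hA2 m0 ((hP _).1 hq)))
    (by
      intro q
      obtain ⟨m0, rfl⟩ := Submodule.mkQ_surjective P q
      rw [← map_smul, hu])
    (by
      intro q
      obtain ⟨m0, rfl⟩ := Submodule.mkQ_surjective P q
      obtain ⟨m1, h1⟩ := hH2 m0
      exact ⟨P.mkQ m1, by rw [← map_smul, ← map_smul, h1]⟩)
    (by
      intro q hq
      obtain ⟨m0, rfl⟩ := Submodule.mkQ_surjective P q
      rw [← map_smul, Submodule.mkQ_apply, Submodule.Quotient.mk_eq_zero] at hq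
      rw [Submodule.mkQ_apply, Submodule.Quotient.mk_eq_zero]
      exact (hP _).2 (hH3 m0 ((hP _).1 hq)))
    (P.mkQ m)
  obtain ⟨m1, rfl⟩ := Submodule.mkQ_surjective P q'
  rw [← map_smul, ← map_smul, ← sub_eq_zero, ← map_sub, Submodule.mkQ_apply,
    Submodule.Quotient.mk_eq_zero] at hq'
  obtain ⟨m2, hm2⟩ := (hP _).1 hq'
  exact ⟨m1, m2, by rw [← hm2]; abel⟩

include hp in
/-- **The abstract matching lemma, general form.** `φ = (a - 1) g + ε` with `ε ∈ O` in the Jacobson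
radical, `Φ_p(a) M ⊆ φ M`; `M / (a - 1) M` has no `ε`-torsion (`hA1`), `M / φ M` has no `p`-torsion
(`hA2`); `(u - 1) M ⊆ (a - 1) M` (`hH2`) and `u - 1` is injective on `M / φ M` (`hH3`).
Then `(a - 1) M ⊆ (u - 1) M`. -/
theorem twlg_match_gen (hp2 : p ≠ 2) (hpJ : (p : O) ∈ Ideal.jacobson (⊥ : Ideal O))
    (a u φ g : 𝒜) (ε : O) (hεJ : ε ∈ Ideal.jacobson (⊥ : Ideal O))
    (hφ : φ = (a - 1) * g + algebraMap O 𝒜 ε)
    (n N : ℕ) (ha : ∀ m : M, a ^ p ^ n • m = m) (hu : ∀ m : M, u ^ p ^ N • m = m)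
    (hφΦ : ∀ m : M, ∃ m', twlg_Phi p a • m = φ • m')
    (hA1 : ∀ m : M, (∃ m', ε • m = (a - 1) • m') → ∃ m', m = (a - 1) • m')
    (hA2 : ∀ m : M, (∃ m', p • m = φ • m') → ∃ m', m = φ • m')
    (hH2 : ∀ m : M, ∃ m', (u - 1) • m = (a - 1) • m')
    (hH3 : ∀ m : M, (∃ m', (u - 1) • m = φ • m') → ∃ m', m = φ • m') :
    ∀ m : M, ∃ m', (a - 1) • m = (u - 1) • m' := by
  have step1 := twlg_match_step1 (O := O) p hp2 hpJ a u φ N hu hφΦ hA2 hH2 hH3
  set x : 𝒜 := a - 1 with hx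
  set y : 𝒜 := u - 1 with hy
  have hax : (1 : 𝒜) + x = a := by rw [hx]; ring
  -- step γ
  have step2 : ∀ m : M, ∃ m₁ m₃ m₄, x • m = y • m₁ + x ^ 2 • m₃ + ε • (x • m₄) := by
    intro m
    obtain ⟨m₁, m₂, h12⟩ := step1 m
    obtain ⟨m₁', hm₁'⟩ := hH2 m₁
    have e : φ • m₂ = x • (g • m₂) + ε • m₂ := by
      rw [hφ, add_smul, mul_smul, algebraMap_smul]
    have hpm : ε • m₂ = x • (m - m₁' - g • m₂) := by
      rw [e, hm₁'] at h12
      rw [smul_sub, smul_sub, h12]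
      abel
    obtain ⟨m₃, hm₃⟩ := hA1 _ ⟨_, hpm⟩
    refine ⟨m₁, g • m₃, m₃, ?_⟩
    rw [h12, e, add_assoc]
    congr 1
    rw [hm₃, pow_two, mul_smul, smul_comm g x m₃]
  -- step δ
  have step3 : ∀ (k : ℕ) (m : M), ∃ m₁ m₃ m₄,
      x • m = y • m₁ + x ^ (k + 1) • m₃ + ε • (x • m₄) := by
    intro k
    induction k with
    | zero =>
      intro m
      exact ⟨0, m, 0, by simp⟩
    | succ k ih =>
      intro m
      obtain ⟨m₁, m₃, m₄, h⟩ := ih m
      obtain ⟨n₁, n₃, n₄, h'⟩ := step2 m₃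
      refine ⟨m₁ + x ^ k • n₁, n₃, m₄ + x ^ k • n₄, ?_⟩
      have e1 : x ^ (k + 1) • m₃ = x ^ k • (x • m₃) := by rw [smul_smul, ← pow_succ]
      have e2 : x ^ (k + 1 + 1) • n₃ = x ^ k • (x ^ 2 • n₃) := by
        rw [smul_smul, ← pow_add]
      rw [h, e1, h', e2, smul_add, smul_add, smul_add, smul_add, smul_add, smul_comm (x ^ k) y,
        smul_comm (x ^ k) ε, smul_comm (x ^ k) x]
      abel
  obtain ⟨c, hc⟩ := twlg_id2 p x n
  rw [hax] at hc
  have hle : twlg_img (O := O) (Q := M) x ≤ twlg_img (O := O) (Q := M) y := by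
    apply Submodule.le_of_le_smul_of_le_jacobson_bot (I := Ideal.span {(p : O), ε})
      (twlg_img_fg x)
    · apply Ideal.span_le.2
      intro z hz
      rcases hz with rfl | hz
      · exact hpJ
      · rw [Set.mem_singleton_iff] at hz
        rw [hz]
        exact hεJ
    intro s hs
    obtain ⟨m, rfl⟩ := twlg_mem_img.1 hs
    obtain ⟨m₁, m₃, m₄, h⟩ := step3 (p ^ n) m
    have e0 : x ^ p ^ n • m₃ = p • (c • m₃) := by
      rw [hc, add_smul, sub_smul, ha, one_smul, sub_self, zero_add, mul_smul,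
        Nat.cast_smul_eq_nsmul]
    have e : x ^ (p ^ n + 1) • m₃ = p • (x • (c • m₃)) := by
      rw [pow_succ', mul_smul, e0, smul_comm x p]
    rw [h, e, add_assoc]
    apply Submodule.add_mem_sup
    · exact twlg_mem_img.2 ⟨_, rfl⟩
    · apply Submodule.add_mem
      · rw [← Nat.cast_smul_eq_nsmul O]
        exact Submodule.smul_mem_smul (Ideal.subset_span (by simp)) (twlg_mem_img.2 ⟨_, rfl⟩)
      · exact Submodule.smul_mem_smul (Ideal.subset_span (by simp)) (twlg_mem_img.2 ⟨_, rfl⟩)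
  intro m
  exact twlg_mem_img.1 (hle (twlg_mem_img.2 ⟨m, rfl⟩))

include hp in
/-- **The abstract matching lemma** (form with `φ = Φ_p(a)`). `M` a finite `O`-module with an action
of a commutative `O`-algebra `𝒜 ∋ a, u`; `a ^ (p ^ n) = 1`, `u ^ (p ^ N) = 1`; `M / (a - 1) M` and
`M / Φ_p(a) M` have no `p`-torsion (`hA1`, `hA2`: consequences of the freeness of `M` over
`O[⟨a⟩]`); `(u - 1) M ⊆ (a - 1) M` (`hH2`: "`u = 1` on the coinvariants") and `u - 1` is injective on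
`M / Φ_p(a) M` (`hH3`: "`u ≠ 1` on the characters of exact order `p`"). Then
`(a - 1) M = (u - 1) M`. -/
theorem twlg_match (hp2 : p ≠ 2) (hpJ : (p : O) ∈ Ideal.jacobson (⊥ : Ideal O))
    (a u : 𝒜) (n N : ℕ) (ha : ∀ m : M, a ^ p ^ n • m = m) (hu : ∀ m : M, u ^ p ^ N • m = m)
    (hA1 : ∀ m : M, (∃ m', p • m = (a - 1) • m') → ∃ m', m = (a - 1) • m')
    (hA2 : ∀ m : M, (∃ m', p • m = twlg_Phi p a • m') → ∃ m', m = twlg_Phi p a • m')
    (hH2 : ∀ m : M, ∃ m', (u - 1) • m = (a - 1) • m')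
    (hH3 : ∀ m : M, (∃ m', (u - 1) • m = twlg_Phi p a • m') → ∃ m', m = twlg_Phi p a • m') :
    ∀ m : M, ∃ m', (a - 1) • m = (u - 1) • m' := by
  have hp3 : 3 ≤ p := by
    have := hp.out.two_le
    omega
  obtain ⟨vx0, hvx⟩ := twlg_id1 p (a - 1)
  have hax : (1 : 𝒜) + (a - 1) = a := by ring
  rw [hax] at hvx
  refine twlg_match_gen (O := O) p hp2 hpJ a u (twlg_Phi p a)
    ((a - 1) ^ (p - 2) + (p : 𝒜) * vx0) (p : O) hpJ ?_ n N ha hu (fun m => ⟨m, rfl⟩) ?_ hA2 hH2 hH3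
  · rw [hvx, map_natCast]
    have : (a - 1) ^ (p - 1) = (a - 1) * (a - 1) ^ (p - 2) := by
      rw [← pow_succ']
      congr 1
      omega
    rw [this]
    ring
  · intro m hm
    apply hA1
    obtain ⟨m', hm'⟩ := hm
    exact ⟨m', by rw [← hm', Nat.cast_smul_eq_nsmul]⟩

include hp in
/-- **The abstract matching lemma** (form with one fibre): `ζ ∈ O` with `Φ_p(ζ) = 0`
(a primitive `p`-th root of unity), `1 - ζ` in the Jacobson radical; `M / (a - 1) M` has no
`(1 - ζ)`-torsion, `M / (a - ζ) M` has no `p`-torsion, `(u - 1) M ⊆ (a - 1) M`, and `u - 1` is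
injective on the single fibre `M / (a - ζ) M`. Then `(a - 1) M = (u - 1) M`. -/
theorem twlg_match_fibre (hp2 : p ≠ 2) (hpJ : (p : O) ∈ Ideal.jacobson (⊥ : Ideal O))
    (a u : 𝒜) (ζ : O) (hζ : twlg_Phi p ζ = 0) (hζJ : 1 - ζ ∈ Ideal.jacobson (⊥ : Ideal O))
    (n N : ℕ) (ha : ∀ m : M, a ^ p ^ n • m = m) (hu : ∀ m : M, u ^ p ^ N • m = m)
    (hA1 : ∀ m : M, (∃ m', (1 - ζ) • m = (a - 1) • m') → ∃ m', m = (a - 1) • m')
    (hA2 : ∀ m : M, (∃ m', p • m = (a - algebraMap O 𝒜 ζ) • m') →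
      ∃ m', m = (a - algebraMap O 𝒜 ζ) • m')
    (hH2 : ∀ m : M, ∃ m', (u - 1) • m = (a - 1) • m')
    (hH3 : ∀ m : M, (∃ m', (u - 1) • m = (a - algebraMap O 𝒜 ζ) • m') →
      ∃ m', m = (a - algebraMap O 𝒜 ζ) • m') :
    ∀ m : M, ∃ m', (a - 1) • m = (u - 1) • m' := by
  refine twlg_match_gen (O := O) p hp2 hpJ a u (a - algebraMap O 𝒜 ζ) 1 (1 - ζ) hζJ ?_ n N ha hu
    ?_ hA1 hA2 hH2 hH3
  · rw [map_sub, map_one]
    ring
  · -- `Φ_p(a) = Φ_p(a) - Φ_p(ζ)` is divisible by `a - ζ`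
    have hdvd : (a - algebraMap O 𝒜 ζ) ∣ twlg_Phi p a := by
      have h0 : twlg_Phi p (algebraMap O 𝒜 ζ) = 0 := by
        have := congrArg (algebraMap O 𝒜) hζ
        simpa [twlg_Phi, map_sum] using this
      have : twlg_Phi p a = twlg_Phi p a - twlg_Phi p (algebraMap O 𝒜 ζ) := by rw [h0, sub_zero]
      rw [this]
      unfold twlg_Phi
      rw [← Finset.sum_sub_distrib]
      exact Finset.dvd_sum fun i _ => sub_dvd_pow_sub_pow _ _ i
    obtain ⟨c, hc⟩ := hdvd
    intro m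
    exact ⟨c • m, by rw [hc, mul_smul]⟩

end Main

end Fermat.Agent.TW
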