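import Mathlib
import Fermat.Agent.TW.LG.Match

/-!
# TW / LG : freeness transfer (helper18)

Consequences of the matching lemma `twlg_match` (`(a - 1) M = (u - 1) M`):

* `twlg_pow_eq_one`     : `u ^ p ^ n = 1` on `M` (the Galois operator has the right exponent);
* `twlg_span_transfer`  : if the monomials `∏ a_i ^ k_i • b_j` span `M` over `O`, so do `∏ u_i ^ k_i • b_j`;
* `twlg_basis_transfer` : if they form an `O`-basis, so do the `u`-monomials, i.e. `M` is free over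
  `O[Δ]` for the second ("Galois") structure, with the same basis.
-/

set_option autoImplicit false

namespace Fermat.Agent.TW

open Finset

section Absorb

variable {O M : Type*} [CommRing O] [AddCommGroup M] [Module O M]

theorem twlg_absorb_one (f : M →ₗ[O] M) (W : Submodule O M) (hW : W.map f ≤ W)
    (h : ⊤ ≤ W ⊔ LinearMap.range f) (K : ℕ) (hK : LinearMap.range (f ^ K) ≤ W) : ⊤ ≤ W := by
  have hWk : ∀ k : ℕ, ∀ w ∈ W, (f ^ k) w ∈ W := by
    intro k
    induction k with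
    | zero => intro w hw; simpa using hw
    | succ k ih =>
      intro w hw
      rw [pow_succ', Module.End.mul_apply]
      exact hW (Submodule.mem_map_of_mem (ih w hw))
  have key : ∀ k : ℕ, ⊤ ≤ W ⊔ LinearMap.range (f ^ k) := by
    intro k
    induction k with
    | zero =>
      intro m _
      exact Submodule.mem_sup_right ⟨m, by simp⟩
    | succ k ih =>
      intro m _
      obtain ⟨w, hw, z, ⟨m', rfl⟩, rfl⟩ := Submodule.mem_sup.1 (ih (Submodule.mem_top (x := m)))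
      obtain ⟨w', hw', z', ⟨m'', rfl⟩, hm'⟩ :=
        Submodule.mem_sup.1 (h (Submodule.mem_top (x := m')))
      rw [← hm', map_add, ← add_assoc]
      refine Submodule.add_mem_sup (W.add_mem hw (hWk k w' hw')) ⟨m'', ?_⟩
      rw [pow_succ, Module.End.mul_apply]
  exact (key K).trans (sup_le le_rfl hK)

theorem twlg_absorb {ι : Type*} (f : ι → M →ₗ[O] M) (hcomm : ∀ i j, Commute (f i) (f j))
    (P : Submodule O M) (hP : ∀ i, P.map (f i) ≤ P) (K : ℕ)
    (hK : ∀ i, LinearMap.range (f i ^ K) ≤ P) (s : Finset ι) :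
    ∀ W : Submodule O M, (∀ i, W.map (f i) ≤ W) →
      ⊤ ≤ W ⊔ P ⊔ ⨆ i ∈ s, LinearMap.range (f i) → ⊤ ≤ W ⊔ P := by
  classical
  induction s using Finset.induction_on with
  | empty =>
    intro W _ h
    simpa using h
  | insert i₀ s hi₀ ih =>
    intro W hW h
    apply ih W hW
    have hst : ∀ i, (⨆ j ∈ s, LinearMap.range (f j)).map (f i) ≤ ⨆ j ∈ s, LinearMap.range (f j) := by
      intro i
      rw [Submodule.map_iSup]
      refine iSup_mono fun j => ?_
      rw [Submodule.map_iSup]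
      refine iSup_mono fun _ => ?_
      rw [← LinearMap.range_comp]
      have : (f i) ∘ₗ (f j) = (f j) ∘ₗ (f i) := (hcomm i j).eq
      rw [this]
      exact LinearMap.range_comp_le_range _ _
    apply twlg_absorb_one (f i₀) _ ?_ ?_ K ?_
    · rw [Submodule.map_sup, Submodule.map_sup]
      exact sup_le_sup (sup_le_sup (hW i₀) (hP i₀)) (hst i₀)
    · refine h.trans ?_
      rw [Finset.iSup_insert]
      rw [sup_comm (LinearMap.range (f i₀)), ← sup_assoc]
    · exact (hK i₀).trans (le_sup_of_le_left le_sup_right)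

end Absorb

section Free

variable {O 𝒜 M : Type*} [CommRing O] [CommRing 𝒜] [Algebra O 𝒜] [AddCommGroup M] [Module O M]
  [Module 𝒜 M] [IsScalarTower O 𝒜 M]

/-- `c • ·` as an `O`-linear endomorphism (`twlg_img c` is its range). -/
def twlg_mulO (c : 𝒜) : M →ₗ[O] M := (LinearMap.lsmul 𝒜 M c).restrictScalars O

@[simp] theorem twlg_mulO_apply (c : 𝒜) (m : M) : twlg_mulO (O := O) c m = c • m := rfl

theorem twlg_mulO_pow (c : 𝒜) (k : ℕ) :
    (twlg_mulO (O := O) (M := M) c) ^ k = twlg_mulO (O := O) (c ^ k) := by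
  induction k with
  | zero => ext m; simp
  | succ k ih =>
    ext m
    rw [pow_succ, Module.End.mul_apply, ih, twlg_mulO_apply, twlg_mulO_apply, twlg_mulO_apply,
      pow_succ, mul_smul]

theorem twlg_mulO_comm (c c' : 𝒜) :
    Commute (twlg_mulO (O := O) (M := M) c) (twlg_mulO (O := O) c') := by
  ext m
  simp only [Module.End.mul_apply, twlg_mulO_apply]
  exact smul_comm c c' m

/-- `y M ⊆ x M ⟹ y ^ k M ⊆ x ^ k M` -/
theorem twlg_pow_img (x y : 𝒜) (h : ∀ m : M, ∃ m', y • m = x • m') :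
    ∀ (k : ℕ) (m : M), ∃ m', y ^ k • m = x ^ k • m' := by
  intro k
  induction k with
  | zero => intro m; exact ⟨m, by simp⟩
  | succ k ih =>
    intro m
    obtain ⟨m₁, h₁⟩ := h m
    obtain ⟨m₂, h₂⟩ := ih m₁
    refine ⟨m₂, ?_⟩
    rw [pow_succ, mul_smul, h₁, smul_comm, h₂, pow_succ, mul_smul, smul_comm]

variable (p : ℕ) [hp : Fact p.Prime]

include hp in
/-- `y ^ p ^ N M ⊆ p M` when `(1 + y) ^ p ^ N = 1` on `M`. -/
theorem twlg_pow_sub_one_img (u : 𝒜) (N : ℕ) (hu : ∀ m : M, u ^ p ^ N • m = m) (m : M) :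
    ∃ m', (u - 1) ^ p ^ N • m = (p : O) • m' := by
  obtain ⟨c, hc⟩ := twlg_id2 p (u - 1) N
  refine ⟨c • m, ?_⟩
  rw [hc, add_smul, add_sub_cancel, sub_smul, hu, one_smul, sub_self, zero_add, mul_smul,
    Nat.cast_smul_eq_nsmul, Nat.cast_smul_eq_nsmul]

include hp in
/-- **the Galois operator has the right exponent**: from `(u - 1) M ⊆ (a - 1) M`, `a ^ p ^ n = 1`,
`u` of `p`-power order, `M` without `p`-torsion: `u ^ p ^ n = 1` on `M`. -/
theorem twlg_pow_eq_one [Module.Finite O M] (hp2 : p ≠ 2)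
    (hpJ : (p : O) ∈ Ideal.jacobson (⊥ : Ideal O)) (htf : ∀ m : M, p • m = 0 → m = 0)
    (a u : 𝒜) (n N : ℕ) (ha : ∀ m : M, a ^ p ^ n • m = m) (hu : ∀ m : M, u ^ p ^ N • m = m)
    (hH2 : ∀ m : M, ∃ m', (u - 1) • m = (a - 1) • m') : ∀ m : M, u ^ p ^ n • m = m := by
  apply twlg_torsion_unit p hp2 hpJ htf N (u ^ p ^ n)
  · intro m
    rw [← pow_mul, mul_comm, pow_mul]
    exact twlg_pow_smul_eq _ hu _ m
  · intro m
    obtain ⟨c, hc⟩ := twlg_id2 p (u - 1) n
    obtain ⟨m₁, hm₁⟩ := twlg_pow_img (a - 1) (u - 1) hH2 (p ^ n) m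
    obtain ⟨m₂, hm₂⟩ := twlg_pow_sub_one_img (O := O) p a n ha m₁
    refine ⟨m₂ - c • m, ?_⟩
    have e : u ^ p ^ n - 1 = (u - 1) ^ p ^ n - (p : 𝒜) * c := by
      rw [hc]; ring
    rw [e, sub_smul, hm₁, hm₂, mul_smul, Nat.cast_smul_eq_nsmul, Nat.cast_smul_eq_nsmul, smul_sub]

section Span

variable {ι J : Type*} [Fintype ι]

/-- the monomial `∏ i, c i ^ k i` -/
def twlg_mon (c : ι → 𝒜) (k : ι → ℕ) : 𝒜 := ∏ i, c i ^ k i

omit [Algebra O 𝒜] in
theorem twlg_mon_zero (c : ι → 𝒜) : twlg_mon c 0 = 1 := by simp [twlg_mon]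

omit [Algebra O 𝒜] in
theorem twlg_mon_add_single [DecidableEq ι] (c : ι → 𝒜) (k : ι → ℕ) (i₀ : ι) :
    twlg_mon c (k + Pi.single i₀ 1) = c i₀ * twlg_mon c k := by
  unfold twlg_mon
  simp only [Pi.add_apply, pow_add, Finset.prod_mul_distrib]
  rw [mul_comm]
  congr 1
  rw [Fintype.prod_eq_single i₀]
  · simp
  · intro i hi
    simp [Pi.single_apply, hi]

omit [Algebra O 𝒜] in
/-- exponents may be reduced modulo the orders -/
theorem twlg_mon_mod (c : ι → 𝒜) (P : ι → ℕ) (hc : ∀ i (m : M), c i ^ P i • m = m)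
    (k : ι → ℕ) (m : M) : twlg_mon c k • m = twlg_mon c (fun i => k i % P i) • m := by
  have e : twlg_mon c k = twlg_mon c (fun i => k i % P i) * ∏ i, (c i ^ P i) ^ (k i / P i) := by
    unfold twlg_mon
    rw [← Finset.prod_mul_distrib]
    refine Finset.prod_congr rfl fun i _ => ?_
    rw [← pow_mul, ← pow_add, Nat.mod_add_div]
  have h1 : ∀ m : M, (∏ i, (c i ^ P i) ^ (k i / P i)) • m = m := by
    apply Finset.prod_induction _ (fun c' : 𝒜 => ∀ m : M, c' • m = m)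
    · intro x y hx hy m
      rw [mul_smul, hy, hx]
    · intro m
      simp
    · intro i _ m
      exact twlg_pow_smul_eq _ (hc i) _ m
  rw [e, mul_smul, h1]

theorem twlg_prod_sub_one_mem (a : ι → 𝒜) (k : ι → ℕ) (s : Finset ι) :
    ∀ m : M, (∏ i ∈ s, a i ^ k i - 1) • m ∈
      ⨆ i, LinearMap.range (twlg_mulO (O := O) (M := M) (a i - 1)) := by
  classical
  induction s using Finset.induction_on with
  | empty =>
    intro m
    simp
  | insert i₀ s hi₀ ih =>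
    intro m
    rw [Finset.prod_insert hi₀]
    have e : a i₀ ^ k i₀ * ∏ i ∈ s, a i ^ k i - 1 =
        (∏ i ∈ s, a i ^ k i - 1) * a i₀ ^ k i₀ + (a i₀ - 1) * ∑ j ∈ range (k i₀), a i₀ ^ j := by
      rw [mul_geom_sum]
      ring
    rw [e, add_smul, mul_smul, mul_smul]
    refine Submodule.add_mem _ (ih _) ?_
    exact Submodule.mem_iSup_of_mem i₀ ⟨_, rfl⟩

include hp in
/-- **generation transfer**: if the `a`-monomials applied to `b` span `M` over `O`, so do the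
`u`-monomials (exponents `< p ^ n i`), provided `(a i - 1) M ⊆ (u i - 1) M`. -/
theorem twlg_span_transfer [Module.Finite O M] (hpJ : (p : O) ∈ Ideal.jacobson (⊥ : Ideal O))
    (a u : ι → 𝒜) (n : ι → ℕ) (N : ℕ)
    (hun : ∀ i (m : M), u i ^ p ^ n i • m = m) (hu : ∀ i (m : M), u i ^ p ^ N • m = m)
    (hxy : ∀ i (m : M), ∃ m', (a i - 1) • m = (u i - 1) • m') (b : J → M)
    (hspan : ⊤ ≤ Submodule.span O (Set.range fun kj : (∀ i, Fin (p ^ n i)) × J =>
      (∏ i, a i ^ (kj.1 i : ℕ)) • b kj.2)) :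
    ⊤ ≤ Submodule.span O (Set.range fun kj : (∀ i, Fin (p ^ n i)) × J =>
      (∏ i, u i ^ (kj.1 i : ℕ)) • b kj.2) := by
  classical
  set V : Submodule O M :=
    Submodule.span O (Set.range fun kj : (ι → ℕ) × J => twlg_mon u kj.1 • b kj.2) with hV
  set Pm : Submodule O M := (Ideal.span {(p : O)}) • (⊤ : Submodule O M) with hPm
  have hVst : ∀ i, V.map (twlg_mulO (O := O) (u i - 1)) ≤ V := by
    intro i
    rw [hV, Submodule.map_span, Submodule.span_le]
    rintro _ ⟨_, ⟨⟨k, j⟩, rfl⟩, rfl⟩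
    simp only [twlg_mulO_apply]
    rw [sub_smul, one_smul, ← mul_smul, ← twlg_mon_add_single]
    exact Submodule.sub_mem _ (Submodule.subset_span ⟨(k + Pi.single i 1, j), rfl⟩)
      (Submodule.subset_span ⟨(k, j), rfl⟩)
  have hPst : ∀ i, Pm.map (twlg_mulO (O := O) (u i - 1)) ≤ Pm := by
    intro i
    rw [hPm, Submodule.map_smul'']
    exact Submodule.smul_mono le_rfl le_top
  have hK : ∀ i, LinearMap.range (twlg_mulO (O := O) (M := M) (u i - 1) ^ p ^ N) ≤ Pm := by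
    rintro i _ ⟨m, rfl⟩
    rw [twlg_mulO_pow, twlg_mulO_apply]
    obtain ⟨m', hm'⟩ := twlg_pow_sub_one_img (O := O) p (u i) N (hu i) m
    rw [hm']
    exact Submodule.smul_mem_smul (Ideal.mem_span_singleton_self _) Submodule.mem_top
  have hle : (⨆ i, LinearMap.range (twlg_mulO (O := O) (M := M) (a i - 1))) ≤
      ⨆ i ∈ (Finset.univ : Finset ι), LinearMap.range (twlg_mulO (O := O) (M := M) (u i - 1)) := by
    refine iSup_le fun i => ?_
    rintro _ ⟨m, rfl⟩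
    obtain ⟨m', hm'⟩ := hxy i m
    rw [twlg_mulO_apply, hm']
    exact Submodule.mem_iSup_of_mem i (Submodule.mem_iSup_of_mem (Finset.mem_univ i) ⟨m', rfl⟩)
  have h1 : ⊤ ≤ V ⊔ Pm ⊔
      ⨆ i ∈ (Finset.univ : Finset ι), LinearMap.range (twlg_mulO (O := O) (M := M) (u i - 1)) := by
    refine hspan.trans (Submodule.span_le.2 ?_)
    rintro _ ⟨⟨k, j⟩, rfl⟩
    have e : (∏ i, a i ^ (k i : ℕ)) • b j =
        twlg_mon u 0 • b j + (∏ i, a i ^ (k i : ℕ) - 1) • b j := by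
      rw [twlg_mon_zero, one_smul, sub_smul, one_smul]
      abel
    show (∏ i, a i ^ (k i : ℕ)) • b j ∈ _
    rw [e]
    refine Submodule.add_mem _ (Submodule.mem_sup_left (Submodule.mem_sup_left
      (Submodule.subset_span ⟨(0, j), rfl⟩))) (Submodule.mem_sup_right ?_)
    exact hle (twlg_prod_sub_one_mem (O := O) a (fun i => (k i : ℕ)) Finset.univ (b j))
  have h2 := twlg_absorb (fun i => twlg_mulO (O := O) (M := M) (u i - 1))
    (fun i j => twlg_mulO_comm _ _) Pm hPst (p ^ N) hK Finset.univ V hVst h1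
  have h3 : ⊤ ≤ V := Submodule.le_of_le_smul_of_le_jacobson_bot Module.Finite.fg_top
    (Ideal.span_le.2 (Set.singleton_subset_iff.2 hpJ)) h2
  refine h3.trans (Submodule.span_le.2 ?_)
  rintro _ ⟨⟨k, j⟩, rfl⟩
  show twlg_mon u k • b j ∈ _
  rw [twlg_mon_mod u (fun i => p ^ n i) hun k (b j)]
  exact Submodule.subset_span
    ⟨(fun i => ⟨k i % p ^ n i, Nat.mod_lt _ (pow_pos hp.out.pos _)⟩, j), rfl⟩

include hp in
/-- **basis transfer**: if the `a`-monomials applied to `b` are an `O`-basis of `M`, so are the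
`u`-monomials: `M` is free over `O[Δ]` (same basis `b`) for the `u`-structure. -/
theorem twlg_basis_transfer [Finite J] [Module.Finite O M]
    (hpJ : (p : O) ∈ Ideal.jacobson (⊥ : Ideal O))
    (a u : ι → 𝒜) (n : ι → ℕ) (N : ℕ)
    (hun : ∀ i (m : M), u i ^ p ^ n i • m = m) (hu : ∀ i (m : M), u i ^ p ^ N • m = m)
    (hxy : ∀ i (m : M), ∃ m', (a i - 1) • m = (u i - 1) • m') (b : J → M)
    (hli : LinearIndependent O (fun kj : (∀ i, Fin (p ^ n i)) × J =>
      (∏ i, a i ^ (kj.1 i : ℕ)) • b kj.2))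
    (hspan : ⊤ ≤ Submodule.span O (Set.range fun kj : (∀ i, Fin (p ^ n i)) × J =>
      (∏ i, a i ^ (kj.1 i : ℕ)) • b kj.2)) :
    LinearIndependent O (fun kj : (∀ i, Fin (p ^ n i)) × J =>
      (∏ i, u i ^ (kj.1 i : ℕ)) • b kj.2) ∧
    ⊤ ≤ Submodule.span O (Set.range fun kj : (∀ i, Fin (p ^ n i)) × J =>
      (∏ i, u i ^ (kj.1 i : ℕ)) • b kj.2) := by
  classical
  have := Fintype.ofFinite J
  have hs := twlg_span_transfer p hpJ a u n N hun hu hxy b hspan
  refine ⟨?_, hs⟩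
  rcases subsingleton_or_nontrivial O with h | h
  · exact linearIndependent_of_subsingleton
  · exact linearIndependent_of_top_le_span_of_card_eq_finrank hs
      (Module.finrank_eq_card_basis (Module.Basis.mk hli hspan)).symm

include hp in
/-- **matching + freeness transfer** (several Taylor–Wiles primes at once).
`M` is free over `O[Δ]`, `Δ = ∏ ⟨a i⟩`, with basis `b` (hypotheses `hli`, `hspan`); each `u i` has
`p`-power order, is `1` on the `a i`-coinvariants (`hH2`) and has no eigenvalue `1` on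
`M / Φ_p(a i) M` (`hH3`). Then `u i ^ p ^ n i = 1` on `M` and `M` is free over `O[Δ]` for the
`u`-structure, with the same basis `b`. -/
theorem twlg_match_free [Finite J] [Module.Finite O M] (hp2 : p ≠ 2)
    (hpJ : (p : O) ∈ Ideal.jacobson (⊥ : Ideal O)) (htf : ∀ m : M, p • m = 0 → m = 0)
    (a u : ι → 𝒜) (n : ι → ℕ) (N : ℕ)
    (ha : ∀ i (m : M), a i ^ p ^ n i • m = m) (hu : ∀ i (m : M), u i ^ p ^ N • m = m)
    (hA1 : ∀ i (m : M), (∃ m', p • m = (a i - 1) • m') → ∃ m', m = (a i - 1) • m')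
    (hA2 : ∀ i (m : M), (∃ m', p • m = twlg_Phi p (a i) • m') → ∃ m', m = twlg_Phi p (a i) • m')
    (hH2 : ∀ i (m : M), ∃ m', (u i - 1) • m = (a i - 1) • m')
    (hH3 : ∀ i (m : M), (∃ m', (u i - 1) • m = twlg_Phi p (a i) • m') →
      ∃ m', m = twlg_Phi p (a i) • m')
    (b : J → M)
    (hli : LinearIndependent O (fun kj : (∀ i, Fin (p ^ n i)) × J =>
      (∏ i, a i ^ (kj.1 i : ℕ)) • b kj.2))
    (hspan : ⊤ ≤ Submodule.span O (Set.range fun kj : (∀ i, Fin (p ^ n i)) × J =>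
      (∏ i, a i ^ (kj.1 i : ℕ)) • b kj.2)) :
    (∀ i (m : M), u i ^ p ^ n i • m = m) ∧
    (∀ i (m : M), ∃ m', (a i - 1) • m = (u i - 1) • m') ∧
    LinearIndependent O (fun kj : (∀ i, Fin (p ^ n i)) × J =>
      (∏ i, u i ^ (kj.1 i : ℕ)) • b kj.2) ∧
    ⊤ ≤ Submodule.span O (Set.range fun kj : (∀ i, Fin (p ^ n i)) × J =>
      (∏ i, u i ^ (kj.1 i : ℕ)) • b kj.2) := by
  have hun : ∀ i (m : M), u i ^ p ^ n i • m = m := fun i =>
    twlg_pow_eq_one p hp2 hpJ htf (a i) (u i) (n i) N (ha i) (hu i) (hH2 i)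
  have hxy : ∀ i (m : M), ∃ m', (a i - 1) • m = (u i - 1) • m' := fun i =>
    twlg_match p hp2 hpJ (a i) (u i) (n i) N (ha i) (hu i) (hA1 i) (hA2 i) (hH2 i) (hH3 i)
  exact ⟨hun, hxy, twlg_basis_transfer p hpJ a u n N hun hu hxy b hli hspan⟩

end Span

section Exact

variable {J' : Type*} [Fintype J']

/-- **exactness** for a module with an orbit basis under a cyclic operator `a` of order `d`:
`(a ^ d - ζ ^ d) / (a - ζ)` kills `m` only if `m ∈ (a - ζ) M` (`ζ ^ d = 1`). -/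
theorem twlg_exact_of_basis (a : 𝒜) (d : ℕ) (hd : 0 < d) (ζ : O) (hζ : ζ ^ d = 1)
    (had : ∀ m : M, a ^ d • m = m) (b' : J' → M)
    (hli : LinearIndependent O (fun lj : Fin d × J' => a ^ (lj.1 : ℕ) • b' lj.2))
    (hspan : ⊤ ≤ Submodule.span O (Set.range fun lj : Fin d × J' => a ^ (lj.1 : ℕ) • b' lj.2))
    (m : M)
    (hm : (∑ i ∈ range d, a ^ i * (algebraMap O 𝒜 ζ) ^ (d - 1 - i)) • m = 0) :
    ∃ m', m = (a - algebraMap O 𝒜 ζ) • m' := by
  classical
  obtain ⟨c, hc⟩ :=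
    (Submodule.mem_span_range_iff_exists_fun O).1 (hspan (Submodule.mem_top (x := m)))
  set ζ' : 𝒜 := algebraMap O 𝒜 ζ with hζ'
  have hζs : ∀ (k : ℕ) (x : M), ζ' ^ k • x = ζ ^ k • x := by
    intro k x
    rw [hζ', ← map_pow, algebraMap_smul]
  set q : ℕ → 𝒜 := fun l => ∑ i ∈ range l, a ^ i * ζ' ^ (l - 1 - i) with hq
  have hqm : ∀ l, (a - ζ') * q l = a ^ l - ζ' ^ l := by
    intro l
    rw [mul_comm]
    exact geom_sum₂_mul a ζ' l
  set e : J' → O := fun j => ∑ l : Fin d, c (l, j) * ζ ^ (l : ℕ) with he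
  set m' : M := ∑ lj : Fin d × J', c lj • q lj.1 • b' lj.2 with hm'
  have h1 : m = (a - ζ') • m' + ∑ j, e j • b' j := by
    have h2 : ∑ j, e j • b' j = ∑ lj : Fin d × J', c lj • ζ' ^ (lj.1 : ℕ) • b' lj.2 := by
      rw [Fintype.sum_prod_type, Finset.sum_comm]
      refine Finset.sum_congr rfl fun j _ => ?_
      rw [he]
      simp only [Finset.sum_smul, mul_smul, hζs]
    rw [h2, hm', Finset.smul_sum, ← Finset.sum_add_distrib, ← hc]
    refine Finset.sum_congr rfl fun lj _ => ?_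
    rw [smul_comm (a - ζ') (c lj), ← mul_smul (a - ζ'), hqm, ← smul_add, sub_smul, sub_add_cancel]
  set ψ : 𝒜 := ∑ i ∈ range d, a ^ i * ζ' ^ (d - 1 - i) with hψ
  have hψ0 : ∀ x : M, ψ • (a - ζ') • x = 0 := by
    intro x
    rw [← mul_smul, hψ, geom_sum₂_mul, sub_smul, had, hζs, hζ, one_smul, sub_self]
  have h3 : ∑ lj : Fin d × J',
      (e lj.2 * ζ ^ (d - 1 - (lj.1 : ℕ))) • (a ^ (lj.1 : ℕ) • b' lj.2) = 0 := by
    rw [← hm, h1, smul_add, hψ0, zero_add, Finset.smul_sum, Fintype.sum_prod_type, Finset.sum_comm]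
    refine Finset.sum_congr rfl fun j _ => ?_
    rw [hψ, Finset.sum_smul, Finset.sum_range]
    refine Finset.sum_congr rfl fun l _ => ?_
    rw [mul_smul, mul_smul, hζs, smul_comm (a ^ (l : ℕ)) (ζ ^ (d - 1 - (l : ℕ))),
      smul_comm (a ^ (l : ℕ)) (e j), smul_comm (ζ ^ (d - 1 - (l : ℕ))) (e j)]
  have h4 := Fintype.linearIndependent_iff.1 hli _ h3
  have he0 : ∀ j, e j = 0 := by
    intro j
    have := h4 (⟨d - 1, by omega⟩, j)
    simpa using this
  refine ⟨m', ?_⟩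
  rw [h1]
  simp [he0]

/-- `M / (a - ζ) M` has no `c`-torsion when `c` is `M`-regular (orbit basis under `a`). -/
theorem twlg_hA_of_basis (a : 𝒜) (d : ℕ) (hd : 0 < d) (ζ : O) (hζ : ζ ^ d = 1)
    (had : ∀ m : M, a ^ d • m = m) (b' : J' → M)
    (hli : LinearIndependent O (fun lj : Fin d × J' => a ^ (lj.1 : ℕ) • b' lj.2))
    (hspan : ⊤ ≤ Submodule.span O (Set.range fun lj : Fin d × J' => a ^ (lj.1 : ℕ) • b' lj.2))
    (c : O) (hc : ∀ m : M, c • m = 0 → m = 0) (m : M)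
    (h : ∃ m', c • m = (a - algebraMap O 𝒜 ζ) • m') :
    ∃ m', m = (a - algebraMap O 𝒜 ζ) • m' := by
  obtain ⟨m₁, hm₁⟩ := h
  apply twlg_exact_of_basis a d hd ζ hζ had b' hli hspan m
  apply hc
  rw [smul_comm, hm₁, ← mul_smul, geom_sum₂_mul, sub_smul, had, ← map_pow, algebraMap_smul, hζ,
    one_smul, sub_self]

end Exact

section Reindex

variable {ι J : Type*} [Fintype ι] [DecidableEq ι]

/-- regroup a monomial basis with respect to one index `i₀`: it is an orbit basis under `a i₀`. -/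
theorem twlg_basis_split (a : ι → 𝒜) (P : ι → ℕ) (b : J → M) (i₀ : ι)
    (hli : LinearIndependent O (fun kj : (∀ i, Fin (P i)) × J =>
      (∏ i, a i ^ (kj.1 i : ℕ)) • b kj.2))
    (hspan : ⊤ ≤ Submodule.span O (Set.range fun kj : (∀ i, Fin (P i)) × J =>
      (∏ i, a i ^ (kj.1 i : ℕ)) • b kj.2)) :
    LinearIndependent O (fun lj : Fin (P i₀) × ((∀ i : {i // i ≠ i₀}, Fin (P i)) × J) =>
      a i₀ ^ (lj.1 : ℕ) • (∏ i : {i // i ≠ i₀}, a i ^ (lj.2.1 i : ℕ)) • b lj.2.2) ∧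
    ⊤ ≤ Submodule.span O (Set.range
      fun lj : Fin (P i₀) × ((∀ i : {i // i ≠ i₀}, Fin (P i)) × J) =>
      a i₀ ^ (lj.1 : ℕ) • (∏ i : {i // i ≠ i₀}, a i ^ (lj.2.1 i : ℕ)) • b lj.2.2) := by
  set multi : (∀ i, Fin (P i)) × J → M := fun kj => (∏ i, a i ^ (kj.1 i : ℕ)) • b kj.2 with hmulti
  set single : Fin (P i₀) × ((∀ i : {i // i ≠ i₀}, Fin (P i)) × J) → M := fun lj =>
    a i₀ ^ (lj.1 : ℕ) • (∏ i : {i // i ≠ i₀}, a i ^ (lj.2.1 i : ℕ)) • b lj.2.2 with hsingle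
  let e' : (∀ i, Fin (P i)) × J ≃ Fin (P i₀) × ((∀ i : {i // i ≠ i₀}, Fin (P i)) × J) :=
    (Equiv.prodCongr (Equiv.piSplitAt i₀ (fun i => Fin (P i))) (Equiv.refl J)).trans
      (Equiv.prodAssoc _ _ _)
  have hms : multi = single ∘ e' := by
    funext kj
    obtain ⟨k, j⟩ := kj
    show (∏ i, a i ^ (k i : ℕ)) • b j =
      a i₀ ^ (k i₀ : ℕ) • (∏ i : {i // i ≠ i₀}, a i ^ (k i : ℕ)) • b j
    rw [Fintype.prod_eq_mul_prod_subtype_ne _ i₀, mul_smul]
  have hsm : single = multi ∘ e'.symm := by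
    rw [hms]
    funext x
    simp
  constructor
  · rw [hsm]
    exact hli.comp _ e'.symm.injective
  · have : Set.range single = Set.range multi := by
      rw [hms, e'.surjective.range_comp]
    rw [this]
    exact hspan

end Reindex

section Final

variable {ι J : Type*} [Fintype ι]

omit [Algebra O 𝒜] [IsScalarTower O 𝒜 M] in
/-- `Φ_p(ζ) = 0 ⟹ (1 - ζ) ∣ p` -/
theorem twlg_one_sub_dvd (ζ : O) (hζ : twlg_Phi p ζ = 0) : ∃ w : O, (p : O) = (1 - ζ) * w := by
  refine ⟨∑ i ∈ range p, ∑ j ∈ range i, ζ ^ j, ?_⟩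
  have h1 : (p : O) = ∑ i ∈ range p, (1 - ζ ^ i) := by
    rw [Finset.sum_sub_distrib]
    have : ∑ i ∈ range p, ζ ^ i = 0 := hζ
    rw [this, sub_zero]
    simp
  rw [h1, Finset.mul_sum]
  refine Finset.sum_congr rfl fun i _ => ?_
  rw [mul_neg_geom_sum]

include hp in
/-- **matching + freeness transfer, one-stop form** (`ζ_p ∈ O`; several Taylor–Wiles primes).
Inputs: an `O`-basis of `M` of orbit form for the commuting operators `a i` (`a i` of order
`p ^ n i`), i.e. `M` free over `O[Δ]`; `u i` of `p`-power order with `(u i - 1) M ⊆ (a i - 1) M`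
and `u i - 1` injective on the fibre `M / (a i - ζ) M`.
Output: `u i ^ p ^ n i = 1`, `(a i - 1) M = (u i - 1) M`, and the `u`-orbit of `b` is an `O`-basis. -/
theorem twlg_match_free_fibre [Finite J] [Module.Finite O M] (hp2 : p ≠ 2)
    (hpJ : (p : O) ∈ Ideal.jacobson (⊥ : Ideal O)) (htf : ∀ m : M, p • m = 0 → m = 0)
    (ζ : O) (hζ : twlg_Phi p ζ = 0) (hζJ : 1 - ζ ∈ Ideal.jacobson (⊥ : Ideal O))
    (a u : ι → 𝒜) (n : ι → ℕ) (hn : ∀ i, 0 < n i) (N : ℕ)
    (ha : ∀ i (m : M), a i ^ p ^ n i • m = m) (hu : ∀ i (m : M), u i ^ p ^ N • m = m)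
    (hH2 : ∀ i (m : M), ∃ m', (u i - 1) • m = (a i - 1) • m')
    (hH3 : ∀ i (m : M), (∃ m', (u i - 1) • m = (a i - algebraMap O 𝒜 ζ) • m') →
      ∃ m', m = (a i - algebraMap O 𝒜 ζ) • m')
    (b : J → M)
    (hli : LinearIndependent O (fun kj : (∀ i, Fin (p ^ n i)) × J =>
      (∏ i, a i ^ (kj.1 i : ℕ)) • b kj.2))
    (hspan : ⊤ ≤ Submodule.span O (Set.range fun kj : (∀ i, Fin (p ^ n i)) × J =>
      (∏ i, a i ^ (kj.1 i : ℕ)) • b kj.2)) :
    (∀ i (m : M), u i ^ p ^ n i • m = m) ∧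
    (∀ i (m : M), ∃ m', (a i - 1) • m = (u i - 1) • m') ∧
    LinearIndependent O (fun kj : (∀ i, Fin (p ^ n i)) × J =>
      (∏ i, u i ^ (kj.1 i : ℕ)) • b kj.2) ∧
    ⊤ ≤ Submodule.span O (Set.range fun kj : (∀ i, Fin (p ^ n i)) × J =>
      (∏ i, u i ^ (kj.1 i : ℕ)) • b kj.2) := by
  classical
  have := Fintype.ofFinite J
  have hun : ∀ i (m : M), u i ^ p ^ n i • m = m := fun i =>
    twlg_pow_eq_one p hp2 hpJ htf (a i) (u i) (n i) N (ha i) (hu i) (hH2 i)
  have hζp : ζ ^ p = 1 := by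
    have := twlg_Phi_mul p ζ
    rw [hζ, zero_mul] at this
    exact (sub_eq_zero.1 this.symm)
  have hζd : ∀ i, ζ ^ p ^ n i = 1 := by
    intro i
    obtain ⟨k, hk⟩ : p ∣ p ^ n i := dvd_pow_self p (hn i).ne'
    rw [hk, pow_mul, hζp, one_pow]
  obtain ⟨w, hw⟩ := twlg_one_sub_dvd p ζ hζ
  have hreg1 : ∀ m : M, (1 - ζ) • m = 0 → m = 0 := by
    intro m hm
    apply htf
    rw [← Nat.cast_smul_eq_nsmul O, hw, mul_comm, mul_smul, hm, smul_zero]
  have hregp : ∀ m : M, (p : O) • m = 0 → m = 0 := by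
    intro m hm
    apply htf
    rw [← Nat.cast_smul_eq_nsmul O, hm]
  have hxy : ∀ i (m : M), ∃ m', (a i - 1) • m = (u i - 1) • m' := by
    intro i
    have hsplit := twlg_basis_split a (fun i => p ^ n i) b i hli hspan
    beta_reduce at hsplit
    obtain ⟨hli', hspan'⟩ := hsplit
    have hd : 0 < p ^ n i := pow_pos hp.out.pos _
    have key : ∀ (ζ₀ c : O), ζ₀ ^ p ^ n i = 1 → (∀ m : M, c • m = 0 → m = 0) → ∀ m : M,
        (∃ m', c • m = (a i - algebraMap O 𝒜 ζ₀) • m') →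
          ∃ m', m = (a i - algebraMap O 𝒜 ζ₀) • m' := fun ζ₀ c hζ₀ hc =>
      twlg_hA_of_basis (a i) (p ^ n i) hd ζ₀ hζ₀ (ha i)
        (fun kj : (∀ i' : {i' // i' ≠ i}, Fin (p ^ n i')) × J =>
          (∏ i' : {i' // i' ≠ i}, a i' ^ (kj.1 i' : ℕ)) • b kj.2) hli' hspan' c hc
    refine twlg_match_fibre p hp2 hpJ (a i) (u i) ζ hζ hζJ (n i) N (ha i) (hu i) ?_ ?_
      (hH2 i) (hH3 i)
    · intro m hm
      have h1 := key 1 (1 - ζ) (one_pow _) hreg1 m
      rw [map_one] at h1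
      exact h1 hm
    · intro m hm
      refine key ζ (p : O) (hζd i) hregp m ?_
      obtain ⟨m', hm'⟩ := hm
      exact ⟨m', by rw [Nat.cast_smul_eq_nsmul, hm']⟩
  exact ⟨hun, hxy, twlg_basis_transfer p hpJ a u n N hun hu hxy b hli hspan⟩

end Final

end Free

end Fermat.Agent.TW
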