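import Mathlib
import Fermat.Agent.TW.LG.MatchFree

/-!
# TW / LG : from the monomial `O`-basis to a basis over `S_∞ / 𝔟_n` (helper18)

* `twlg_tower` : if `S'` is spanned over `O` by a family `e k` and the `e k • b j` are an `O`-basis of
  the `S'`-module `M`, then `b` is an `S'`-basis of `M`.
* `twlg_quot_basis` : the level-`n` quotient.  If the `u`-monomials `∏ u i ^ k i • b j`, `k i < P i`,
  are an `O`-basis of `M` and `P' i ∣ P i`, then in `M ⧸ (u i ^ P' i - 1)_i M` the classes of the
  monomials with `k i < P' i` are an `O`-basis.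
-/

set_option autoImplicit false

namespace Fermat.Agent.TW

open Finset

section Tower

variable {O S' M : Type*} [CommRing O] [CommRing S'] [Algebra O S'] [AddCommGroup M] [Module O M]
  [Module S' M] [IsScalarTower O S' M]

/-- **tower lemma** (spanning form). -/
theorem twlg_tower {K J : Type*} [Fintype K] [Fintype J] (e : K → S')
    (hspanS : ∀ x : S', ∃ c : K → O, x = ∑ k, c k • e k) (b : J → M)
    (hli : LinearIndependent O (fun kj : K × J => e kj.1 • b kj.2))
    (hspan : ⊤ ≤ Submodule.span O (Set.range fun kj : K × J => e kj.1 • b kj.2)) :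
    LinearIndependent S' b ∧ ⊤ ≤ Submodule.span S' (Set.range b) := by
  classical
  constructor
  · rw [Fintype.linearIndependent_iff]
    intro x hx
    choose c hc using fun j => hspanS (x j)
    have h0 : ∑ kj : K × J, c kj.2 kj.1 • (e kj.1 • b kj.2) = 0 := by
      rw [Fintype.sum_prod_type, Finset.sum_comm, ← hx]
      refine Finset.sum_congr rfl fun j _ => ?_
      rw [hc j, Finset.sum_smul]
      refine Finset.sum_congr rfl fun k _ => ?_
      rw [smul_assoc]
    have h1 := Fintype.linearIndependent_iff.1 hli (fun kj => c kj.2 kj.1) h0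
    intro j
    rw [hc j]
    refine Finset.sum_eq_zero fun k _ => ?_
    rw [h1 (k, j), zero_smul]
  · intro m _
    have hm := hspan (Submodule.mem_top (x := m))
    have hle : Submodule.span O (Set.range fun kj : K × J => e kj.1 • b kj.2) ≤
        (Submodule.span S' (Set.range b)).restrictScalars O := by
      rw [Submodule.span_le]
      rintro _ ⟨⟨k, j⟩, rfl⟩
      show e k • b j ∈ Submodule.span S' (Set.range b)
      exact Submodule.smul_mem _ _ (Submodule.subset_span ⟨j, rfl⟩)
    exact hle hm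

/-- the packaged basis of `twlg_tower`. -/
noncomputable def twlg_towerBasis {K J : Type*} [Fintype K] [Fintype J] (e : K → S')
    (hspanS : ∀ x : S', ∃ c : K → O, x = ∑ k, c k • e k) (b : J → M)
    (hli : LinearIndependent O (fun kj : K × J => e kj.1 • b kj.2))
    (hspan : ⊤ ≤ Submodule.span O (Set.range fun kj : K × J => e kj.1 • b kj.2)) :
    Module.Basis J S' M :=
  Module.Basis.mk (twlg_tower e hspanS b hli hspan).1 (twlg_tower e hspanS b hli hspan).2

@[simp] theorem twlg_towerBasis_apply {K J : Type*} [Fintype K] [Fintype J] (e : K → S')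
    (hspanS : ∀ x : S', ∃ c : K → O, x = ∑ k, c k • e k) (b : J → M)
    (hli : LinearIndependent O (fun kj : K × J => e kj.1 • b kj.2))
    (hspan : ⊤ ≤ Submodule.span O (Set.range fun kj : K × J => e kj.1 • b kj.2)) (j : J) :
    twlg_towerBasis e hspanS b hli hspan j = b j := by
  simp [twlg_towerBasis]

end Tower

section Quot

variable {O 𝒰 M : Type*} [CommRing O] [CommRing 𝒰] [Algebra O 𝒰] [AddCommGroup M] [Module O M]
  [Module 𝒰 M] [IsScalarTower O 𝒰 M]
variable {ι J : Type*} [Fintype ι]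

/-- the ideal `(u i ^ P' i - 1)_i` of `𝒰` -/
def twlg_levelIdeal (u : ι → 𝒰) (P' : ι → ℕ) : Ideal 𝒰 :=
  Ideal.span (Set.range fun i => u i ^ P' i - 1)

/-- the level submodule `(u i ^ P' i - 1)_i M` -/
def twlg_levelSub (M : Type*) [AddCommGroup M] [Module 𝒰 M] (u : ι → 𝒰) (P' : ι → ℕ) :
    Submodule 𝒰 M :=
  twlg_levelIdeal u P' • (⊤ : Submodule 𝒰 M)

omit [Fintype ι] in
theorem twlg_prod_pow_sub_one_mem (w : ι → 𝒰) (m : ι → ℕ) (s : Finset ι) :
    ∏ i ∈ s, w i ^ m i - 1 ∈ Ideal.span (Set.range fun i => w i - 1) := by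
  classical
  induction s using Finset.induction_on with
  | empty => simp
  | insert i₀ s hi₀ ih =>
    rw [Finset.prod_insert hi₀]
    have e : w i₀ ^ m i₀ * ∏ i ∈ s, w i ^ m i - 1 =
        w i₀ ^ m i₀ * (∏ i ∈ s, w i ^ m i - 1) + (w i₀ - 1) * ∑ j ∈ range (m i₀), w i₀ ^ j := by
      rw [mul_geom_sum]
      ring
    rw [e]
    exact Ideal.add_mem _ (Ideal.mul_mem_left _ _ ih)
      (Ideal.mul_mem_right _ _ (Ideal.subset_span ⟨i₀, rfl⟩))

/-- **the level-`n` quotient**: an `O`-basis of `M ⧸ (u i ^ P' i - 1)_i M` from the `u`-monomial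
`O`-basis of `M` (`P' i ∣ P i`). -/
theorem twlg_quot_basis (u : ι → 𝒰) (P P' : ι → ℕ) (hP : ∀ i, 0 < P i) (hP' : ∀ i, 0 < P' i)
    (hdvd : ∀ i, P' i ∣ P i) (hpow : ∀ i (m : M), u i ^ P i • m = m) (b : J → M)
    (hli : LinearIndependent O (fun kj : (∀ i, Fin (P i)) × J =>
      (∏ i, u i ^ (kj.1 i : ℕ)) • b kj.2))
    (hspan : ⊤ ≤ Submodule.span O (Set.range fun kj : (∀ i, Fin (P i)) × J =>
      (∏ i, u i ^ (kj.1 i : ℕ)) • b kj.2)) :
    LinearIndependent O (fun kj : (∀ i, Fin (P' i)) × J =>
      (Submodule.Quotient.mk ((∏ i, u i ^ (kj.1 i : ℕ)) • b kj.2) : M ⧸ twlg_levelSub M u P')) ∧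
    ⊤ ≤ Submodule.span O (Set.range fun kj : (∀ i, Fin (P' i)) × J =>
      (Submodule.Quotient.mk ((∏ i, u i ^ (kj.1 i : ℕ)) • b kj.2) : M ⧸ twlg_levelSub M u P')) := by
  classical
  set B : Module.Basis ((∀ i, Fin (P i)) × J) O M := Module.Basis.mk hli hspan with hBdef
  have hB : ∀ kj : (∀ i, Fin (P i)) × J, B kj = (∏ i, u i ^ (kj.1 i : ℕ)) • b kj.2 := by
    intro kj
    rw [hBdef, Module.Basis.mk_apply]
  set red : (ι → ℕ) → (∀ i, Fin (P' i)) := fun k i => ⟨k i % P' i, Nat.mod_lt _ (hP' i)⟩ with hred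
  set π : M →ₗ[O] (((∀ i, Fin (P' i)) × J) →₀ O) :=
    B.constr O (fun kj => Finsupp.single (red (fun i => (kj.1 i : ℕ)), kj.2) (1 : O)) with hπ
  have hπB : ∀ kj : (∀ i, Fin (P i)) × J,
      π (B kj) = Finsupp.single (red (fun i => (kj.1 i : ℕ)), kj.2) 1 := fun kj =>
    B.constr_basis O _ kj
  -- Claim 1
  have c1 : ∀ (k : ι → ℕ) (j : J), π (twlg_mon u k • b j) = Finsupp.single (red k, j) 1 := by
    intro k j
    rw [twlg_mon_mod u P hpow k (b j)]
    have h1 : twlg_mon u (fun i => k i % P i) • b j =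
        B (fun i => ⟨k i % P i, Nat.mod_lt _ (hP i)⟩, j) := by
      rw [hB]
      rfl
    rw [h1, hπB]
    congr 2
    funext i
    apply Fin.ext
    exact Nat.mod_mod_of_dvd _ (hdvd i)
  -- Claim 2
  have c2 : ∀ r ∈ twlg_levelIdeal u P', ∀ m : M, π (r • m) = 0 := by
    intro r hr
    refine Submodule.span_induction (p := fun r _ => ∀ m : M, π (r • m) = 0) ?_ ?_ ?_ ?_ hr
    · rintro _ ⟨i, rfl⟩ m
      have h0 : π ∘ₗ (twlg_mulO (O := O) (M := M) (u i ^ P' i - 1)) = 0 := by
        apply B.ext
        intro kj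
        obtain ⟨k, j⟩ := kj
        rw [LinearMap.comp_apply, twlg_mulO_apply, hB, LinearMap.zero_apply]
        have e1 : (u i ^ P' i - 1) • (∏ i, u i ^ (k i : ℕ)) • b j =
            twlg_mon u ((fun i => (k i : ℕ)) + P' i • Pi.single i 1) • b j -
              twlg_mon u (fun i => (k i : ℕ)) • b j := by
          have e2 : twlg_mon u ((fun i => (k i : ℕ)) + P' i • Pi.single i 1) =
              u i ^ P' i * twlg_mon u (fun i => (k i : ℕ)) := by
            unfold twlg_mon
            simp only [Pi.add_apply, Pi.smul_apply, pow_add, Finset.prod_mul_distrib]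
            rw [mul_comm]
            congr 1
            rw [Fintype.prod_eq_single i]
            · simp
            · intro i' hi'
              simp [Pi.single_apply, hi']
          rw [e2, mul_smul, sub_smul, one_smul]
          rfl
        rw [e1, map_sub, c1, c1, sub_eq_zero]
        congr 2
        funext i'
        apply Fin.ext
        simp only [hred, Pi.add_apply, Pi.smul_apply, Pi.single_apply, smul_eq_mul]
        by_cases h : i' = i
        · subst h
          simp
        · simp [h]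
      have := LinearMap.congr_fun h0 m
      simpa using this
    · intro m
      simp
    · intro x y _ _ hx hy m
      rw [add_smul, map_add, hx, hy, add_zero]
    · intro a x _ hx m
      rw [smul_eq_mul, mul_comm, mul_smul]
      exact hx _
  have c3 : (twlg_levelSub M u P').restrictScalars O ≤ LinearMap.ker π := by
    intro x hx
    rw [LinearMap.mem_ker]
    have hx' : x ∈ twlg_levelIdeal u P' • (⊤ : Submodule 𝒰 M) := hx
    refine Submodule.smul_induction_on hx' (fun r hr n _ => c2 r hr n) ?_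
    intro x y hx hy
    rw [map_add, hx, hy, add_zero]
  set πq : (M ⧸ twlg_levelSub M u P') →ₗ[O] (((∀ i, Fin (P' i)) × J) →₀ O) :=
    (((twlg_levelSub M u P').restrictScalars O).liftQ π c3) ∘ₗ
      (Submodule.Quotient.restrictScalarsEquiv O (twlg_levelSub M u P')).symm.toLinearMap with hπq
  have hπq_mk : ∀ m : M, πq (Submodule.Quotient.mk m) = π m := by
    intro m
    rfl
  constructor
  · apply LinearIndependent.of_comp πq
    have : (πq ∘ fun kj : (∀ i, Fin (P' i)) × J =>
        (Submodule.Quotient.mk ((∏ i, u i ^ (kj.1 i : ℕ)) • b kj.2) :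
          M ⧸ twlg_levelSub M u P')) = fun kj => Finsupp.single kj (1 : O) := by
      funext kj
      obtain ⟨k, j⟩ := kj
      rw [Function.comp_apply, hπq_mk]
      have := c1 (fun i => (k i : ℕ)) j
      rw [show twlg_mon u (fun i => (k i : ℕ)) = ∏ i, u i ^ (k i : ℕ) from rfl] at this
      rw [this]
      congr 2
      funext i
      apply Fin.ext
      exact Nat.mod_eq_of_lt (k i).isLt
    rw [this]
    exact (Finsupp.basisSingleOne (R := O)).linearIndependent
  · rintro x -
    obtain ⟨m, rfl⟩ := Submodule.Quotient.mk_surjective _ x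
    have hm := hspan (Submodule.mem_top (x := m))
    refine Submodule.span_induction (p := fun m _ => (Submodule.Quotient.mk m :
      M ⧸ twlg_levelSub M u P') ∈ Submodule.span O (Set.range fun kj : (∀ i, Fin (P' i)) × J =>
      (Submodule.Quotient.mk ((∏ i, u i ^ (kj.1 i : ℕ)) • b kj.2) :
        M ⧸ twlg_levelSub M u P'))) ?_ ?_ ?_ ?_ hm
    · rintro _ ⟨⟨k, j⟩, rfl⟩
      have hmem : (∏ i, u i ^ (k i : ℕ)) • b j -
          (∏ i, u i ^ ((red (fun i => (k i : ℕ)) i : Fin (P' i)) : ℕ)) • b j ∈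
            twlg_levelSub M u P' := by
        have e3 : ∏ i, u i ^ (k i : ℕ) =
            (∏ i, u i ^ ((k i : ℕ) % P' i)) * ∏ i, (u i ^ P' i) ^ ((k i : ℕ) / P' i) := by
          rw [← Finset.prod_mul_distrib]
          refine Finset.prod_congr rfl fun i _ => ?_
          rw [← pow_mul, ← pow_add, Nat.mod_add_div]
        have e4 : (∏ i, u i ^ (k i : ℕ)) • b j -
            (∏ i, u i ^ ((k i : ℕ) % P' i)) • b j =
            ((∏ i, (u i ^ P' i) ^ ((k i : ℕ) / P' i) - 1) * ∏ i, u i ^ ((k i : ℕ) % P' i)) •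
              b j := by
          rw [e3, sub_mul, one_mul, sub_smul, mul_comm]
        show (∏ i, u i ^ (k i : ℕ)) • b j - (∏ i, u i ^ ((k i : ℕ) % P' i)) • b j ∈ _
        rw [e4, mul_smul]
        exact Submodule.smul_mem_smul
          (twlg_prod_pow_sub_one_mem (fun i => u i ^ P' i) (fun i => (k i : ℕ) / P' i) Finset.univ)
          Submodule.mem_top
      have heq : (Submodule.Quotient.mk ((∏ i, u i ^ (k i : ℕ)) • b j) :
          M ⧸ twlg_levelSub M u P') =
          Submodule.Quotient.mk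
            ((∏ i, u i ^ ((red (fun i => (k i : ℕ)) i : Fin (P' i)) : ℕ)) • b j) :=
        (Submodule.Quotient.eq _).2 hmem
      rw [heq]
      exact Submodule.subset_span ⟨(red (fun i => (k i : ℕ)), j), rfl⟩
    · rw [Submodule.Quotient.mk_zero]
      exact Submodule.zero_mem _
    · intro x y _ _ hx hy
      rw [Submodule.Quotient.mk_add]
      exact Submodule.add_mem _ hx hy
    · intro a x _ hx
      have : (Submodule.Quotient.mk (a • x) : M ⧸ twlg_levelSub M u P') =
          a • Submodule.Quotient.mk x := rfl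
      rw [this]
      exact Submodule.smul_mem _ _ hx

/-- **the level-`n` module is free over `S' = S_∞ / 𝔟_n`**: if `S'` acts on the level quotient
`M ⧸ (u i ^ P' i - 1)_i M` with `s i` acting as `u i`, and `S'` is spanned over `O` by the monomials
`∏ s i ^ k i`, `k i < P' i`, then the classes of `b` are an `S'`-basis. -/
theorem twlg_level_basis [DecidableEq ι] [Fintype J] {S' : Type*} [CommRing S'] [Algebra O S']
    (u : ι → 𝒰) (P P' : ι → ℕ) (hP : ∀ i, 0 < P i) (hP' : ∀ i, 0 < P' i)
    (hdvd : ∀ i, P' i ∣ P i) (hpow : ∀ i (m : M), u i ^ P i • m = m) (b : J → M)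
    (hli : LinearIndependent O (fun kj : (∀ i, Fin (P i)) × J =>
      (∏ i, u i ^ (kj.1 i : ℕ)) • b kj.2))
    (hspan : ⊤ ≤ Submodule.span O (Set.range fun kj : (∀ i, Fin (P i)) × J =>
      (∏ i, u i ^ (kj.1 i : ℕ)) • b kj.2))
    [Module S' (M ⧸ twlg_levelSub M u P')] [IsScalarTower O S' (M ⧸ twlg_levelSub M u P')]
    (s : ι → S') (hs : ∀ i (x : M ⧸ twlg_levelSub M u P'), s i • x = u i • x)
    (hspanS : ∀ x : S', ∃ c : (∀ i, Fin (P' i)) → O, x = ∑ k, c k • ∏ i, s i ^ (k i : ℕ)) :
    ∃ Bq : Module.Basis J S' (M ⧸ twlg_levelSub M u P'),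
      ∀ j, Bq j = Submodule.Quotient.mk (b j) := by
  obtain ⟨h1, h2⟩ := twlg_quot_basis (O := O) u P P' hP hP' hdvd hpow b hli hspan
  have hprod : ∀ (k : ι → ℕ) (x : M ⧸ twlg_levelSub M u P'),
      (∏ i, s i ^ k i) • x = (∏ i, u i ^ k i) • x := by
    intro k
    have : ∀ t : Finset ι, ∀ x : M ⧸ twlg_levelSub M u P',
        (∏ i ∈ t, s i ^ k i) • x = (∏ i ∈ t, u i ^ k i) • x := by
      intro t
      induction t using Finset.induction_on with
      | empty => intro x; simp
      | insert i₀ t hi₀ ih =>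
        intro x
        rw [Finset.prod_insert hi₀, Finset.prod_insert hi₀, mul_smul, mul_smul, ih]
        have hpw : ∀ (n : ℕ) (y : M ⧸ twlg_levelSub M u P'), s i₀ ^ n • y = u i₀ ^ n • y := by
          intro n
          induction n with
          | zero => intro y; simp
          | succ n ihn =>
            intro y
            rw [pow_succ, pow_succ, mul_smul, mul_smul, hs, ihn]
        exact hpw _ _
    exact this Finset.univ
  have hfam : (fun kj : (∀ i, Fin (P' i)) × J =>
      (∏ i, s i ^ (kj.1 i : ℕ)) • (Submodule.Quotient.mk (b kj.2) : M ⧸ twlg_levelSub M u P')) =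
      fun kj : (∀ i, Fin (P' i)) × J =>
      (Submodule.Quotient.mk ((∏ i, u i ^ (kj.1 i : ℕ)) • b kj.2) :
        M ⧸ twlg_levelSub M u P') := by
    funext kj
    rw [hprod]
    rfl
  refine ⟨twlg_towerBasis (O := O) (fun k : (∀ i, Fin (P' i)) => ∏ i, s i ^ (k i : ℕ)) hspanS
    (fun j => (Submodule.Quotient.mk (b j) : M ⧸ twlg_levelSub M u P')) ?_ ?_, ?_⟩
  · rw [hfam]
    exact h1
  · rw [hfam]
    exact h2
  · intro j
    rw [twlg_towerBasis_apply]

end Quot

end Fermat.Agent.TW
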