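import Mathlib
import Fermat.Agent.TW.LG.MatchFree

/-!
# TW / LG : matching + freeness transfer, two-ring form (helper18)

`twlg_match_free_two`: the one-stop theorem `twlg_match_free_fibre` when the geometric operators
`a i` (diamonds) and the Galois operators `u i` live in two DIFFERENT commutative rings `𝒜`, `𝒰`
with commuting actions on `M` (e.g. `𝒜 = 𝒪[Δ_Q]`, `𝒰 = T''` of `TW/Aut/Seams.lean`).
-/

set_option autoImplicit false

namespace Fermat.Agent.TW

open Finset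

section TwoRing

variable {O 𝒜 𝒰 M : Type*} [CommRing O] [CommRing 𝒜] [CommRing 𝒰] [Algebra O 𝒜] [Algebra O 𝒰]
  [AddCommGroup M] [Module O M] [Module 𝒜 M] [Module 𝒰 M] [IsScalarTower O 𝒜 M]
  [IsScalarTower O 𝒰 M] [SMulCommClass 𝒰 𝒜 M]

/-- the set of all `x • ·`, `x ∈ 𝒜` or `x ∈ 𝒰`, inside `End_O M`. -/
def twlg_two_set (O 𝒜 𝒰 M : Type*) [CommRing O] [CommRing 𝒜] [CommRing 𝒰] [Algebra O 𝒜]
    [Algebra O 𝒰] [AddCommGroup M] [Module O M] [Module 𝒜 M] [Module 𝒰 M] [IsScalarTower O 𝒜 M]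
    [IsScalarTower O 𝒰 M] : Set (Module.End O M) :=
  Set.range (Algebra.lsmul O O M : 𝒜 →ₐ[O] Module.End O M) ∪
    Set.range (Algebra.lsmul O O M : 𝒰 →ₐ[O] Module.End O M)

theorem twlg_two_comm : ∀ x ∈ twlg_two_set O 𝒜 𝒰 M, ∀ y ∈ twlg_two_set O 𝒜 𝒰 M, x * y = y * x := by
  rintro _ (⟨x, rfl⟩ | ⟨x, rfl⟩) _ (⟨y, rfl⟩ | ⟨y, rfl⟩)
  · rw [← map_mul, ← map_mul, mul_comm]
  · ext m
    simp only [Module.End.mul_apply, Algebra.lsmul_coe]
    exact (smul_comm y x m).symm
  · ext m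
    simp only [Module.End.mul_apply, Algebra.lsmul_coe]
    exact smul_comm x y m
  · rw [← map_mul, ← map_mul, mul_comm]

open scoped IsMulCommutative in
/-- **matching + freeness transfer, two-ring form.**  Same as `twlg_match_free_fibre`, but the
diamonds `a i ∈ 𝒜` and the Galois operators `u i ∈ 𝒰` live in two commutative rings with
commuting actions on `M`. -/
theorem twlg_match_free_two (p : ℕ) [hp : Fact p.Prime] {ι J : Type*} [Fintype ι] [Finite J]
    [Module.Finite O M] (hp2 : p ≠ 2) (hpJ : (p : O) ∈ Ideal.jacobson (⊥ : Ideal O))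
    (htf : ∀ m : M, p • m = 0 → m = 0)
    (ζ : O) (hζ : twlg_Phi p ζ = 0) (hζJ : 1 - ζ ∈ Ideal.jacobson (⊥ : Ideal O))
    (a : ι → 𝒜) (u : ι → 𝒰) (n : ι → ℕ) (hn : ∀ i, 0 < n i) (N : ℕ)
    (ha : ∀ i (m : M), a i ^ p ^ n i • m = m) (hu : ∀ i (m : M), u i ^ p ^ N • m = m)
    (hH2 : ∀ i (m : M), ∃ m', (u i - 1) • m = (a i - 1) • m')
    (hH3 : ∀ i (m : M), (∃ m', (u i - 1) • m = (a i - algebraMap O 𝒜 ζ) • m') →
      ∃ m', m = (a i - algebraMap O 𝒜 ζ) • m')
    (b : J → M)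
    (hli : LinearIndependent O (fun kj : (∀ i, Fin (p ^ n i)) × J =>
      (∏ i, a i ^ (kj.1 i : ℕ)) • b kj.2))
    (hspan : ⊤ ≤ Submodule.span O (Set.range fun kj : (∀ i, Fin (p ^ n i)) × J =>
      (∏ i, a i ^ (kj.1 i : ℕ)) • b kj.2)) :
    (∀ i (m : M), u i ^ p ^ n i • m = m) ∧
    (∀ i (m : M), ∃ m', (a i - 1) • m = (u i - 1) • m') ∧
    LinearIndependent O (fun kj : (∀ i, Fin (p ^ n i)) × J =>
      (∏ i, u i ^ (kj.1 i : ℕ)) • b kj.2) ∧
    ⊤ ≤ Submodule.span O (Set.range fun kj : (∀ i, Fin (p ^ n i)) × J =>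
      (∏ i, u i ^ (kj.1 i : ℕ)) • b kj.2) := by
  classical
  have hcomm := twlg_two_comm (O := O) (𝒜 := 𝒜) (𝒰 := 𝒰) (M := M)
  haveI := Algebra.isMulCommutative_adjoin O hcomm
  let φa : 𝒜 →ₐ[O] Algebra.adjoin O (twlg_two_set O 𝒜 𝒰 M) :=
    (Algebra.lsmul O O M : 𝒜 →ₐ[O] Module.End O M).codRestrict _
      (fun x => Algebra.subset_adjoin (Or.inl ⟨x, rfl⟩))
  let φu : 𝒰 →ₐ[O] Algebra.adjoin O (twlg_two_set O 𝒜 𝒰 M) :=
    (Algebra.lsmul O O M : 𝒰 →ₐ[O] Module.End O M).codRestrict _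
      (fun x => Algebra.subset_adjoin (Or.inr ⟨x, rfl⟩))
  have hφa : ∀ (x : 𝒜) (m : M), φa x • m = x • m := fun x m => rfl
  have hφu : ∀ (x : 𝒰) (m : M), φu x • m = x • m := fun x m => rfl
  have ea1 : ∀ i (m : M), (φa (a i) - 1) • m = (a i - 1) • m := by
    intro i m
    rw [← hφa (a i - 1) m, map_sub, map_one]
  have eu1 : ∀ i (m : M), (φu (u i) - 1) • m = (u i - 1) • m := by
    intro i m
    rw [← hφu (u i - 1) m, map_sub, map_one]
  have eaζ : ∀ i (m : M),
      (φa (a i) - algebraMap O (Algebra.adjoin O (twlg_two_set O 𝒜 𝒰 M)) ζ) • m =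
        (a i - algebraMap O 𝒜 ζ) • m := by
    intro i m
    rw [← hφa (a i - algebraMap O 𝒜 ζ) m, map_sub, AlgHom.commutes]
  have eap : ∀ i (k : ℕ) (m : M), φa (a i) ^ k • m = a i ^ k • m := by
    intro i k m
    rw [← hφa (a i ^ k) m, map_pow]
  have eup : ∀ i (k : ℕ) (m : M), φu (u i) ^ k • m = u i ^ k • m := by
    intro i k m
    rw [← hφu (u i ^ k) m, map_pow]
  have eaprod : ∀ (k : ι → ℕ) (m : M), (∏ i, φa (a i) ^ k i) • m = (∏ i, a i ^ k i) • m := by
    intro k m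
    rw [← hφa (∏ i, a i ^ k i) m, map_prod]
    simp only [map_pow]
  have euprod : ∀ (k : ι → ℕ) (m : M), (∏ i, φu (u i) ^ k i) • m = (∏ i, u i ^ k i) • m := by
    intro k m
    rw [← hφu (∏ i, u i ^ k i) m, map_prod]
    simp only [map_pow]
  have key := twlg_match_free_fibre (O := O) (𝒜 := Algebra.adjoin O (twlg_two_set O 𝒜 𝒰 M))
    (M := M) p hp2 hpJ htf ζ hζ hζJ (fun i => φa (a i)) (fun i => φu (u i)) n hn N
    (fun i m => by rw [eap]; exact ha i m) (fun i m => by rw [eup]; exact hu i m)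
    (fun i m => by
      obtain ⟨m', h⟩ := hH2 i m
      exact ⟨m', by rw [eu1, ea1]; exact h⟩)
    (fun i m hm => by
      obtain ⟨m₁, h₁⟩ := hm
      obtain ⟨m', h⟩ := hH3 i m ⟨m₁, by rw [← eu1, ← eaζ]; exact h₁⟩
      exact ⟨m', by rw [eaζ]; exact h⟩)
    b (by simpa only [eaprod] using hli) (by simpa only [eaprod] using hspan)
  obtain ⟨k1, k2, k3, k4⟩ := key
  refine ⟨fun i m => by rw [← eup]; exact k1 i m, fun i m => ?_, ?_, ?_⟩
  · obtain ⟨m', h⟩ := k2 i m
    exact ⟨m', by rw [← ea1, ← eu1]; exact h⟩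
  · simpa only [euprod] using k3
  · simpa only [euprod] using k4

end TwoRing

section MonoidAlg

variable {O M : Type*} [CommRing O] [AddCommGroup M] [Module O M]
variable {ι : Type*} [Fintype ι] [DecidableEq ι] (P : ι → ℕ) [∀ i, NeZero (P i)]

/-- the chosen generator of the `i`-th cyclic factor of `∏ i, ℤ/P i` (written multiplicatively) -/
def twlg_gen (i : ι) : Multiplicative (∀ i, ZMod (P i)) := Multiplicative.ofAdd (Pi.single i 1)

/-- exponents `↦` group elements -/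
def twlg_expEquiv : (∀ i, Fin (P i)) ≃ Multiplicative (∀ i, ZMod (P i)) where
  toFun k := Multiplicative.ofAdd (fun i => ((k i : ℕ) : ZMod (P i)))
  invFun δ := fun i => ⟨(Multiplicative.toAdd δ i).val, ZMod.val_lt _⟩
  left_inv k := by
    funext i
    apply Fin.ext
    simp only [toAdd_ofAdd]
    exact ZMod.val_natCast_of_lt (k i).isLt
  right_inv δ := by
    apply Multiplicative.toAdd.injective
    funext i
    simp only [toAdd_ofAdd]
    exact ZMod.natCast_zmod_val _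

theorem twlg_prod_gen (k : ∀ i, Fin (P i)) :
    ∏ i, twlg_gen P i ^ (k i : ℕ) = twlg_expEquiv P k := by
  apply Multiplicative.toAdd.injective
  rw [toAdd_prod]
  funext j
  simp only [twlg_gen, toAdd_pow, toAdd_ofAdd, twlg_expEquiv, Equiv.coe_fn_mk, Finset.sum_apply,
    Pi.smul_apply]
  rw [Finset.sum_eq_single j]
  · simp
  · intro i _ hij
    rw [Pi.single_eq_of_ne hij.symm, smul_zero]
  · intro h
    exact absurd (Finset.mem_univ j) h

variable [Module (MonoidAlgebra O (Multiplicative (∀ i, ZMod (P i)))) M]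
  [IsScalarTower O (MonoidAlgebra O (Multiplicative (∀ i, ZMod (P i)))) M]

/-- **bridge**: a basis of `M` over the group algebra `O[∏ i, ℤ/P i]` gives a monomial `O`-basis
with respect to the generators `of (twlg_gen P i)`. -/
theorem twlg_mon_of_basis {J : Type*}
    (B : Module.Basis J (MonoidAlgebra O (Multiplicative (∀ i, ZMod (P i)))) M) :
    LinearIndependent O (fun kj : (∀ i, Fin (P i)) × J =>
      (∏ i, MonoidAlgebra.of O (Multiplicative (∀ i, ZMod (P i))) (twlg_gen P i) ^ (kj.1 i : ℕ))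
        • B kj.2) ∧
    ⊤ ≤ Submodule.span O (Set.range fun kj : (∀ i, Fin (P i)) × J =>
      (∏ i, MonoidAlgebra.of O (Multiplicative (∀ i, ZMod (P i))) (twlg_gen P i) ^ (kj.1 i : ℕ))
        • B kj.2) := by
  set Bt := (MonoidAlgebra.basis (Multiplicative (∀ i, ZMod (P i))) O).smulTower B with hBt
  set e : (∀ i, Fin (P i)) × J ≃ Multiplicative (∀ i, ZMod (P i)) × J :=
    Equiv.prodCongr (twlg_expEquiv P) (Equiv.refl J) with he
  have hfam : (fun kj : (∀ i, Fin (P i)) × J =>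
      (∏ i, MonoidAlgebra.of O (Multiplicative (∀ i, ZMod (P i))) (twlg_gen P i) ^ (kj.1 i : ℕ))
        • B kj.2) = Bt ∘ e := by
    funext kj
    obtain ⟨k, j⟩ := kj
    simp only [Function.comp_apply, hBt, Module.Basis.smulTower_apply, he, Equiv.prodCongr_apply,
      Prod.map_fst, Prod.map_snd, Equiv.refl_apply, MonoidAlgebra.basis_apply]
    rw [← twlg_prod_gen, ← MonoidAlgebra.of_apply, map_prod]
    simp only [map_pow]
  rw [hfam]
  refine ⟨Bt.linearIndependent.comp _ e.injective, ?_⟩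
  rw [e.surjective.range_comp]
  exact Bt.span_eq.ge

omit [Fintype ι] in
theorem twlg_gen_pow (i : ι) : twlg_gen P i ^ P i = 1 := by
  apply Multiplicative.toAdd.injective
  funext j
  simp only [twlg_gen, toAdd_pow, toAdd_ofAdd, toAdd_one, Pi.smul_apply, Pi.zero_apply]
  by_cases h : j = i
  · subst h
    simp
  · rw [Pi.single_eq_of_ne h, smul_zero]

end MonoidAlg


section Seam

universe uM

variable {O 𝒰 : Type*} {M : Type uM} [CommRing O] [CommRing 𝒰] [Algebra O 𝒰] [AddCommGroup M]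
  [Module O M] [Module 𝒰 M] [IsScalarTower O 𝒰 M]
variable {ι : Type*} [Fintype ι] [DecidableEq ι]

/-- **matching + freeness transfer against `TW/Aut/Seams.lean`** (`twe_Level` / `twe_Big`):
`M` finite free over the group algebra `O[Δ]`, `Δ = ∏ i, ℤ/P i` (`P i = p ^ n i`, generators
`twlg_gen P i`), `𝒰` (the Hecke algebra) acting on `M` commuting with `O[Δ]`, `u i ∈ 𝒰` the Galois
operators.  Then for an `O[Δ]`-basis `b` of `M`: `u i ^ P i = 1` on `M`, the two augmentation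
submodules agree prime by prime, and the `u`-monomials applied to `b` are an `O`-basis of `M`
(`M` is free over `O[Δ]` with basis `b` for the structure `δ_i ↦ u i`). -/
theorem twlg_match_free_monoidAlgebra (p : ℕ) [hp : Fact p.Prime] (P : ι → ℕ)
    [∀ i, NeZero (P i)] (n : ι → ℕ) (hn : ∀ i, 0 < n i) (hP : ∀ i, P i = p ^ n i)
    [Module (MonoidAlgebra O (Multiplicative (∀ i, ZMod (P i)))) M]
    [IsScalarTower O (MonoidAlgebra O (Multiplicative (∀ i, ZMod (P i)))) M]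
    [SMulCommClass 𝒰 (MonoidAlgebra O (Multiplicative (∀ i, ZMod (P i)))) M]
    [Module.Finite (MonoidAlgebra O (Multiplicative (∀ i, ZMod (P i)))) M]
    [Module.Free (MonoidAlgebra O (Multiplicative (∀ i, ZMod (P i)))) M]
    (hp2 : p ≠ 2) (hpJ : (p : O) ∈ Ideal.jacobson (⊥ : Ideal O))
    (htf : ∀ m : M, p • m = 0 → m = 0)
    (ζ : O) (hζ : twlg_Phi p ζ = 0) (hζJ : 1 - ζ ∈ Ideal.jacobson (⊥ : Ideal O))
    (u : ι → 𝒰) (N : ℕ) (hu : ∀ i (m : M), u i ^ p ^ N • m = m)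
    (hH2 : ∀ i (m : M), ∃ m', (u i - 1) • m =
      (MonoidAlgebra.of O (Multiplicative (∀ i, ZMod (P i))) (twlg_gen P i) - 1) • m')
    (hH3 : ∀ i (m : M), (∃ m', (u i - 1) • m =
        (MonoidAlgebra.of O (Multiplicative (∀ i, ZMod (P i))) (twlg_gen P i) -
          algebraMap O (MonoidAlgebra O (Multiplicative (∀ i, ZMod (P i)))) ζ) • m') →
      ∃ m', m = (MonoidAlgebra.of O (Multiplicative (∀ i, ZMod (P i))) (twlg_gen P i) -
          algebraMap O (MonoidAlgebra O (Multiplicative (∀ i, ZMod (P i)))) ζ) • m') :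
    ∃ (J : Type uM) (_ : Fintype J)
      (B : Module.Basis J (MonoidAlgebra O (Multiplicative (∀ i, ZMod (P i)))) M),
      (∀ i (m : M), u i ^ P i • m = m) ∧
      (∀ i (m : M), ∃ m',
        (MonoidAlgebra.of O (Multiplicative (∀ i, ZMod (P i))) (twlg_gen P i) - 1) • m =
          (u i - 1) • m') ∧
      LinearIndependent O (fun kj : (∀ i, Fin (P i)) × J =>
        (∏ i, u i ^ (kj.1 i : ℕ)) • B kj.2) ∧
      ⊤ ≤ Submodule.span O (Set.range fun kj : (∀ i, Fin (P i)) × J =>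
        (∏ i, u i ^ (kj.1 i : ℕ)) • B kj.2) := by
  classical
  obtain rfl : P = fun i => p ^ n i := funext hP
  set B := Module.Free.chooseBasis (MonoidAlgebra O (Multiplicative (∀ i, ZMod (p ^ n i)))) M
    with hB
  have hfin : Fintype (Module.Free.ChooseBasisIndex
      (MonoidAlgebra O (Multiplicative (∀ i, ZMod (p ^ n i)))) M) :=
    Module.Free.ChooseBasisIndex.fintype _ _
  obtain ⟨hli, hspan⟩ := twlg_mon_of_basis (O := O) (fun i => p ^ n i) B
  have : Module.Finite O M :=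
    Module.Finite.of_basis
      ((MonoidAlgebra.basis (Multiplicative (∀ i, ZMod (p ^ n i))) O).smulTower B)
  have ha : ∀ i (m : M),
      MonoidAlgebra.of O (Multiplicative (∀ i, ZMod (p ^ n i))) (twlg_gen (fun i => p ^ n i) i) ^
        p ^ n i • m = m := by
    intro i m
    rw [← map_pow, twlg_gen_pow (fun i => p ^ n i) i, map_one, one_smul]
  obtain ⟨k1, k2, k3, k4⟩ := twlg_match_free_two (O := O)
    (𝒜 := MonoidAlgebra O (Multiplicative (∀ i, ZMod (p ^ n i)))) (𝒰 := 𝒰) (M := M) p hp2 hpJ htf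
    ζ hζ hζJ
    (fun i => MonoidAlgebra.of O (Multiplicative (∀ i, ZMod (p ^ n i)))
      (twlg_gen (fun i => p ^ n i) i)) u n hn N ha hu hH2 hH3
    (J := Module.Free.ChooseBasisIndex
      (MonoidAlgebra O (Multiplicative (∀ i, ZMod (p ^ n i)))) M) B hli hspan
  exact ⟨Module.Free.ChooseBasisIndex
      (MonoidAlgebra O (Multiplicative (∀ i, ZMod (p ^ n i)))) M, hfin, B, k1, k2, k3, k4⟩

end Seam

end Fermat.Agent.TW
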