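import Mathlib
import Fermat.Agent.TW.LG.MatchTower
import Fermat.Agent.TW.LG.MatchSeam

/-!
# TW / LG : bases adapted to the coinvariants (helper18)

`twlg_basis_of_coinv` : if `M` is free over `O[Δ]` (some monomial `O`-basis exists) and
`c : M → C` is the coinvariant map (`ker c = ∑ (a i - 1) M`), then ANY family `b` lifting an
`O`-basis of `C` gives a monomial `O`-basis of `M`.  So the `S_∞/𝔟_n`-basis of the level module
`M_n` can be chosen to reduce to a prescribed basis of `M_n / 𝔞 M_n = M_∅^{2^r}`.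
-/

set_option autoImplicit false

namespace Fermat.Agent.TW

open Finset

section Coinv

variable {O 𝒜 M : Type*} [CommRing O] [CommRing 𝒜] [Algebra O 𝒜] [AddCommGroup M] [Module O M]
  [Module 𝒜 M] [IsScalarTower O 𝒜 M]
variable {ι : Type*} [Fintype ι]

/-- the augmentation submodule `∑ i, (a i - 1) M` -/
def twlg_augSub (O : Type*) {𝒜 M : Type*} [CommRing O] [CommRing 𝒜] [Algebra O 𝒜]
    [AddCommGroup M] [Module O M] [Module 𝒜 M] [IsScalarTower O 𝒜 M] {ι : Type*} (a : ι → 𝒜) :
    Submodule O M :=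
  ⨆ i, LinearMap.range (twlg_mulO (O := O) (M := M) (a i - 1))

/-- **spanning from the coinvariants**: if `b` spans `M` modulo the augmentation submodule, the
`a`-monomials applied to `b` span `M` (`a i` of `p`-power order, `p ∈ rad O`). -/
theorem twlg_span_of_coinv (p : ℕ) [hp : Fact p.Prime] [Module.Finite O M]
    (hpJ : (p : O) ∈ Ideal.jacobson (⊥ : Ideal O)) (a : ι → 𝒜) (n : ι → ℕ)
    (ha : ∀ i (m : M), a i ^ p ^ n i • m = m) {J : Type*} (b : J → M)
    (hb : ⊤ ≤ Submodule.span O (Set.range b) ⊔ twlg_augSub O (M := M) a) :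
    ⊤ ≤ Submodule.span O (Set.range fun kj : (∀ i, Fin (p ^ n i)) × J =>
      (∏ i, a i ^ (kj.1 i : ℕ)) • b kj.2) := by
  classical
  -- a uniform exponent
  set N : ℕ := ∑ i, n i with hN
  have haN : ∀ i (m : M), a i ^ p ^ N • m = m := by
    intro i m
    have hle : n i ≤ N := Finset.single_le_sum (f := n) (fun _ _ => Nat.zero_le _) (Finset.mem_univ i)
    obtain ⟨d, hd⟩ := Nat.exists_eq_add_of_le hle
    rw [hd, pow_add, pow_mul]
    exact twlg_pow_smul_eq _ (ha i) _ m
  set V : Submodule O M :=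
    Submodule.span O (Set.range fun kj : (ι → ℕ) × J => twlg_mon a kj.1 • b kj.2) with hV
  set Pm : Submodule O M := (Ideal.span {(p : O)}) • (⊤ : Submodule O M) with hPm
  have hVst : ∀ i, V.map (twlg_mulO (O := O) (a i - 1)) ≤ V := by
    intro i
    rw [hV, Submodule.map_span, Submodule.span_le]
    rintro _ ⟨_, ⟨⟨k, j⟩, rfl⟩, rfl⟩
    simp only [twlg_mulO_apply]
    rw [sub_smul, one_smul, ← mul_smul, ← twlg_mon_add_single]
    exact Submodule.sub_mem _ (Submodule.subset_span ⟨(k + Pi.single i 1, j), rfl⟩)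
      (Submodule.subset_span ⟨(k, j), rfl⟩)
  have hPst : ∀ i, Pm.map (twlg_mulO (O := O) (a i - 1)) ≤ Pm := by
    intro i
    rw [hPm, Submodule.map_smul'']
    exact Submodule.smul_mono le_rfl le_top
  have hK : ∀ i, LinearMap.range (twlg_mulO (O := O) (M := M) (a i - 1) ^ p ^ N) ≤ Pm := by
    rintro i _ ⟨m, rfl⟩
    rw [twlg_mulO_pow, twlg_mulO_apply]
    obtain ⟨m', hm'⟩ := twlg_pow_sub_one_img (O := O) p (a i) N (haN i) m
    rw [hm']
    exact Submodule.smul_mem_smul (Ideal.mem_span_singleton_self _) Submodule.mem_top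
  have h1 : ⊤ ≤ V ⊔ Pm ⊔
      ⨆ i ∈ (Finset.univ : Finset ι), LinearMap.range (twlg_mulO (O := O) (M := M) (a i - 1)) := by
    refine hb.trans (sup_le ?_ ?_)
    · refine le_sup_of_le_left (le_sup_of_le_left ?_)
      rw [Submodule.span_le]
      rintro _ ⟨j, rfl⟩
      have : b j = twlg_mon a 0 • b j := by rw [twlg_mon_zero, one_smul]
      rw [SetLike.mem_coe, this]
      exact Submodule.subset_span ⟨(0, j), rfl⟩
    · refine le_sup_of_le_right ?_
      unfold twlg_augSub
      exact iSup_mono fun i => le_iSup_of_le (Finset.mem_univ i) le_rfl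
  have h2 := twlg_absorb (fun i => twlg_mulO (O := O) (M := M) (a i - 1))
    (fun i j => twlg_mulO_comm _ _) Pm hPst (p ^ N) hK Finset.univ V hVst h1
  have h3 : ⊤ ≤ V := Submodule.le_of_le_smul_of_le_jacobson_bot Module.Finite.fg_top
    (Ideal.span_le.2 (Set.singleton_subset_iff.2 hpJ)) h2
  refine h3.trans (Submodule.span_le.2 ?_)
  rintro _ ⟨⟨k, j⟩, rfl⟩
  show twlg_mon a k • b j ∈ _
  rw [twlg_mon_mod a (fun i => p ^ n i) ha k (b j)]
  exact Submodule.subset_span
    ⟨(fun i => ⟨k i % p ^ n i, Nat.mod_lt _ (pow_pos hp.out.pos _)⟩, j), rfl⟩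

/-- **a basis adapted to the coinvariants**: `M` free over `O[Δ]` (monomial `O`-basis for some
`b₀`), `c : M → C` surjective with kernel the augmentation submodule; then ANY family `b` lifting an
`O`-basis of `C` gives a monomial `O`-basis of `M`. -/
theorem twlg_basis_of_coinv (p : ℕ) [hp : Fact p.Prime] [Module.Finite O M]
    (hpJ : (p : O) ∈ Ideal.jacobson (⊥ : Ideal O)) (a : ι → 𝒜) (n : ι → ℕ)
    (ha : ∀ i (m : M), a i ^ p ^ n i • m = m) {J₀ J : Type*} [Finite J₀] [Finite J] (b₀ : J₀ → M)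
    (hli₀ : LinearIndependent O (fun kj : (∀ i, Fin (p ^ n i)) × J₀ =>
      (∏ i, a i ^ (kj.1 i : ℕ)) • b₀ kj.2))
    (hspan₀ : ⊤ ≤ Submodule.span O (Set.range fun kj : (∀ i, Fin (p ^ n i)) × J₀ =>
      (∏ i, a i ^ (kj.1 i : ℕ)) • b₀ kj.2))
    {C : Type*} [AddCommGroup C] [Module O C] (c : M →ₗ[O] C)
    (hker : LinearMap.ker c = twlg_augSub O (M := M) a)
    (b : J → M) (hbli : LinearIndependent O (c ∘ b))
    (hbspan : LinearMap.range c ≤ Submodule.span O (Set.range (c ∘ b))) :
    LinearIndependent O (fun kj : (∀ i, Fin (p ^ n i)) × J =>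
      (∏ i, a i ^ (kj.1 i : ℕ)) • b kj.2) ∧
    ⊤ ≤ Submodule.span O (Set.range fun kj : (∀ i, Fin (p ^ n i)) × J =>
      (∏ i, a i ^ (kj.1 i : ℕ)) • b kj.2) := by
  classical
  have := Fintype.ofFinite J
  have := Fintype.ofFinite J₀
  have hb : ⊤ ≤ Submodule.span O (Set.range b) ⊔ twlg_augSub O (M := M) a := by
    intro m _
    have h1 : c m ∈ Submodule.span O (Set.range (c ∘ b)) := hbspan ⟨m, rfl⟩
    rw [Set.range_comp, ← Submodule.map_span] at h1
    obtain ⟨m', hm', hcm'⟩ := h1
    have h2 : m - m' ∈ LinearMap.ker c := by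
      rw [LinearMap.mem_ker, map_sub, hcm', sub_self]
    rw [hker] at h2
    have : m = m' + (m - m') := by abel
    rw [this]
    exact Submodule.add_mem_sup hm' h2
  have hs := twlg_span_of_coinv p hpJ a n ha b hb
  refine ⟨?_, hs⟩
  rcases subsingleton_or_nontrivial O with h | h
  · exact linearIndependent_of_subsingleton
  · apply linearIndependent_of_top_le_span_of_card_le_finrank hs
    rw [Module.finrank_eq_card_basis (Module.Basis.mk hli₀ hspan₀), Fintype.card_prod,
      Fintype.card_prod]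
    apply Nat.mul_le_mul_left
    -- `C' = range c` is spanned by the `c (b₀ j)`
    have hcmon : ∀ (k : ι → ℕ) (m : M), c ((∏ i, a i ^ k i) • m) = c m := by
      intro k m
      have h1 : (∏ i, a i ^ k i) • m - m ∈ LinearMap.ker c := by
        rw [hker]
        have := twlg_prod_sub_one_mem (O := O) a k Finset.univ m
        rwa [sub_smul, one_smul] at this
      rw [LinearMap.mem_ker, map_sub, sub_eq_zero] at h1
      exact h1
    have hrange : LinearMap.range c ≤
        Submodule.span O ((Finset.univ.image (c ∘ b₀) : Finset C) : Set C) := by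
      rintro _ ⟨m, rfl⟩
      have hm := hspan₀ (Submodule.mem_top (x := m))
      refine Submodule.span_induction (p := fun m _ => c m ∈
        Submodule.span O ((Finset.univ.image (c ∘ b₀) : Finset C) : Set C)) ?_ ?_ ?_ ?_ hm
      · rintro _ ⟨⟨k, j⟩, rfl⟩
        rw [hcmon]
        apply Submodule.subset_span
        simp
      · simp
      · intro x y _ _ hx hy
        rw [map_add]
        exact Submodule.add_mem _ hx hy
      · intro r x _ hx
        rw [map_smul]
        exact Submodule.smul_mem _ _ hx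
    have hle : Set.range (c ∘ b) ≤
        Submodule.span O ((Finset.univ.image (c ∘ b₀) : Finset C) : Set C) := by
      rintro _ ⟨j, rfl⟩
      exact hrange ⟨b j, rfl⟩
    have h4 : Fintype.card J ≤ (Finset.univ.image (c ∘ b₀) : Finset C).card := by
      simpa only [Finset.coe_sort_coe, Fintype.card_coe] using
        linearIndependent_le_span_aux' (c ∘ b) hbli
          ((Finset.univ.image (c ∘ b₀) : Finset C) : Set C) hle
    exact h4.trans Finset.card_image_le

end Coinv

section CoinvSeam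

universe uM

variable {O : Type*} {M : Type uM} [CommRing O] [AddCommGroup M] [Module O M]
variable {ι : Type*} [Fintype ι] [DecidableEq ι]

/-- the augmentation submodule of a `O[∏ ℤ/P i]`-module is generated by the chosen generators. -/
theorem twlg_aug_eq (P : ι → ℕ) [∀ i, NeZero (P i)]
    [Module (MonoidAlgebra O (Multiplicative (∀ i, ZMod (P i)))) M]
    [IsScalarTower O (MonoidAlgebra O (Multiplicative (∀ i, ZMod (P i)))) M] :
    Submodule.span O {x : M | ∃ (δ : Multiplicative (∀ i, ZMod (P i))) (m : M),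
      x = MonoidAlgebra.of O (Multiplicative (∀ i, ZMod (P i))) δ • m - m} =
    twlg_augSub O (M := M)
      (fun i => MonoidAlgebra.of O (Multiplicative (∀ i, ZMod (P i))) (twlg_gen P i)) := by
  apply le_antisymm
  · rw [Submodule.span_le]
    rintro _ ⟨δ, m, rfl⟩
    have hδ : δ = ∏ i, twlg_gen P i ^ (((twlg_expEquiv P).symm δ) i : ℕ) := by
      rw [twlg_prod_gen, Equiv.apply_symm_apply]
    have h1 := twlg_prod_sub_one_mem (O := O) (M := M)
      (fun i => MonoidAlgebra.of O (Multiplicative (∀ i, ZMod (P i))) (twlg_gen P i))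
      (fun i => (((twlg_expEquiv P).symm δ) i : ℕ)) Finset.univ m
    have h2 : MonoidAlgebra.of O (Multiplicative (∀ i, ZMod (P i))) δ =
        ∏ i, MonoidAlgebra.of O (Multiplicative (∀ i, ZMod (P i))) (twlg_gen P i) ^
          (((twlg_expEquiv P).symm δ) i : ℕ) := by
      conv_lhs => rw [hδ]
      rw [map_prod]
      simp only [map_pow]
    rw [SetLike.mem_coe, h2]
    rwa [sub_smul, one_smul] at h1
  · unfold twlg_augSub
    refine iSup_le fun i => ?_
    rintro _ ⟨m, rfl⟩
    rw [twlg_mulO_apply, sub_smul, one_smul]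
    exact Submodule.subset_span ⟨twlg_gen P i, m, rfl⟩

/-- **seam form of `twlg_basis_of_coinv`** (`twe_Level.c`, `c_ker` of `TW/Aut/Seams.lean`):
for `M` finite free over `O[Δ]`, `Δ = ∏ ℤ/P i`, `P i = p ^ n i`, and `c : M → C` with kernel the
augmentation submodule, ANY family `b` lifting an `O`-basis of `range c` gives the monomial
`O`-basis of `M` for the diamond generators. -/
theorem twlg_basis_of_coinv_monoidAlgebra (p : ℕ) [hp : Fact p.Prime] (P : ι → ℕ)
    [∀ i, NeZero (P i)] (n : ι → ℕ) (hP : ∀ i, P i = p ^ n i)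
    [Module (MonoidAlgebra O (Multiplicative (∀ i, ZMod (P i)))) M]
    [IsScalarTower O (MonoidAlgebra O (Multiplicative (∀ i, ZMod (P i)))) M]
    [Module.Finite (MonoidAlgebra O (Multiplicative (∀ i, ZMod (P i)))) M]
    [Module.Free (MonoidAlgebra O (Multiplicative (∀ i, ZMod (P i)))) M]
    (hpJ : (p : O) ∈ Ideal.jacobson (⊥ : Ideal O))
    {C : Type*} [AddCommGroup C] [Module O C] (c : M →ₗ[O] C)
    (hker : LinearMap.ker c = Submodule.span O
      {x : M | ∃ (δ : Multiplicative (∀ i, ZMod (P i))) (m : M),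
        x = MonoidAlgebra.of O (Multiplicative (∀ i, ZMod (P i))) δ • m - m})
    {J : Type*} [Finite J] (b : J → M) (hbli : LinearIndependent O (c ∘ b))
    (hbspan : LinearMap.range c ≤ Submodule.span O (Set.range (c ∘ b))) :
    LinearIndependent O (fun kj : (∀ i, Fin (P i)) × J =>
      (∏ i, MonoidAlgebra.of O (Multiplicative (∀ i, ZMod (P i))) (twlg_gen P i) ^ (kj.1 i : ℕ))
        • b kj.2) ∧
    ⊤ ≤ Submodule.span O (Set.range fun kj : (∀ i, Fin (P i)) × J =>
      (∏ i, MonoidAlgebra.of O (Multiplicative (∀ i, ZMod (P i))) (twlg_gen P i) ^ (kj.1 i : ℕ))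
        • b kj.2) := by
  classical
  obtain rfl : P = fun i => p ^ n i := funext hP
  set B := Module.Free.chooseBasis (MonoidAlgebra O (Multiplicative (∀ i, ZMod (p ^ n i)))) M
    with hB
  have hfin : Fintype (Module.Free.ChooseBasisIndex
      (MonoidAlgebra O (Multiplicative (∀ i, ZMod (p ^ n i)))) M) :=
    Module.Free.ChooseBasisIndex.fintype _ _
  obtain ⟨hli₀, hspan₀⟩ := twlg_mon_of_basis (O := O) (fun i => p ^ n i) B
  have : Module.Finite O M :=
    Module.Finite.of_basis
      ((MonoidAlgebra.basis (Multiplicative (∀ i, ZMod (p ^ n i))) O).smulTower B)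
  have ha : ∀ i (m : M),
      MonoidAlgebra.of O (Multiplicative (∀ i, ZMod (p ^ n i))) (twlg_gen (fun i => p ^ n i) i) ^
        p ^ n i • m = m := by
    intro i m
    rw [← map_pow, twlg_gen_pow (fun i => p ^ n i) i, map_one, one_smul]
  rw [twlg_aug_eq (O := O) (M := M) (fun i => p ^ n i)] at hker
  exact twlg_basis_of_coinv (O := O)
    (𝒜 := MonoidAlgebra O (Multiplicative (∀ i, ZMod (p ^ n i)))) (M := M) p hpJ
    (fun i => MonoidAlgebra.of O (Multiplicative (∀ i, ZMod (p ^ n i)))
      (twlg_gen (fun i => p ^ n i) i)) n ha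
    (J₀ := Module.Free.ChooseBasisIndex
      (MonoidAlgebra O (Multiplicative (∀ i, ZMod (p ^ n i)))) M) B hli₀ hspan₀ c hker b hbli hbspan

end CoinvSeam

section CBar

variable {O 𝒰 M C : Type*} [CommRing O] [CommRing 𝒰] [Algebra O 𝒰] [AddCommGroup M] [Module O M]
  [Module 𝒰 M] [IsScalarTower O 𝒰 M] [AddCommGroup C] [Module O C]
variable {ι : Type*}

/-- a map killing all `(u i - 1) M` kills the level submodule. -/
theorem twlg_levelSub_le_ker (u : ι → 𝒰) (P' : ι → ℕ) (c : M →ₗ[O] C)
    (hc : ∀ i (m : M), c ((u i - 1) • m) = 0) :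
    (twlg_levelSub M u P').restrictScalars O ≤ LinearMap.ker c := by
  have c2 : ∀ r ∈ twlg_levelIdeal u P', ∀ m : M, c (r • m) = 0 := by
    intro r hr
    refine Submodule.span_induction (p := fun r _ => ∀ m : M, c (r • m) = 0) ?_ ?_ ?_ ?_ hr
    · rintro _ ⟨i, rfl⟩ m
      have e : u i ^ P' i - 1 = (u i - 1) * ∑ j ∈ range (P' i), u i ^ j := by
        rw [mul_geom_sum]
      show c ((u i ^ P' i - 1) • m) = 0
      rw [e, mul_smul]
      exact hc i _
    · intro m
      simp
    · intro x y _ _ hx hy m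
      rw [add_smul, map_add, hx, hy, add_zero]
    · intro a x _ hx m
      rw [smul_eq_mul, mul_comm, mul_smul]
      exact hx _
  intro x hx
  rw [LinearMap.mem_ker]
  have hx' : x ∈ twlg_levelIdeal u P' • (⊤ : Submodule 𝒰 M) := hx
  refine Submodule.smul_induction_on hx' (fun r hr n _ => c2 r hr n) ?_
  intro x y hx hy
  rw [map_add, hx, hy, add_zero]

/-- the coinvariant map on the level quotient. -/
noncomputable def twlg_cbar (u : ι → 𝒰) (P' : ι → ℕ) (c : M →ₗ[O] C)
    (hc : ∀ i (m : M), c ((u i - 1) • m) = 0) : (M ⧸ twlg_levelSub M u P') →ₗ[O] C :=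
  (((twlg_levelSub M u P').restrictScalars O).liftQ c (twlg_levelSub_le_ker u P' c hc)) ∘ₗ
    (Submodule.Quotient.restrictScalarsEquiv O (twlg_levelSub M u P')).symm.toLinearMap

@[simp] theorem twlg_cbar_mk (u : ι → 𝒰) (P' : ι → ℕ) (c : M →ₗ[O] C)
    (hc : ∀ i (m : M), c ((u i - 1) • m) = 0) (m : M) :
    twlg_cbar u P' c hc (Submodule.Quotient.mk m) = c m := rfl

end CBar

end Fermat.Agent.TW
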