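/-
Project ONE MACHINE (S43), block [A] LG, cell A3-TRANSFER (helper2; prefix `twlg_tr_`).

Two `GaloisRepAdic O` (`O` a noetherian local ring) whose characteristic polynomials agree at the
Frobenius elements outside a finite set `S` have equal characteristic polynomials at EVERY `σ`
(weak Chebotarev `Fermat.Agent.WC.wc_main` + adic continuity; no Brauer–Nesbitt, no isomorphism).
Hence every condition on the characteristic polynomials of inertia elements transfers:

* `twlg_tr_trace_pow`        : `tr(f^(k+2)) = tr f · tr(f^(k+1)) - det f · tr(f^k)` in rank two;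
* `twlg_tr_trace_det_pow_eq` : equal trace and determinant ⟹ the same for all powers;
* `twlg_tr_charpoly_eq`      : **the transfer of characteristic polynomials**;
* `twlg_tr_unip_iff`         : `IsUnipotentOnInertiaAt q` transfers;
* `twlg_tr_not_unip`         : the form consumed by A4 (from the `ρ'` of `twlg_if_main` to any `ρ`
                               with the same Frobenius characteristic polynomials).
-/
import Mathlib
import Fermat.Prelude.Def_GaloisRep_Adic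
import Fermat.Prelude.Def_GaloisRep_LocalConditions
import Fermat.Agent.WC.Final
import Fermat.Agent.SS.Transfer

set_option autoImplicit false
set_option linter.unusedSectionVars false
set_option linter.unusedVariables false
set_option linter.style.haveILetI false

noncomputable section

namespace Fermat.Agent.TW

open IsLocalRing Polynomial Fermat.Agent.JT3 Fermat.Agent.SS

local notation "GQ" => (AlgebraicClosure ℚ ≃ₐ[ℚ] AlgebraicClosure ℚ)
local notation "Qbar" => AlgebraicClosure ℚ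

/-- Instance-path repair (as in JT3/Algebra/GoodClosure.lean). -/
local instance twlg_tr_qbarIsAlgebraic : Algebra.IsAlgebraic ℚ (AlgebraicClosure ℚ) :=
  AlgebraicClosure.isAlgebraic ℚ

local instance twlg_tr_qbarIsAlgClosure : IsAlgClosure ℚ (AlgebraicClosure ℚ) :=
  ⟨inferInstance, inferInstance⟩

/-! ### rank two linear algebra -/

section linalg

variable {T : Type*} [CommRing T] [Nontrivial T] {V : Type*} [AddCommGroup V] [Module T V]
  [Module.Free T V] [Module.Finite T V]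

/-- Cayley–Hamilton in rank two. -/
theorem twlg_tr_cayley (h2 : Module.finrank T V = 2) (f : Module.End T V) :
    f * f = LinearMap.trace T V f • f - LinearMap.det f • (1 : Module.End T V) := by
  have h := LinearMap.aeval_self_charpoly f
  rw [sst_charpoly_rank_two h2 f] at h
  simp only [map_add, map_sub, map_mul, map_pow, aeval_X, aeval_C, Algebra.algebraMap_eq_smul_one]
    at h
  rw [sq, smul_mul_assoc, one_mul] at h
  rw [← sub_eq_zero, ← h]
  abel

/-- the recursion of the traces of the powers in rank two. -/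
theorem twlg_tr_trace_pow (h2 : Module.finrank T V = 2) (f : Module.End T V) (k : ℕ) :
    LinearMap.trace T V (f ^ (k + 2)) =
      LinearMap.trace T V f * LinearMap.trace T V (f ^ (k + 1)) -
        LinearMap.det f * LinearMap.trace T V (f ^ k) := by
  have h : f ^ (k + 2) = LinearMap.trace T V f • f ^ (k + 1) - LinearMap.det f • f ^ k := by
    rw [pow_add, pow_two, twlg_tr_cayley h2 f, mul_sub, mul_smul_comm, mul_smul_comm, mul_one,
      ← pow_succ]
  rw [h, map_sub, map_smul, map_smul, smul_eq_mul, smul_eq_mul]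

end linalg

/-- equal trace and determinant in rank two ⟹ equal trace and determinant of all powers. -/
theorem twlg_tr_trace_det_pow_eq {T : Type*} [CommRing T] [Nontrivial T]
    {V V' : Type*} [AddCommGroup V] [Module T V] [Module.Free T V] [Module.Finite T V]
    [AddCommGroup V'] [Module T V'] [Module.Free T V'] [Module.Finite T V']
    (h2 : Module.finrank T V = 2) (h2' : Module.finrank T V' = 2)
    (f : Module.End T V) (f' : Module.End T V')
    (ht : LinearMap.trace T V f = LinearMap.trace T V' f')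
    (hd : LinearMap.det f = LinearMap.det f') (k : ℕ) :
    LinearMap.trace T V (f ^ k) = LinearMap.trace T V' (f' ^ k) ∧
      LinearMap.det (f ^ k) = LinearMap.det (f' ^ k) := by
  refine ⟨?_, by rw [map_pow, map_pow, hd]⟩
  have key : ∀ k, LinearMap.trace T V (f ^ k) = LinearMap.trace T V' (f' ^ k) ∧
      LinearMap.trace T V (f ^ (k + 1)) = LinearMap.trace T V' (f' ^ (k + 1)) := by
    intro k
    induction k with
    | zero =>
      refine ⟨?_, by rw [zero_add, pow_one, pow_one, ht]⟩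
      rw [pow_zero, pow_zero, LinearMap.trace_one, LinearMap.trace_one, h2, h2']
    | succ k ih =>
      refine ⟨ih.2, ?_⟩
      rw [twlg_tr_trace_pow h2 f k, twlg_tr_trace_pow h2' f' k, ht, hd, ih.1, ih.2]
  exact (key k).1

/-- the trace of an endomorphism which is small modulo `I` lies in `I`. -/
theorem twlg_tr_trace_mem {T : Type*} [CommRing T] {V : Type*} [AddCommGroup V] [Module T V]
    [Module.Free T V] [Module.Finite T V] (I : Ideal T) (f : Module.End T V)
    (h : gcl_Small I f) : LinearMap.trace T V f ∈ I := by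
  classical
  let b := Module.Free.chooseBasis T V
  rw [LinearMap.trace_eq_matrix_trace T b f, Matrix.trace]
  refine Ideal.sum_mem _ fun i _ => ?_
  rw [Matrix.diag_apply, LinearMap.toMatrix_apply]
  exact ur_ar_coord_mem b I (h (b i)) i

/-! ### the transfer -/

section main

variable {O : Type} [CommRing O] [IsLocalRing O] [IsNoetherianRing O]

/-- trace and determinant of `ρ(σ)` are determined modulo `𝔪 ^ n` by those of a power of a
Frobenius element. -/
theorem twlg_tr_approx (ρ : GaloisRepAdic O) (S : Finset ℕ) (σ : GQ) (n : ℕ)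
    (L₀ : IntermediateField ℚ Qbar) (hL₀ : FiniteDimensional ℚ L₀) :
    ∃ (ℓ : ℕ) (A : ValuationSubring Qbar) (φ : GQ) (k : ℕ), ℓ.Prime ∧ ℓ ∉ S ∧
      A.LiesOverPrime ℓ ∧ A.IsFrobeniusAt φ ℓ ∧ (∀ x ∈ L₀, (φ ^ k) x = σ x) ∧
      LinearMap.trace O ρ.V (ρ.ρ φ ^ k) - LinearMap.trace O ρ.V (ρ.ρ σ) ∈ maximalIdeal O ^ n ∧
      LinearMap.det (ρ.ρ φ ^ k) - LinearMap.det (ρ.ρ σ) ∈ maximalIdeal O ^ n := by
  obtain ⟨L₁, hL₁, h₁⟩ := ρ.isAdicContinuous n
  haveI := hL₁
  haveI := hL₀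
  haveI : FiniteDimensional ℚ ↥(L₁ ⊔ L₀) := IntermediateField.finiteDimensional_sup L₁ L₀
  haveI : Normal ℚ Qbar := IsAlgClosure.normal ℚ Qbar
  let L : IntermediateField ℚ Qbar := IntermediateField.normalClosure ℚ ↥(L₁ ⊔ L₀) Qbar
  haveI : FiniteDimensional ℚ L := normalClosure.is_finiteDimensional ℚ _ Qbar
  haveI : Normal ℚ L := normalClosure.normal ℚ _ Qbar
  have hle : L₁ ⊔ L₀ ≤ L := IntermediateField.le_normalClosure _
  obtain ⟨ℓ, A, φ, k, hℓ, hℓS, hA, hφ, hk⟩ := Fermat.Agent.WC.wc_main L S σ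
  refine ⟨ℓ, A, φ, k, hℓ, hℓS, hA, hφ,
    fun x hx => hk x (hle (le_sup_right (a := L₁) (b := L₀) hx)), ?_⟩
  set τ : GQ := σ⁻¹ * φ ^ k with hτdef
  have hτ : ∀ x ∈ L, τ x = x := by
    intro x hx
    rw [hτdef, AlgEquiv.mul_apply, hk x hx]
    exact σ.symm_apply_apply x
  have hφk : φ ^ k = σ * τ := by rw [hτdef, mul_inv_cancel_left]
  have hE : gcl_Small (maximalIdeal O ^ n) (ρ.ρ τ - 1) := fun v => by
    simpa using h₁ τ (fun x hx => hτ x (hle (le_sup_left (a := L₁) (b := L₀) hx))) v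
  have hYeq : ρ.ρ φ ^ k = ρ.ρ σ + ρ.ρ σ * (ρ.ρ τ - 1) := by
    rw [← map_pow, hφk, map_mul, mul_sub, mul_one]; abel
  refine ⟨?_, ?_⟩
  · rw [hYeq, map_add, add_sub_cancel_left]
    exact twlg_tr_trace_mem _ _ (hE.mul_left (ρ.ρ σ))
  · have hdet : LinearMap.det (ρ.ρ φ ^ k) = LinearMap.det (ρ.ρ σ) * LinearMap.det (ρ.ρ τ) := by
      rw [← map_pow, hφk, map_mul, map_mul]
    rw [hdet, ← mul_sub_one]
    exact Ideal.mul_mem_left _ _ (sst_det_sub_one_mem _ _ hE)

/-- **The transfer of characteristic polynomials.** -/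
theorem twlg_tr_charpoly_eq (ρ₁ ρ₂ : GaloisRepAdic O) (S : Finset ℕ)
    (hfrob : ∀ ℓ : ℕ, ℓ.Prime → ℓ ∉ S → ∀ A : ValuationSubring Qbar, A.LiesOverPrime ℓ →
      ∀ φ : GQ, A.IsFrobeniusAt φ ℓ →
        LinearMap.charpoly (ρ₁.ρ φ) = LinearMap.charpoly (ρ₂.ρ φ))
    (σ : GQ) : LinearMap.charpoly (ρ₁.ρ σ) = LinearMap.charpoly (ρ₂.ρ σ) := by
  have hne : maximalIdeal O ≠ ⊤ := Ideal.IsPrime.ne_top'
  have hkrull : ∀ x : O, (∀ n, x ∈ maximalIdeal O ^ n) → x = 0 := by
    intro x hx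
    have h1 : x ∈ ⨅ n, maximalIdeal O ^ n := by
      rw [Ideal.mem_iInf]; exact hx
    rw [Ideal.iInf_pow_eq_bot_of_isLocalRing _ hne] at h1
    exact h1
  -- trace and determinant agree at the Frobenius elements
  have hF : ∀ ℓ : ℕ, ℓ.Prime → ℓ ∉ S → ∀ A : ValuationSubring Qbar, A.LiesOverPrime ℓ →
      ∀ φ : GQ, A.IsFrobeniusAt φ ℓ →
        LinearMap.trace O ρ₁.V (ρ₁.ρ φ) = LinearMap.trace O ρ₂.V (ρ₂.ρ φ) ∧
          LinearMap.det (ρ₁.ρ φ) = LinearMap.det (ρ₂.ρ φ) := by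
    intro ℓ hℓ hℓS A hA φ hφ
    have h := hfrob ℓ hℓ hℓS A hA φ hφ
    rw [sst_charpoly_rank_two ρ₁.finrank_eq, sst_charpoly_rank_two ρ₂.finrank_eq] at h
    have h1 := congrArg (fun P : O[X] => P.coeff 1) h
    have h0 := congrArg (fun P : O[X] => P.coeff 0) h
    simp only [coeff_add, coeff_sub, coeff_X_pow, coeff_C_mul, coeff_X_one, coeff_C,
      coeff_X_zero] at h1 h0
    constructor
    · simpa using h1
    · simpa using h0
  have hmain : ∀ n : ℕ,
      LinearMap.trace O ρ₁.V (ρ₁.ρ σ) - LinearMap.trace O ρ₂.V (ρ₂.ρ σ) ∈ maximalIdeal O ^ n ∧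
        LinearMap.det (ρ₁.ρ σ) - LinearMap.det (ρ₂.ρ σ) ∈ maximalIdeal O ^ n := by
    intro n
    obtain ⟨L₂, hL₂, h₂⟩ := ρ₂.isAdicContinuous n
    obtain ⟨ℓ, A, φ, k, hℓ, hℓS, hA, hφ, hk, ht1, hd1⟩ := twlg_tr_approx ρ₁ S σ n L₂ hL₂
    -- the same `φ ^ k` approximates `σ` for `ρ₂`
    set τ : GQ := σ⁻¹ * φ ^ k with hτdef
    have hτ : ∀ x ∈ L₂, τ x = x := by
      intro x hx
      rw [hτdef, AlgEquiv.mul_apply, hk x hx]
      exact σ.symm_apply_apply x
    have hφk : φ ^ k = σ * τ := by rw [hτdef, mul_inv_cancel_left]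
    have hE : gcl_Small (maximalIdeal O ^ n) (ρ₂.ρ τ - 1) := fun v => by
      simpa using h₂ τ hτ v
    have hYeq : ρ₂.ρ φ ^ k = ρ₂.ρ σ + ρ₂.ρ σ * (ρ₂.ρ τ - 1) := by
      rw [← map_pow, hφk, map_mul, mul_sub, mul_one]; abel
    have ht2 : LinearMap.trace O ρ₂.V (ρ₂.ρ φ ^ k) - LinearMap.trace O ρ₂.V (ρ₂.ρ σ) ∈
        maximalIdeal O ^ n := by
      rw [hYeq, map_add, add_sub_cancel_left]
      exact twlg_tr_trace_mem _ _ (hE.mul_left (ρ₂.ρ σ))
    have hd2 : LinearMap.det (ρ₂.ρ φ ^ k) - LinearMap.det (ρ₂.ρ σ) ∈ maximalIdeal O ^ n := by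
      have hdet : LinearMap.det (ρ₂.ρ φ ^ k) =
          LinearMap.det (ρ₂.ρ σ) * LinearMap.det (ρ₂.ρ τ) := by
        rw [← map_pow, hφk, map_mul, map_mul]
      rw [hdet, ← mul_sub_one]
      exact Ideal.mul_mem_left _ _ (sst_det_sub_one_mem _ _ hE)
    obtain ⟨htφ, hdφ⟩ := hF ℓ hℓ hℓS A hA φ hφ
    obtain ⟨hpt, hpd⟩ := twlg_tr_trace_det_pow_eq ρ₁.finrank_eq ρ₂.finrank_eq (ρ₁.ρ φ) (ρ₂.ρ φ)
      htφ hdφ k
    refine ⟨?_, ?_⟩
    · have e : LinearMap.trace O ρ₁.V (ρ₁.ρ σ) - LinearMap.trace O ρ₂.V (ρ₂.ρ σ) =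
          (LinearMap.trace O ρ₂.V (ρ₂.ρ φ ^ k) - LinearMap.trace O ρ₂.V (ρ₂.ρ σ)) -
            (LinearMap.trace O ρ₁.V (ρ₁.ρ φ ^ k) - LinearMap.trace O ρ₁.V (ρ₁.ρ σ)) := by
        rw [hpt]; ring
      rw [e]
      exact Ideal.sub_mem _ ht2 ht1
    · have e : LinearMap.det (ρ₁.ρ σ) - LinearMap.det (ρ₂.ρ σ) =
          (LinearMap.det (ρ₂.ρ φ ^ k) - LinearMap.det (ρ₂.ρ σ)) -
            (LinearMap.det (ρ₁.ρ φ ^ k) - LinearMap.det (ρ₁.ρ σ)) := by
        rw [hpd]; ring
      rw [e]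
      exact Ideal.sub_mem _ hd2 hd1
  rw [sst_charpoly_rank_two ρ₁.finrank_eq, sst_charpoly_rank_two ρ₂.finrank_eq,
    sub_eq_zero.1 (hkrull _ fun n => (hmain n).1), sub_eq_zero.1 (hkrull _ fun n => (hmain n).2)]

/-- `IsUnipotentOnInertiaAt q` only depends on the Frobenius characteristic polynomials. -/
theorem twlg_tr_unip_iff (ρ₁ ρ₂ : GaloisRepAdic O) (S : Finset ℕ)
    (hfrob : ∀ ℓ : ℕ, ℓ.Prime → ℓ ∉ S → ∀ A : ValuationSubring Qbar, A.LiesOverPrime ℓ →
      ∀ φ : GQ, A.IsFrobeniusAt φ ℓ →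
        LinearMap.charpoly (ρ₁.ρ φ) = LinearMap.charpoly (ρ₂.ρ φ))
    (q : ℕ) : ρ₁.IsUnipotentOnInertiaAt q ↔ ρ₂.IsUnipotentOnInertiaAt q := by
  constructor
  · intro h P hP σ hσ
    rw [← twlg_tr_charpoly_eq ρ₁ ρ₂ S hfrob σ]
    exact h P hP σ hσ
  · intro h P hP σ hσ
    rw [twlg_tr_charpoly_eq ρ₁ ρ₂ S hfrob σ]
    exact h P hP σ hσ

end main

end Fermat.Agent.TW
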