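import Mathlib
import Fermat.Agent.JT3.T2.ParEll

/-!
# TW / [A] / A3-BR: the two transfers `Γ₀(N) → Γ₀(N t)` for a prime `t ∣ N` (prefix `twlg_gd_`)

* `twlg_gd_Tr G H X` : a right action of `G` on `X` with an `H`-valued cocycle;
  `twlg_gd_ver D : (H →* M) →* (G →* M)`, `χ ↦ (g ↦ ∏ₓ χ (coc x g))` (the transfer/Verlagerung on
  characters); `twlg_gd_ver_eq_one` (orbit argument).
* (ALPHA) `twlg_gd_trA N t htN` : `X = ZMod t`, representatives `γ_k = [1 0; N k 1]` of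
  `Γ₀(N t) \ Γ₀(N)`, `γ_k g = coc_A k g · γ_{k ⋆ g}`, `k ⋆ g = A² k + A (C / N)`.
* (BETA) `twlg_gd_trB N t htN` : `X = ZMod t`, representatives `δ_j = [1 j; 0 t]` (the prelude's
  `heckeMatrix t j`), `δ_j g = coc_B j g · δ_{j ⋆ g}`, `j ⋆ g = D (B + D j)` (the prelude's
  `affinePerm`).
* both transfers kill the parabolic and elliptic elements: `twlg_gd_verA_parEll`,
  `twlg_gd_verB_parEll`, `twlg_gd_verA_mem_gw_X`, `twlg_gd_verB_mem_gw_X`;
* the additive descents `twlg_gd_VA`, `twlg_gd_VB : gh_H N →+ gh_H (N * t)`.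
-/

set_option autoImplicit false
set_option linter.unusedSectionVars false

noncomputable section

open CongruenceSubgroup Matrix.SpecialLinearGroup Function ModularForm
open P2MW.S_ModularForm_heckeT_slash_eq_self_of_mem_Gamma0.ModularForm.HeckeSlashInvariance
open scoped MatrixGroups

namespace Fermat.Agent.TW

open Fermat.Agent.JT3

/-! ### abstract transfer data -/

/-- a right action of `G` on `X` together with an `H`-valued cocycle -/
structure twlg_gd_Tr (G H X : Type*) [Group G] [Group H] where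
  /-- the right action -/
  act : G → X → X
  act_one : ∀ x, act 1 x = x
  act_mul : ∀ g h x, act (g * h) x = act h (act g x)
  /-- the cocycle -/
  coc : X → G → H
  coc_one : ∀ x, coc x 1 = 1
  coc_mul : ∀ x g h, coc x (g * h) = coc x g * coc (act g x) h

section abstract

variable {G H X : Type*} [Group G] [Group H] (D : twlg_gd_Tr G H X)

/-- `x ↦ x ⋆ g` as a permutation -/
def twlg_gd_perm (g : G) : Equiv.Perm X where
  toFun := D.act g
  invFun := D.act g⁻¹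
  left_inv x := by rw [← D.act_mul, mul_inv_cancel, D.act_one]
  right_inv x := by rw [← D.act_mul, inv_mul_cancel, D.act_one]

theorem twlg_gd_perm_apply (g : G) (x : X) : twlg_gd_perm D g x = D.act g x := rfl

theorem twlg_gd_perm_pow (g : G) (i : ℕ) (x : X) :
    ((twlg_gd_perm D g) ^ i) x = D.act (g ^ i) x := by
  induction i with
  | zero => simp [D.act_one]
  | succ i ih =>
    rw [pow_succ', Equiv.Perm.mul_apply, ih, twlg_gd_perm_apply, ← D.act_mul, ← pow_succ]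

variable {M : Type*} [CommMonoid M]

theorem twlg_gd_coc_pow (χ : H →* M) (x : X) (g : G) (r : ℕ) :
    χ (D.coc x (g ^ r)) = ∏ i ∈ Finset.range r, χ (D.coc (((twlg_gd_perm D g) ^ i) x) g) := by
  induction r with
  | zero => simp [D.coc_one]
  | succ r ih =>
    rw [pow_succ, D.coc_mul, map_mul, ih, Finset.prod_range_succ, twlg_gd_perm_pow]

variable [Fintype X]

/-- the transfer of a character: `(Ver χ)(g) = ∏ₓ χ (coc x g)` -/
def twlg_gd_verFun (χ : H →* M) : G →* M where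
  toFun g := ∏ x : X, χ (D.coc x g)
  map_one' := by simp [D.coc_one]
  map_mul' g h := by
    simp only [D.coc_mul, map_mul, Finset.prod_mul_distrib]
    congr 1
    exact Equiv.prod_comp (twlg_gd_perm D g) fun x => χ (D.coc x h)

/-- the transfer, multiplicative in the character -/
def twlg_gd_ver : (H →* M) →* (G →* M) where
  toFun := twlg_gd_verFun D
  map_one' := by
    ext g
    simp [twlg_gd_verFun]
  map_mul' χ χ' := by
    ext g
    simp [twlg_gd_verFun, Finset.prod_mul_distrib]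

theorem twlg_gd_ver_apply (χ : H →* M) (g : G) :
    twlg_gd_ver D χ g = ∏ x : X, χ (D.coc x g) := rfl

/-- naturality in the target -/
theorem twlg_gd_ver_comp {M' : Type*} [CommMonoid M'] (φ : M →* M') (χ : H →* M) :
    twlg_gd_ver D (φ.comp χ) = φ.comp (twlg_gd_ver D χ) := by
  ext g
  simp [twlg_gd_ver_apply, map_prod]

/-- the orbit argument: `Ver χ` kills `g` as soon as `χ` kills the cocycles `coc x (g ^ r)` at the
fixed points `x` of `g ^ r` -/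
theorem twlg_gd_ver_eq_one (χ : H →* M) (g : G)
    (h : ∀ (x : X) (r : ℕ), 0 < r → D.act (g ^ r) x = x → χ (D.coc x (g ^ r)) = 1) :
    twlg_gd_ver D χ g = 1 := by
  rw [twlg_gd_ver_apply]
  refine t2e_prod_eq_one_of_orbits (twlg_gd_perm D g) (fun x => χ (D.coc x g)) ?_
  intro x r hr hfix
  rw [← twlg_gd_coc_pow]
  exact h x r hr (by rw [← twlg_gd_perm_pow]; exact hfix)

end abstract

/-! ### generalities on `Γ₀` -/

section gamma0

variable {N t : ℕ}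

theorem twlg_gd_dvd_entry (htN : t ∣ N) (g : Gamma0 N) : (t : ℤ) ∣ (g : SL(2, ℤ)) 1 0 :=
  (Int.natCast_dvd_natCast.mpr htN).trans (t2c_dvd_of_mem g.2)

theorem twlg_gd_cast_entry (htN : t ∣ N) (g : Gamma0 N) :
    ((((g : SL(2, ℤ)) 1 0 : ℤ)) : ZMod t) = 0 :=
  (ZMod.intCast_zmod_eq_zero_iff_dvd _ _).mpr (twlg_gd_dvd_entry htN g)

theorem twlg_gd_unit (htN : t ∣ N) (g : Gamma0 N) :
    ((((g : SL(2, ℤ)) 0 0 : ℤ)) : ZMod t) * ((((g : SL(2, ℤ)) 1 1 : ℤ)) : ZMod t) = 1 :=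
  unit_of_apply_one_zero_eq_zero (g : SL(2, ℤ)) (twlg_gd_cast_entry htN g)

theorem twlg_gd_entry_eq (N : ℕ) [NeZero N] (g : Gamma0 N) :
    (g : SL(2, ℤ)) 1 0 = (N : ℤ) * ((g : SL(2, ℤ)) 1 0 / (N : ℤ)) := by
  rw [Int.mul_ediv_cancel' (t2c_dvd_of_mem g.2)]

theorem twlg_gd_mul_apply (g h : SL(2, ℤ)) (i j : Fin 2) :
    (g * h) i j = g i 0 * h 0 j + g i 1 * h 1 j := by
  rw [Matrix.SpecialLinearGroup.coe_mul, Matrix.mul_apply, Fin.sum_univ_two]

end gamma0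

/-! ### (ALPHA): the inclusion `Γ₀(N t) ≤ Γ₀(N)` -/

section alpha

variable (N t : ℕ) [NeZero N] [NeZero t]

/-- the representatives `γ_k = [1 0; N k 1]` of `Γ₀(N t) \ Γ₀(N)` -/
def twlg_gd_gamA (k : ZMod t) : SL(2, ℤ) :=
  ⟨!![1, 0; (N : ℤ) * (k.val : ℤ), 1], by simp [Matrix.det_fin_two]⟩

@[simp] theorem twlg_gd_gamA_00 (k : ZMod t) : twlg_gd_gamA N t k 0 0 = 1 := rfl
@[simp] theorem twlg_gd_gamA_01 (k : ZMod t) : twlg_gd_gamA N t k 0 1 = 0 := rfl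
@[simp] theorem twlg_gd_gamA_10 (k : ZMod t) :
    twlg_gd_gamA N t k 1 0 = (N : ℤ) * (k.val : ℤ) := rfl
@[simp] theorem twlg_gd_gamA_11 (k : ZMod t) : twlg_gd_gamA N t k 1 1 = 1 := rfl

/-- the right action of `Γ₀(N)` on `ZMod t`: `k ⋆ g = A² k + A (C / N)` -/
def twlg_gd_actA (g : Gamma0 N) (k : ZMod t) : ZMod t :=
  ((((g : SL(2, ℤ)) 0 0 : ℤ)) : ZMod t) ^ 2 * k +
    ((((g : SL(2, ℤ)) 0 0 : ℤ)) : ZMod t) * (((((g : SL(2, ℤ)) 1 0 / (N : ℤ) : ℤ))) : ZMod t)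

variable {N t}

theorem twlg_gd_actA_one (k : ZMod t) : twlg_gd_actA N t (1 : Gamma0 N) k = k := by
  unfold twlg_gd_actA
  simp

theorem twlg_gd_actA_mul (htN : t ∣ N) (g h : Gamma0 N) (k : ZMod t) :
    twlg_gd_actA N t (g * h) k = twlg_gd_actA N t h (twlg_gd_actA N t g k) := by
  unfold twlg_gd_actA
  have hg := twlg_gd_entry_eq N g
  have hh := twlg_gd_entry_eq N h
  have hu := twlg_gd_unit htN g
  have hN : ((N : ℕ) : ZMod t) = 0 := (ZMod.natCast_eq_zero_iff N t).mpr htN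
  set A := (g : SL(2, ℤ)) 0 0
  set B := (g : SL(2, ℤ)) 0 1
  set C₁ := (g : SL(2, ℤ)) 1 0 / (N : ℤ)
  set Dd := (g : SL(2, ℤ)) 1 1
  set A' := (h : SL(2, ℤ)) 0 0
  set C₁' := (h : SL(2, ℤ)) 1 0 / (N : ℤ)
  have e00 : ((g * h : Gamma0 N) : SL(2, ℤ)) 0 0 = A * A' + B * ((N : ℤ) * C₁') := by
    rw [Subgroup.coe_mul, twlg_gd_mul_apply, ← hh]
  have e10 : ((g * h : Gamma0 N) : SL(2, ℤ)) 1 0 / (N : ℤ) = C₁ * A' + Dd * C₁' := by
    rw [Subgroup.coe_mul, twlg_gd_mul_apply, hg, hh]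
    have hN0 : (N : ℤ) ≠ 0 := by exact_mod_cast NeZero.ne N
    rw [show (N : ℤ) * C₁ * A' + Dd * ((N : ℤ) * C₁') = (N : ℤ) * (C₁ * A' + Dd * C₁') by ring,
      Int.mul_ediv_cancel_left _ hN0]
  rw [e00, e10]
  push_cast
  rw [hN]
  linear_combination ((A' : ZMod t) * (C₁' : ZMod t)) * hu

variable (N t) in
/-- the cocycle `coc_A k g = γ_k g γ_{k ⋆ g}⁻¹`, as an explicit matrix -/
def twlg_gd_cocAmat (k : ZMod t) (g : Gamma0 N) : Matrix (Fin 2) (Fin 2) ℤ :=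
  !![(g : SL(2, ℤ)) 0 0 - (g : SL(2, ℤ)) 0 1 * ((N : ℤ) * ((twlg_gd_actA N t g k).val : ℤ)),
     (g : SL(2, ℤ)) 0 1;
     (N : ℤ) * (k.val : ℤ) * (g : SL(2, ℤ)) 0 0 + (g : SL(2, ℤ)) 1 0 -
       ((N : ℤ) * (k.val : ℤ) * (g : SL(2, ℤ)) 0 1 + (g : SL(2, ℤ)) 1 1) *
         ((N : ℤ) * ((twlg_gd_actA N t g k).val : ℤ)),
     (N : ℤ) * (k.val : ℤ) * (g : SL(2, ℤ)) 0 1 + (g : SL(2, ℤ)) 1 1]

theorem twlg_gd_cocAmat_det (k : ZMod t) (g : Gamma0 N) : (twlg_gd_cocAmat N t k g).det = 1 := by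
  rw [twlg_gd_cocAmat, Matrix.det_fin_two_of]
  linear_combination (det_eq (g : SL(2, ℤ)))

theorem twlg_gd_cocAmat_mem (htN : t ∣ N) (k : ZMod t) (g : Gamma0 N) :
    (⟨twlg_gd_cocAmat N t k g, twlg_gd_cocAmat_det k g⟩ : SL(2, ℤ)) ∈ Gamma0 (N * t) := by
  apply t2c_mem_of_dvd
  show ((N * t : ℕ) : ℤ) ∣ twlg_gd_cocAmat N t k g 1 0
  have hg := twlg_gd_entry_eq N g
  have hu := twlg_gd_unit htN g
  have hN : ((N : ℕ) : ZMod t) = 0 := (ZMod.natCast_eq_zero_iff N t).mpr htN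
  set A := (g : SL(2, ℤ)) 0 0
  set B := (g : SL(2, ℤ)) 0 1
  set C₁ := (g : SL(2, ℤ)) 1 0 / (N : ℤ)
  set Dd := (g : SL(2, ℤ)) 1 1
  have e : twlg_gd_cocAmat N t k g 1 0 = (N : ℤ) * ((k.val : ℤ) * A + C₁ -
      ((N : ℤ) * (k.val : ℤ) * B + Dd) * ((twlg_gd_actA N t g k).val : ℤ)) := by
    show (N : ℤ) * (k.val : ℤ) * A + (g : SL(2, ℤ)) 1 0 -
       ((N : ℤ) * (k.val : ℤ) * B + Dd) * ((N : ℤ) * ((twlg_gd_actA N t g k).val : ℤ)) = _
    rw [hg]
    ring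
  rw [e]
  push_cast
  apply mul_dvd_mul_left
  rw [← ZMod.intCast_zmod_eq_zero_iff_dvd]
  push_cast
  rw [ZMod.natCast_zmod_val, ZMod.natCast_zmod_val, hN]
  unfold twlg_gd_actA
  linear_combination (-((A : ZMod t) * (k : ZMod t)) - (C₁ : ZMod t)) * hu

variable (N t) in
/-- **the cocycle of (ALPHA)**: `coc_A k g = γ_k g γ_{k ⋆ g}⁻¹ ∈ Γ₀(N t)` -/
def twlg_gd_cocA (htN : t ∣ N) (k : ZMod t) (g : Gamma0 N) : Gamma0 (N * t) :=
  ⟨⟨twlg_gd_cocAmat N t k g, twlg_gd_cocAmat_det k g⟩, twlg_gd_cocAmat_mem htN k g⟩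

/-- `γ_k g = coc_A k g · γ_{k ⋆ g}` -/
theorem twlg_gd_cocA_spec (htN : t ∣ N) (k : ZMod t) (g : Gamma0 N) :
    twlg_gd_gamA N t k * (g : SL(2, ℤ)) =
      ((twlg_gd_cocA N t htN k g : Gamma0 (N * t)) : SL(2, ℤ)) *
        twlg_gd_gamA N t (twlg_gd_actA N t g k) := by
  ext i j
  rw [twlg_gd_mul_apply, twlg_gd_mul_apply]
  fin_cases i <;> fin_cases j <;>
    simp [twlg_gd_cocA, twlg_gd_cocAmat]

/-- uniqueness of the cocycle -/
theorem twlg_gd_cocA_unique (htN : t ∣ N) (k : ZMod t) (g : Gamma0 N) (c : SL(2, ℤ))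
    (h : twlg_gd_gamA N t k * (g : SL(2, ℤ)) = c * twlg_gd_gamA N t (twlg_gd_actA N t g k)) :
    ((twlg_gd_cocA N t htN k g : Gamma0 (N * t)) : SL(2, ℤ)) = c := by
  have h1 := twlg_gd_cocA_spec htN k g
  rw [h] at h1
  exact (mul_right_cancel h1).symm

/-- the conjugation form -/
theorem twlg_gd_cocA_eq (htN : t ∣ N) (k : ZMod t) (g : Gamma0 N) :
    ((twlg_gd_cocA N t htN k g : Gamma0 (N * t)) : SL(2, ℤ)) =
      twlg_gd_gamA N t k * (g : SL(2, ℤ)) * (twlg_gd_gamA N t (twlg_gd_actA N t g k))⁻¹ := by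
  rw [twlg_gd_cocA_spec htN k g, mul_assoc, mul_inv_cancel, mul_one]

theorem twlg_gd_cocA_one (htN : t ∣ N) (k : ZMod t) :
    twlg_gd_cocA N t htN k (1 : Gamma0 N) = 1 := by
  apply Subtype.ext
  apply twlg_gd_cocA_unique
  rw [Subgroup.coe_one, mul_one, twlg_gd_actA_one, Subgroup.coe_one, one_mul]

theorem twlg_gd_cocA_mul (htN : t ∣ N) (k : ZMod t) (g h : Gamma0 N) :
    twlg_gd_cocA N t htN k (g * h) =
      twlg_gd_cocA N t htN k g * twlg_gd_cocA N t htN (twlg_gd_actA N t g k) h := by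
  apply Subtype.ext
  apply twlg_gd_cocA_unique
  rw [Subgroup.coe_mul, ← mul_assoc, twlg_gd_cocA_spec htN k g, mul_assoc,
    twlg_gd_cocA_spec htN (twlg_gd_actA N t g k) h, ← mul_assoc, twlg_gd_actA_mul htN,
    Subgroup.coe_mul]

variable (N t) in
/-- **the transfer data of (ALPHA)** -/
def twlg_gd_trA (htN : t ∣ N) : twlg_gd_Tr (Gamma0 N) (Gamma0 (N * t)) (ZMod t) where
  act := twlg_gd_actA N t
  act_one := twlg_gd_actA_one
  act_mul := twlg_gd_actA_mul htN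
  coc := twlg_gd_cocA N t htN
  coc_one := twlg_gd_cocA_one htN
  coc_mul := twlg_gd_cocA_mul htN

/-- at a fixed point the cocycle is conjugate to the element: same trace -/
theorem twlg_gd_trace_cocA (htN : t ∣ N) (k : ZMod t) (g : Gamma0 N)
    (hfix : twlg_gd_actA N t g k = k) :
    (((twlg_gd_cocA N t htN k g : Gamma0 (N * t)) : SL(2, ℤ)) : Matrix (Fin 2) (Fin 2) ℤ).trace =
      (((g : Gamma0 N) : SL(2, ℤ)) : Matrix (Fin 2) (Fin 2) ℤ).trace := by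
  rw [twlg_gd_cocA_eq htN k g, hfix, Matrix.SpecialLinearGroup.coe_mul,
    Matrix.SpecialLinearGroup.coe_mul, Matrix.trace_mul_cycle,
    ← Matrix.SpecialLinearGroup.coe_mul, inv_mul_cancel, Matrix.SpecialLinearGroup.coe_one,
    one_mul]

end alpha

/-! ### (BETA): the `diag(t, 1)`-conjugate inclusion -/

section beta

variable (N t : ℕ) [NeZero N] [NeZero t]

/-- the right action of `Γ₀(N)` on `ZMod t` for (BETA): `j ⋆ g = D (B + D j)` (the prelude's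
`affinePerm`) -/
def twlg_gd_actB (htN : t ∣ N) (g : Gamma0 N) (j : ZMod t) : ZMod t :=
  affinePerm (g : SL(2, ℤ)) (twlg_gd_cast_entry htN g) j

variable {N t}

theorem twlg_gd_actB_apply (htN : t ∣ N) (g : Gamma0 N) (j : ZMod t) :
    twlg_gd_actB N t htN g j =
      ((((g : SL(2, ℤ)) 1 1 : ℤ)) : ZMod t) *
        (((((g : SL(2, ℤ)) 0 1 : ℤ)) : ZMod t) + ((((g : SL(2, ℤ)) 1 1 : ℤ)) : ZMod t) * j) := rfl

theorem twlg_gd_actB_one (htN : t ∣ N) (j : ZMod t) :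
    twlg_gd_actB N t htN (1 : Gamma0 N) j = j := by
  rw [twlg_gd_actB_apply]
  simp

theorem twlg_gd_actB_mul (htN : t ∣ N) (g h : Gamma0 N) (j : ZMod t) :
    twlg_gd_actB N t htN (g * h) j = twlg_gd_actB N t htN h (twlg_gd_actB N t htN g j) := by
  rw [twlg_gd_actB_apply, twlg_gd_actB_apply, twlg_gd_actB_apply]
  have hu := twlg_gd_unit htN g
  have hc := twlg_gd_cast_entry htN g
  rw [Subgroup.coe_mul, twlg_gd_mul_apply, twlg_gd_mul_apply]
  push_cast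
  rw [hc]
  linear_combination ((((h : SL(2, ℤ)) 1 1 : ℤ) : ZMod t) * (((h : SL(2, ℤ)) 0 1 : ℤ) : ZMod t)) * hu

variable (N t) in
/-- **the cocycle of (BETA)**: `δ_j g = coc_B j g · δ_{j ⋆ g}`, `δ_j = [1 j; 0 t]` -/
def twlg_gd_cocB (htN : t ∣ N) (j : ZMod t) (g : Gamma0 N) : Gamma0 (N * t) :=
  ⟨(heckeMatrix_mul_of_dvd (g : SL(2, ℤ)) (twlg_gd_dvd_entry htN g) j).choose, by
    apply t2c_mem_of_dvd
    rw [(heckeMatrix_mul_of_dvd (g : SL(2, ℤ)) (twlg_gd_dvd_entry htN g) j).choose_spec.1]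
    obtain ⟨c, hc⟩ := t2c_dvd_of_mem g.2
    rw [hc]
    exact ⟨c, by push_cast; ring⟩⟩

theorem twlg_gd_cocB_spec (htN : t ∣ N) (j : ZMod t) (g : Gamma0 N) :
    heckeMatrix t j.val * mapGL ℝ (g : SL(2, ℤ)) =
      mapGL ℝ ((twlg_gd_cocB N t htN j g : Gamma0 (N * t)) : SL(2, ℤ)) *
        heckeMatrix t (twlg_gd_actB N t htN g j).val :=
  (heckeMatrix_mul_of_dvd (g : SL(2, ℤ)) (twlg_gd_dvd_entry htN g) j).choose_spec.2

/-- the lower left entry of the cocycle -/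
theorem twlg_gd_cocB_entry (htN : t ∣ N) (j : ZMod t) (g : Gamma0 N) :
    ((twlg_gd_cocB N t htN j g : Gamma0 (N * t)) : SL(2, ℤ)) 1 0 = t * (g : SL(2, ℤ)) 1 0 :=
  (heckeMatrix_mul_of_dvd (g : SL(2, ℤ)) (twlg_gd_dvd_entry htN g) j).choose_spec.1

/-- uniqueness of the cocycle -/
theorem twlg_gd_cocB_unique (htN : t ∣ N) (j : ZMod t) (g : Gamma0 N) (g' : SL(2, ℤ))
    (h : heckeMatrix t j.val * mapGL ℝ (g : SL(2, ℤ)) =
      mapGL ℝ g' * heckeMatrix t (twlg_gd_actB N t htN g j).val) :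
    ((twlg_gd_cocB N t htN j g : Gamma0 (N * t)) : SL(2, ℤ)) = g' := by
  have h1 := twlg_gd_cocB_spec htN j g
  rw [h] at h1
  exact (mapGL_injective (mul_right_cancel h1)).symm

theorem twlg_gd_cocB_one (htN : t ∣ N) (j : ZMod t) :
    twlg_gd_cocB N t htN j (1 : Gamma0 N) = 1 := by
  apply Subtype.ext
  apply twlg_gd_cocB_unique
  rw [Subgroup.coe_one, map_one, mul_one, twlg_gd_actB_one, Subgroup.coe_one, map_one, one_mul]

theorem twlg_gd_cocB_mul (htN : t ∣ N) (j : ZMod t) (g h : Gamma0 N) :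
    twlg_gd_cocB N t htN j (g * h) =
      twlg_gd_cocB N t htN j g * twlg_gd_cocB N t htN (twlg_gd_actB N t htN g j) h := by
  apply Subtype.ext
  apply twlg_gd_cocB_unique
  rw [Subgroup.coe_mul, map_mul, ← mul_assoc, twlg_gd_cocB_spec htN j g, mul_assoc,
    twlg_gd_cocB_spec htN (twlg_gd_actB N t htN g j) h, ← mul_assoc, twlg_gd_actB_mul htN,
    Subgroup.coe_mul, map_mul]

variable (N t) in
/-- **the transfer data of (BETA)** -/
def twlg_gd_trB (htN : t ∣ N) : twlg_gd_Tr (Gamma0 N) (Gamma0 (N * t)) (ZMod t) where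
  act := twlg_gd_actB N t htN
  act_one := twlg_gd_actB_one htN
  act_mul := twlg_gd_actB_mul htN
  coc := twlg_gd_cocB N t htN
  coc_one := twlg_gd_cocB_one htN
  coc_mul := twlg_gd_cocB_mul htN

/-- at a fixed point the cocycle is conjugate to the element: same trace -/
theorem twlg_gd_trace_cocB (htN : t ∣ N) (j : ZMod t) (g : Gamma0 N)
    (hfix : twlg_gd_actB N t htN g j = j) :
    (((twlg_gd_cocB N t htN j g : Gamma0 (N * t)) : SL(2, ℤ)) : Matrix (Fin 2) (Fin 2) ℤ).trace =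
      (((g : Gamma0 N) : SL(2, ℤ)) : Matrix (Fin 2) (Fin 2) ℤ).trace := by
  have h := twlg_gd_cocB_spec htN j g
  rw [hfix] at h
  have h2 : mapGL ℝ ((twlg_gd_cocB N t htN j g : Gamma0 (N * t)) : SL(2, ℤ)) =
      heckeMatrix t j.val * mapGL ℝ ((g : Gamma0 N) : SL(2, ℤ)) * (heckeMatrix t j.val)⁻¹ := by
    rw [h, mul_assoc, mul_inv_cancel, mul_one]
  have h3 := congrArg (fun g : GL (Fin 2) ℝ => (g : Matrix (Fin 2) (Fin 2) ℝ).trace) h2
  simp only [Units.val_mul] at h3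
  rw [Matrix.trace_mul_cycle, ← Units.val_mul, inv_mul_cancel, Units.val_one, one_mul] at h3
  have hcast : ∀ g : SL(2, ℤ), ((mapGL ℝ g : GL (Fin 2) ℝ) : Matrix (Fin 2) (Fin 2) ℝ).trace =
      (((g : Matrix (Fin 2) (Fin 2) ℤ).trace : ℤ) : ℝ) := by
    intro g
    simp [Matrix.trace_fin_two]
  rw [hcast, hcast] at h3
  exact_mod_cast h3

end beta

/-! ### the two transfers kill the parabolic and the elliptic elements -/

section parEll

variable {N t : ℕ} [NeZero N] [NeZero t] {M : Type*} [CommMonoid M]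

theorem twlg_gd_verA_parEll (htN : t ∣ N) (χ : Gamma0 (N * t) →* M)
    (hχ : ∀ γ : Gamma0 (N * t), gh_IsParEll (N * t) γ → χ γ = 1) (g : Gamma0 N)
    (hg : gh_IsParEll N g) : twlg_gd_ver (twlg_gd_trA N t htN) χ g = 1 := by
  refine twlg_gd_ver_eq_one _ χ g ?_
  intro k r _ hfix
  apply hχ
  unfold gh_IsParEll
  show ((((twlg_gd_cocA N t htN k (g ^ r) : Gamma0 (N * t)) : SL(2, ℤ)) :
    Matrix (Fin 2) (Fin 2) ℤ)).trace ^ 2 ≤ 4
  rw [twlg_gd_trace_cocA htN k (g ^ r) hfix]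
  exact t2e_parEll_pow g hg r

theorem twlg_gd_verB_parEll (htN : t ∣ N) (χ : Gamma0 (N * t) →* M)
    (hχ : ∀ γ : Gamma0 (N * t), gh_IsParEll (N * t) γ → χ γ = 1) (g : Gamma0 N)
    (hg : gh_IsParEll N g) : twlg_gd_ver (twlg_gd_trB N t htN) χ g = 1 := by
  refine twlg_gd_ver_eq_one _ χ g ?_
  intro j r _ hfix
  apply hχ
  unfold gh_IsParEll
  show ((((twlg_gd_cocB N t htN j (g ^ r) : Gamma0 (N * t)) : SL(2, ℤ)) :
    Matrix (Fin 2) (Fin 2) ℤ)).trace ^ 2 ≤ 4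
  rw [twlg_gd_trace_cocB htN j (g ^ r) hfix]
  exact t2e_parEll_pow g hg r

/-- (ALPHA) maps the unramified characters of exponent `n` of level `N t` to those of level `N` -/
theorem twlg_gd_verA_mem_gw_X (htN : t ∣ N) {n : ℕ} {χ : Gamma0 (N * t) →* ℂˣ}
    (hχ : χ ∈ gw_X (N * t) n) : twlg_gd_ver (twlg_gd_trA N t htN) χ ∈ gw_X N n := by
  obtain ⟨h1, h2⟩ := hχ
  refine ⟨?_, fun g hg => twlg_gd_verA_parEll htN χ h2 g hg⟩
  rw [← map_pow (twlg_gd_ver (twlg_gd_trA N t htN)) χ n, h1, map_one]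

/-- (BETA) maps the unramified characters of exponent `n` of level `N t` to those of level `N` -/
theorem twlg_gd_verB_mem_gw_X (htN : t ∣ N) {n : ℕ} {χ : Gamma0 (N * t) →* ℂˣ}
    (hχ : χ ∈ gw_X (N * t) n) : twlg_gd_ver (twlg_gd_trB N t htN) χ ∈ gw_X N n := by
  obtain ⟨h1, h2⟩ := hχ
  refine ⟨?_, fun g hg => twlg_gd_verB_parEll htN χ h2 g hg⟩
  rw [← map_pow (twlg_gd_ver (twlg_gd_trB N t htN)) χ n, h1, map_one]

end parEll

/-! ### the additive descents `VA`, `VB : H₁(X₀(N)) → H₁(X₀(N t))` -/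

section descent

variable {G H X : Type*} [Group G] [Group H] [Fintype X] (D : twlg_gd_Tr G H X)
  {A : Type*} [AddCommMonoid A]

/-- the transfer on additive characters: `(Ver ψ)(g) = ∑ₓ ψ (coc x g)` -/
def twlg_gd_verAdd (ψ : Additive H →+ A) : Additive G →+ A :=
  MonoidHom.toAdditiveLeft (twlg_gd_ver D (AddMonoidHom.toMultiplicativeRight ψ))

theorem twlg_gd_verAdd_apply (ψ : Additive H →+ A) (g : G) :
    twlg_gd_verAdd D ψ (Additive.ofMul g) = ∑ x : X, ψ (Additive.ofMul (D.coc x g)) := by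
  show Multiplicative.toAdd (twlg_gd_ver D (AddMonoidHom.toMultiplicativeRight ψ) g) = _
  rw [twlg_gd_ver_apply, toAdd_prod]
  rfl

/-- naturality in the target -/
theorem twlg_gd_verAdd_comp {A' : Type*} [AddCommMonoid A'] (φ : A →+ A')
    (ψ : Additive H →+ A) : twlg_gd_verAdd D (φ.comp ψ) = φ.comp (twlg_gd_verAdd D ψ) := by
  refine AddMonoidHom.ext fun g => ?_
  obtain ⟨g, rfl⟩ := Additive.ofMul.surjective g
  rw [AddMonoidHom.comp_apply, twlg_gd_verAdd_apply, twlg_gd_verAdd_apply, map_sum]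
  rfl

end descent

section VAB

variable (N t : ℕ) [NeZero N] [NeZero t]

theorem twlg_gd_verAddA_parEll (htN : t ∣ N) (g : Gamma0 N) (hg : gh_IsParEll N g) :
    twlg_gd_verAdd (twlg_gd_trA N t htN) (gh_mk (N * t)) (Additive.ofMul g) = 0 := by
  have h := twlg_gd_verA_parEll htN (AddMonoidHom.toMultiplicativeRight (gh_mk (N * t)))
    (fun γ hγ => by
      show Multiplicative.ofAdd (gh_mk (N * t) (Additive.ofMul γ)) = 1
      rw [gh_mk_parEll (N * t) γ hγ]; rfl) g hg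
  exact congrArg Multiplicative.toAdd h

theorem twlg_gd_verAddB_parEll (htN : t ∣ N) (g : Gamma0 N) (hg : gh_IsParEll N g) :
    twlg_gd_verAdd (twlg_gd_trB N t htN) (gh_mk (N * t)) (Additive.ofMul g) = 0 := by
  have h := twlg_gd_verB_parEll htN (AddMonoidHom.toMultiplicativeRight (gh_mk (N * t)))
    (fun γ hγ => by
      show Multiplicative.ofAdd (gh_mk (N * t) (Additive.ofMul γ)) = 1
      rw [gh_mk_parEll (N * t) γ hγ]; rfl) g hg
  exact congrArg Multiplicative.toAdd h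

/-- **`VA : H₁(X₀(N)) → H₁(X₀(N t))`**, the transfer along the inclusion `Γ₀(N t) ≤ Γ₀(N)`:
`[g] ↦ ∑_k [coc_A k g]` -/
def twlg_gd_VA (htN : t ∣ N) : gh_H N →+ gh_H (N * t) :=
  gh_lift (twlg_gd_verAdd (twlg_gd_trA N t htN) (gh_mk (N * t))) (twlg_gd_verAddA_parEll N t htN)

/-- **`VB : H₁(X₀(N)) → H₁(X₀(N t))`**, the transfer along the `diag(t, 1)`-conjugate inclusion:
`[g] ↦ ∑_j [coc_B j g]` -/
def twlg_gd_VB (htN : t ∣ N) : gh_H N →+ gh_H (N * t) :=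
  gh_lift (twlg_gd_verAdd (twlg_gd_trB N t htN) (gh_mk (N * t))) (twlg_gd_verAddB_parEll N t htN)

theorem twlg_gd_VA_mk (htN : t ∣ N) (g : Gamma0 N) :
    twlg_gd_VA N t htN (gh_mk N (Additive.ofMul g)) =
      ∑ k : ZMod t, gh_mk (N * t) (Additive.ofMul (twlg_gd_cocA N t htN k g)) := by
  rw [twlg_gd_VA, gh_lift_mk, twlg_gd_verAdd_apply]
  rfl

theorem twlg_gd_VB_mk (htN : t ∣ N) (g : Gamma0 N) :
    twlg_gd_VB N t htN (gh_mk N (Additive.ofMul g)) =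
      ∑ j : ZMod t, gh_mk (N * t) (Additive.ofMul (twlg_gd_cocB N t htN j g)) := by
  rw [twlg_gd_VB, gh_lift_mk, twlg_gd_verAdd_apply]
  rfl

/-- `ψ ∘ VA ∘ mk = Ver_A (ψ ∘ mk)` for every `ψ : H₁(X₀(N t)) → A` -/
theorem twlg_gd_comp_VA (htN : t ∣ N) {A : Type*} [AddCommGroup A] (ψ : gh_H (N * t) →+ A) :
    (ψ.comp (twlg_gd_VA N t htN)).comp (gh_mk N) =
      twlg_gd_verAdd (twlg_gd_trA N t htN) (ψ.comp (gh_mk (N * t))) := by
  rw [twlg_gd_verAdd_comp]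
  refine AddMonoidHom.ext fun g => ?_
  rw [AddMonoidHom.comp_apply, AddMonoidHom.comp_apply, AddMonoidHom.comp_apply, twlg_gd_VA,
    gh_lift_mk]

/-- `ψ ∘ VB ∘ mk = Ver_B (ψ ∘ mk)` for every `ψ : H₁(X₀(N t)) → A` -/
theorem twlg_gd_comp_VB (htN : t ∣ N) {A : Type*} [AddCommGroup A] (ψ : gh_H (N * t) →+ A) :
    (ψ.comp (twlg_gd_VB N t htN)).comp (gh_mk N) =
      twlg_gd_verAdd (twlg_gd_trB N t htN) (ψ.comp (gh_mk (N * t))) := by
  rw [twlg_gd_verAdd_comp]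
  refine AddMonoidHom.ext fun g => ?_
  rw [AddMonoidHom.comp_apply, AddMonoidHom.comp_apply, AddMonoidHom.comp_apply, twlg_gd_VB,
    gh_lift_mk]

end VAB

end Fermat.Agent.TW

end
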