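/-
Project TW (S43), block [A] LG, cell A4 (Assembly), the statement (helper29).  Prefix `twlg_as_`.

**`twlg_as_A4_stmt`** = VERSION 2 of helper21's `twc_A4_stmt` (`TW/Def/SeamA.lean`): the SAME
hypotheses and the SAME conclusion `twc_ALG Bg χ td.gσ`, except that
* `L.IsLG`, `Bg.IsLG` are replaced by helper3's `L.IsLG2`, `Bg.IsLG2` (`TW/Aut/SeamsLG2.lean`: no
  reducedness clause), and
* the tame datum `td` comes with **inertia generation** `twib_InertiaGen td`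
  (`TW/Patch/InertiaBridge.lean`; true for the datum `twib_td` of `twc_tg_main`:
  `twib_td_inertiaGen`).
`twlg_as_A4_stmt` is PROVED in `TW/LG/AsA4.lean` (`twlg_as_A4`).
-/
import Mathlib
import Fermat.Agent.TW.Def.SeamA
import Fermat.Agent.TW.Aut.SeamsLG2
import Fermat.Agent.TW.Patch.InertiaBridge

set_option autoImplicit false
set_option linter.unusedSectionVars false

open Polynomial CuspForm IsLocalRing
open Fermat.Agent.S53 Fermat.Agent.S56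

namespace Fermat.Agent.TW

noncomputable section

local notation "GQ" => (AlgebraicClosure ℚ ≃ₐ[ℚ] AlgebraicClosure ℚ)
local notation "Qbar" => AlgebraicClosure ℚ

/-- **the [A] → [C] seam, version 2** (`IsLG2` + inertia generation of the tame datum). -/
def twlg_as_A4_stmt : Prop :=
  ∀ (p : ℕ) [Fact p.Prime], 5 ≤ p →
  ∀ (𝒪 : Type) [CommRing 𝒪] [IsDomain 𝒪] [IsDiscreteValuationRing 𝒪]
    [IsAdicComplete (maximalIdeal 𝒪) 𝒪] [Finite (ResidueField 𝒪)] [CharZero 𝒪],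
    (p : 𝒪) ∈ maximalIdeal 𝒪 →
  ∀ (ζ : 𝒪), IsPrimitiveRoot ζ p →
  ∀ (N : ℕ) [NeZero N], Squarefree N → ¬ p ∣ N →
  ∀ (S : Finset ℕ), p ∈ S → (∀ ℓ : ℕ, ℓ.Prime → ℓ ∣ N → ℓ ∈ S) →
  ∀ (θ : heckeAlgebra N 2 (↑S : Set ℕ) →+* ResidueField 𝒪)
    (ρbar : ResidualGaloisRep (ResidueField 𝒪)),
    twt_Compat θ ρbar → ρbar.IsAbsolutelyIrreducible →
    (∀ ℓ : ℕ, ℓ.Prime → ℓ ≠ 2 → ℓ ≠ p → ρbar.IsUnramifiedAt ℓ) →
  ∀ (B : twe_Base 𝒪 N S θ) (Q : Finset ℕ) [NeZero (twe_Nbal N Q ∅)],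
    (∀ t ∈ Q, t ∉ S) → twe_IsTWSet θ p Q →
    (∀ t ∈ Q, ∀ P : ValuationSubring Qbar, P.LiesOverPrime t → ∀ φ : GQ, P.IsFrobeniusAt φ t →
      ∃ α β : ResidueField 𝒪, α ≠ β ∧ LinearMap.charpoly (ρbar.ρ φ) = (X - C α) * (X - C β)) →
  ∀ (L : twe_Level B p Q), L.IsLG2 →
  ∀ (ThP : Finset Nat.Primes),
    (∀ ℓ ∈ ThP, (ℓ : ℕ) ∣ N ∧ (ℓ : ℕ) ≠ 2 ∧ (ℓ : ℕ) % p = 1 ∧ twt_FrobScalar ρbar ℓ) →
  ∀ (td : twc_TameData p ThP), twib_InertiaGen td →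
  ∀ [NeZero (twe_Nbal N Q (ThP.image fun ℓ : Nat.Primes => (ℓ : ℕ)))]
    (Bg : twe_Big L (ThP.image fun ℓ : Nat.Primes => (ℓ : ℕ))), Bg.IsLG2 →
  ∀ (χ : twe_Delta p (ThP.image fun ℓ : Nat.Primes => (ℓ : ℕ)) →* 𝒪ˣ),
    (∀ (ℓ : ℕ) (hℓ : ℓ ∈ ThP.image fun ℓ : Nat.Primes => (ℓ : ℕ)),
      IsPrimitiveRoot ((χ (twe_gen p _ ℓ hℓ) : 𝒪ˣ) : 𝒪) p) →
    twc_ALG Bg χ td.gσ

end

end Fermat.Agent.TW
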