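/-
Project TW (S43), block [A] LG, cell A4 (Assembly), auxiliary lemmas `AsAux` (helper29).
Prefix `twlg_as_`.  Mathlib + `TW/LG/MatchSeam.lean`.

* `twlg_as_char_of_eigen` : a common eigenvector `v ≠ 0` of `K ⊗ M` for the action of a commutative
                            `O`-algebra `T` defines a character `χ : T →ₐ[O] K`;
* `twlg_as_zeta_*`        : a primitive `p`-th root of unity `ζ` in a local domain with `p ∈ 𝔪`:
                            `Φ_p(ζ) = 0`, `1 - ζ ∈ 𝔪`, `ζ ≠ 1`;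
* `twlg_as_mon_basis2`    : the monomial `O`-basis of a free module over `O[G × H]`,
                            `G = ∏ ℤ/P i`, `H = ∏ ℤ/P' i`;
* `twlg_as_level`         : `Nb = t² m`, `t ∤ m` ⟹ `t ∣ Nb`, `t ∣ Nb / t`, `t² ∤ Nb / t`.
-/
import Mathlib
import Fermat.Agent.TW.LG.MatchSeam

set_option autoImplicit false
set_option linter.unusedSectionVars false

open scoped TensorProduct
open Polynomial

namespace Fermat.Agent.TW

section char

variable {O T K M : Type*} [CommRing O] [CommRing T] [Algebra O T] [Field K] [Algebra O K]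
  [AddCommGroup M] [Module O M]

/-- a common eigenvector `v ≠ 0` of `K ⊗ M` for an action `act : T →ₐ[O] End_O M` defines a
character of `T`. -/
theorem twlg_as_char_of_eigen (act : T →ₐ[O] Module.End O M) (v : K ⊗[O] M) (hv0 : v ≠ 0)
    (hv : ∀ x : T, ∃ c : K, (act x).baseChange K v = c • v) :
    ∃ χ : T →ₐ[O] K, ∀ x : T, (act x).baseChange K v = χ x • v := by
  choose c hc using hv
  have huniq : ∀ a b : K, a • v = b • v → a = b := by
    intro a b hab
    by_contra hne
    have h1 : (a - b) • v = 0 := by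
      have := sub_smul a b v
      rw [this, hab, sub_self]
    rcases smul_eq_zero.1 h1 with h2 | h2
    · exact hne (sub_eq_zero.1 h2)
    · exact hv0 h2
  have h1 : c 1 = 1 := by
    apply huniq
    rw [← hc, map_one, LinearMap.baseChange_one, Module.End.one_apply, one_smul]
  have hmul : ∀ x y, c (x * y) = c x * c y := by
    intro x y
    apply huniq
    rw [← hc, map_mul, LinearMap.baseChange_mul, Module.End.mul_apply, hc y, map_smul, hc x,
      smul_smul, mul_comm]
  have hadd : ∀ x y, c (x + y) = c x + c y := by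
    intro x y
    apply huniq
    rw [← hc, map_add, LinearMap.baseChange_add, LinearMap.add_apply, hc x, hc y, add_smul]
  have halg : ∀ r : O, c (algebraMap O T r) = algebraMap O K r := by
    intro r
    apply huniq
    rw [← hc, AlgHom.commutes, Algebra.algebraMap_eq_smul_one, LinearMap.baseChange_smul,
      LinearMap.baseChange_one, LinearMap.smul_apply, Module.End.one_apply,
      Algebra.algebraMap_eq_smul_one, smul_assoc, one_smul]
  have h0 : c 0 = 0 := by
    have := hadd 0 0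
    rw [add_zero] at this
    exact left_eq_add.mp this
  exact ⟨{ toFun := c, map_one' := h1, map_mul' := hmul, map_zero' := h0, map_add' := hadd,
           commutes' := halg }, hc⟩

end char

section zeta

variable {O : Type*} [CommRing O] [IsDomain O] [IsLocalRing O]

/-- `Φ_p(ζ) = 0` for a primitive `p`-th root of unity. -/
theorem twlg_as_zeta_Phi {p : ℕ} (hp : p.Prime) (ζ : O) (hζ : IsPrimitiveRoot ζ p) :
    twlg_Phi p ζ = 0 :=
  hζ.geom_sum_eq_zero hp.one_lt

/-- `ζ ≠ 1`. -/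
theorem twlg_as_zeta_ne_one {p : ℕ} (hp : p.Prime) (ζ : O) (hζ : IsPrimitiveRoot ζ p) : ζ ≠ 1 :=
  hζ.ne_one hp.one_lt

/-- `1 - ζ ∈ 𝔪` when `p ∈ 𝔪`. -/
theorem twlg_as_zeta_mem {p : ℕ} (hp : p.Prime) (hpO : (p : O) ∈ IsLocalRing.maximalIdeal O)
    (ζ : O) (hζ : IsPrimitiveRoot ζ p) : 1 - ζ ∈ IsLocalRing.maximalIdeal O := by
  have : Fact p.Prime := ⟨hp⟩
  have h0 : (p : IsLocalRing.ResidueField O) = 0 := by
    have := (IsLocalRing.residue_eq_zero_iff (p : O)).2 hpO
    rwa [map_natCast] at this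
  have : CharP (IsLocalRing.ResidueField O) p := (CharP.charP_iff_prime_eq_zero hp).2 h0
  have h1 : (IsLocalRing.residue O ζ - 1) ^ p = 0 := by
    rw [sub_pow_char, one_pow, ← map_pow, hζ.pow_eq_one, map_one, sub_self]
  have h2 : IsLocalRing.residue O ζ - 1 = 0 := pow_eq_zero_iff (hp.ne_zero) |>.1 h1
  rw [← IsLocalRing.residue_eq_zero_iff, map_sub, map_one, ← neg_sub, h2, neg_zero]

end zeta

section basis2

variable {O M : Type*} [CommRing O] [AddCommGroup M] [Module O M]
variable {ι ι' : Type*} [Fintype ι] [DecidableEq ι] [Fintype ι'] [DecidableEq ι']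
  (P : ι → ℕ) [∀ i, NeZero (P i)] (P' : ι' → ℕ) [∀ i, NeZero (P' i)]

variable [Module (MonoidAlgebra O
    (Multiplicative (∀ i, ZMod (P i)) × Multiplicative (∀ i, ZMod (P' i)))) M]
  [IsScalarTower O (MonoidAlgebra O
    (Multiplicative (∀ i, ZMod (P i)) × Multiplicative (∀ i, ZMod (P' i)))) M]

/-- **the monomial `O`-basis of a free `O[G × H]`-module**, `G = ∏ ℤ/P i`, `H = ∏ ℤ/P' i`. -/
theorem twlg_as_mon_basis2 {J : Type*}
    (B : Module.Basis J (MonoidAlgebra O
      (Multiplicative (∀ i, ZMod (P i)) × Multiplicative (∀ i, ZMod (P' i)))) M) :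
    LinearIndependent O (fun kj : (∀ i, Fin (P i)) × ((∀ i, Fin (P' i)) × J) =>
      (∏ i, MonoidAlgebra.of O
          (Multiplicative (∀ i, ZMod (P i)) × Multiplicative (∀ i, ZMod (P' i)))
          (twlg_gen P i, 1) ^ (kj.1 i : ℕ)) •
        ((∏ i, MonoidAlgebra.of O
          (Multiplicative (∀ i, ZMod (P i)) × Multiplicative (∀ i, ZMod (P' i)))
          (1, twlg_gen P' i) ^ (kj.2.1 i : ℕ)) • B kj.2.2)) ∧
    ⊤ ≤ Submodule.span O (Set.range
      fun kj : (∀ i, Fin (P i)) × ((∀ i, Fin (P' i)) × J) =>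
      (∏ i, MonoidAlgebra.of O
          (Multiplicative (∀ i, ZMod (P i)) × Multiplicative (∀ i, ZMod (P' i)))
          (twlg_gen P i, 1) ^ (kj.1 i : ℕ)) •
        ((∏ i, MonoidAlgebra.of O
          (Multiplicative (∀ i, ZMod (P i)) × Multiplicative (∀ i, ZMod (P' i)))
          (1, twlg_gen P' i) ^ (kj.2.1 i : ℕ)) • B kj.2.2)) := by
  set GH := Multiplicative (∀ i, ZMod (P i)) × Multiplicative (∀ i, ZMod (P' i)) with hGH
  set Bt := (MonoidAlgebra.basis GH O).smulTower B with hBt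
  set e : (∀ i, Fin (P i)) × ((∀ i, Fin (P' i)) × J) ≃ GH × J :=
    (Equiv.prodAssoc _ _ _).symm.trans
      (Equiv.prodCongr (Equiv.prodCongr (twlg_expEquiv P) (twlg_expEquiv P')) (Equiv.refl J))
    with he
  have hfam : (fun kj : (∀ i, Fin (P i)) × ((∀ i, Fin (P' i)) × J) =>
      (∏ i, MonoidAlgebra.of O GH (twlg_gen P i, 1) ^ (kj.1 i : ℕ)) •
        ((∏ i, MonoidAlgebra.of O GH (1, twlg_gen P' i) ^ (kj.2.1 i : ℕ)) • B kj.2.2)) =
      Bt ∘ e := by
    funext kj
    obtain ⟨k, k', j⟩ := kj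
    simp only [Function.comp_apply, hBt, Module.Basis.smulTower_apply, he, Equiv.trans_apply,
      Equiv.prodAssoc_symm_apply, Equiv.prodCongr_apply, Prod.map_fst, Prod.map_snd,
      Equiv.refl_apply, MonoidAlgebra.basis_apply]
    rw [smul_smul]
    congr 1
    show _ = MonoidAlgebra.single ((twlg_expEquiv P k, twlg_expEquiv P' k') : GH) (1 : O)
    rw [← twlg_prod_gen, ← twlg_prod_gen]
    have h1 : ∀ i : ι, MonoidAlgebra.of O GH (twlg_gen P i, 1) ^ (k i : ℕ) =
        MonoidAlgebra.of O GH ((twlg_gen P i ^ (k i : ℕ), 1)) := by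
      intro i
      rw [← map_pow, Prod.pow_mk, one_pow]
    have h2 : ∀ i : ι', MonoidAlgebra.of O GH (1, twlg_gen P' i) ^ (k' i : ℕ) =
        MonoidAlgebra.of O GH ((1, twlg_gen P' i ^ (k' i : ℕ))) := by
      intro i
      rw [← map_pow, Prod.pow_mk, one_pow]
    have h3 : (∏ i, ((twlg_gen P i ^ (k i : ℕ), 1) : GH)) =
        ((∏ i, twlg_gen P i ^ (k i : ℕ), 1) : GH) := by
      apply Prod.ext
      · rw [Prod.fst_prod]
      · rw [Prod.snd_prod]; simp
    have h4 : (∏ i, ((1, twlg_gen P' i ^ (k' i : ℕ)) : GH)) =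
        ((1, ∏ i, twlg_gen P' i ^ (k' i : ℕ)) : GH) := by
      apply Prod.ext
      · rw [Prod.fst_prod]; simp
      · rw [Prod.snd_prod]
    simp only [h1, h2]
    rw [← map_prod, ← map_prod, ← map_mul, MonoidAlgebra.of_apply, h3, h4, Prod.mk_mul_mk,
      one_mul, mul_one]
  rw [hfam]
  refine ⟨Bt.linearIndependent.comp _ e.injective, ?_⟩
  rw [e.surjective.range_comp]
  exact Bt.span_eq.ge

end basis2

section level

/-- `Nb = t² m`, `t ∤ m` ⟹ `t ∣ Nb`, `t ∣ Nb / t`, `t² ∤ Nb / t`. -/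
theorem twlg_as_level {Nb t m : ℕ} (ht : t.Prime) (hNb : Nb = t ^ 2 * m) (hm : ¬ t ∣ m) :
    t ∣ Nb ∧ t ∣ Nb / t ∧ ¬ t ^ 2 ∣ Nb / t := by
  have hdiv : Nb / t = t * m := by
    rw [hNb, pow_two, mul_assoc, Nat.mul_div_cancel_left _ ht.pos]
  refine ⟨?_, ?_, ?_⟩
  · rw [hNb, pow_two, mul_assoc]; exact dvd_mul_right _ _
  · rw [hdiv]; exact dvd_mul_right _ _
  · rw [hdiv, pow_two]
    intro h
    exact hm ((Nat.mul_dvd_mul_iff_left ht.pos).1 h)

end level

end Fermat.Agent.TW
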