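/-
Project TW (S43), block [A] LG, cell A4 (Assembly), part 5b `AsLevel` (helper29).
Prefix `twlg_as_`.  Arithmetic of the balanced level `Nb = N ∏_{t ∈ Q} t² ∏_{ℓ ∈ Th} ℓ` and the
compatibility of `ρ̄` with the eigensystems at the balanced level.
-/
import Mathlib
import Fermat.Agent.TW.Aut.SeamsLG
import Fermat.Agent.TW.LG.AsAux

set_option autoImplicit false
set_option linter.unusedSectionVars false

open Polynomial CuspForm IsLocalRing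

namespace Fermat.Agent.TW

section arith

variable {N : ℕ} {S Q Th : Finset ℕ}

/-- a prime dividing a product of primes (or their squares) is one of them. -/
theorem twlg_as_prime_dvd_prod {r : ℕ} (hr : r.Prime) {s : Finset ℕ} (hs : ∀ x ∈ s, x.Prime)
    (e : ℕ) (h : r ∣ ∏ x ∈ s, x ^ e) : r ∈ s := by
  obtain ⟨x, hx, hrx⟩ := (Prime.dvd_finsetProd_iff hr.prime _).1 h
  have := (Nat.prime_dvd_prime_iff_eq hr (hs x hx)).1 (hr.dvd_of_dvd_pow hrx)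
  rw [this]; exact hx

/-- every prime of the balanced level lies in `S ∪ Q`. -/
theorem twlg_as_level_primes (hNS : ∀ ℓ : ℕ, ℓ.Prime → ℓ ∣ N → ℓ ∈ S)
    (hQ : ∀ t ∈ Q, t.Prime) (hTh : ∀ ℓ ∈ Th, ℓ.Prime ∧ ℓ ∣ N) (r : ℕ) (hr : r.Prime)
    (h : r ∣ twe_Nbal N Q Th) : r ∈ S ∪ Q := by
  unfold twe_Nbal at h
  rcases (Nat.Prime.dvd_mul hr).1 h with h1 | h1
  · rcases (Nat.Prime.dvd_mul hr).1 h1 with h2 | h2
    · exact Finset.mem_union_left _ (hNS r hr h2)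
    · exact Finset.mem_union_right _ (twlg_as_prime_dvd_prod hr hQ 2 h2)
  · have h3 : r ∣ ∏ x ∈ Th, x ^ 1 := by simpa using h1
    have h4 := twlg_as_prime_dvd_prod hr (fun x hx => (hTh x hx).1) 1 h3
    exact Finset.mem_union_left _ (hNS r hr (hTh r h4).2)

/-- a Taylor–Wiles prime divides the balanced level exactly twice. -/
theorem twlg_as_level_tw (hNS : ∀ ℓ : ℕ, ℓ.Prime → ℓ ∣ N → ℓ ∈ S)
    (hQ : ∀ t ∈ Q, t.Prime) (hQS : ∀ t ∈ Q, t ∉ S) (hTh : ∀ ℓ ∈ Th, ℓ.Prime ∧ ℓ ∣ N)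
    (t : ℕ) (ht : t ∈ Q) :
    t ∣ twe_Nbal N Q Th ∧ t ∣ twe_Nbal N Q Th / t ∧ ¬ t ^ 2 ∣ twe_Nbal N Q Th / t := by
  classical
  have htp := hQ t ht
  refine twlg_as_level (m := N * (∏ x ∈ Q.erase t, x ^ 2) * ∏ ℓ ∈ Th, ℓ) htp ?_ ?_
  · unfold twe_Nbal
    rw [← Finset.mul_prod_erase Q (fun x => x ^ 2) ht]
    ring
  · intro h
    rcases (Nat.Prime.dvd_mul htp).1 h with h1 | h1
    · rcases (Nat.Prime.dvd_mul htp).1 h1 with h2 | h2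
      · exact hQS t ht (hNS t htp h2)
      · have := twlg_as_prime_dvd_prod htp
          (fun x hx => hQ x (Finset.mem_of_mem_erase hx)) 2 h2
        exact (Finset.notMem_erase t Q) this
    · have h3 : t ∣ ∏ x ∈ Th, x ^ 1 := by simpa using h1
      have h4 := twlg_as_prime_dvd_prod htp (fun x hx => (hTh x hx).1) 1 h3
      exact hQS t ht (hNS t htp (hTh t h4).2)

/-- a hard prime divides the balanced level exactly twice. -/
theorem twlg_as_level_hard (hsq : Squarefree N) (hNS : ∀ ℓ : ℕ, ℓ.Prime → ℓ ∣ N → ℓ ∈ S)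
    (hQ : ∀ t ∈ Q, t.Prime) (hQS : ∀ t ∈ Q, t ∉ S) (hTh : ∀ ℓ ∈ Th, ℓ.Prime ∧ ℓ ∣ N)
    (ℓ : ℕ) (hℓ : ℓ ∈ Th) :
    ℓ ∣ twe_Nbal N Q Th ∧ ℓ ∣ twe_Nbal N Q Th / ℓ ∧ ¬ ℓ ^ 2 ∣ twe_Nbal N Q Th / ℓ := by
  classical
  obtain ⟨hℓp, N1, hN1⟩ := hTh ℓ hℓ
  have hℓN1 : ¬ ℓ ∣ N1 := by
    rintro ⟨c, hc⟩
    have h1 : ℓ * ℓ ∣ N := ⟨c, by rw [hN1, hc]; ring⟩
    exact hℓp.not_isUnit (hsq ℓ h1)
  refine twlg_as_level (m := N1 * (∏ x ∈ Q, x ^ 2) * ∏ x ∈ Th.erase ℓ, x) hℓp ?_ ?_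
  · unfold twe_Nbal
    rw [← Finset.mul_prod_erase Th (fun x => x) hℓ, hN1]
    ring
  · intro h
    rcases (Nat.Prime.dvd_mul hℓp).1 h with h1 | h1
    · rcases (Nat.Prime.dvd_mul hℓp).1 h1 with h2 | h2
      · exact hℓN1 h2
      · have h3 := twlg_as_prime_dvd_prod hℓp hQ 2 h2
        exact hQS ℓ h3 (hNS ℓ hℓp ⟨N1, hN1⟩)
    · have h3 : ℓ ∣ ∏ x ∈ Th.erase ℓ, x ^ 1 := by simpa using h1
      have h4 := twlg_as_prime_dvd_prod hℓp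
        (fun x hx => (hTh x (Finset.mem_of_mem_erase hx)).1) 1 h3
      exact (Finset.notMem_erase ℓ Th) h4

end arith

section compat

variable {𝒪 : Type} [CommRing 𝒪] [IsDomain 𝒪] [IsDiscreteValuationRing 𝒪]
  [IsAdicComplete (maximalIdeal 𝒪) 𝒪]
  {N : ℕ} [NeZero N] {S : Finset ℕ} {θ : heckeAlgebra N 2 (↑S : Set ℕ) →+* ResidueField 𝒪}
  {B : twe_Base 𝒪 N S θ} {p : ℕ} {Q : Finset ℕ} [NeZero (twe_Nbal N Q ∅)]
  {L : twe_Level B p Q} {Th : Finset ℕ} [NeZero (twe_Nbal N Q Th)]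

/-- `ρ̄` is compatible with the eigensystem of the big system. -/
theorem twlg_as_compat_big (Bg : twe_Big L Th) (ρbar : ResidualGaloisRep (ResidueField 𝒪))
    (hcompat : twt_Compat θ ρbar) : twt_Compat Bg.θ'' ρbar := by
  intro ℓ hℓ h1 h2 A hA σ hσ
  have h3 : ¬ ℓ ∣ N := fun h => h1 (by
    unfold twe_Nbal
    exact dvd_mul_of_dvd_left (dvd_mul_of_dvd_left h _) _)
  have h4 : ℓ ∉ (↑S : Set ℕ) := fun h => h2 (by
    rw [Finset.mem_coe] at h ⊢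
    exact Finset.mem_union_left _ h)
  rw [Bg.θ''_eq ℓ hℓ h1 h2 h3 h4]
  exact hcompat ℓ hℓ h3 h4 A hA σ hσ

end compat

end Fermat.Agent.TW
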