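/-
Project TW (S43), block [A] LG, cell `EigenInj` (helper29): from eigen-SYSTEMS to injectivity.
Mathlib only.  Prefix `twlg_ei_`.

The matching lemma `twlg_match` (TW/LG/Match.lean) consumes `hH3`: "`u - 1` is injective on
`M / Φ_p(a) M`".  The geometric input ([INV-0] of S36 + the bridge) is per EIGENVECTOR: "for every
common eigenvector `v` of the Hecke operators in `K̄ ⊗ (M / Φ_p(a) M)`, `u v ≠ v`".  This file is the
linear algebra between the two.

* `twlg_ei_common_eigenvector` : a pairwise commuting set `𝒮` of endomorphisms of a finite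
  dimensional vector space over an algebraically closed field has a common eigenvector in every
  nonzero `𝒮`-stable subspace;
* `twlg_ei_injective_of_eigen` : if `u ∈ 𝒮` moves every common eigenvector (`u v ≠ v`) then `u - 1`
  is injective;
* `twlg_ei_injective_descent` : injectivity of `u - 1` descends from `K ⊗ Q` to `Q` when
  `q ↦ 1 ⊗ q` is injective;
* `twlg_ei_main` : the combination, for a finite `O`-module `Q`.
-/
import Mathlib

set_option autoImplicit false

open scoped TensorProduct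

namespace Fermat.Agent.TW

section Field

variable {k V : Type*} [Field k] [IsAlgClosed k] [AddCommGroup V] [Module k V]
  [FiniteDimensional k V]

/-- A pairwise commuting set of endomorphisms has a common eigenvector in every nonzero stable
subspace. -/
theorem twlg_ei_common_eigenvector (𝒮 : Set (Module.End k V))
    (hcomm : ∀ s ∈ 𝒮, ∀ s' ∈ 𝒮, Commute s s') (W : Submodule k V) (hW : W ≠ ⊥)
    (hstab : ∀ s ∈ 𝒮, ∀ w ∈ W, s w ∈ W) :
    ∃ v ∈ W, v ≠ 0 ∧ ∀ s ∈ 𝒮, ∃ c : k, s v = c • v := by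
  classical
  -- a nonzero stable subspace of minimal dimension
  let P : ℕ → Prop := fun n => ∃ W' : Submodule k V, W' ≤ W ∧ W' ≠ ⊥ ∧
    (∀ s ∈ 𝒮, ∀ w ∈ W', s w ∈ W') ∧ Module.finrank k W' = n
  have hP : ∃ n, P n := ⟨_, W, le_rfl, hW, hstab, rfl⟩
  obtain ⟨W', hW'W, hW'0, hW'st, hW'n⟩ := Nat.find_spec hP
  have hmin : ∀ E : Submodule k V, E ≤ W' → E ≠ ⊥ → (∀ s ∈ 𝒮, ∀ w ∈ E, s w ∈ E) → E = W' := by
    intro E hEW hE0 hEst
    have h1 : Nat.find hP ≤ Module.finrank k E :=
      Nat.find_min' hP ⟨E, hEW.trans hW'W, hE0, hEst, rfl⟩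
    have h2 : Module.finrank k E ≤ Module.finrank k W' := Submodule.finrank_mono hEW
    exact Submodule.eq_of_le_of_finrank_le hEW (by omega)
  -- every `s ∈ 𝒮` is a scalar on `W'`
  have hscal : ∀ s ∈ 𝒮, ∃ c : k, ∀ x ∈ W', s x = c • x := by
    intro s hs
    have : Nontrivial W' := (Submodule.nontrivial_iff_ne_bot).2 hW'0
    obtain ⟨c, hc⟩ := Module.End.exists_eigenvalue (s.restrict (hW'st s hs))
    obtain ⟨w, hw⟩ := hc.exists_hasEigenvector
    have hw1 : s (w : V) = c • (w : V) := by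
      have := hw.apply_eq_smul
      have h3 := congrArg (Subtype.val) this
      simpa [LinearMap.restrict_apply] using h3
    have hw0 : (w : V) ≠ 0 := fun h => hw.2 (Subtype.ext h)
    let E : Submodule k V := W' ⊓ Module.End.eigenspace s c
    have hEW : E ≤ W' := inf_le_left
    have hE0 : E ≠ ⊥ := by
      intro h
      have hwE : (w : V) ∈ E := ⟨w.2, Module.End.mem_eigenspace_iff.2 hw1⟩
      rw [h] at hwE
      exact hw0 ((Submodule.mem_bot k).1 hwE)
    have hEst : ∀ s' ∈ 𝒮, ∀ x ∈ E, s' x ∈ E := by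
      intro s' hs' x hx
      refine ⟨hW'st s' hs' x hx.1, Module.End.mem_eigenspace_iff.2 ?_⟩
      have hx2 : s x = c • x := Module.End.mem_eigenspace_iff.1 hx.2
      have hc' : s (s' x) = s' (s x) := by
        have := (hcomm s hs s' hs').eq
        exact LinearMap.congr_fun this x
      rw [hc', hx2, map_smul]
    have hEeq := hmin E hEW hE0 hEst
    refine ⟨c, fun x hx => ?_⟩
    have hxE : x ∈ E := hEeq ▸ hx
    exact Module.End.mem_eigenspace_iff.1 hxE.2
  obtain ⟨v, hvW', hv0⟩ := Submodule.exists_mem_ne_zero_of_ne_bot hW'0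
  refine ⟨v, hW'W hvW', hv0, fun s hs => ?_⟩
  obtain ⟨c, hc⟩ := hscal s hs
  exact ⟨c, hc v hvW'⟩

/-- If `u ∈ 𝒮` (pairwise commuting) fixes no common eigenvector of `𝒮`, then `u - 1` is
injective. -/
theorem twlg_ei_injective_of_eigen (𝒮 : Set (Module.End k V))
    (hcomm : ∀ s ∈ 𝒮, ∀ s' ∈ 𝒮, Commute s s') (u : Module.End k V) (hu : u ∈ 𝒮)
    (h : ∀ v : V, v ≠ 0 → (∀ s ∈ 𝒮, ∃ c : k, s v = c • v) → u v ≠ v) :
    Function.Injective (u - 1 : Module.End k V) := by
  rw [← LinearMap.ker_eq_bot]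
  by_contra hker
  have hstab : ∀ s ∈ 𝒮, ∀ w ∈ LinearMap.ker (u - 1 : Module.End k V),
      s w ∈ LinearMap.ker (u - 1 : Module.End k V) := by
    intro s hs w hw
    rw [LinearMap.mem_ker, LinearMap.sub_apply, Module.End.one_apply, sub_eq_zero] at hw ⊢
    have hc : u (s w) = s (u w) := LinearMap.congr_fun (hcomm u hu s hs).eq w
    rw [hc, hw]
  obtain ⟨v, hvW, hv0, hv⟩ := twlg_ei_common_eigenvector 𝒮 hcomm _ hker hstab
  rw [LinearMap.mem_ker, LinearMap.sub_apply, Module.End.one_apply, sub_eq_zero] at hvW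
  exact h v hv0 hv hvW

end Field

section Descent

variable {O K : Type*} [CommRing O] [Field K] [Algebra O K] {Q : Type*} [AddCommGroup Q]
  [Module O Q]

/-- Injectivity of `u - 1` descends from `K ⊗ Q` to `Q` when `q ↦ 1 ⊗ q` is injective. -/
theorem twlg_ei_injective_descent
    (hinj : Function.Injective (fun q : Q => (1 : K) ⊗ₜ[O] q)) (u : Module.End O Q)
    (h : Function.Injective (u.baseChange K - 1 : Module.End K (K ⊗[O] Q))) :
    Function.Injective (u - 1 : Module.End O Q) := by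
  intro x y hxy
  apply hinj
  apply h
  simp only [LinearMap.sub_apply, Module.End.one_apply, LinearMap.baseChange_tmul]
  have hx : (u - 1 : Module.End O Q) x = u x - x := rfl
  have hy : (u - 1 : Module.End O Q) y = u y - y := rfl
  rw [hx, hy] at hxy
  rw [← TensorProduct.tmul_sub, ← TensorProduct.tmul_sub, hxy]

/-- **From eigenvectors to injectivity.**  `Q` a finite `O`-module embedding into `K ⊗ Q`
(`K` algebraically closed), `𝒮` a pairwise commuting set of `O`-endomorphisms of `Q`, `u ∈ 𝒮`.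
If `u` fixes no common eigenvector of `𝒮` in `K ⊗ Q`, then `u - 1` is injective on `Q`. -/
theorem twlg_ei_main [IsAlgClosed K] [Module.Finite O Q]
    (hinj : Function.Injective (fun q : Q => (1 : K) ⊗ₜ[O] q))
    (𝒮 : Set (Module.End O Q)) (hcomm : ∀ s ∈ 𝒮, ∀ s' ∈ 𝒮, Commute s s')
    (u : Module.End O Q) (hu : u ∈ 𝒮)
    (h : ∀ v : K ⊗[O] Q, v ≠ 0 → (∀ s ∈ 𝒮, ∃ c : K, s.baseChange K v = c • v) →
      u.baseChange K v ≠ v) :
    Function.Injective (u - 1 : Module.End O Q) := by
  refine twlg_ei_injective_descent hinj u ?_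
  refine twlg_ei_injective_of_eigen ((fun s : Module.End O Q => s.baseChange K) '' 𝒮) ?_
    (u.baseChange K) ⟨u, hu, rfl⟩ ?_
  · rintro _ ⟨s, hs, rfl⟩ _ ⟨s', hs', rfl⟩
    have := (hcomm s hs s' hs').eq
    show s.baseChange K * s'.baseChange K = s'.baseChange K * s.baseChange K
    rw [← LinearMap.baseChange_mul, ← LinearMap.baseChange_mul, this]
  · intro v hv0 hv
    exact h v hv0 (fun s hs => hv _ ⟨s, hs, rfl⟩)

end Descent

end Fermat.Agent.TW
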