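/-
Project TW (S43), block [A] LG, cell `EigenLift` (helper29): hypothesis `hH3` of the matching
lemma (`twlg_match`, TW/LG/Match.lean) from a statement about common EIGENVECTORS OF `K̄ ⊗ M` itself.
Mathlib + `TW/LG/EigenInj.lean`.  Prefix `twlg_el_`.

`a` = the diamond generator (`a ^ p ^ n = 1`), `Φ = Φ_p(a) = ∑_{i<p} a^i`, `u` = the Galois unit,
`𝒮 ∋ a, u` a pairwise commuting set of endomorphisms (the Hecke operators, `a`, `u`).

* `twlg_el_bezout`   : over a field in which `p ≠ 0`: `Φ_p · G = X^(p^(n+1)) - 1` and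
                       `R · Φ_p + S · G = 1` for suitable polynomials (separability);
* `twlg_el_field`    : `V` over an algebraically closed field: if no common eigenvector `h ≠ 0` of
                       `𝒮` has `Φ h = 0` and `u h = h`, then `(u - 1) x ∈ range Φ → x ∈ range Φ`;
* `twlg_el_hH3`      : the same for a finite `O`-module `M` with `M ⧸ Φ M ↪ K ⊗ (M ⧸ Φ M)`:
                       `∀ m, (∃ m', (u - 1) m = Φ m') → ∃ m', m = Φ m'`  (= `hH3`);
* `twlg_el_hinj_of_free` : the embedding hypothesis for a free quotient and `O ↪ K`.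
-/
import Mathlib
import Fermat.Agent.TW.LG.EigenInj

set_option autoImplicit false

open scoped TensorProduct
open Polynomial

namespace Fermat.Agent.TW

/-- `Φ_p(a) = ∑_{i<p} a^i` as an endomorphism -/
def twlg_el_Phi {R M : Type*} [CommSemiring R] [AddCommMonoid M] [Module R M] (p : ℕ)
    (a : Module.End R M) : Module.End R M := ∑ i ∈ Finset.range p, a ^ i

theorem twlg_el_Phi_eq_aeval {R M : Type*} [CommRing R] [AddCommGroup M] [Module R M] (p : ℕ)
    (a : Module.End R M) :
    twlg_el_Phi p a = Polynomial.aeval a (∑ i ∈ Finset.range p, (X : R[X]) ^ i) := by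
  simp [twlg_el_Phi, map_sum]

section Bezout

variable (K : Type*) [Field K]

/-- Bezout for `Φ_p` and the complementary factor of `X^(p^(n+1)) - 1`. -/
theorem twlg_el_bezout (p n : ℕ) (hpK : (p : K) ≠ 0) :
    ∃ G R S : K[X], (∑ i ∈ Finset.range p, (X : K[X]) ^ i) * G = X ^ p ^ (n + 1) - 1 ∧
      R * (∑ i ∈ Finset.range p, (X : K[X]) ^ i) + S * G = 1 := by
  set Φ : K[X] := ∑ i ∈ Finset.range p, (X : K[X]) ^ i with hΦ
  have h1 : Φ * (X - 1) = X ^ p - 1 := by
    rw [hΦ]; exact geom_sum_mul X p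
  have h2 : (X ^ p - 1 : K[X]) ∣ X ^ p ^ (n + 1) - 1 := by
    have := sub_dvd_pow_sub_pow ((X : K[X]) ^ p) 1 (p ^ n)
    rw [one_pow, ← pow_mul, ← pow_succ'] at this
    exact this
  obtain ⟨G1, hG1⟩ := h2
  refine ⟨(X - 1) * G1, ?_⟩
  have hmul : Φ * ((X - 1) * G1) = X ^ p ^ (n + 1) - 1 := by
    rw [← mul_assoc, h1, hG1]
  have hsep : (X ^ p ^ (n + 1) - 1 : K[X]).Separable := by
    have hne : ((p ^ (n + 1) : ℕ) : K) ≠ 0 := by
      rw [Nat.cast_pow]; exact pow_ne_zero _ hpK
    have := Polynomial.separable_X_pow_sub_C (1 : K) hne one_ne_zero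
    simpa using this
  rw [← hmul] at hsep
  obtain ⟨R, S, hRS⟩ := hsep.isCoprime
  exact ⟨R, S, hmul, hRS⟩

end Bezout

section Field

variable {K V : Type*} [Field K] [IsAlgClosed K] [AddCommGroup V] [Module K V]
  [FiniteDimensional K V]

/-- `V` over an algebraically closed field, `a ^ p ^ n = 1`, `𝒮 ∋ a, u` pairwise commuting.  If no
common eigenvector `h ≠ 0` of `𝒮` satisfies `Φ_p(a) h = 0` and `u h = h`, then `u - 1` is injective
modulo the range of `Φ_p(a)`. -/
theorem twlg_el_field (p n : ℕ) (hpK : (p : K) ≠ 0)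
    (𝒮 : Set (Module.End K V)) (hcomm : ∀ s ∈ 𝒮, ∀ s' ∈ 𝒮, Commute s s')
    (a u : Module.End K V) (ha𝒮 : a ∈ 𝒮) (hu𝒮 : u ∈ 𝒮) (ha : a ^ p ^ n = 1)
    (h : ∀ v : V, v ≠ 0 → (∀ s ∈ 𝒮, ∃ c : K, s v = c • v) → twlg_el_Phi p a v = 0 → u v ≠ v)
    (x y : V) (hxy : (u - 1 : Module.End K V) x = twlg_el_Phi p a y) :
    ∃ y', x = twlg_el_Phi p a y' := by
  classical
  obtain ⟨G, R, S, hG, hRS⟩ := twlg_el_bezout K p n hpK
  set Φ : K[X] := ∑ i ∈ Finset.range p, (X : K[X]) ^ i with hΦ
  have hΦa : twlg_el_Phi p a = aeval a Φ := twlg_el_Phi_eq_aeval p a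
  -- `Φ(a) G(a) = 0`
  have hzero : aeval a Φ * aeval a G = 0 := by
    rw [← map_mul, hG, map_sub, map_pow, aeval_X, map_one, pow_succ, pow_mul, ha, one_pow,
      sub_self]
  have hone : aeval a R * aeval a Φ + aeval a S * aeval a G = 1 := by
    rw [← map_mul, ← map_mul, ← map_add, hRS, map_one]
  -- polynomials in `a` commute with everything in `𝒮`
  have hpc : ∀ (f : K[X]) (s : Module.End K V), s ∈ 𝒮 → Commute (aeval a f) s := by
    intro f s hs
    have hc : Commute a s := hcomm a ha𝒮 s hs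
    induction f using Polynomial.induction_on' with
    | add f g hf hg => rw [map_add]; exact hf.add_left hg
    | monomial k c =>
      rw [← C_mul_X_pow_eq_monomial, map_mul, aeval_C, map_pow, aeval_X]
      exact (Algebra.commute_algebraMap_left c s).mul_left (hc.pow_left k)
  -- the stable subspace `W₀ = ker Φ(a) ⊓ ker (u - 1)`
  let W0 : Submodule K V := LinearMap.ker (aeval a Φ) ⊓ LinearMap.ker (u - 1 : Module.End K V)
  have hW0 : W0 = ⊥ := by
    by_contra hne
    have hstab : ∀ s ∈ 𝒮, ∀ w ∈ W0, s w ∈ W0 := by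
      intro s hs w hw
      refine ⟨?_, ?_⟩
      · have h1 : aeval a Φ w = 0 := hw.1
        have hc := LinearMap.congr_fun (hpc Φ s hs).eq w
        simp only [Module.End.mul_apply] at hc
        show aeval a Φ (s w) = 0
        rw [hc, h1, map_zero]
      · have h2 : (u - 1 : Module.End K V) w = 0 := hw.2
        rw [LinearMap.sub_apply, Module.End.one_apply, sub_eq_zero] at h2
        have hc := LinearMap.congr_fun (hcomm u hu𝒮 s hs).eq w
        simp only [Module.End.mul_apply] at hc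
        show (u - 1 : Module.End K V) (s w) = 0
        rw [LinearMap.sub_apply, Module.End.one_apply, sub_eq_zero, hc, h2]
    obtain ⟨v, hvW, hv0, hv⟩ := twlg_ei_common_eigenvector 𝒮 hcomm W0 hne hstab
    have h1 : aeval a Φ v = 0 := hvW.1
    have h2 : (u - 1 : Module.End K V) v = 0 := hvW.2
    rw [LinearMap.sub_apply, Module.End.one_apply, sub_eq_zero] at h2
    exact h v hv0 hv (by rw [hΦa]; exact h1) h2
  -- `x' := S(a) G(a) x ∈ W₀`
  have hx' : (aeval a S * aeval a G) x ∈ W0 := by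
    refine ⟨?_, ?_⟩
    · show aeval a Φ ((aeval a S * aeval a G) x) = 0
      have : aeval a Φ * (aeval a S * aeval a G) = 0 := by
        have hcS : Commute (aeval a Φ) (aeval a S) :=
          (Commute.all Φ S).map (Polynomial.aeval a)
        rw [← mul_assoc, hcS.eq, mul_assoc, hzero, mul_zero]
      have := LinearMap.congr_fun this x
      simpa [Module.End.mul_apply] using this
    · show (u - 1 : Module.End K V) ((aeval a S * aeval a G) x) = 0
      have hcu : Commute (aeval a S * aeval a G) u :=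
        (hpc S u hu𝒮).mul_left (hpc G u hu𝒮)
      have hcu1 : (u - 1 : Module.End K V) * (aeval a S * aeval a G) =
          (aeval a S * aeval a G) * (u - 1) := by
        rw [sub_mul, mul_sub, one_mul, mul_one, hcu.eq]
      have h3 := LinearMap.congr_fun hcu1 x
      simp only [Module.End.mul_apply] at h3
      have hGΦ : aeval a G (aeval a Φ y) = 0 := by
        have hcG : Commute (aeval a Φ) (aeval a G) :=
          (Commute.all Φ G).map (Polynomial.aeval a)
        have h5 : aeval a G * aeval a Φ = 0 := by rw [← hcG.eq, hzero]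
        have := LinearMap.congr_fun h5 y
        simpa [Module.End.mul_apply] using this
      show (u - 1 : Module.End K V) (aeval a S (aeval a G x)) = 0
      rw [h3, hxy, hΦa, hGΦ, map_zero]
  rw [hW0, Submodule.mem_bot] at hx'
  -- `x = R(a) Φ(a) x = Φ(a) (R(a) x)`
  have hx : x = (aeval a R * aeval a Φ) x := by
    have := LinearMap.congr_fun hone x
    rw [LinearMap.add_apply, hx', add_zero, Module.End.one_apply] at this
    exact this.symm
  refine ⟨aeval a R x, ?_⟩
  have hcR : Commute (aeval a R) (aeval a Φ) := (Commute.all R Φ).map (Polynomial.aeval a)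
  rw [hΦa]
  conv_lhs => rw [hx, hcR.eq]
  rfl

end Field

section Descent

variable {O K M : Type*} [CommRing O] [Field K] [Algebra O K] [AddCommGroup M] [Module O M]

theorem twlg_el_Phi_baseChange (p : ℕ) (a : Module.End O M) :
    (twlg_el_Phi p a).baseChange K = twlg_el_Phi p (a.baseChange K) := by
  unfold twlg_el_Phi
  induction p with
  | zero => simp [LinearMap.baseChange_zero]
  | succ k ih =>
    rw [Finset.sum_range_succ, Finset.sum_range_succ, LinearMap.baseChange_add, ih,
      LinearMap.baseChange_pow]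

/-- **`hH3` from eigenvectors.**  `M` a finite `O`-module, `K` an algebraically closed field over `O`
with `p ≠ 0` in `K`, `𝒮 ∋ a, u` a pairwise commuting set of endomorphisms of `M`, `a ^ p ^ n = 1`,
`Φ = ∑_{i<p} a^i`, and `M ⧸ Φ M` embeds into `K ⊗ (M ⧸ Φ M)`.  If no common eigenvector `v ≠ 0` of
`𝒮` in `K ⊗ M` has `Φ v = 0` and `u v = v`, then `u - 1` is injective on `M ⧸ Φ M`. -/
theorem twlg_el_hH3 [IsAlgClosed K] [Module.Finite O M] (p n : ℕ) (hpK : (p : K) ≠ 0)
    (𝒮 : Set (Module.End O M)) (hcomm : ∀ s ∈ 𝒮, ∀ s' ∈ 𝒮, Commute s s')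
    (a u : Module.End O M) (ha𝒮 : a ∈ 𝒮) (hu𝒮 : u ∈ 𝒮) (ha : a ^ p ^ n = 1)
    (hinj : Function.Injective
      (fun q : M ⧸ LinearMap.range (twlg_el_Phi p a) => (1 : K) ⊗ₜ[O] q))
    (h : ∀ v : K ⊗[O] M, v ≠ 0 → (∀ s ∈ 𝒮, ∃ c : K, s.baseChange K v = c • v) →
      (twlg_el_Phi p a).baseChange K v = 0 → u.baseChange K v ≠ v)
    (m : M) (hm : ∃ m', (u - 1 : Module.End O M) m = twlg_el_Phi p a m') :
    ∃ m', m = twlg_el_Phi p a m' := by
  obtain ⟨m', hm'⟩ := hm
  -- the statement over `K`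
  have hK : ∃ y' : K ⊗[O] M, (1 : K) ⊗ₜ[O] m = twlg_el_Phi p (a.baseChange K) y' := by
    refine twlg_el_field p n hpK ((fun s : Module.End O M => s.baseChange K) '' 𝒮) ?_
      (a.baseChange K) (u.baseChange K) ⟨a, ha𝒮, rfl⟩ ⟨u, hu𝒮, rfl⟩ ?_ ?_ _ ((1 : K) ⊗ₜ[O] m') ?_
    · rintro _ ⟨s, hs, rfl⟩ _ ⟨s', hs', rfl⟩
      have := (hcomm s hs s' hs').eq
      show s.baseChange K * s'.baseChange K = s'.baseChange K * s.baseChange K
      rw [← LinearMap.baseChange_mul, ← LinearMap.baseChange_mul, this]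
    · rw [← LinearMap.baseChange_pow, ha, LinearMap.baseChange_one]
    · intro v hv0 hv hΦv
      refine h v hv0 (fun s hs => hv _ ⟨s, hs, rfl⟩) ?_
      rw [twlg_el_Phi_baseChange]; exact hΦv
    · rw [← twlg_el_Phi_baseChange, LinearMap.baseChange_tmul, ← hm']
      simp [LinearMap.sub_apply, TensorProduct.tmul_sub]
  obtain ⟨y', hy'⟩ := hK
  -- push to the quotient
  set Φ := twlg_el_Phi p a with hΦdef
  let π : M →ₗ[O] M ⧸ LinearMap.range Φ := (LinearMap.range Φ).mkQ
  have hπΦ : π ∘ₗ Φ = 0 := by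
    ext z
    simp only [LinearMap.comp_apply, LinearMap.zero_apply, π, Submodule.mkQ_apply,
      Submodule.Quotient.mk_eq_zero]
    exact LinearMap.mem_range_self _ _
  have h0 : (1 : K) ⊗ₜ[O] π m = 0 := by
    have h1 : π.baseChange K ((1 : K) ⊗ₜ[O] m) = (1 : K) ⊗ₜ[O] π m := LinearMap.baseChange_tmul _ _ _
    rw [← h1, hy', ← twlg_el_Phi_baseChange]
    have h2 : π.baseChange K ∘ₗ Φ.baseChange K = 0 := by
      rw [← LinearMap.baseChange_comp, hπΦ, LinearMap.baseChange_zero]
    exact LinearMap.congr_fun h2 y'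
  have h1 : π m = 0 := hinj (by simpa using h0)
  have h2 : m ∈ LinearMap.range Φ := by
    simpa [π, Submodule.mkQ_apply, Submodule.Quotient.mk_eq_zero] using h1
  obtain ⟨z, hz⟩ := h2
  exact ⟨z, hz.symm⟩

/-- the embedding hypothesis for a free module when `O → K` is injective -/
theorem twlg_el_hinj_of_free {Q : Type*} [AddCommGroup Q] [Module O Q] [Module.Free O Q]
    (hOK : Function.Injective (algebraMap O K)) :
    Function.Injective (fun q : Q => (1 : K) ⊗ₜ[O] q) := by
  have h := Module.Flat.rTensor_preserves_injective_linearMap (M := Q)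
    (Algebra.linearMap O K) hOK
  intro x y hxy
  have hx : ∀ z : Q, (Algebra.linearMap O K).rTensor Q ((1 : O) ⊗ₜ[O] z) = (1 : K) ⊗ₜ[O] z := by
    intro z
    simp [LinearMap.rTensor_tmul]
  have h3 : (1 : O) ⊗ₜ[O] x = (1 : O) ⊗ₜ[O] y := by
    apply h
    rw [hx, hx]; exact hxy
  have h4 := congrArg (TensorProduct.lid O Q) h3
  simpa using h4

end Descent

end Fermat.Agent.TW
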