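/-
Project TW (S43), block [A] LG, cell A4 (Assembly), part 1 `AsLift` (helper29): the `ζ`-fibre form
of `EigenLift`.  Mathlib + `TW/LG/EigenLift.lean`.  Prefix `twlg_as_`.

`twlg_match_free_fibre` / `twlg_match_free_monoidAlgebra` (helper18) consume `hH3` in the form
"`u - 1` is injective on the ONE fibre `M / (a - ζ) M`" (`ζ ∈ O` a primitive `p`-th root of unity).
The geometric input is per eigenvector of `K̄ ⊗ M`.  This file is the linear algebra in between,
for an arbitrary divisor `Ψ` of `X ^ d - 1` with a Bezout complement, then for `Ψ = X - ζ`.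

* `twlg_as_bezout`   : `(X - ζ) G = X^d - 1`, `R (X - ζ) + S G = 1` over a field with `d ≠ 0`;
* `twlg_as_field_gen`: `V` over an algebraically closed field, `a ^ d = 1`: if no common eigenvector
                       `h ≠ 0` of `𝒮 ∋ a, u` has `Ψ(a) h = 0` and `u h = h`, then
                       `(u - 1) x ∈ range Ψ(a) → x ∈ range Ψ(a)`;
* `twlg_as_hH3`      : the same for a finite `O`-module `M` and `Ψ = X - ζ`, `ζ ∈ O`, `ζ ^ d = 1`:
                       `∀ m, (∃ m', (u - 1) m = (a - ζ) m') → ∃ m', m = (a - ζ) m'`;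
* `twlg_as_hinj`     : the embedding hypothesis of `twlg_as_hH3` from "`M / (a - ζ) M` has no
                       `O`-torsion" (`O` a principal ideal domain).
-/
import Mathlib
import Fermat.Agent.TW.LG.EigenLift

set_option autoImplicit false

open scoped TensorProduct
open Polynomial

namespace Fermat.Agent.TW

section Bezout

variable (K : Type*) [Field K]

/-- Bezout for `X - ζ` and the complementary factor of `X ^ d - 1` (`ζ ^ d = 1`, `d ≠ 0` in `K`). -/
theorem twlg_as_bezout (d : ℕ) (hdK : (d : K) ≠ 0) (ζ : K) (hζ : ζ ^ d = 1) :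
    ∃ G R S : K[X], (X - C ζ) * G = X ^ d - 1 ∧ R * (X - C ζ) + S * G = 1 := by
  have hroot : (X ^ d - 1 : K[X]).IsRoot ζ := by
    simp [Polynomial.IsRoot, hζ]
  obtain ⟨G, hG⟩ := Polynomial.dvd_iff_isRoot.2 hroot
  have hsep : (X ^ d - 1 : K[X]).Separable := by
    have := Polynomial.separable_X_pow_sub_C (1 : K) hdK one_ne_zero
    simpa using this
  rw [hG] at hsep
  obtain ⟨R, S, hRS⟩ := hsep.isCoprime
  exact ⟨G, R, S, hG.symm, hRS⟩

end Bezout

section Field

variable {K V : Type*} [Field K] [IsAlgClosed K] [AddCommGroup V] [Module K V]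
  [FiniteDimensional K V]

/-- `V` over an algebraically closed field, `a ^ d = 1`, `𝒮 ∋ a, u` pairwise commuting, `Ψ` a
divisor of `X ^ d - 1` with a Bezout complement.  If no common eigenvector `h ≠ 0` of `𝒮`
satisfies `Ψ(a) h = 0` and `u h = h`, then `u - 1` is injective modulo the range of `Ψ(a)`. -/
theorem twlg_as_field_gen (Ψ G R S : K[X]) (d : ℕ) (hG : Ψ * G = X ^ d - 1)
    (hRS : R * Ψ + S * G = 1)
    (𝒮 : Set (Module.End K V)) (hcomm : ∀ s ∈ 𝒮, ∀ s' ∈ 𝒮, Commute s s')
    (a u : Module.End K V) (ha𝒮 : a ∈ 𝒮) (hu𝒮 : u ∈ 𝒮) (ha : a ^ d = 1)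
    (h : ∀ v : V, v ≠ 0 → (∀ s ∈ 𝒮, ∃ c : K, s v = c • v) → aeval a Ψ v = 0 → u v ≠ v)
    (x y : V) (hxy : (u - 1 : Module.End K V) x = aeval a Ψ y) :
    ∃ y', x = aeval a Ψ y' := by
  classical
  -- `Ψ(a) G(a) = 0`
  have hzero : aeval a Ψ * aeval a G = 0 := by
    rw [← map_mul, hG, map_sub, map_pow, aeval_X, map_one, ha, sub_self]
  have hone : aeval a R * aeval a Ψ + aeval a S * aeval a G = 1 := by
    rw [← map_mul, ← map_mul, ← map_add, hRS, map_one]
  -- polynomials in `a` commute with everything in `𝒮`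
  have hpc : ∀ (f : K[X]) (s : Module.End K V), s ∈ 𝒮 → Commute (aeval a f) s := by
    intro f s hs
    have hc : Commute a s := hcomm a ha𝒮 s hs
    induction f using Polynomial.induction_on' with
    | add f g hf hg => rw [map_add]; exact hf.add_left hg
    | monomial k c =>
      rw [← C_mul_X_pow_eq_monomial, map_mul, aeval_C, map_pow, aeval_X]
      exact (Algebra.commute_algebraMap_left c s).mul_left (hc.pow_left k)
  -- the stable subspace `W₀ = ker Ψ(a) ⊓ ker (u - 1)`
  let W0 : Submodule K V := LinearMap.ker (aeval a Ψ) ⊓ LinearMap.ker (u - 1 : Module.End K V)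
  have hW0 : W0 = ⊥ := by
    by_contra hne
    have hstab : ∀ s ∈ 𝒮, ∀ w ∈ W0, s w ∈ W0 := by
      intro s hs w hw
      refine ⟨?_, ?_⟩
      · have h1 : aeval a Ψ w = 0 := hw.1
        have hc := LinearMap.congr_fun (hpc Ψ s hs).eq w
        simp only [Module.End.mul_apply] at hc
        show aeval a Ψ (s w) = 0
        rw [hc, h1, map_zero]
      · have h2 : (u - 1 : Module.End K V) w = 0 := hw.2
        rw [LinearMap.sub_apply, Module.End.one_apply, sub_eq_zero] at h2
        have hc := LinearMap.congr_fun (hcomm u hu𝒮 s hs).eq w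
        simp only [Module.End.mul_apply] at hc
        show (u - 1 : Module.End K V) (s w) = 0
        rw [LinearMap.sub_apply, Module.End.one_apply, sub_eq_zero, hc, h2]
    obtain ⟨v, hvW, hv0, hv⟩ := twlg_ei_common_eigenvector 𝒮 hcomm W0 hne hstab
    have h1 : aeval a Ψ v = 0 := hvW.1
    have h2 : (u - 1 : Module.End K V) v = 0 := hvW.2
    rw [LinearMap.sub_apply, Module.End.one_apply, sub_eq_zero] at h2
    exact h v hv0 hv h1 h2
  -- `x' := S(a) G(a) x ∈ W₀`
  have hx' : (aeval a S * aeval a G) x ∈ W0 := by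
    refine ⟨?_, ?_⟩
    · show aeval a Ψ ((aeval a S * aeval a G) x) = 0
      have : aeval a Ψ * (aeval a S * aeval a G) = 0 := by
        have hcS : Commute (aeval a Ψ) (aeval a S) :=
          (Commute.all Ψ S).map (Polynomial.aeval a)
        rw [← mul_assoc, hcS.eq, mul_assoc, hzero, mul_zero]
      have := LinearMap.congr_fun this x
      simpa [Module.End.mul_apply] using this
    · show (u - 1 : Module.End K V) ((aeval a S * aeval a G) x) = 0
      have hcu : Commute (aeval a S * aeval a G) u :=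
        (hpc S u hu𝒮).mul_left (hpc G u hu𝒮)
      have hcu1 : (u - 1 : Module.End K V) * (aeval a S * aeval a G) =
          (aeval a S * aeval a G) * (u - 1) := by
        rw [sub_mul, mul_sub, one_mul, mul_one, hcu.eq]
      have h3 := LinearMap.congr_fun hcu1 x
      simp only [Module.End.mul_apply] at h3
      have hGΨ : aeval a G (aeval a Ψ y) = 0 := by
        have hcG : Commute (aeval a Ψ) (aeval a G) :=
          (Commute.all Ψ G).map (Polynomial.aeval a)
        have h5 : aeval a G * aeval a Ψ = 0 := by rw [← hcG.eq, hzero]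
        have := LinearMap.congr_fun h5 y
        simpa [Module.End.mul_apply] using this
      show (u - 1 : Module.End K V) (aeval a S (aeval a G x)) = 0
      rw [h3, hxy, hGΨ, map_zero]
  rw [hW0, Submodule.mem_bot] at hx'
  -- `x = R(a) Ψ(a) x = Ψ(a) (R(a) x)`
  have hx : x = (aeval a R * aeval a Ψ) x := by
    have := LinearMap.congr_fun hone x
    rw [LinearMap.add_apply, hx', add_zero, Module.End.one_apply] at this
    exact this.symm
  refine ⟨aeval a R x, ?_⟩
  have hcR : Commute (aeval a R) (aeval a Ψ) := (Commute.all R Ψ).map (Polynomial.aeval a)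
  conv_lhs => rw [hx, hcR.eq]
  rfl

end Field

section Descent

variable {O K M : Type*} [CommRing O] [Field K] [Algebra O K] [AddCommGroup M] [Module O M]

/-- **`hH3` (fibre form) from eigenvectors.**  `M` a finite `O`-module, `K` an algebraically closed
field over `O` with `d ≠ 0` in `K`, `𝒮 ∋ a, u` a pairwise commuting set of endomorphisms of `M`,
`a ^ d = 1`, `ζ ∈ O` with `ζ ^ d = 1`, and `M ⧸ (a - ζ) M` embeds into `K ⊗ (M ⧸ (a - ζ) M)`.  If no
common eigenvector `v ≠ 0` of `𝒮` in `K ⊗ M` has `a v = ζ v` and `u v = v`, then `u - 1` is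
injective on `M ⧸ (a - ζ) M`. -/
theorem twlg_as_hH3 [IsAlgClosed K] [Module.Finite O M] (d : ℕ) (hdK : (d : K) ≠ 0)
    (ζ : O) (hζ : ζ ^ d = 1)
    (𝒮 : Set (Module.End O M)) (hcomm : ∀ s ∈ 𝒮, ∀ s' ∈ 𝒮, Commute s s')
    (a u : Module.End O M) (ha𝒮 : a ∈ 𝒮) (hu𝒮 : u ∈ 𝒮) (ha : a ^ d = 1)
    (hinj : Function.Injective
      (fun q : M ⧸ LinearMap.range (a - algebraMap O (Module.End O M) ζ) => (1 : K) ⊗ₜ[O] q))
    (h : ∀ v : K ⊗[O] M, v ≠ 0 → (∀ s ∈ 𝒮, ∃ c : K, s.baseChange K v = c • v) →
      a.baseChange K v = algebraMap O K ζ • v → u.baseChange K v ≠ v)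
    (m : M) (hm : ∃ m', (u - 1 : Module.End O M) m = (a - algebraMap O (Module.End O M) ζ) m') :
    ∃ m', m = (a - algebraMap O (Module.End O M) ζ) m' := by
  obtain ⟨m', hm'⟩ := hm
  set Ψe : Module.End O M := a - algebraMap O (Module.End O M) ζ with hΨe
  set ζK : K := algebraMap O K ζ with hζK
  have hζKd : ζK ^ d = 1 := by rw [hζK, ← map_pow, hζ, map_one]
  obtain ⟨G, R, S, hG, hRS⟩ := twlg_as_bezout K d hdK ζK hζKd
  -- `Ψ(a_K) = (a - ζ)_K`
  have hΨK : aeval (a.baseChange K) (X - C ζK : K[X]) = Ψe.baseChange K := by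
    rw [map_sub, aeval_X, aeval_C, hΨe, LinearMap.baseChange_sub]
    congr 1
    ext x
    simp [hζK, Algebra.algebraMap_eq_smul_one, TensorProduct.smul_tmul']
  -- the statement over `K`
  have hK : ∃ y' : K ⊗[O] M, (1 : K) ⊗ₜ[O] m = aeval (a.baseChange K) (X - C ζK : K[X]) y' := by
    refine twlg_as_field_gen (X - C ζK) G R S d hG hRS
      ((fun s : Module.End O M => s.baseChange K) '' 𝒮) ?_
      (a.baseChange K) (u.baseChange K) ⟨a, ha𝒮, rfl⟩ ⟨u, hu𝒮, rfl⟩ ?_ ?_ _ ((1 : K) ⊗ₜ[O] m') ?_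
    · rintro _ ⟨s, hs, rfl⟩ _ ⟨s', hs', rfl⟩
      have := (hcomm s hs s' hs').eq
      show s.baseChange K * s'.baseChange K = s'.baseChange K * s.baseChange K
      rw [← LinearMap.baseChange_mul, ← LinearMap.baseChange_mul, this]
    · rw [← LinearMap.baseChange_pow, ha, LinearMap.baseChange_one]
    · intro v hv0 hv hΨv
      refine h v hv0 (fun s hs => hv _ ⟨s, hs, rfl⟩) ?_
      rw [map_sub, aeval_X, aeval_C, LinearMap.sub_apply, sub_eq_zero] at hΨv
      rw [hΨv]
      simp [Algebra.algebraMap_eq_smul_one]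
    · rw [hΨK, LinearMap.baseChange_tmul, ← hm']
      simp [LinearMap.sub_apply, TensorProduct.tmul_sub]
  obtain ⟨y', hy'⟩ := hK
  rw [hΨK] at hy'
  -- push to the quotient
  let π : M →ₗ[O] M ⧸ LinearMap.range Ψe := (LinearMap.range Ψe).mkQ
  have hπΨ : π ∘ₗ Ψe = 0 := by
    ext z
    simp only [LinearMap.comp_apply, LinearMap.zero_apply, π, Submodule.mkQ_apply,
      Submodule.Quotient.mk_eq_zero]
    exact LinearMap.mem_range_self _ _
  have h0 : (1 : K) ⊗ₜ[O] π m = 0 := by
    have h1 : π.baseChange K ((1 : K) ⊗ₜ[O] m) = (1 : K) ⊗ₜ[O] π m :=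
      LinearMap.baseChange_tmul _ _ _
    rw [← h1, hy']
    have h2 : π.baseChange K ∘ₗ Ψe.baseChange K = 0 := by
      rw [← LinearMap.baseChange_comp, hπΨ, LinearMap.baseChange_zero]
    exact LinearMap.congr_fun h2 y'
  have h1 : π m = 0 := hinj (by simpa using h0)
  have h2 : m ∈ LinearMap.range Ψe := by
    simpa [π, Submodule.mkQ_apply, Submodule.Quotient.mk_eq_zero] using h1
  obtain ⟨z, hz⟩ := h2
  exact ⟨z, hz.symm⟩

/-- the embedding hypothesis of `twlg_as_hH3`: a finite module over a principal ideal domain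
without torsion embeds into its base change to a field containing `O`. -/
theorem twlg_as_hinj [IsDomain O] [IsPrincipalIdealRing O]
    (hOK : Function.Injective (algebraMap O K)) {Q : Type*} [AddCommGroup Q] [Module O Q]
    [Module.Finite O Q] (htf : ∀ (c : O) (q : Q), c • q = 0 → c = 0 ∨ q = 0) :
    Function.Injective (fun q : Q => (1 : K) ⊗ₜ[O] q) := by
  have : Module.IsTorsionFree O Q := Module.isTorsionFree_iff_smul_eq_zero.2 htf
  have : Module.Free O Q := Module.free_of_finite_type_torsion_free'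
  exact twlg_el_hinj_of_free hOK

/-- the quotient `M ⧸ range f` has no `O`-torsion as soon as `c • m ∈ range f → m ∈ range f` for
`c ≠ 0`. -/
theorem twlg_as_quot_torsionFree (f : Module.End O M)
    (hsat : ∀ (c : O), c ≠ 0 → ∀ m : M, (∃ m', c • m = f m') → ∃ m', m = f m')
    (c : O) (q : M ⧸ LinearMap.range f) (hq : c • q = 0) : c = 0 ∨ q = 0 := by
  by_cases hc : c = 0
  · exact Or.inl hc
  · right
    obtain ⟨m, rfl⟩ := Submodule.Quotient.mk_surjective _ q
    rw [← Submodule.Quotient.mk_smul, Submodule.Quotient.mk_eq_zero] at hq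
    obtain ⟨m', hm'⟩ := hq
    obtain ⟨m'', hm''⟩ := hsat c hc m ⟨m', hm'.symm⟩
    rw [Submodule.Quotient.mk_eq_zero]
    exact ⟨m'', hm''.symm⟩

end Descent

end Fermat.Agent.TW
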