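/-
Project TW (S43), block [A] LG, cell A4 (Assembly), part 5d `AsMatch` (helper29).
Prefix `twlg_as_`.  Mathlib + `TW/LG/{MatchSeam, AsLift, AsAux}`.

The matching lemma on a module `M` free over `O[G × H]` (`G = ∏_{i} ℤ/p^{n i}` the Taylor–Wiles
diamonds, `H` the diamonds at the hard primes) with a commuting action of a commutative `O`-algebra
`𝒰` (the Hecke algebra): Galois operators `u i ∈ 𝒰` with `u i ^ p ^ n i = 1`,
`(u i - 1) M ⊆ (δ_i - 1) M` and `χ(u i) ≠ 1` on every eigen-system of `K̄ ⊗ M` with `δ_i`-eigenvalue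
`≠ 1` satisfy `(δ_i - 1) M ⊆ (u i - 1) M`.
-/
import Mathlib
import Fermat.Agent.TW.LG.MatchSeam
import Fermat.Agent.TW.LG.AsLift
import Fermat.Agent.TW.LG.AsAux

set_option autoImplicit false
set_option linter.unusedSectionVars false
set_option linter.style.haveILetI false
set_option maxHeartbeats 1000000

open scoped TensorProduct
open Polynomial IsLocalRing

namespace Fermat.Agent.TW

noncomputable section

section match2

variable {O 𝒰 M : Type} [CommRing O] [IsDomain O] [IsLocalRing O] [IsPrincipalIdealRing O]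
  [CharZero O] [CommRing 𝒰] [Algebra O 𝒰] [AddCommGroup M] [Module O M] [Module 𝒰 M]
  [IsScalarTower O 𝒰 M]
  {ι ι' : Type} [Fintype ι] [DecidableEq ι] [Fintype ι'] [DecidableEq ι']

/-- **the matching lemma over `O[G × H]`.** -/
theorem twlg_as_match_two (p : ℕ) [hp : Fact p.Prime] (hp2 : p ≠ 2)
    (hpO : (p : O) ∈ maximalIdeal O) (ζ : O) (hζ : IsPrimitiveRoot ζ p)
    (P : ι → ℕ) [∀ i, NeZero (P i)] (n : ι → ℕ) (hn : ∀ i, 0 < n i) (hP : ∀ i, P i = p ^ n i)
    (P' : ι' → ℕ) [∀ i, NeZero (P' i)]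
    [Module (MonoidAlgebra O
      (Multiplicative (∀ i, ZMod (P i)) × Multiplicative (∀ i, ZMod (P' i)))) M]
    [IsScalarTower O (MonoidAlgebra O
      (Multiplicative (∀ i, ZMod (P i)) × Multiplicative (∀ i, ZMod (P' i)))) M]
    [SMulCommClass 𝒰 (MonoidAlgebra O
      (Multiplicative (∀ i, ZMod (P i)) × Multiplicative (∀ i, ZMod (P' i)))) M]
    [Module.Finite (MonoidAlgebra O
      (Multiplicative (∀ i, ZMod (P i)) × Multiplicative (∀ i, ZMod (P' i)))) M]
    [Module.Free (MonoidAlgebra O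
      (Multiplicative (∀ i, ZMod (P i)) × Multiplicative (∀ i, ZMod (P' i)))) M]
    (u : ι → 𝒰) (hu : ∀ i, u i ^ P i = 1)
    (hH2 : ∀ i (m : M), ∃ m', (u i - 1) • m =
      (MonoidAlgebra.of O
        (Multiplicative (∀ i, ZMod (P i)) × Multiplicative (∀ i, ZMod (P' i)))
        (twlg_gen P i, 1) - 1) • m')
    (heig : ∀ i, ∀ (K : Type) [Field K] [IsAlgClosed K] [Algebra O K],
      Function.Injective (algebraMap O K) →
      ∀ (χ : 𝒰 →ₐ[O] K) (v : K ⊗[O] M), v ≠ 0 →
        (∀ x : 𝒰, (Algebra.lsmul O O M x).baseChange K v = χ x • v) →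
        ∀ z : K, z ≠ 1 →
          (Algebra.lsmul O O M (MonoidAlgebra.of O
            (Multiplicative (∀ i, ZMod (P i)) × Multiplicative (∀ i, ZMod (P' i)))
            (twlg_gen P i, 1))).baseChange K v = z • v → χ (u i) ≠ 1) :
    ∀ i (m : M), ∃ m', (MonoidAlgebra.of O
        (Multiplicative (∀ i, ZMod (P i)) × Multiplicative (∀ i, ZMod (P' i)))
        (twlg_gen P i, 1) - 1) • m = (u i - 1) • m' := by
  classical
  obtain rfl : P = fun i => p ^ n i := funext hP
  set GH := Multiplicative (∀ i, ZMod (p ^ n i)) × Multiplicative (∀ i, ZMod (P' i)) with hGH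
  set R := MonoidAlgebra O GH with hR
  -- bases
  set B₀ := Module.Free.chooseBasis R M with hB₀
  haveI hfin : Fintype (Module.Free.ChooseBasisIndex R M) :=
    Module.Free.ChooseBasisIndex.fintype _ _
  set Bt := (MonoidAlgebra.basis GH O).smulTower B₀ with hBt
  haveI : Module.Finite O M := Module.Finite.of_basis Bt
  haveI : Module.Free O M := Module.Free.of_basis Bt
  obtain ⟨hli, hspan⟩ := twlg_as_mon_basis2 (O := O) (fun i => p ^ n i) P' B₀
  -- the data of `twlg_match_free_two`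
  set a : ι → R := fun i => MonoidAlgebra.of O GH (twlg_gen (fun i => p ^ n i) i, 1) with ha_def
  set b : (∀ i, Fin (P' i)) × Module.Free.ChooseBasisIndex R M → M := fun kj =>
    (∏ i, MonoidAlgebra.of O GH (1, twlg_gen P' i) ^ (kj.1 i : ℕ)) • B₀ kj.2 with hb_def
  have hpJ : (p : O) ∈ Ideal.jacobson (⊥ : Ideal O) := by
    rw [IsLocalRing.jacobson_eq_maximalIdeal ⊥ bot_ne_top]; exact hpO
  have hζJ : 1 - ζ ∈ Ideal.jacobson (⊥ : Ideal O) := by
    rw [IsLocalRing.jacobson_eq_maximalIdeal ⊥ bot_ne_top]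
    exact twlg_as_zeta_mem hp.out hpO ζ hζ
  have hζΦ : twlg_Phi p ζ = 0 := twlg_as_zeta_Phi hp.out ζ hζ
  have htfc : ∀ (c : O), c ≠ 0 → ∀ m : M, c • m = 0 → m = 0 := by
    intro c hc m hm
    exact (smul_eq_zero.1 hm).resolve_left hc
  have htf : ∀ m : M, p • m = 0 → m = 0 := by
    intro m hm
    refine htfc (p : O) (by exact_mod_cast hp.out.ne_zero) m ?_
    rw [Nat.cast_smul_eq_nsmul]; exact hm
  have ha : ∀ i (m : M), a i ^ p ^ n i • m = m := by
    intro i m
    rw [ha_def]
    simp only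
    rw [← map_pow, Prod.pow_mk, one_pow, twlg_gen_pow (fun i => p ^ n i) i]
    exact one_smul _ m
  have hapow : ∀ i, a i ^ p ^ n i = 1 := by
    intro i
    rw [ha_def]
    simp only
    rw [← map_pow, Prod.pow_mk, one_pow, twlg_gen_pow (fun i => p ^ n i) i]
    exact map_one _
  set Ntot : ℕ := ∑ i, n i with hNtot
  have hu' : ∀ i (m : M), u i ^ p ^ Ntot • m = m := by
    intro i m
    have hle : n i ≤ Ntot := Finset.single_le_sum (f := n) (fun _ _ => Nat.zero_le _)
      (Finset.mem_univ i)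
    obtain ⟨k, hk⟩ := Nat.exists_eq_add_of_le hle
    rw [hk, pow_add, pow_mul, hu i, one_pow, one_smul]
  -- `hH3` from the eigenvector statement
  have hH3 : ∀ i (m : M), (∃ m', (u i - 1) • m = (a i - algebraMap O R ζ) • m') →
      ∃ m', m = (a i - algebraMap O R ζ) • m' := by
    intro i m hm
    -- the algebraically closed field
    let K := AlgebraicClosure (FractionRing O)
    have hK : Function.Injective (algebraMap O K) := by
      rw [IsScalarTower.algebraMap_eq O (FractionRing O) K]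
      exact (algebraMap (FractionRing O) K).injective.comp
        (IsFractionRing.injective O (FractionRing O))
    have hdK : ((p ^ n i : ℕ) : K) ≠ 0 := by
      have h1 : ((p ^ n i : ℕ) : O) ≠ 0 := by
        exact_mod_cast pow_ne_zero _ hp.out.ne_zero
      intro h0
      apply h1
      apply hK
      rw [map_natCast, map_zero]; exact h0
    have hζd : ζ ^ p ^ n i = 1 := by
      obtain ⟨k, hk⟩ : p ∣ p ^ n i := dvd_pow_self p (hn i).ne'
      rw [hk, pow_mul, hζ.pow_eq_one, one_pow]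
    -- endomorphisms
    set aE : Module.End O M := Algebra.lsmul O O M (a i) with haE
    set uE : Module.End O M := Algebra.lsmul O O M (u i) with huE
    have haEpow : aE ^ p ^ n i = 1 := by
      rw [haE, ← map_pow, hapow i, map_one]
    have hconv : ∀ m' : M, (aE - algebraMap O (Module.End O M) ζ) m' =
        (a i - algebraMap O R ζ) • m' := by
      intro m'
      rw [LinearMap.sub_apply, haE, Algebra.lsmul_coe, Module.algebraMap_end_apply, sub_smul,
        algebraMap_smul]
    have hconvu : ∀ m' : M, (uE - 1 : Module.End O M) m' = (u i - 1) • m' := by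
      intro m'
      rw [LinearMap.sub_apply, huE, Algebra.lsmul_coe, Module.End.one_apply, sub_smul, one_smul]
    -- saturation from the orbit basis
    have hsplit := twlg_basis_split a (fun i => p ^ n i) b i hli hspan
    beta_reduce at hsplit
    obtain ⟨hli', hspan'⟩ := hsplit
    have hsat : ∀ (c : O), c ≠ 0 → ∀ m : M,
        (∃ m', c • m = (aE - algebraMap O (Module.End O M) ζ) m') →
        ∃ m', m = (aE - algebraMap O (Module.End O M) ζ) m' := by
      intro c hc m₀ hm₀
      obtain ⟨m₁, hm₁⟩ := hm₀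
      obtain ⟨m₂, hm₂⟩ := twlg_hA_of_basis (a i) (p ^ n i) (pow_pos hp.out.pos _) ζ hζd (ha i)
        (fun kj : (∀ i' : {i' // i' ≠ i}, Fin (p ^ n i')) ×
            ((∀ i, Fin (P' i)) × Module.Free.ChooseBasisIndex R M) =>
          (∏ i' : {i' // i' ≠ i}, a i' ^ (kj.1 i' : ℕ)) • b kj.2) hli' hspan' c (htfc c hc) m₀
        ⟨m₁, by rw [hm₁, hconv]⟩
      exact ⟨m₂, by rw [hm₂, hconv]⟩
    have hinj : Function.Injective
        (fun q : M ⧸ LinearMap.range (aE - algebraMap O (Module.End O M) ζ) =>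
          (1 : K) ⊗ₜ[O] q) :=
      twlg_as_hinj hK (twlg_as_quot_torsionFree _ hsat)
    have hcomm : ∀ s ∈ twlg_two_set O R 𝒰 M, ∀ s' ∈ twlg_two_set O R 𝒰 M, Commute s s' :=
      fun s hs s' hs' => twlg_two_comm s hs s' hs'
    have heigen : ∀ v : K ⊗[O] M, v ≠ 0 →
        (∀ s ∈ twlg_two_set O R 𝒰 M, ∃ c : K, s.baseChange K v = c • v) →
        aE.baseChange K v = algebraMap O K ζ • v → uE.baseChange K v ≠ v := by
      intro v hv0 hv hav
      obtain ⟨χ, hχ⟩ := twlg_as_char_of_eigen (K := K)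
        (Algebra.lsmul O O M : 𝒰 →ₐ[O] Module.End O M) v hv0
        (fun x => hv _ (Or.inr ⟨x, rfl⟩))
      have hz : algebraMap O K ζ ≠ 1 := by
        intro h1
        apply twlg_as_zeta_ne_one hp.out ζ hζ
        apply hK
        rw [h1, map_one]
      have hne := heig i K hK χ v hv0 hχ (algebraMap O K ζ) hz hav
      intro huv
      apply hne
      have h2 : χ (u i) • v = v := by rw [← hχ]; exact huv
      have h3 : (χ (u i) - 1) • v = 0 := by
        have := sub_smul (χ (u i)) 1 v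
        rw [this, h2, one_smul, sub_self]
      rcases smul_eq_zero.1 h3 with h4 | h4
      · exact sub_eq_zero.1 h4
      · exact absurd h4 hv0
    obtain ⟨m₁, hm₁⟩ := hm
    obtain ⟨m', hm'⟩ := twlg_as_hH3 (K := K) (p ^ n i) hdK ζ hζd (twlg_two_set O R 𝒰 M) hcomm
      aE uE (Or.inl ⟨a i, rfl⟩) (Or.inr ⟨u i, rfl⟩) haEpow hinj heigen m
      ⟨m₁, by rw [hconvu, hconv]; exact hm₁⟩
    exact ⟨m', by rw [hm', hconv]⟩
  obtain ⟨-, k2, -, -⟩ := twlg_match_free_two (O := O) (𝒜 := R) (𝒰 := 𝒰) (M := M) p hp2 hpJ htf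
    ζ hζΦ hζJ a u n hn Ntot ha hu' hH2 hH3 b hli hspan
  exact k2

end match2

end

end Fermat.Agent.TW
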