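/-
Project TW (S43), block [A] LG, cell A4 (Assembly), part 5c' `AsTW2` (helper29).
Prefix `twlg_as_`.  VERSION 2 of `TW/LG/AsTW.lean`: the SAME statements with helper3's
`Bg.IsLG2` (`TW/Aut/SeamsLG2.lean`, no reducedness clause) instead of `Bg.IsLG`.
-/
import Mathlib
import Fermat.Agent.TW.LG.AsTW
import Fermat.Agent.TW.Aut.SeamsLG2

set_option autoImplicit false
set_option linter.unusedSectionVars false
set_option linter.style.haveILetI false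
set_option maxHeartbeats 1000000

open Polynomial CuspForm IsLocalRing ExtCitation Fermat.Agent.JT3
open Fermat.Agent.S53 Fermat.Agent.S56
open scoped TensorProduct

namespace Fermat.Agent.TW

noncomputable section

local notation "GQ" => (AlgebraicClosure ℚ ≃ₐ[ℚ] AlgebraicClosure ℚ)
local notation "Qbar" => AlgebraicClosure ℚ

section tw

variable {𝒪 : Type} [CommRing 𝒪] [IsDomain 𝒪] [IsDiscreteValuationRing 𝒪]
  [IsAdicComplete (maximalIdeal 𝒪) 𝒪] [Finite (ResidueField 𝒪)] [CharZero 𝒪]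
  {N : ℕ} [NeZero N] {S : Finset ℕ} {θ : heckeAlgebra N 2 (↑S : Set ℕ) →+* ResidueField 𝒪}
  {B : twe_Base 𝒪 N S θ} {p : ℕ} {Q : Finset ℕ} [NeZero (twe_Nbal N Q ∅)]
  {L : twe_Level B p Q} {Th : Finset ℕ} [NeZero (twe_Nbal N Q Th)]

/-- the per-prime output of `twlg_as_one` for a big system. -/
theorem twlg_as_tw_one2 [hpF : Fact p.Prime] (hp5 : 5 ≤ p) (hp𝒪 : (p : 𝒪) ∈ maximalIdeal 𝒪)
    (hpS : p ∈ S) (hNS : ∀ ℓ : ℕ, ℓ.Prime → ℓ ∣ N → ℓ ∈ S)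
    (ρbar : ResidualGaloisRep (ResidueField 𝒪)) (hcompat : twt_Compat θ ρbar)
    (hunr : ∀ ℓ : ℕ, ℓ.Prime → ℓ ≠ 2 → ℓ ≠ p → ρbar.IsUnramifiedAt ℓ)
    (hQS : ∀ t ∈ Q, t ∉ S) (hTW : twe_IsTWSet θ p Q)
    (hsplit : ∀ t ∈ Q, ∀ P : ValuationSubring Qbar, P.LiesOverPrime t → ∀ φ : GQ,
      P.IsFrobeniusAt φ t →
      ∃ α β : ResidueField 𝒪, α ≠ β ∧ LinearMap.charpoly (ρbar.ρ φ) = (X - C α) * (X - C β))
    (hTh : ∀ ℓ ∈ Th, ℓ.Prime ∧ ℓ ∣ N)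
    (Bg : twe_Big L Th) (hBg : Bg.IsLG2) (t : ℕ) (ht : t ∈ Q) :
    ∃ u : Bg.T'', u - 1 ∈ maximalIdeal Bg.T'' ∧ u ^ p ^ padicValNat p (t - 1) = 1 ∧
      (∀ m : Bg.Mb, ∃ m' : Bg.Mb, (u - 1) • m = Bg.diaQ t ht m' - m') ∧
      ∀ (K : Type) [Field K] [IsAlgClosed K] [Algebra 𝒪 K],
        Function.Injective (algebraMap 𝒪 K) →
        ∀ (χ : Bg.T'' →ₐ[𝒪] K) (v : K ⊗[𝒪] Bg.Mb), v ≠ 0 →
          (∀ x : Bg.T'', (twe_act (MX := Bg.Mb) x).baseChange K v = χ x • v) →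
          ∀ z : K, z ≠ 1 → (Bg.diaQ t ht).baseChange K v = z • v → χ u ≠ 1 := by
  have hp : p.Prime := hpF.out
  have hQ : ∀ t ∈ Q, t.Prime := fun t ht => (hTW t ht).1
  have htp : t.Prime := hQ t ht
  have htmod : t % p = 1 := (hTW t ht).2.1
  have htnp : t ≠ p := fun h => hQS t ht (h ▸ hpS)
  have ht2 : t ≠ 2 := by
    intro h
    rw [h, Nat.mod_eq_of_lt (by omega)] at htmod
    omega
  have hpS' : p ∈ S ∪ Q := Finset.mem_union_left _ hpS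
  have hNS' : ∀ r : ℕ, r.Prime → r ∣ twe_Nbal N Q Th → r ∈ S ∪ Q :=
    twlg_as_level_primes hNS hQ hTh
  obtain ⟨h1, h2, h3⟩ := twlg_as_level_tw hNS hQ hQS hTh t ht
  obtain ⟨⟨_, ⟨Od⟩⟩, hnew⟩ := hBg.1 t ht
  exact twlg_as_one hp𝒪 hpS' hNS' ρbar (twlg_as_compat_big Bg ρbar hcompat) t htp htnp htmod
    (hunr t htp ht2 htnp) (hsplit t ht) h1 h2 h3 Od hnew

/-- **(A-TW)**: the first clause of `twc_ALG`. -/
theorem twlg_as_tw2 [hpF : Fact p.Prime] (hp5 : 5 ≤ p) (hp𝒪 : (p : 𝒪) ∈ maximalIdeal 𝒪)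
    (ζ : 𝒪) (hζ : IsPrimitiveRoot ζ p)
    (hpS : p ∈ S) (hNS : ∀ ℓ : ℕ, ℓ.Prime → ℓ ∣ N → ℓ ∈ S)
    (ρbar : ResidualGaloisRep (ResidueField 𝒪)) (hcompat : twt_Compat θ ρbar)
    (hunr : ∀ ℓ : ℕ, ℓ.Prime → ℓ ≠ 2 → ℓ ≠ p → ρbar.IsUnramifiedAt ℓ)
    (hQS : ∀ t ∈ Q, t ∉ S) (hTW : twe_IsTWSet θ p Q)
    (hsplit : ∀ t ∈ Q, ∀ P : ValuationSubring Qbar, P.LiesOverPrime t → ∀ φ : GQ,
      P.IsFrobeniusAt φ t →
      ∃ α β : ResidueField 𝒪, α ≠ β ∧ LinearMap.charpoly (ρbar.ρ φ) = (X - C α) * (X - C β))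
    (hTh : ∀ ℓ ∈ Th, ℓ.Prime ∧ ℓ ∣ N)
    (Bg : twe_Big L Th) (hBg : Bg.IsLG2) :
    ∃ u : ∀ t : ℕ, t ∈ Q → Bg.T'',
      (∀ t ht, u t ht - 1 ∈ maximalIdeal Bg.T'') ∧
      (∀ t ht (m : Bg.Mb), u t ht ^ twe_ord p t • m = m) ∧
      (∀ t ht (m : Bg.Mb), ∃ m' : Bg.Mb, (u t ht - 1) • m = Bg.diaQ t ht m' - m') ∧
      (∀ t ht (m : Bg.Mb), ∃ m' : Bg.Mb, Bg.diaQ t ht m - m = (u t ht - 1) • m') := by
  classical
  have hp : p.Prime := hpF.out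
  have hp2 : p ≠ 2 := by omega
  have hone := fun (t : ℕ) (ht : t ∈ Q) => twlg_as_tw_one2 hp5 hp𝒪 hpS hNS ρbar hcompat hunr hQS hTW
    hsplit hTh Bg hBg t ht
  choose u hu1 hupow hH2 heig using hone
  refine ⟨u, hu1, ?_, hH2, ?_⟩
  · intro t ht m
    show u t ht ^ p ^ padicValNat p (t - 1) • m = m
    rw [hupow t ht, one_smul]
  · -- the matching lemma on `Mb`
    haveI : ∀ i : ↥Q, NeZero (twe_ord p (i : ℕ)) := fun i => ⟨pow_ne_zero _ hp.ne_zero⟩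
    haveI : ∀ i : ↥Th, NeZero (twe_ord p (i : ℕ)) := fun i => ⟨pow_ne_zero _ hp.ne_zero⟩
    have hn : ∀ i : ↥Q, 0 < padicValNat p ((i : ℕ) - 1) := by
      intro i
      have htp : (i : ℕ).Prime := (hTW i i.2).1
      have htmod : (i : ℕ) % p = 1 := (hTW i i.2).2.1
      have hpdvd : p ∣ (i : ℕ) - 1 := by
        have h1 : 1 ≡ (i : ℕ) [MOD p] := by
          rw [Nat.ModEq, htmod, Nat.mod_eq_of_lt hp.one_lt]
        exact (Nat.modEq_iff_dvd' htp.one_le).1 h1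
      exact one_le_padicValNat_of_dvd (by have := htp.two_le; omega) hpdvd
    have key := twlg_as_match_two (O := 𝒪) (𝒰 := Bg.T'') (M := Bg.Mb) p hp2 hp𝒪 ζ hζ
      (fun i : ↥Q => twe_ord p (i : ℕ)) (fun i : ↥Q => padicValNat p ((i : ℕ) - 1)) hn
      (fun _ => rfl) (fun i : ↥Th => twe_ord p (i : ℕ))
      (fun i : ↥Q => u i i.2) (fun i => hupow i i.2)
      (fun i m => by
        obtain ⟨m', hm'⟩ := hH2 i i.2 m
        refine ⟨m', ?_⟩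
        rw [hm', sub_smul, one_smul]
        rfl)
      (fun i K _ _ _ hK χ v hv0 hv z hz hδ =>
        heig i i.2 K hK χ v hv0 (fun x => by rw [twlg_as_act_eq]; exact hv x) z hz hδ)
    intro t ht m
    obtain ⟨m', hm'⟩ := key ⟨t, ht⟩ m
    refine ⟨m', ?_⟩
    rw [← hm', sub_smul, one_smul]
    rfl

end tw

end

end Fermat.Agent.TW
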