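import Mathlib
import Fermat.Agent.JT3.Gateway.HeckeNormAn
import Fermat.Agent.S36.Desc.NormBar

/-!
# TW / [A] / A3-BR: the analytic norm formula along `β_t`, `t ∣ N` (prefix `twlg_gd_`)

For a prime `t ∣ N` the field `F̄_{N t}` has degree `t` over `β_t(F̄_N)` (`β_t : f(q) ↦ f(q^t)`), the
conjugates of `y(q)` being the twists `y(ζ^b q)`, `b < t`:

* `twlg_gd_normBeta_series` : `(N_β y)(q^t) = ∏_{b<t} y(ζ^b q)` (Laurent series over `Q̄`);
* `twlg_gd_normBeta_an` : for `a ∈ A0 (N t)`, `N_β a · c₁ = a₁` in `F̄_N` with `c₁ a₁ ∈ A0 N`: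
  `a₁(t z) = c₁(t z) · ∏_{b<t} a(z + b/t)`;
* `twlg_gd_normBeta_an'` : the same at `w = t z`: `a₁(w) = c₁(w) · ∏_{j : ZMod t} a(δ_j w)` with
  `δ_j w = (w + j)/t`, stated through `(j/t) +ᵥ (w/t)`.
-/

set_option autoImplicit false
set_option linter.unusedSectionVars false
set_option linter.style.haveILetI false

noncomputable section

open UpperHalfPlane hiding I
open Complex CongruenceSubgroup ModularCurve
open scoped Real Manifold MatrixGroups
open Fermat.Agent.S23 (alphaN)

namespace Fermat.Agent.TW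

open Fermat.Agent.S24 Fermat.Agent.S24.Br Fermat.Agent.JT3 Fermat.Agent.S35 Fermat.Agent.S36
  AlgebraicCurve

local notation "Qbar" => AlgebraicClosure ℚ

section series

variable (N t : ℕ) [NeZero N] [NeZero t]

/-- the `t` embeddings `y ↦ y(ζ^b q)` of `F̄_{N t}` into `ℂ((q))` -/
def twlg_gd_σ (ζ : Qbarˣ) (b : Fin t) : modularFunctionFieldBar (N * t) →+* LaurentSeries ℂ :=
  (S28.fs_twist (Units.map ((S24.br_iota : Qbar →+* ℂ) : Qbar →* ℂ) ζ ^ (b : ℕ))).comp
    ((coeffMap (S24.br_iota : Qbar →+* ℂ)).comp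
      (algebraMap (modularFunctionFieldBar (N * t)) (LaurentSeries Qbar)))

theorem twlg_gd_σ_apply (ζ : Qbarˣ) (b : Fin t) (z : modularFunctionFieldBar (N * t)) :
    twlg_gd_σ N t ζ b z =
      S28.fs_twist (Units.map ((S24.br_iota : Qbar →+* ℂ) : Qbar →* ℂ) ζ ^ (b : ℕ))
        (coeffMap (S24.br_iota : Qbar →+* ℂ) (z : LaurentSeries Qbar)) := rfl

/-- **the norm along `β_t` for `t ∣ N`, as a product of Laurent series.** -/
theorem twlg_gd_normBeta_series (ht : t.Prime) (htN : t ∣ N) (ζ : Qbarˣ)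
    (hζ : IsPrimitiveRoot ζ t) (y : modularFunctionFieldBar (N * t)) :
    qExpand Qbar t ((s35pe_normAlong (heckeBetaBar Qbar N t) y : modularFunctionFieldBar N) :
        LaurentSeries Qbar) =
      ∏ b ∈ Finset.range t, S28.fs_twist (ζ ^ b) (y : LaurentSeries Qbar) := by
  classical
  letI : Algebra (modularFunctionFieldBar N) (modularFunctionFieldBar (N * t)) :=
    algebraAlong (heckeBetaBar Qbar N t)
  have hfr : Module.finrank (modularFunctionFieldBar N) (modularFunctionFieldBar (N * t)) = t :=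
    s36d_finrankAlong_beta Qbar N t ht htN
  haveI : FiniteDimensional (modularFunctionFieldBar N) (modularFunctionFieldBar (N * t)) :=
    Module.finite_of_finrank_pos (by rw [hfr]; exact ht.pos)
  haveI : Algebra.IsSeparable (modularFunctionFieldBar N) (modularFunctionFieldBar (N * t)) :=
    inferInstance
  have hιinj : Function.Injective (S24.br_iota : Qbar →+* ℂ) := S24.br_iota_injective
  set ζC : ℂˣ := Units.map ((S24.br_iota : Qbar →+* ℂ) : Qbar →* ℂ) ζ with hζC
  have hζCprim : IsPrimitiveRoot ζC t :=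
    hζ.map_of_injective (Units.map_injective hιinj)
  -- the embeddings restrict to `i₀`
  have hσ : ∀ (b : Fin t) (x : modularFunctionFieldBar N),
      twlg_gd_σ N t ζ b
          (algebraMap (modularFunctionFieldBar N) (modularFunctionFieldBar (N * t)) x) =
        nln_i₀ N t x := by
    intro b x
    have hx : algebraMap (modularFunctionFieldBar N) (modularFunctionFieldBar (N * t)) x =
        heckeBetaBar Qbar N t x := rfl
    rw [hx, twlg_gd_σ_apply, coe_heckeBetaBar, nln_i₀_apply, S28.fs_coeffMap_qExpand]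
    apply nln_twist_qExpand
    rw [← pow_mul, mul_comm, pow_mul, hζCprim.pow_eq_one, one_pow]
  -- the embeddings are pairwise distinct: coefficient `-1` of `j`
  have hcoeff : ∀ b : Fin t, (twlg_gd_σ N t ζ b (S24.br_jBar (N * t))).coeff (-1) =
      (((ζC ^ (b : ℕ)) ^ (-1 : ℤ) : ℂˣ) : ℂ) := by
    intro b
    rw [twlg_gd_σ_apply, S28.fs_twist_coeff, coeffMap_coeff, S24.coe_br_jBar]
    have h1 : (S24.br_jqK).coeff (-1) = 1 := by
      have := S24.br_coeff_jqK_pow_self 1
      rwa [pow_one] at this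
    rw [h1, map_one, mul_one]
  have hinj : Function.Injective (twlg_gd_σ N t ζ) := by
    intro a b hab
    have hc : (twlg_gd_σ N t ζ a (S24.br_jBar (N * t))).coeff (-1) =
        (twlg_gd_σ N t ζ b (S24.br_jBar (N * t))).coeff (-1) := by rw [hab]
    rw [hcoeff, hcoeff] at hc
    have h1 : ζC ^ (a : ℕ) = ζC ^ (b : ℕ) := by
      have := Units.ext hc
      rwa [zpow_neg_one, zpow_neg_one, inv_inj] at this
    exact Fin.ext (hζCprim.pow_inj a.2 b.2 h1)
  have hcard : Fintype.card (Fin t) =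
      Module.finrank (modularFunctionFieldBar N) (modularFunctionFieldBar (N * t)) := by
    rw [hfr, Fintype.card_fin]
  have key := nlp_norm_eq_prod (nln_i₀ N t) (twlg_gd_σ N t ζ) hσ hinj hcard y
  have hL : nln_i₀ N t (Algebra.norm (modularFunctionFieldBar N) y) =
      coeffMap (S24.br_iota : Qbar →+* ℂ)
        (qExpand Qbar t ((s35pe_normAlong (heckeBetaBar Qbar N t) y : modularFunctionFieldBar N) :
          LaurentSeries Qbar)) := rfl
  have hR : ∏ b, twlg_gd_σ N t ζ b y =
      coeffMap (S24.br_iota : Qbar →+* ℂ)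
        (∏ b ∈ Finset.range t, S28.fs_twist (ζ ^ b) (y : LaurentSeries Qbar)) := by
    rw [map_prod, ← Fin.prod_univ_eq_prod_range
      (fun b => coeffMap (S24.br_iota : Qbar →+* ℂ)
        (S28.fs_twist (ζ ^ b) (y : LaurentSeries Qbar))) t]
    refine Finset.prod_congr rfl fun b _ => ?_
    rw [twlg_gd_σ_apply, S28.fs_coeffMap_twist, map_pow]
  rw [hL, hR] at key
  exact nln_coeffMap_injective _ hιinj key

end series

section analytic

variable (N t : ℕ) [NeZero N] [NeZero t]

/-- **the analytic norm formula along `β_t`, `t ∣ N`**, at the points `t z` -/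
theorem twlg_gd_normBeta_an (ht : t.Prime) (htN : t ∣ N) (a : A0 (N * t)) (c₁ a₁ : A0 N)
    (h : s35pe_normAlong (heckeBetaBar Kbar N t) (algebraMap (A0 (N * t)) (Fbar (N * t)) a) *
        algebraMap (A0 N) (Fbar N) c₁ = algebraMap (A0 N) (Fbar N) a₁) (z : ℍ) :
    ff_an N a₁ (alphaN t • z) = ff_an N c₁ (alphaN t • z) *
      ∏ b ∈ Finset.range t, ff_an (N * t) a ((((b : ℝ) * (t : ℝ)⁻¹ : ℝ)) +ᵥ z) := by
  obtain ⟨ζ, hζ, hζC⟩ := gwh_exists_zeta t
  have hnorm := twlg_gd_normBeta_series N t ht htN ζ hζ (algebraMap (A0 (N * t)) (Fbar (N * t)) a)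
  rw [br_algebraMap_A0F] at hnorm
  have h' : ((s35pe_normAlong (heckeBetaBar Kbar N t)
        (algebraMap (A0 (N * t)) (Fbar (N * t)) a) : Fbar N) : LaurentSeries Kbar) *
      (c₁ : LaurentSeries Kbar) = (a₁ : LaurentSeries Kbar) := by
    have := congrArg (fun y : Fbar N => (y : LaurentSeries Kbar)) h
    simp only [MulMemClass.coe_mul] at this
    exact this
  set ι : Kbar →+* ℂ := (br_iota : Kbar →+* ℂ) with hι
  have hS : qExpand ℂ t (coeffMap ι (a₁ : LaurentSeries Kbar)) =
      qExpand ℂ t (coeffMap ι (c₁ : LaurentSeries Kbar)) *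
        ∏ b ∈ Finset.range t, S28.fs_twist (gwh_e ((b : ℝ) * (t : ℝ)⁻¹))
          (coeffMap ι (a : LaurentSeries Kbar)) := by
    have e1 : coeffMap ι (qExpand Kbar t (a₁ : LaurentSeries Kbar)) =
        coeffMap ι (qExpand Kbar t (c₁ : LaurentSeries Kbar)) *
          ∏ b ∈ Finset.range t, coeffMap ι (S28.fs_twist (ζ ^ b) (a : LaurentSeries Kbar)) := by
      rw [← h', map_mul, hnorm, map_mul, map_prod, mul_comm]
    rw [S28.fs_coeffMap_qExpand, S28.fs_coeffMap_qExpand] at e1
    rw [e1]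
    congr 1
    refine Finset.prod_congr rfl fun b _ => ?_
    rw [S28.fs_coeffMap_twist, map_pow, hζC, gwh_e_pow]
  have hL : br_HasLaurentQ (fun z => ff_an N a₁ (alphaN t • z))
      (qExpand ℂ t (coeffMap ι (a₁ : LaurentSeries Kbar))) :=
    (br_an_spec N a₁).comp_alphaN t
  have hR : br_HasLaurentQ ((fun z => ff_an N c₁ (alphaN t • z)) *
        ∏ b ∈ Finset.range t, fun z => ff_an (N * t) a ((((b : ℝ) * (t : ℝ)⁻¹ : ℝ)) +ᵥ z))
      (qExpand ℂ t (coeffMap ι (a₁ : LaurentSeries Kbar))) := by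
    rw [hS]
    exact ((br_an_spec N c₁).comp_alphaN t).mul
      (gwh_hasLaurentQ_prod _ fun b _ => gwh_hasLaurentQ_vadd (br_an_spec (N * t) a) _)
  have := congrFun (hL.unique_left hR) z
  simpa [Finset.prod_apply] using this

end analytic

end Fermat.Agent.TW

end
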