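/-
Project ONE MACHINE (S43), block [A] LG, cell A3-BR, alpha-half (helper6; prefix `twlg_na_`).

**The analytic norm formula along the inclusion `α : F̄_N → F̄_{N t}` for a prime `t ∣ N`.**

Coset representatives of `Γ₀(N t) \ Γ₀(N)` for `t ∣ N` are `γ_j = [1, 0; N j, 1]`, `j mod t`; they move
the cusp `∞`, so the conjugates of `f ∈ F̄_{N t}` over `F̄_N` are not twists of the `q`-expansion at
`∞`.  We use instead the Taylor-germ embeddings of S24 (`fam_phi0`, germs at a base point `z0 ∈ ℍ`):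
`Ω := ℂ((s))`, `i₀ := fam_phi0 .. 1 : F̄_N → Ω`, `σ_j := fam_phi0 .. γ_j⁻¹ : F̄_{N t} → Ω`; the `σ_j`
extend `i₀` (`Γ₀(N)`-invariance), they are pairwise distinct (`fam_phi_injective`), and there are
`t = [F̄_{N t} : F̄_N]` of them (`s36d_finrankAlong_alpha`), so `nlp_norm_eq_prod` applies.

* `twlg_na_gam N t j : SL(2, ℤ) = [1, 0; N j, 1]`;
* `twlg_na_norm_an` : if `Norm_{F̄_{N t}/F̄_N}(a) * c₁ = a₁` (`a ∈ A0 (N t)`, `c₁ a₁ ∈ A0 N`) then
  `an a₁ z = an c₁ z * ∏_{j : ZMod t} an a (γ_j • z)`.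
-/
import Mathlib
import Fermat.Agent.JT3.NL.NormProd
import Fermat.Agent.S24.FamilyFinite
import Fermat.Agent.S24.Bridge.Lift
import Fermat.Agent.S36.Desc.NormBar

set_option autoImplicit false
set_option linter.unusedSectionVars false
set_option linter.style.haveILetI false

noncomputable section

open UpperHalfPlane hiding I
open CongruenceSubgroup ModularCurve AlgebraicCurve
open scoped MatrixGroups Manifold

namespace Fermat.Agent.TW

open Fermat.Agent.S24 Fermat.Agent.S24.Br Fermat.Agent.JT3 Fermat.Agent.S36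

/-- the coset representatives `γ_j = [1, 0; N j, 1]` of `Γ₀(N t) \ Γ₀(N)` (`t ∣ N`) -/
def twlg_na_gam (N t : ℕ) (j : ZMod t) : SL(2, ℤ) :=
  ⟨!![1, 0; (N : ℤ) * (j.val : ℤ), 1], by simp [Matrix.det_fin_two]⟩

theorem twlg_na_gam_mem (N t : ℕ) (j : ZMod t) : twlg_na_gam N t j ∈ Gamma0 N := by
  rw [Gamma0_mem]
  simp [twlg_na_gam]

section

variable (N t : ℕ) [NeZero N] [NeZero t]

theorem twlg_na_A0_le : A0 N ≤ A0 (N * t) :=
  Algebra.adjoin_mono (fun x hx => by
    obtain ⟨d, hd, hdN, rfl⟩ := hx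
    exact ⟨d, hd, Dvd.dvd.mul_right hdN t, rfl⟩)

/-- the inclusion `A0 N → A0 (N t)` -/
def twlg_na_incl : A0 N →ₐ[Kbar] A0 (N * t) :=
  Subalgebra.inclusion (twlg_na_A0_le N t)

theorem twlg_na_incl_coe (a : A0 N) :
    ((twlg_na_incl N t a : A0 (N * t)) : LaurentSeries Kbar) = (a : LaurentSeries Kbar) :=
  Subalgebra.coe_inclusion _ a

/-- the analytic realisations at the two levels agree -/
theorem twlg_na_an_incl (a : A0 N) : ff_an (N * t) (twlg_na_incl N t a) = ff_an N a := by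
  rw [ff_an_apply, ff_an_apply, br_an_coe]
  refine br_anFun_eq (N * t) _ ?_
  rw [twlg_na_incl_coe]
  exact br_an_spec N a

/-- `α` on `A0` -/
theorem twlg_na_alpha_algebraMap (a : A0 N) :
    heckeAlphaBar Kbar N t (algebraMap (A0 N) (Fbar N) a) =
      algebraMap (A0 (N * t)) (Fbar (N * t)) (twlg_na_incl N t a) :=
  Subtype.ext rfl

end

section main

variable (N t : ℕ) [NeZero N] [NeZero t]

/-- germs of finite products -/
theorem twlg_na_germ_prod {P : (ℍ → ℂ) → Prop} {germ : (ℍ → ℂ) → LaurentSeries ℂ}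
    (hG : fam_IsGerm P germ) (hP1 : P (fun _ => (1 : ℂ)))
    (hPmul : ∀ f g, P f → P g → P (f * g)) {ι : Type*} (s : Finset ι) (f : ι → ℍ → ℂ)
    (hf : ∀ i ∈ s, P (f i)) :
    P (∏ i ∈ s, f i) ∧ germ (∏ i ∈ s, f i) = ∏ i ∈ s, germ (f i) := by
  classical
  induction s using Finset.induction_on with
  | empty =>
    refine ⟨by rw [Finset.prod_empty]; exact hP1, ?_⟩
    rw [Finset.prod_empty, Finset.prod_empty]
    exact (hG.const 1).trans (map_one _)
  | insert i s hi ih =>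
    obtain ⟨h1, h2⟩ := ih (fun k hk => hf k (Finset.mem_insert_of_mem hk))
    have hfi : P (f i) := hf i (Finset.mem_insert_self i s)
    rw [Finset.prod_insert hi, Finset.prod_insert hi]
    exact ⟨hPmul _ _ hfi h1, by rw [hG.mul _ _ hfi h1, h2]⟩

/-- distinct `j` give distinct cosets of `Γ₀(N t)` -/
theorem twlg_na_gam_coset_inj (ht : 0 < t) {j j' : ZMod t}
    (h : (twlg_na_gam N t j)⁻¹⁻¹ * (twlg_na_gam N t j')⁻¹ ∈ Gamma0 (N * t)) : j = j' := by
  rw [inv_inv, Gamma0_mem] at h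
  have h10 : ((twlg_na_gam N t j * (twlg_na_gam N t j')⁻¹ : SL(2, ℤ)) 1 0 : ℤ) =
      (N : ℤ) * (j.val : ℤ) - (N : ℤ) * (j'.val : ℤ) := by
    rw [Matrix.SpecialLinearGroup.coe_mul, Matrix.SpecialLinearGroup.coe_inv,
      Matrix.adjugate_fin_two, Matrix.mul_apply, Fin.sum_univ_two]
    simp [twlg_na_gam]
    ring
  rw [h10, ZMod.intCast_zmod_eq_zero_iff_dvd] at h
  have hN0 : (N : ℤ) ≠ 0 := by exact_mod_cast NeZero.ne N
  have h2 : (t : ℤ) ∣ (j.val : ℤ) - (j'.val : ℤ) := by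
    have : ((N * t : ℕ) : ℤ) = (N : ℤ) * (t : ℤ) := by push_cast; ring
    rw [this, ← mul_sub] at h
    exact (mul_dvd_mul_iff_left hN0).mp h
  have h3 : ((j.val : ℤ) : ZMod t) = ((j'.val : ℤ) : ZMod t) := by
    rw [← sub_eq_zero, ← Int.cast_sub, ZMod.intCast_zmod_eq_zero_iff_dvd]
    exact h2
  haveI : NeZero t := ⟨ht.ne'⟩
  simpa using h3

/-- **the analytic norm formula along the inclusion `α`, `t ∣ N` prime.** -/
theorem twlg_na_norm_an (ht : t.Prime) (htN : t ∣ N) (a : A0 (N * t)) (c₁ a₁ : A0 N)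
    (h : (letI := algebraAlong (heckeAlphaBar Kbar N t);
        Algebra.norm (Fbar N) (algebraMap (A0 (N * t)) (Fbar (N * t)) a)) *
          algebraMap (A0 N) (Fbar N) c₁ = algebraMap (A0 N) (Fbar N) a₁) (z : ℍ) :
    ff_an N a₁ z = ff_an N c₁ z * ∏ j : ZMod t, ff_an (N * t) a (twlg_na_gam N t j • z) := by
  classical
  letI := algebraAlong (heckeAlphaBar Kbar N t)
  haveI := isScalarTower_along (heckeAlphaBar Kbar N t)
  have hG := ff_isGerm z
  have hRN := ff_isRealisation N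
  have hRNt := ff_isRealisation (N * t)
  set i₀ : Fbar N →+* LaurentSeries ℂ :=
    (fam_phi0 (F := Fbar N) hG hRN 1 : Fbar N →ₐ[Kbar] LaurentSeries ℂ).toRingHom with hi₀
  set σ : ZMod t → (Fbar (N * t) →+* LaurentSeries ℂ) := fun j =>
    (fam_phi0 (F := Fbar (N * t)) hG hRNt (twlg_na_gam N t j)⁻¹ :
      Fbar (N * t) →ₐ[Kbar] LaurentSeries ℂ).toRingHom with hσdef
  -- values on `A0`
  have hi₀A : ∀ c : A0 N, i₀ (algebraMap (A0 N) (Fbar N) c) = ff_germ z (ff_an N c) := by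
    intro c
    show fam_phi0 (F := Fbar N) hG hRN 1 (algebraMap (A0 N) (Fbar N) c) = _
    rw [fam_phi0_algebraMap]
    congr 1
    ext w
    rw [inv_one, one_smul]
  have hσA : ∀ (j : ZMod t) (b : A0 (N * t)),
      σ j (algebraMap (A0 (N * t)) (Fbar (N * t)) b) =
        ff_germ z (fun w => ff_an (N * t) b (twlg_na_gam N t j • w)) := by
    intro j b
    show fam_phi0 (F := Fbar (N * t)) hG hRNt (twlg_na_gam N t j)⁻¹
      (algebraMap (A0 (N * t)) (Fbar (N * t)) b) = _
    rw [fam_phi0_algebraMap, inv_inv]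
  -- the `σ_j` extend `i₀`
  have hσ : ∀ j x, σ j (algebraMap (Fbar N) (Fbar (N * t)) x) = i₀ x := by
    intro j
    have hcomp : (σ j).comp (algebraMap (Fbar N) (Fbar (N * t))) = i₀ := by
      refine IsLocalization.ringHom_ext (nonZeroDivisors (A0 N)) (RingHom.ext fun c => ?_)
      simp only [RingHom.comp_apply]
      rw [hi₀A]
      have hα : algebraMap (Fbar N) (Fbar (N * t)) (algebraMap (A0 N) (Fbar N) c) =
          algebraMap (A0 (N * t)) (Fbar (N * t)) (twlg_na_incl N t c) :=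
        twlg_na_alpha_algebraMap N t c
      rw [hα, hσA, twlg_na_an_incl]
      congr 1
      ext w
      exact hRN.inv c _ (twlg_na_gam_mem N t j) w
    intro x
    exact DFunLike.congr_fun hcomp x
  -- distinctness
  have hinj : Function.Injective σ := by
    intro j j' hjj
    have h1 : fam_phi (F := Fbar (N * t)) hG hRNt (((twlg_na_gam N t j)⁻¹ : SL(2, ℤ)) : Comb.Q (N * t)) =
        fam_phi (F := Fbar (N * t)) hG hRNt (((twlg_na_gam N t j')⁻¹ : SL(2, ℤ)) : Comb.Q (N * t)) := by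
      rw [fam_phi_mk, fam_phi_mk]
      exact AlgHom.coe_ringHom_injective hjj
    have h2 := fam_phi_injective hG hRNt h1
    exact twlg_na_gam_coset_inj N t ht.pos (QuotientGroup.eq.mp h2)
  -- degree
  have hdeg : Module.finrank (Fbar N) (Fbar (N * t)) = t :=
    s36d_finrankAlong_alpha Kbar N t ht htN
  have hcard : Fintype.card (ZMod t) = Module.finrank (Fbar N) (Fbar (N * t)) := by
    rw [ZMod.card, hdeg]
  haveI : FiniteDimensional (Fbar N) (Fbar (N * t)) :=
    Module.finite_of_finrank_pos (by rw [hdeg]; exact ht.pos)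
  have key := nlp_norm_eq_prod i₀ σ hσ hinj hcard (algebraMap (A0 (N * t)) (Fbar (N * t)) a)
  -- apply `i₀` to the hypothesis
  have h' := congrArg i₀ h
  rw [map_mul, key, hi₀A, hi₀A] at h'
  simp only [hσA] at h'
  -- germs of products
  have hMD : ∀ j : ZMod t, MDiff (fun w => ff_an (N * t) a (twlg_na_gam N t j • w)) :=
    fun j => hRNt.adm a _
  have hP1 : MDiff (fun _ : ℍ => (1 : ℂ)) := by
    have := hRN.adm 1 1
    simpa using this
  have hPmul : ∀ f g : ℍ → ℂ, MDiff f → MDiff g → MDiff (f * g) := fun f g hf hg => hf.mul hg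
  obtain ⟨hprodMD, hprod⟩ := twlg_na_germ_prod (P := fun h => MDiff h) hG hP1 hPmul Finset.univ
    (fun j w => ff_an (N * t) a (twlg_na_gam N t j • w)) (fun j _ => hMD j)
  have hMDc : MDiff (ff_an N c₁) := by
    have := hRN.adm c₁ 1
    simpa using this
  have hMDa : MDiff (ff_an N a₁) := by
    have := hRN.adm a₁ 1
    simpa using this
  rw [← hprod, ← hG.mul _ _ hprodMD hMDc] at h'
  have hfun := hG.inj _ _ (hPmul _ _ hprodMD hMDc) hMDa h'
  have := congrFun hfun z
  simp only [Pi.mul_apply, Finset.prod_apply] at this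
  rw [← this, mul_comm]

end main

end Fermat.Agent.TW

end
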