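import Mathlib
import Fermat.Agent.JT3.Gateway.HeckeChar
import Fermat.Agent.TW.LG.GatewayDegVer
import Fermat.Agent.TW.LG.GatewayDegNormBeta
import Fermat.Agent.TW.LG.NormAlphaAn

/-!
# TW / [A] / A3-BR: the characters of the two norms, `t ∣ N` prime (prefix `twlg_gd_`)

If `f ∈ F̄_{N t}` has the character `χ : Γ₀(N t) → ℂˣ` (an `n`-th root `h` with
`h(γ z) = χ(γ) h(z)`), then
* `N_α f` (norm along the inclusion `F̄_N ≤ F̄_{N t}`) has the character `Ver_A χ`
  (`twlg_gd_hasChar_normAlpha`; root `∏_k h(γ_k z)`, helper6's `twlg_na_norm_an`);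
* `N_β f` (norm along `f(q) ↦ f(q^t)`) has the character `Ver_B χ`
  (`twlg_gd_hasChar_normBeta`; root `∏_j h((z + j)/t)`, `twlg_gd_normBeta_an`).
Both are instances of `twlg_gd_hasChar_of` (abstract in the representatives).
-/

set_option autoImplicit false
set_option linter.unusedSectionVars false
set_option linter.style.haveILetI false

noncomputable section

open UpperHalfPlane hiding I
open Complex CongruenceSubgroup ModularCurve ModularForm
open scoped Real Manifold MatrixGroups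
open Matrix.SpecialLinearGroup
open Fermat.Agent.S23 (alphaN)
open P2MW.S_ModularForm_heckeT_slash_eq_self_of_mem_Gamma0.ModularForm.HeckeSlashInvariance

namespace Fermat.Agent.TW

open Fermat.Agent.S24 Fermat.Agent.S24.Br Fermat.Agent.JT3 Fermat.Agent.S35 AlgebraicCurve

section abstract

variable {N t : ℕ} [NeZero N] [NeZero t]

/-- **the character of a norm**, abstract in the representatives `ρ x : ℍ → ℍ` -/
theorem twlg_gd_hasChar_of {X : Type} [Fintype X]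
    (D : twlg_gd_Tr (Gamma0 N) (Gamma0 (N * t)) X)
    (Nm : Fbar (N * t) →* Fbar N) (hNm0 : ∀ x : Fbar (N * t), x ≠ 0 → Nm x ≠ 0)
    (ρ : X → ℍ → ℍ) (hρ : ∀ x, MDiff (ρ x))
    (hcoc : ∀ (x : X) (g : Gamma0 N) (z : ℍ), ρ x ((g : SL(2, ℤ)) • z) =
      ((D.coc x g : Gamma0 (N * t)) : SL(2, ℤ)) • ρ (D.act g x) z)
    (han : ∀ (a : A0 (N * t)) (c₁ a₁ : A0 N),
      Nm (algebraMap (A0 (N * t)) (Fbar (N * t)) a) * algebraMap (A0 N) (Fbar N) c₁ =
        algebraMap (A0 N) (Fbar N) a₁ →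
      ∀ z : ℍ, ff_an N a₁ z = ff_an N c₁ z * ∏ x : X, ff_an (N * t) a (ρ x z))
    {n : ℕ} (hn : n ≠ 0) {f : Fbar (N * t)} {χ : ↥(Gamma0 (N * t)) →* ℂˣ}
    (hf : gw_HasChar (gw_ctxBar (N * t)) n f χ) :
    gw_HasChar (gw_ctxBar N) n (Nm f) (twlg_gd_ver D χ) := by
  have hf0 : f ≠ 0 := gw_hasChar_ne_zero hf
  obtain ⟨a, b, h, hb, hab, hh, hh0, hpow, hχ⟩ := hf
  have ha : a ≠ 0 := gw_witness_ne_zero hf0 hb hab
  obtain ⟨k, rfl⟩ : ∃ k, n = k + 1 := ⟨n - 1, by omega⟩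
  -- the candidate root
  set H : ℍ → ℂ := fun z => ∏ x : X, h (ρ x z) with hH
  have hHmd : MDiff H := by
    have e : H = ∏ x : X, fun z : ℍ => h (ρ x z) := by
      ext z
      rw [Finset.prod_apply]
    have h1 : ∀ x : X, MDiff (fun z : ℍ => h (ρ x z)) := fun x => hh.comp (hρ x)
    rw [e]
    exact MDifferentiable.prod fun x _ => h1 x
  have hHsmul : ∀ (g : ↥(Gamma0 N)) (z : ℍ),
      H ((g : SL(2, ℤ)) • z) = ((twlg_gd_ver D χ g : ℂˣ) : ℂ) * H z := by
    intro g z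
    have h1 : ∀ x : X, h (ρ x ((g : SL(2, ℤ)) • z)) =
        (χ (D.coc x g) : ℂ) * h (ρ (twlg_gd_perm D g x) z) := by
      intro x
      rw [hcoc x g z, hχ, twlg_gd_perm_apply]
    show ∏ x : X, h (ρ x ((g : SL(2, ℤ)) • z)) = _
    rw [Finset.prod_congr rfl fun x _ => h1 x, Finset.prod_mul_distrib, twlg_gd_ver_apply,
      Units.coe_prod]
    congr 1
    exact Equiv.prod_comp (twlg_gd_perm D g) fun x => h (ρ x z)
  -- the norms of `a` and `b` as fractions
  obtain ⟨a₁, c₁, hc₁, hac₁⟩ := IsFractionRing.div_surjective (A := A0 N)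
    (Nm (algebraMap (A0 (N * t)) (Fbar (N * t)) a))
  obtain ⟨a₂, c₂, hc₂, hac₂⟩ := IsFractionRing.div_surjective (A := A0 N)
    (Nm (algebraMap (A0 (N * t)) (Fbar (N * t)) b))
  have hc₁0 : algebraMap (A0 N) (Fbar N) c₁ ≠ 0 :=
    gw_algebraMap_ne_zero (nonZeroDivisors.ne_zero hc₁)
  have hc₂0 : algebraMap (A0 N) (Fbar N) c₂ ≠ 0 :=
    gw_algebraMap_ne_zero (nonZeroDivisors.ne_zero hc₂)
  have hNb : Nm (algebraMap (A0 (N * t)) (Fbar (N * t)) b) ≠ 0 :=
    hNm0 _ (gw_algebraMap_ne_zero hb)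
  have hNa : Nm (algebraMap (A0 (N * t)) (Fbar (N * t)) a) ≠ 0 :=
    hNm0 _ (gw_algebraMap_ne_zero ha)
  have ha₂0 : algebraMap (A0 N) (Fbar N) a₂ ≠ 0 := by
    intro h0
    rw [h0, zero_div] at hac₂
    exact hNb hac₂.symm
  have ha₁0 : algebraMap (A0 N) (Fbar N) a₁ ≠ 0 := by
    intro h0
    rw [h0, zero_div] at hac₁
    exact hNa hac₁.symm
  have h1 : Nm (algebraMap (A0 (N * t)) (Fbar (N * t)) a) * algebraMap (A0 N) (Fbar N) c₁ =
      algebraMap (A0 N) (Fbar N) a₁ := by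
    rw [← hac₁, div_mul_cancel₀ _ hc₁0]
  have h2 : Nm (algebraMap (A0 (N * t)) (Fbar (N * t)) b) * algebraMap (A0 N) (Fbar N) c₂ =
      algebraMap (A0 N) (Fbar N) a₂ := by
    rw [← hac₂, div_mul_cancel₀ _ hc₂0]
  -- the norm of the relation `a = f bⁿ`
  have hN : Nm (algebraMap (A0 (N * t)) (Fbar (N * t)) a) =
      Nm f * Nm (algebraMap (A0 (N * t)) (Fbar (N * t)) b) ^ (k + 1) := by
    rw [hab, map_mul, map_pow]
  -- the `n`-th power of the candidate root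
  have hpow' : ∀ z : ℍ, (H z * ff_an N c₁ z * ff_an N c₂ z) ^ (k + 1) =
      (gw_ctxBar N).an (a₁ * c₁ ^ k * c₂ ^ (k + 1)) z := by
    intro z
    have e1 : H z ^ (k + 1) = ∏ x : X, ff_an (N * t) a (ρ x z) := by
      show (∏ x : X, h (ρ x z)) ^ (k + 1) = _
      rw [← Finset.prod_pow]
      exact Finset.prod_congr rfl fun x _ => hpow _
    have e2 := han a c₁ a₁ h1 z
    have e3 : (gw_ctxBar N).an (a₁ * c₁ ^ k * c₂ ^ (k + 1)) z =
        ff_an N a₁ z * ff_an N c₁ z ^ k * ff_an N c₂ z ^ (k + 1) := by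
      rw [map_mul, map_mul, map_pow, map_pow]
      rfl
    rw [e3, e2, mul_pow, mul_pow, e1]
    ring
  have ha' : a₁ * c₁ ^ k * c₂ ^ (k + 1) ≠ 0 := by
    have h10 : a₁ ≠ 0 := fun h0 => ha₁0 (by rw [h0, map_zero])
    exact mul_ne_zero (mul_ne_zero h10 (pow_ne_zero _ (nonZeroDivisors.ne_zero hc₁)))
      (pow_ne_zero _ (nonZeroDivisors.ne_zero hc₂))
  refine ⟨a₁ * c₁ ^ k * c₂ ^ (k + 1), c₁ * a₂,
    fun z => H z * ff_an N c₁ z * ff_an N c₂ z, ?_, ?_, ?_, ?_, hpow', ?_⟩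
  · intro h0
    have := congrArg (algebraMap (A0 N) (Fbar N)) h0
    rw [map_mul, map_zero] at this
    exact mul_ne_zero hc₁0 ha₂0 this
  · -- the algebraic relation
    have e1 : Nm f = algebraMap (A0 N) (Fbar N) a₁ *
        algebraMap (A0 N) (Fbar N) c₂ ^ (k + 1) /
          (algebraMap (A0 N) (Fbar N) c₁ * algebraMap (A0 N) (Fbar N) a₂ ^ (k + 1)) := by
      rw [eq_div_iff (mul_ne_zero hc₁0 (pow_ne_zero _ ha₂0)), ← h1, ← h2, hN]
      ring
    rw [e1]
    simp only [map_mul, map_pow]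
    field_simp
    ring
  · exact (hHmd.mul ((gw_ctxBar N).an_mdiff c₁)).mul ((gw_ctxBar N).an_mdiff c₂)
  · -- nonvanishing, from the `n`-th power
    intro h0
    apply (gw_ctxBar N).an_ne_zero ha'
    ext z
    rw [← hpow' z]
    have := congrFun h0 z
    simp only [Pi.zero_apply] at this
    rw [this, zero_pow hn]
    rfl
  · intro g z
    have e1 : ff_an N c₁ ((g : SL(2, ℤ)) • z) = ff_an N c₁ z := gw_an_smul (C := gw_ctxBar N) c₁ g z
    have e2 : ff_an N c₂ ((g : SL(2, ℤ)) • z) = ff_an N c₂ z := gw_an_smul (C := gw_ctxBar N) c₂ g z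
    simp only []
    rw [hHsmul g z, e1, e2]
    ring

end abstract

/-! ### the two norms -/

section norms

variable (N t : ℕ) [NeZero N] [NeZero t]

set_option synthInstance.maxHeartbeats 400000 in
theorem twlg_gd_normAlpha_ne_zero {x : Fbar (N * t)} (hx : x ≠ 0) :
    s35pe_normAlong (heckeAlphaBar Kbar N t) x ≠ 0 := by
  letI : Algebra (Fbar N) (Fbar (N * t)) := algebraAlong (heckeAlphaBar Kbar N t)
  haveI : Module.Finite (Fbar N) (Fbar (N * t)) := hib_finiteAlong_alpha N t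
  show Algebra.norm (Fbar N) x ≠ 0
  rw [Algebra.norm_ne_zero_iff]
  exact hx

set_option synthInstance.maxHeartbeats 400000 in
theorem twlg_gd_normBeta_ne_zero {x : Fbar (N * t)} (hx : x ≠ 0) :
    s35pe_normAlong (heckeBetaBar Kbar N t) x ≠ 0 := by
  letI : Algebra (Fbar N) (Fbar (N * t)) := algebraAlong (heckeBetaBar Kbar N t)
  haveI : Module.Finite (Fbar N) (Fbar (N * t)) := hib_finiteAlong_beta N t
  show Algebra.norm (Fbar N) x ≠ 0
  rw [Algebra.norm_ne_zero_iff]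
  exact hx

end norms

/-! ### (ALPHA) -/

section alpha

variable {N t : ℕ} [NeZero N] [NeZero t]

theorem twlg_gd_gamA_eq (k : ZMod t) : twlg_gd_gamA N t k = twlg_na_gam N t k := rfl

theorem twlg_gd_mdiff_smul (γ : SL(2, ℤ)) : MDiff (fun z : ℍ => γ • z) := by
  have h : (0 : ℝ) < ((mapGL ℝ γ : GL (Fin 2) ℝ).det : ℝ) := by
    simp
  exact UpperHalfPlane.mdifferentiable_smul h

/-- **the character of the norm along `α`** (`t ∣ N` prime) -/
theorem twlg_gd_hasChar_normAlpha (ht : t.Prime) (htN : t ∣ N) {n : ℕ} (hn : n ≠ 0)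
    {f : Fbar (N * t)} {χ : ↥(Gamma0 (N * t)) →* ℂˣ}
    (hf : gw_HasChar (gw_ctxBar (N * t)) n f χ) :
    gw_HasChar (gw_ctxBar N) n (s35pe_normAlong (heckeAlphaBar Kbar N t) f)
      (twlg_gd_ver (twlg_gd_trA N t htN) χ) := by
  refine twlg_gd_hasChar_of (twlg_gd_trA N t htN) (s35pe_normAlong (heckeAlphaBar Kbar N t))
    (fun x hx => twlg_gd_normAlpha_ne_zero N t hx) (fun k z => twlg_gd_gamA N t k • z)
    (fun k => twlg_gd_mdiff_smul _) ?_ ?_ hn hf
  · intro k g z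
    show twlg_gd_gamA N t k • ((g : SL(2, ℤ)) • z) =
      ((twlg_gd_cocA N t htN k g : Gamma0 (N * t)) : SL(2, ℤ)) •
        (twlg_gd_gamA N t (twlg_gd_actA N t g k) • z)
    rw [← mul_smul, ← mul_smul, twlg_gd_cocA_spec htN k g]
  · intro a c₁ a₁ h z
    exact twlg_na_norm_an N t ht htN a c₁ a₁ h z

end alpha

/-! ### (BETA) -/

section beta

variable {N t : ℕ} [NeZero N] [NeZero t]

/-- the analytic norm formula along `β_t`, in the form `a₁(w) = c₁(w) ∏_j a((w + j)/t)` -/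
theorem twlg_gd_normBeta_an' (ht : t.Prime) (htN : t ∣ N) (a : A0 (N * t)) (c₁ a₁ : A0 N)
    (h : s35pe_normAlong (heckeBetaBar Kbar N t) (algebraMap (A0 (N * t)) (Fbar (N * t)) a) *
        algebraMap (A0 N) (Fbar N) c₁ = algebraMap (A0 N) (Fbar N) a₁) (w : ℍ) :
    ff_an N a₁ w = ff_an N c₁ w *
      ∏ j : ZMod t, ff_an (N * t) a (heckeMatrix t j.val • w) := by
  have ht0 : t ≠ 0 := ht.ne_zero
  have htC : (t : ℂ) ≠ 0 := by exact_mod_cast ht0
  set z : ℍ := heckeMatrix t 0 • w with hz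
  have hzc : (z : ℂ) = (w : ℂ) / t := by
    rw [hz, coe_heckeMatrix_smul ht0]
    simp
  have h1 : alphaN t • z = w := by
    apply UpperHalfPlane.ext
    rw [Fermat.Agent.S23.coe_alphaN_smul, hzc]
    field_simp
  have h3 : ∀ j : ZMod t, ((((j.val : ℕ) : ℝ) * (t : ℝ)⁻¹ : ℝ)) +ᵥ z =
      heckeMatrix t j.val • w := by
    intro j
    apply UpperHalfPlane.ext
    rw [UpperHalfPlane.coe_vadd, hzc, coe_heckeMatrix_smul ht0]
    push_cast
    field_simp
    ring
  have key := twlg_gd_normBeta_an N t ht htN a c₁ a₁ h z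
  rw [h1, gwh_prod_range_eq_prod_zmod
    (fun b => ff_an (N * t) a ((((b : ℝ) * (t : ℝ)⁻¹ : ℝ)) +ᵥ z))] at key
  rw [key]
  congr 1
  exact Finset.prod_congr rfl fun j _ => by rw [h3]

/-- **the character of the norm along `β`** (`t ∣ N` prime) -/
theorem twlg_gd_hasChar_normBeta (ht : t.Prime) (htN : t ∣ N) {n : ℕ} (hn : n ≠ 0)
    {f : Fbar (N * t)} {χ : ↥(Gamma0 (N * t)) →* ℂˣ}
    (hf : gw_HasChar (gw_ctxBar (N * t)) n f χ) :
    gw_HasChar (gw_ctxBar N) n (s35pe_normAlong (heckeBetaBar Kbar N t) f)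
      (twlg_gd_ver (twlg_gd_trB N t htN) χ) := by
  refine twlg_gd_hasChar_of (twlg_gd_trB N t htN) (s35pe_normAlong (heckeBetaBar Kbar N t))
    (fun x hx => twlg_gd_normBeta_ne_zero N t hx) (fun j z => heckeMatrix t j.val • z)
    (fun j => UpperHalfPlane.mdifferentiable_smul (det_heckeMatrix_pos t j.val)) ?_ ?_ hn hf
  · intro j g z
    show heckeMatrix t j.val • ((g : SL(2, ℤ)) • z) =
      ((twlg_gd_cocB N t htN j g : Gamma0 (N * t)) : SL(2, ℤ)) •
        (heckeMatrix t (twlg_gd_actB N t htN g j).val • z)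
    change heckeMatrix t j.val • (mapGL ℝ (g : SL(2, ℤ)) • z) =
      mapGL ℝ ((twlg_gd_cocB N t htN j g : Gamma0 (N * t)) : SL(2, ℤ)) •
        (heckeMatrix t (twlg_gd_actB N t htN g j).val • z)
    rw [← mul_smul, ← mul_smul, twlg_gd_cocB_spec htN j g]
  · intro a c₁ a₁ h w
    exact twlg_gd_normBeta_an' ht htN a c₁ a₁ h w

end beta

end Fermat.Agent.TW

end
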