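import Mathlib
import Fermat.Agent.JT3.Gateway.HeckeEquiv
import Fermat.Agent.S35.PMaps
import Fermat.Agent.TW.LG.GatewayDegChar

/-!
# TW / [A] / A3-BR: the gateway intertwines the two push-forwards with the two transfers
(prefix `twlg_gd_`)

For a prime `t ∣ N`, `n ≠ 0` and `y ∈ Pic⁰(X₀(N t)_{Q̄})[n]`:

* `twlg_gd_picEquiv_alpha` : `e_n ((α_t)_* y) = Ver_A (e_n y)`,
* `twlg_gd_picEquiv_beta`  : `e_n ((β_t)_* y) = Ver_B (e_n y)`,

where `e_n = gw_picEquiv · hn : Pic⁰[n] ≃ Hom(H₁(X₀(·)), μ_n)`, `(α_t)_* = s35p_P1J N t`,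
`(β_t)_* = s35p_P2J N t` and `Ver_A`, `Ver_B = twlg_gd_ver (twlg_gd_trA/trB N t htN)` are the two
transfers of characters `Γ₀(N t) → Γ₀(N)` of `GatewayDegVer.lean`.

Proof (as `gwh_picEquiv_hecke`): `y = [D]`, `n D = div f`, `f` with character `χ`; then
`φ_* y = [φ_* D]`, `n φ_* D = div (N_φ f)` (the prelude's norm formula) and `N_φ f` has the
character `Ver χ` (`twlg_gd_hasChar_normAlpha/Beta`).
-/

set_option autoImplicit false
set_option linter.unusedSectionVars false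
set_option linter.style.haveILetI false

noncomputable section

open UpperHalfPlane hiding I
open CongruenceSubgroup ModularCurve
open scoped MatrixGroups

namespace Fermat.Agent.TW

open Fermat.Agent.S24 Fermat.Agent.S24.Br Fermat.Agent.JT3 Fermat.Agent.S35 AlgebraicCurve

/-! ### generic: the push-forward of a principal divisor -/

section Generic

variable {K F F' : Type*} [Field K] [Field F] [Field F'] [Algebra K F] [Algebra K F']

/-- `φ_* (div f) = div (N_φ f)` -/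
theorem twlg_gd_push_ord (φ : F →ₐ[K] F') (hφ : φ.toRingHom.IsIntegral)
    (hfin : FiniteAlong K φ) (hN : NormFormulaAlong K φ hfin)
    (f : F') (hf : f ≠ 0) (D : Divisor K F') (hD : ∀ w, D w = w.ord f) (v : Place K F) :
    Divisor.pushforwardAlong φ hφ D v = v.ord (s35pe_normAlong φ f) := by
  letI := algebraAlong φ
  haveI := isScalarTower_along φ
  haveI := isIntegral_along φ hφ
  haveI : Module.Finite F F' := hfin
  exact hN f hf _ hD v

end Generic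

section main

variable (N t : ℕ) [NeZero N] [NeZero t]

/-- a push-forward preserves the `n`-torsion -/
theorem twlg_gd_push_mem_torsion (φ : Fbar N →ₐ[Kbar] Fbar (N * t))
    (hφ : φ.toRingHom.IsIntegral) (hfin : FiniteAlong Kbar φ) (hNF : NormFormulaAlong Kbar φ hfin)
    {n : ℕ} (y : Pic0.torsion Kbar (Fbar (N * t)) n) :
    s35p_pushPic0 φ hφ hfin hNF (y : Pic0 Kbar (Fbar (N * t))) ∈ Pic0.torsion Kbar (Fbar N) n := by
  rw [Pic0.mem_torsion, ← map_zsmul, Pic0.mem_torsion.1 y.2, map_zero]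

/-- **the gateway intertwines a push-forward with the transfer of its norm**, generic in the
degeneracy map -/
theorem twlg_gd_picEquiv_push {n : ℕ} (hn : n ≠ 0) (φ : Fbar N →ₐ[Kbar] Fbar (N * t))
    (hφ : φ.toRingHom.IsIntegral) (hfin : FiniteAlong Kbar φ) (hNF : NormFormulaAlong Kbar φ hfin)
    (V : (↥(Gamma0 (N * t)) →* ℂˣ) → (↥(Gamma0 N) →* ℂˣ))
    (hV : ∀ (f : Fbar (N * t)) (χ : ↥(Gamma0 (N * t)) →* ℂˣ),
      gw_HasChar (gw_ctxBar (N * t)) n f χ →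
        gw_HasChar (gw_ctxBar N) n (s35pe_normAlong φ f) (V χ))
    (y : Pic0.torsion Kbar (Fbar (N * t)) n) :
    ((Additive.toMul (gw_picEquiv N hn
        ⟨s35p_pushPic0 φ hφ hfin hNF (y : Pic0 Kbar (Fbar (N * t))),
          twlg_gd_push_mem_torsion N t φ hφ hfin hNF y⟩) : gw_X N n) : ↥(Gamma0 N) →* ℂˣ) =
      V ((Additive.toMul (gw_picEquiv (N * t) hn y) : gw_X (N * t) n) :
        ↥(Gamma0 (N * t)) →* ℂˣ) := by
  obtain ⟨y, hy⟩ := y
  obtain ⟨D, rfl⟩ := QuotientAddGroup.mk_surjective y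
  change Pic0.mk D ∈ Pic0.torsion Kbar (Fbar (N * t)) n at hy
  -- a function with `n D = div f`
  obtain ⟨f, hf0, hDf⟩ := (gp_mk_mem_torsion_iff D).1 hy
  have hfS : (Units.mk0 f hf0) ∈ gp_S Kbar (Fbar (N * t)) n := fun P => ⟨_, (hDf P).symm⟩
  have hdiv : gw_IsDiv Kbar n f := ⟨hf0, fun P => ⟨_, (hDf P).symm⟩⟩
  obtain ⟨χ, hχ⟩ := gw_hasChar_exists (C := gw_ctxBar (N * t)) hn hdiv
  have h1 : ((Additive.toMul (gw_picEquiv (N * t) hn ⟨Pic0.mk D, hy⟩) : gw_X (N * t) n) :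
      ↥(Gamma0 (N * t)) →* ℂˣ) = χ :=
    gw_picEquiv_mk (N * t) hn D ⟨Units.mk0 f hf0, hfS⟩ hDf hy hχ
  -- the push-forward of the class of `D`
  set D' : Divisor.degZero (K := Kbar) (F := Fbar N) := s35p_pushDegZero φ hφ D with hD'
  have hT : s35p_pushPic0 φ hφ hfin hNF (Pic0.mk D) = Pic0.mk D' := rfl
  -- `n φ_* D = div (N_φ f)`
  have hnD : ∀ w : Place Kbar (Fbar (N * t)),
      (((n : ℤ) • (D : Divisor Kbar (Fbar (N * t)))) : Divisor Kbar (Fbar (N * t))) w =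
        w.ord f := by
    intro w
    rw [Finsupp.smul_apply, smul_eq_mul, hDf]
  have hD'f : ∀ P : Place Kbar (Fbar N), (n : ℤ) * (D' : Divisor Kbar (Fbar N)) P =
      P.ord (s35pe_normAlong φ f) := by
    intro P
    have h2 := twlg_gd_push_ord φ hφ hfin hNF f hf0 _ hnD P
    rw [map_zsmul, Finsupp.smul_apply, smul_eq_mul] at h2
    exact h2
  have hf'0 : s35pe_normAlong φ f ≠ 0 := by
    intro h0
    have hχ' := hV f χ hχ
    exact gw_hasChar_ne_zero hχ' h0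
  have hf'S : (Units.mk0 _ hf'0) ∈ gp_S Kbar (Fbar N) n := fun P => ⟨_, (hD'f P).symm⟩
  have hy' : Pic0.mk D' ∈ Pic0.torsion Kbar (Fbar N) n :=
    (gp_mk_mem_torsion_iff D').2 ⟨_, hf'0, hD'f⟩
  have h2 : ((Additive.toMul (gw_picEquiv N hn ⟨Pic0.mk D', hy'⟩) : gw_X N n) :
      ↥(Gamma0 N) →* ℂˣ) = V χ :=
    gw_picEquiv_mk N hn D' ⟨Units.mk0 _ hf'0, hf'S⟩ hD'f hy' (hV f χ hχ)
  have h3 : ((Additive.toMul (gw_picEquiv N hn
        ⟨s35p_pushPic0 φ hφ hfin hNF (Pic0.mk D),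
          twlg_gd_push_mem_torsion N t φ hφ hfin hNF ⟨Pic0.mk D, hy⟩⟩) :
      gw_X N n) : ↥(Gamma0 N) →* ℂˣ) = V χ := by
    rw [← h2]
    congr 4
  exact h3.trans (congrArg V h1.symm)

/-- `(α_t)_*` preserves the `n`-torsion -/
theorem twlg_gd_P1J_mem_torsion {n : ℕ} (y : Pic0.torsion Kbar (Fbar (N * t)) n) :
    s35p_P1J N t (y : Pic0 Kbar (Fbar (N * t))) ∈ Pic0.torsion Kbar (Fbar N) n :=
  twlg_gd_push_mem_torsion N t _ _ _ _ y

/-- `(β_t)_*` preserves the `n`-torsion -/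
theorem twlg_gd_P2J_mem_torsion {n : ℕ} (y : Pic0.torsion Kbar (Fbar (N * t)) n) :
    s35p_P2J N t (y : Pic0 Kbar (Fbar (N * t))) ∈ Pic0.torsion Kbar (Fbar N) n :=
  twlg_gd_push_mem_torsion N t _ _ _ _ y

/-- **(BR), α-half**: `e_n ((α_t)_* y) = Ver_A (e_n y)` for a prime `t ∣ N` -/
theorem twlg_gd_picEquiv_alpha {n : ℕ} (hn : n ≠ 0) (ht : t.Prime) (htN : t ∣ N)
    (y : Pic0.torsion Kbar (Fbar (N * t)) n) :
    ((Additive.toMul (gw_picEquiv N hn
        ⟨s35p_P1J N t (y : Pic0 Kbar (Fbar (N * t))), twlg_gd_P1J_mem_torsion N t y⟩) :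
      gw_X N n) : ↥(Gamma0 N) →* ℂˣ) =
    twlg_gd_ver (twlg_gd_trA N t htN)
      ((Additive.toMul (gw_picEquiv (N * t) hn y) : gw_X (N * t) n) :
        ↥(Gamma0 (N * t)) →* ℂˣ) :=
  twlg_gd_picEquiv_push N t hn (heckeAlphaBar Kbar N t) (hib_alphaIntegral N t)
    (hib_finiteAlong_alpha N t) (hib_normFormulaAlong_alpha N t)
    (twlg_gd_ver (twlg_gd_trA N t htN))
    (fun _ _ hf => twlg_gd_hasChar_normAlpha ht htN hn hf) y

/-- **(BR), β-half**: `e_n ((β_t)_* y) = Ver_B (e_n y)` for a prime `t ∣ N` -/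
theorem twlg_gd_picEquiv_beta {n : ℕ} (hn : n ≠ 0) (ht : t.Prime) (htN : t ∣ N)
    (y : Pic0.torsion Kbar (Fbar (N * t)) n) :
    ((Additive.toMul (gw_picEquiv N hn
        ⟨s35p_P2J N t (y : Pic0 Kbar (Fbar (N * t))), twlg_gd_P2J_mem_torsion N t y⟩) :
      gw_X N n) : ↥(Gamma0 N) →* ℂˣ) =
    twlg_gd_ver (twlg_gd_trB N t htN)
      ((Additive.toMul (gw_picEquiv (N * t) hn y) : gw_X (N * t) n) :
        ↥(Gamma0 (N * t)) →* ℂˣ) :=
  twlg_gd_picEquiv_push N t hn (heckeBetaBar Kbar N t) (hib_betaIntegral N t)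
    (hib_finiteAlong_beta N t) (hib_normFormulaAlong_beta N t)
    (twlg_gd_ver (twlg_gd_trB N t htN))
    (fun _ _ hf => twlg_gd_hasChar_normBeta ht htN hn hf) y

end main

end Fermat.Agent.TW

end
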