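import Mathlib
import Fermat.Agent.JT3.Tate.Package
import Fermat.Agent.TW.LG.GatewayDeg

/-!
# TW / [A] / A3-BR: the lattice form of (BR) (prefix `twlg_gd_`)

For a prime `t ∣ N` and every prime `p`, on the Tate modules `T_p J₀(·) = Hom(H₁(X₀(·)), ℤ_p)`
(`tjp_lattice`):

* `twlg_gd_lattice_P1` : `tjp_lattice N p (s35p_P1 N t p x) = (tjp_lattice (N t) p x) ∘ VA`,
* `twlg_gd_lattice_P2` : `tjp_lattice N p (s35p_P2 N t p x) = (tjp_lattice (N t) p x) ∘ VB`,

`VA = twlg_gd_VA N t htN`, `VB = twlg_gd_VB N t htN : gh_H N →+ gh_H (N * t)` the two transfers of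
`GatewayDegVer.lean`.  These are the hypotheses `hVA`, `hVB` of `twlg_nm_not_unip`.

Proof: `twlg_gd_equiv_map2`, the two-system twin of `tl_equiv_map` (a homomorphism `f : J' → J`
acting on the characters through finitely many maps `c i : Γ → Γ'`), fed with
`twlg_gd_picEquiv_alpha/beta` at the levels `p ^ n`.
-/

set_option autoImplicit false
set_option linter.unusedSectionVars false
set_option linter.style.haveILetI false
set_option synthInstance.maxHeartbeats 400000
set_option maxHeartbeats 1000000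

noncomputable section

open CongruenceSubgroup ModularCurve
open scoped MatrixGroups

namespace Fermat.Agent.TW

open Fermat.Agent.S24 Fermat.Agent.S24.Br Fermat.Agent.JT3 Fermat.Agent.S35 AlgebraicCurve

/-! ### the two-system equivariance of `tl_equiv` -/

section abstract

variable {J J' : Type*} [AddCommGroup J] [AddCommGroup J'] {p : ℕ} [hp : Fact p.Prime]
  {Γ Γ' : Type*} [Group Γ] [Group Γ'] {M : Type*} [CommGroup M] {R : Set Γ} {R' : Set Γ'}
  (Z : tl_Roots M p) (S : tl_CharSystem J p Γ M R) (S' : tl_CharSystem J' p Γ' M R')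

/-- a homomorphism `f : J' → J` acting on the characters through finitely many maps
`c i : Γ → Γ'` acts on the lattices by `ψ ↦ (γ ↦ ∑ i, ψ (c i γ))` -/
theorem twlg_gd_equiv_map2 (f : J' →+ J) {ι : Type*} [Fintype ι] (c : ι → Γ → Γ')
    (hf : ∀ n x, p ^ n • x = 0 → ∀ γ, S.χ n (f x) γ = ∏ i, S'.χ n x (c i γ))
    (x : tm_T J' p) (γ : Γ) :
    (tl_equiv Z S (s35p_tmMap p f x) : Additive Γ →+ ℤ_[p]) (Additive.ofMul γ) =
      ∑ i, (tl_equiv Z S' x : Additive Γ' →+ ℤ_[p]) (Additive.ofMul (c i γ)) := by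
  classical
  simp only [tl_equiv_apply]
  rw [← PadicInt.ext_of_toZModPow]
  intro n
  rw [tl_val_spec, s35p_tmMap_apply, hf n _ (tm_tor x n) γ, map_sum]
  have hlog : ∀ s : Finset ι, Z.log n (∏ i ∈ s, S'.χ n (x.1 n) (c i γ)) =
      ∑ i ∈ s, Z.log n (S'.χ n (x.1 n) (c i γ)) ∧
      (∏ i ∈ s, S'.χ n (x.1 n) (c i γ)) ^ (p ^ n) = 1 := by
    intro s
    induction s using Finset.induction_on with
    | empty => simp [Z.log_one]
    | insert a s ha ih =>
      rw [Finset.prod_insert ha, Finset.sum_insert ha,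
        Z.log_mul (S'.apply_pow_eq_one n (tm_tor x n) _) ih.2, ih.1, mul_pow, ih.2,
        S'.apply_pow_eq_one n (tm_tor x n), one_mul]
      exact ⟨rfl, rfl⟩
  rw [(hlog Finset.univ).1]
  exact Finset.sum_congr rfl fun i _ => (tl_val_spec Z S' x (c i γ) n).symm

end abstract

/-! ### the lattice form of (BR) -/

section main

variable (N t p : ℕ) [NeZero N] [NeZero t] [hp : Fact p.Prime]

/-- the characters of the torsion points: `(α_t)_*` is the transfer `Ver_A` -/
theorem twlg_gd_chi_P1J (ht : t.Prime) (htN : t ∣ N) (n : ℕ) (y : JZero (N * t))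
    (hy : p ^ n • y = 0) :
    tj_chi N p n (s35p_P1J N t y) =
      twlg_gd_ver (twlg_gd_trA N t htN) (tj_chi (N * t) p n y) := by
  have hTy : p ^ n • s35p_P1J N t y = 0 := by
    rw [← map_nsmul, hy, map_zero]
  rw [tj_chi_eq N p hTy, tj_chi_eq (N * t) p hy]
  exact twlg_gd_picEquiv_alpha N t (tj_pow_ne_zero p n) ht htN
    ⟨y, (tj_mem_torsion (N * t) p).mpr hy⟩

/-- the characters of the torsion points: `(β_t)_*` is the transfer `Ver_B` -/
theorem twlg_gd_chi_P2J (ht : t.Prime) (htN : t ∣ N) (n : ℕ) (y : JZero (N * t))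
    (hy : p ^ n • y = 0) :
    tj_chi N p n (s35p_P2J N t y) =
      twlg_gd_ver (twlg_gd_trB N t htN) (tj_chi (N * t) p n y) := by
  have hTy : p ^ n • s35p_P2J N t y = 0 := by
    rw [← map_nsmul, hy, map_zero]
  rw [tj_chi_eq N p hTy, tj_chi_eq (N * t) p hy]
  exact twlg_gd_picEquiv_beta N t (tj_pow_ne_zero p n) ht htN
    ⟨y, (tj_mem_torsion (N * t) p).mpr hy⟩

/-- **(BR), lattice form, α-half**: `P₁ = (α_t)_*` is composition with the transfer `VA` -/
theorem twlg_gd_lattice_P1 (ht : t.Prime) (htN : t ∣ N) (x : tj_T (N * t) p) :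
    tjp_lattice N p (s35p_P1 N t p x) =
      (tjp_lattice (N * t) p x).comp (twlg_gd_VA N t htN) := by
  refine gh_hom_ext fun g => ?_
  obtain ⟨γ, rfl⟩ := Additive.ofMul.surjective g
  rw [tjp_lattice, tjp_lattice, tj_lattice_apply, AddMonoidHom.comp_apply, twlg_gd_VA_mk, map_sum]
  have h := twlg_gd_equiv_map2 (tl_rootsComplex p) (tj_charSystem (tjp_surj N p))
    (tj_charSystem (tjp_surj (N * t) p)) (s35p_P1J N t)
    (fun k γ => twlg_gd_cocA N t htN k γ)
    (fun n y hy γ => by
      show tj_chi N p n (s35p_P1J N t y) γ = _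
      rw [twlg_gd_chi_P1J N t p ht htN n y hy, twlg_gd_ver_apply]
      rfl) x γ
  exact h.trans (Finset.sum_congr rfl fun i _ => (tj_lattice_apply (tjp_surj (N * t) p) x _).symm)

/-- **(BR), lattice form, β-half**: `P₂ = (β_t)_*` is composition with the transfer `VB` -/
theorem twlg_gd_lattice_P2 (ht : t.Prime) (htN : t ∣ N) (x : tj_T (N * t) p) :
    tjp_lattice N p (s35p_P2 N t p x) =
      (tjp_lattice (N * t) p x).comp (twlg_gd_VB N t htN) := by
  refine gh_hom_ext fun g => ?_
  obtain ⟨γ, rfl⟩ := Additive.ofMul.surjective g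
  rw [tjp_lattice, tjp_lattice, tj_lattice_apply, AddMonoidHom.comp_apply, twlg_gd_VB_mk, map_sum]
  have h := twlg_gd_equiv_map2 (tl_rootsComplex p) (tj_charSystem (tjp_surj N p))
    (tj_charSystem (tjp_surj (N * t) p)) (s35p_P2J N t)
    (fun j γ => twlg_gd_cocB N t htN j γ)
    (fun n y hy γ => by
      show tj_chi N p n (s35p_P2J N t y) γ = _
      rw [twlg_gd_chi_P2J N t p ht htN n y hy, twlg_gd_ver_apply]
      rfl) x γ
  exact h.trans (Finset.sum_congr rfl fun i _ => (tj_lattice_apply (tjp_surj (N * t) p) x _).symm)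

end main

end Fermat.Agent.TW

end
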