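/-
Project ONE MACHINE (S43), block [A] LG, cell A3-TATE (helper2; prefix `twlg_tn_`).

From a "new" Betti class at a level `N * t` to a "new" vector of the Tate module, and the closed
form of [INV-0] of S36:

* `twlg_tn_inv0`            : `Fermat.Agent.S36.s36_Inv0`, closed (the S36 chain on main);
* `twlg_tn_inv0_K`       : [INV-0] after base change to a field `K ⊇ ℤ_p`: the only vector of
                           `K ⊗ T_p J₀(N' q q)` fixed by an inertia group at `q` and killed by the
                           base changes of `s35p_P1`, `s35p_P2` is `0`;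
* `twlg_tn_Psi`          : the comparison map `K ⊗ T_p J₀(N) → (gh_H N → K)` induced by the lattice
                           `tjp_lattice N p : T_p J₀(N) ≃ Hom(gh_H N, ℤ_p)`; it is injective
                           (`twlg_tn_Psi_injective`) and every additive `c : gh_H N →+ K` is in its
                           image (`twlg_tn_Psi_surj`);
* `twlg_tn_exists`       : a nonzero additive `c : gh_H (N * t) →+ K` which is an eigenvector of the
                           `t2f_TH (N * t) ℓ` (good `ℓ`) with eigenvalues `a ℓ` and is killed by two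
                           maps `VA VB : gh_H N →+ gh_H (N * t)` intertwined by the lattices with
                           `s35p_P1`, `s35p_P2` gives a nonzero `v : K ⊗ T_p J₀(N * t)` with
                           `T_ℓ v = a ℓ • v`, `P1 v = 0`, `P2 v = 0`;
* `twlg_tn_not_fixed`    : at `N = N' * q`, `t = q`: such a `v` is NOT fixed by the inertia group
                           `I_A`, for every `A` over `q`.
-/
import Mathlib
import Fermat.Agent.S36.Kum.Seams
import Fermat.Agent.S36.Desc.Final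
import Fermat.Agent.S36.Model.AsmHesClosed
import Fermat.Agent.S36.Model.AsmLegLastC
import Fermat.Agent.S36.CReg.PointNFClosed
import Fermat.Agent.JT3.Tate.Package
import Fermat.Agent.S35.PMaps
import Fermat.Agent.S35.Plumb

set_option autoImplicit false
set_option linter.unusedSectionVars false
set_option linter.unusedVariables false
set_option linter.style.haveILetI false
set_option synthInstance.maxHeartbeats 400000
set_option maxHeartbeats 1000000

noncomputable section

namespace Fermat.Agent.TW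

open TensorProduct ModularCurve AlgebraicCurve Fermat.Agent.JT3 Fermat.Agent.S35 Fermat.Agent.S36

local notation "GQ" => (AlgebraicClosure ℚ ≃ₐ[ℚ] AlgebraicClosure ℚ)
local notation "Qb" => AlgebraicClosure ℚ

/-- **[INV-0] of S36, closed.** -/
theorem twlg_tn_inv0 : s36_Inv0 :=
  s36k_inv0_of_keyBar_seam (fun N' q _ _ hq hqN' =>
    s36d_keyBar_all
      (fun N' q _ _ hq hq2 hqN' =>
        haveI : Fact q.Prime := ⟨hq⟩
        s36asm_coreNF_of6 N' q hq2 hqN'
          (fun L _ _ _ O _ _ hπ ζ hζ _ T3 => s36cn_cOrd L O N' q hq2 hqN' hπ ζ hζ T3))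
      (fun N' _ h2N' => s36mhf_coreNF_two N' h2N') N' q hq hqN')


/-! ### [INV-0] over a field -/

section InvK

variable (N' q lam : ℕ) [NeZero N'] [NeZero q] [Fact lam.Prime]
  (K : Type*) [Field K] [Algebra ℤ_[lam] K]

/-- a field into which `ℤ_p` injects is a torsion-free `ℤ_p`-module -/
theorem twlg_tn_torsionFree (hinj : Function.Injective (algebraMap ℤ_[lam] K)) :
    Module.IsTorsionFree ℤ_[lam] K := by
  rw [Module.isTorsionFree_iff_smul_eq_zero]
  intro r m hrm
  rw [Algebra.smul_def, mul_eq_zero] at hrm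
  rcases hrm with h0 | h0
  · exact Or.inl (hinj (h0.trans (map_zero _).symm))
  · exact Or.inr h0

/-- **[INV-0] over a field `K ⊇ ℤ_λ`.** -/
theorem twlg_tn_inv0_K (hinj : Function.Injective (algebraMap ℤ_[lam] K))
    (hq : q.Prime) (hqlam : q ≠ lam) (hqN' : ¬ q ∣ N')
    (A : ValuationSubring Qb) (hA : A.LiesOverPrime q)
    (u : K ⊗[ℤ_[lam]] tj_T (N' * q * q) lam)
    (hfix : ∀ s ∈ A.inertiaSubgroupIn ℚ, (tj_rho (N' * q * q) lam s).baseChange K u = u)
    (h1 : (s35p_P1 (N' * q) q lam).baseChange K u = 0)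
    (h2 : (s35p_P2 (N' * q) q lam).baseChange K u = 0) : u = 0 := by
  haveI := twlg_tn_torsionFree lam K hinj
  have key := s35pl_main (R := ℤ_[lam]) (K := K) (s35p_P1 (N' * q) q lam) (s35p_P2 (N' * q) q lam)
    {f | ∃ s ∈ A.inertiaSubgroupIn ℚ, f = tj_rho (N' * q * q) lam s}
    (0 : Module.End ℤ_[lam] (tj_T (N' * q * q) lam)) 1
    (fun x hx hx1 hx2 => by
      rw [twlg_tn_inv0 N' q lam hq hqlam hqN' A hA x (fun s hs => hx _ ⟨s, hs, rfl⟩) hx1 hx2]
      simp)
    u (fun f hf => by
      obtain ⟨s, hs, rfl⟩ := hf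
      exact hfix s hs) h1 h2
  rw [LinearMap.baseChange_zero, LinearMap.zero_apply, map_one, one_smul] at key
  exact key.symm

end InvK

/-! ### the comparison map `K ⊗ T_p J₀(N) → (gh_H N → K)` -/

section Psi

variable (N p : ℕ) [NeZero N] [Fact p.Prime] (K : Type*) [Field K] [Algebra ℤ_[p] K]

/-- the comparison map `K ⊗ T_p J₀(N) → (gh_H N → K)`, `k ⊗ x ↦ (h ↦ k · (tjp_lattice x) h)` -/
def twlg_tn_Psi : K ⊗[ℤ_[p]] tj_T N p →ₗ[ℤ_[p]] (gh_H N → K) :=
  TensorProduct.lift
    (LinearMap.mk₂ ℤ_[p] (fun (k : K) (x : tj_T N p) (h : gh_H N) =>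
        k * algebraMap ℤ_[p] K (tjp_lattice N p x h))
      (by intro k k' x; funext h; simp [add_mul])
      (by intro c k x; funext h; simp [Algebra.smul_def, mul_assoc])
      (by intro k x x'; funext h; simp [mul_add])
      (by intro c k x; funext h; simp [Algebra.smul_def]; ring))

@[simp] theorem twlg_tn_Psi_tmul (k : K) (x : tj_T N p) (h : gh_H N) :
    twlg_tn_Psi N p K (k ⊗ₜ[ℤ_[p]] x) h = k * algebraMap ℤ_[p] K (tjp_lattice N p x h) := by
  simp [twlg_tn_Psi]

theorem twlg_tn_Psi_smul (k' : K) (u : K ⊗[ℤ_[p]] tj_T N p) (h : gh_H N) :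
    twlg_tn_Psi N p K (k' • u) h = k' * twlg_tn_Psi N p K u h := by
  induction u using TensorProduct.induction_on with
  | zero => simp
  | tmul k x => rw [TensorProduct.smul_tmul', twlg_tn_Psi_tmul, twlg_tn_Psi_tmul, smul_eq_mul,
      mul_assoc]
  | add u v hu hv => rw [smul_add, map_add, map_add, Pi.add_apply, Pi.add_apply, hu, hv, mul_add]

/-- `Ψ` is injective. -/
theorem twlg_tn_Psi_injective (hinj : Function.Injective (algebraMap ℤ_[p] K)) :
    Function.Injective (twlg_tn_Psi N p K) := by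
  haveI := twlg_tn_torsionFree p K hinj
  rw [injective_iff_map_eq_zero]
  intro u hu
  obtain ⟨n, k, x, hk, rfl⟩ := s35pl_exists_indep (R := ℤ_[p]) (K := K) u
  have hx : ∀ j, x j = 0 := by
    intro j
    apply (tjp_lattice N p).injective
    rw [map_zero]
    refine DFunLike.ext _ _ fun h => ?_
    have h1 := congrFun hu h
    rw [map_sum, Finset.sum_apply] at h1
    simp only [twlg_tn_Psi_tmul, Pi.zero_apply] at h1
    have h2 : ∑ i, (tjp_lattice N p (x i) h) • k i = 0 := by
      rw [← h1]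
      refine Finset.sum_congr rfl fun i _ => ?_
      rw [Algebra.smul_def, mul_comm]
    exact Fintype.linearIndependent_iff.1 hk _ h2 j
  simp [hx]

/-- every additive `c : gh_H N →+ K` is in the image of `Ψ` (`gh_H N` is finitely generated). -/
theorem twlg_tn_Psi_surj (hinj : Function.Injective (algebraMap ℤ_[p] K)) (c : gh_H N →+ K) :
    ∃ u : K ⊗[ℤ_[p]] tj_T N p, ∀ h, twlg_tn_Psi N p K u h = c h := by
  classical
  haveI := twlg_tn_torsionFree p K hinj
  obtain ⟨G, hG⟩ := AddGroup.fg_def.1 (inferInstance : AddGroup.FG (gh_H N))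
  let F : Submodule ℤ_[p] K := Submodule.span ℤ_[p] ((G.image c : Finset K) : Set K)
  have hcF : ∀ h, c h ∈ F := by
    intro h
    have hmem : h ∈ AddSubgroup.closure (G : Set (gh_H N)) := by rw [hG]; trivial
    induction hmem using AddSubgroup.closure_induction with
    | mem x hx =>
      exact Submodule.subset_span (Finset.mem_coe.2 (Finset.mem_image_of_mem c hx))
    | zero => rw [map_zero]; exact F.zero_mem
    | add x y _ _ hx hy => rw [map_add]; exact F.add_mem hx hy
    | neg x _ hx => rw [map_neg]; exact F.neg_mem hx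
  haveI : Module.Finite ℤ_[p] F := Module.Finite.span_of_finite _ (Finset.finite_toSet _)
  haveI : Module.Free ℤ_[p] F := Module.free_of_finite_type_torsion_free'
  let b := Module.Free.chooseBasis ℤ_[p] F
  let cs : Module.Free.ChooseBasisIndex ℤ_[p] F → (gh_H N →+ ℤ_[p]) := fun s =>
    { toFun := fun h => b.repr ⟨c h, hcF h⟩ s
      map_zero' := by
        have : (⟨c 0, hcF 0⟩ : F) = 0 := Subtype.ext (map_zero c)
        rw [this, map_zero, Finsupp.zero_apply]
      map_add' := fun h h' => by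
        have : (⟨c (h + h'), hcF (h + h')⟩ : F) = ⟨c h, hcF h⟩ + ⟨c h', hcF h'⟩ :=
          Subtype.ext (map_add c h h')
        rw [this, map_add, Finsupp.add_apply] }
  refine ⟨∑ s, ((b s : F) : K) ⊗ₜ[ℤ_[p]] (tjp_lattice N p).symm (cs s), fun h => ?_⟩
  rw [map_sum, Finset.sum_apply]
  simp only [twlg_tn_Psi_tmul, LinearEquiv.apply_symm_apply]
  have h1 := congrArg (Subtype.val) (b.sum_repr ⟨c h, hcF h⟩)
  rw [AddSubmonoidClass.coe_finsetSum] at h1
  have h1' : c h = ∑ i, ((b.repr ⟨c h, hcF h⟩ i • b i : F) : K) := h1.symm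
  rw [h1']
  refine Finset.sum_congr rfl fun s _ => ?_
  show ((b s : F) : K) * algebraMap ℤ_[p] K (b.repr ⟨c h, hcF h⟩ s) = _
  rw [Submodule.coe_smul, Algebra.smul_def, mul_comm]

end Psi

/-! ### from a new Betti class to a new vector of the Tate module -/

section Exists

variable (N t p : ℕ) [NeZero N] [NeZero t] [Fact p.Prime] (S : Finset ℕ)
  (K : Type*) [Field K] [Algebra ℤ_[p] K]

/-- **A3-TATE (b).** `VA VB : gh_H N →+ gh_H (N * t)` two maps which the lattices intertwine with
the push-forwards `s35p_P1`, `s35p_P2` (cell A3-BR). A nonzero additive `c : gh_H (N * t) →+ K`,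
eigenvector of the `t2f_TH (N * t) ℓ` at the good primes with eigenvalues `a ℓ` and killed by `VA`,
`VB`, gives a nonzero `v : K ⊗ T_p J₀(N * t)` with `T_ℓ v = a ℓ • v` and `P1 v = P2 v = 0`. -/
theorem twlg_tn_exists (hinj : Function.Injective (algebraMap ℤ_[p] K))
    (VA VB : gh_H N →+ gh_H (N * t))
    (hVA : ∀ x : tj_T (N * t) p,
      tjp_lattice N p (s35p_P1 N t p x) = (tjp_lattice (N * t) p x).comp VA)
    (hVB : ∀ x : tj_T (N * t) p,
      tjp_lattice N p (s35p_P2 N t p x) = (tjp_lattice (N * t) p x).comp VB)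
    (a : ℕ → K) (c : gh_H (N * t) →+ K) (hc0 : c ≠ 0)
    (hce : ∀ ℓ, pk_Good (N * t) S ℓ → ∀ h, c (t2f_TH (N * t) ℓ h) = a ℓ * c h)
    (hcA : ∀ h, c (VA h) = 0) (hcB : ∀ h, c (VB h) = 0) :
    ∃ v : K ⊗[ℤ_[p]] tj_T (N * t) p, v ≠ 0 ∧
      (∀ ℓ, pk_Good (N * t) S ℓ → (tjp_Tl (N * t) p S ℓ).baseChange K v = a ℓ • v) ∧
      (s35p_P1 N t p).baseChange K v = 0 ∧ (s35p_P2 N t p).baseChange K v = 0 := by
  obtain ⟨v, hv⟩ := twlg_tn_Psi_surj (N * t) p K hinj c
  -- the three intertwining relations of `Ψ`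
  have hT : ∀ ℓ, pk_Good (N * t) S ℓ → ∀ (u : K ⊗[ℤ_[p]] tj_T (N * t) p) (h : gh_H (N * t)),
      twlg_tn_Psi (N * t) p K ((tjp_Tl (N * t) p S ℓ).baseChange K u) h =
        twlg_tn_Psi (N * t) p K u (t2f_TH (N * t) ℓ h) := by
    intro ℓ hℓ u h
    induction u using TensorProduct.induction_on with
    | zero => simp
    | tmul k x =>
      rw [LinearMap.baseChange_tmul, twlg_tn_Psi_tmul, twlg_tn_Psi_tmul, tjp_he (N * t) p S ℓ hℓ x]
      rfl
    | add u w hu hw => simp only [map_add, Pi.add_apply, hu, hw]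
  have hP : ∀ (P : tj_T (N * t) p →ₗ[ℤ_[p]] tj_T N p) (V : gh_H N →+ gh_H (N * t)),
      (∀ x, tjp_lattice N p (P x) = (tjp_lattice (N * t) p x).comp V) →
      ∀ (u : K ⊗[ℤ_[p]] tj_T (N * t) p) (h : gh_H N),
        twlg_tn_Psi N p K (P.baseChange K u) h = twlg_tn_Psi (N * t) p K u (V h) := by
    intro P V hPV u h
    induction u using TensorProduct.induction_on with
    | zero => simp
    | tmul k x =>
      rw [LinearMap.baseChange_tmul, twlg_tn_Psi_tmul, twlg_tn_Psi_tmul, hPV x]
      rfl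
    | add u w hu hw => simp only [map_add, Pi.add_apply, hu, hw]
  refine ⟨v, ?_, ?_, ?_, ?_⟩
  · rintro rfl
    apply hc0
    refine DFunLike.ext _ _ fun h => ?_
    rw [← hv h, map_zero]
    rfl
  · intro ℓ hℓ
    apply twlg_tn_Psi_injective (N * t) p K hinj
    funext h
    rw [hT ℓ hℓ, twlg_tn_Psi_smul, hv, hv, hce ℓ hℓ]
  · apply twlg_tn_Psi_injective N p K hinj
    funext h
    rw [hP _ VA hVA, hv, hcA, map_zero]
    rfl
  · apply twlg_tn_Psi_injective N p K hinj
    funext h
    rw [hP _ VB hVB, hv, hcB, map_zero]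
    rfl

end Exists

/-- **A3-TATE (c).** A nonzero vector of `K ⊗ T_λ J₀(N' q q)` killed by the base changes of
`s35p_P1`, `s35p_P2` is not fixed by the inertia group `I_A`, `A` over `q`. -/
theorem twlg_tn_not_fixed (N' q lam : ℕ) [NeZero N'] [NeZero q] [Fact lam.Prime]
    (K : Type*) [Field K] [Algebra ℤ_[lam] K] (hinj : Function.Injective (algebraMap ℤ_[lam] K))
    (hq : q.Prime) (hqlam : q ≠ lam) (hqN' : ¬ q ∣ N')
    (A : ValuationSubring Qb) (hA : A.LiesOverPrime q)
    (v : K ⊗[ℤ_[lam]] tj_T (N' * q * q) lam) (hv0 : v ≠ 0)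
    (h1 : (s35p_P1 (N' * q) q lam).baseChange K v = 0)
    (h2 : (s35p_P2 (N' * q) q lam).baseChange K v = 0) :
    ¬ ∀ s ∈ A.inertiaSubgroupIn ℚ, (tj_rho (N' * q * q) lam s).baseChange K v = v :=
  fun hfix => hv0 (twlg_tn_inv0_K N' q lam K hinj hq hqlam hqN' A hA v hfix h1 h2)

end Fermat.Agent.TW
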