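/-
Project ONE MACHINE (S43), block [A] LG, cell A3-CUT (helper2; prefix `twlg_if_`).

The Carayol clause of S36 in VECTOR form (no newform hypothesis): if the simultaneous eigenspace of
the Hecke operators in `K ⊗ T_p J₀(N' q q)` contains a NONZERO vector killed by the two push-forwards
`s35p_P1`, `s35p_P2` to level `N' q`, then the representation cut out of it (S30 packaging,
`pku_core_abs`) is NOT unipotent on the inertia groups at `q`.

* `twlg_if_core` : abstract form: `pku_core` of S36/PackU.lean with the eigenspace replaced by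
                   `eigenspace ⊓ Z`, `Z` any Galois-stable subspace of `K ⊗ T_p`;
* `twlg_if_main` : the instance `Z = ker P1 ⊓ ker P2` at level `N' q q`, with [INV-0] (`twlg_tn_inv0`)
                   plugged in.
-/
import Mathlib
import Fermat.Agent.TW.LG.TateNew
import Fermat.Agent.S36.PackU
import Fermat.Agent.JT3.Tate.Inputs

set_option autoImplicit false
set_option linter.unusedSectionVars false
set_option linter.unusedVariables false
set_option linter.style.haveILetI false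
set_option synthInstance.maxHeartbeats 400000
set_option maxHeartbeats 1000000

noncomputable section

namespace Fermat.Agent.TW

open IsLocalRing TensorProduct Polynomial ModularCurve Fermat.Agent.JT3 Fermat.Agent.S35
  Fermat.Agent.S36

local notation "GQ" => (AlgebraicClosure ℚ ≃ₐ[ℚ] AlgebraicClosure ℚ)
local notation "Qbar" => AlgebraicClosure ℚ

section core

variable (p : ℕ) [Fact p.Prime] (N : ℕ) (S : Finset ℕ)
  {Tp : Type} [AddCommGroup Tp] [Module ℤ_[p] Tp] [Module.Free ℤ_[p] Tp] [Module.Finite ℤ_[p] Tp]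
  (ρ : GQ →* Module.End ℤ_[p] Tp) (Tl : ℕ → Module.End ℤ_[p] Tp)
  (O : Type) [CommRing O] [IsDomain O] [IsDiscreteValuationRing O]
  [IsAdicComplete (maximalIdeal O) O] [CharZero O] [Algebra ℤ_[p] O]
  (K : Type) [Field K] [Algebra O K] [IsFractionRing O K] [Algebra ℤ_[p] K]
  [IsScalarTower ℤ_[p] O K]

/-- **The packaging theorem with the Carayol clause, relative to a stable subspace `Z`.** -/
theorem twlg_if_core (hpS : p ∈ S) (hNS : ∀ q : ℕ, q.Prime → q ∣ N → q ∈ S)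
    (cont : GaloisActionIsAdicContinuous ℤ_[p] ρ)
    (unram : ∀ q : ℕ, q.Prime → ¬ q ∣ N → q ≠ p → ∀ P : ValuationSubring Qbar,
      P.LiesOverPrime q → ∀ σ ∈ P.inertiaSubgroupIn ℚ, ρ σ = 1)
    (Tl_ρ : ∀ (ℓ : ℕ) (σ : GQ), Commute (Tl ℓ) (ρ σ))
    (frob : ∀ ℓ : ℕ, pk_Good N S ℓ → ∀ A : ValuationSubring Qbar, A.LiesOverPrime ℓ →
      ∀ φ : GQ, A.IsFrobeniusAt φ ℓ → ρ φ * ρ φ - Tl ℓ * ρ φ + (ℓ : ℤ_[p]) • 1 = 0)
    (hp : (p : O) ∈ maximalIdeal O) (a : ℕ → O)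
    (Z : Submodule K (K ⊗[ℤ_[p]] Tp)) (hZst : ∀ σ, Z ≤ Z.comap (pk_bc K ρ σ))
    (hev : ∃ v : K ⊗[ℤ_[p]] Tp, v ≠ 0 ∧ v ∈ Z ∧
      ∀ ℓ, pk_Good N S ℓ → (Tl ℓ).baseChange K v = algebraMap O K (a ℓ) • v) :
    ∃ ρ' : GaloisRepAdic O,
      (∀ ℓ : ℕ, pk_Good N S ℓ → ∀ A : ValuationSubring Qbar, A.LiesOverPrime ℓ →
        ∀ φ : GQ, A.IsFrobeniusAt φ ℓ →
          LinearMap.charpoly (ρ'.ρ φ) = X ^ 2 - C (a ℓ) * X + C ((ℓ : O))) ∧
      (∀ q : ℕ, q.Prime → ¬ q ∣ N → q ≠ p → ρ'.IsUnramifiedAt q) ∧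
      (∀ q : ℕ, q.Prime → q ≠ p →
        (∃ A : ValuationSubring Qbar, A.LiesOverPrime q ∧ ∀ w : K ⊗[ℤ_[p]] Tp, w ∈ Z →
          (∀ ℓ, pk_Good N S ℓ → (Tl ℓ).baseChange K w = algebraMap O K (a ℓ) • w) →
          (∀ s ∈ A.inertiaSubgroupIn ℚ, (ρ s).baseChange K w = w) → w = 0) →
        ¬ ρ'.IsUnipotentOnInertiaAt q) := by
  have hinjK : Function.Injective (algebraMap O K) := IsFractionRing.injective O K
  have : CharZero K := charZero_of_injective_algebraMap hinjK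
  have : IsLocalHom (algebraMap ℤ_[p] O) := pk_isLocalHom_padic p hp _
  have hW0 : pk_eigenspace p N S Tl O K a ⊓ Z ≠ ⊥ := by
    obtain ⟨v, hv0, hvZ, hv⟩ := hev
    intro h
    apply hv0
    have : v ∈ pk_eigenspace p N S Tl O K a ⊓ Z := ⟨hv, hvZ⟩
    rw [h, Submodule.mem_bot] at this
    exact this
  obtain ⟨ρ', U, hUW, hU0, hUst, h1, h2, h3⟩ := pku_core_abs p N S hpS hNS hp
    (pkb_iota ℤ_[p] O K Tp)
    (pkb_iota_isBaseChange ℤ_[p] O K Tp) (pk_iota_injective ℤ_[p] O K Tp hinjK)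
    (pk_le_span_lat ℤ_[p] O K Tp) (pk_bc O ρ) (pk_bc K ρ)
    (fun σ m => pkb_iota_baseChange ℤ_[p] O K Tp (ρ σ) m)
    (pk_adicContinuous_bc ρ cont)
    (fun q hq hqN hqp P hP σ hσ => by
      rw [pk_bc_apply, unram q hq hqN hqp P hP σ hσ, LinearMap.baseChange_one])
    a (pk_eigenspace p N S Tl O K a ⊓ Z) hW0
    (fun σ u hu => ⟨pk_eigenspace_stable p N S ρ Tl O K Tl_ρ a σ hu.1, hZst σ hu.2⟩)
    (fun ℓ hℓ A hA φ hφ u hu =>
      pk_frob_eigenspace p N S ρ Tl O K a hℓ φ Tl_ρ (frob ℓ hℓ A hA φ hφ) u hu.1)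
  refine ⟨ρ', h1, h2, fun q hq hqp hinv hunip => ?_⟩
  obtain ⟨A, hA, hinv⟩ := hinv
  -- the relation `(s - 1)² = 0` on `U` for `s ∈ I_A`
  have hrel : ∀ s ∈ A.inertiaSubgroupIn ℚ, ∀ u ∈ U,
      pk_bc K ρ s (pk_bc K ρ s u) - (2 : K) • pk_bc K ρ s u + u = 0 := by
    intro s hs u hu
    obtain ⟨t, hchar, hrelU⟩ := h3 s
    have hε : cya_eps p O hp s = 1 := cya_eps_inertia p O hp hq hqp A hA hs
    rw [hunip A hA s hs] at hchar
    have ht : t = 2 := pku_trace_of_unip hchar.symm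
    have h4 := hrelU u hu
    rw [hε, ht, map_one, one_smul, map_ofNat] at h4
    exact h4
  obtain ⟨u, huU, hu0, hfix⟩ := pku_fixed_of_rel (pk_bc K ρ) U hUst two_ne_zero hU0
    (A.inertiaSubgroupIn ℚ) hrel
  exact hu0 (hinv u (hUW huU).2 (hUW huU).1 (fun s hs => hfix s hs))

end core

section main

variable (N' q p : ℕ) [NeZero N'] [NeZero q] [Fact p.Prime] (S : Finset ℕ)
  (O : Type) [CommRing O] [IsDomain O] [IsDiscreteValuationRing O]
  [IsAdicComplete (maximalIdeal O) O] [CharZero O] [Algebra ℤ_[p] O]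
  (K : Type) [Field K] [Algebra O K] [IsFractionRing O K] [Algebra ℤ_[p] K]
  [IsScalarTower ℤ_[p] O K]

/-- **A3-CUT.** If `K ⊗ T_p J₀(N' q q)` contains a nonzero simultaneous eigenvector of the good
Hecke operators (eigenvalues `a ℓ`) which is killed by the two push-forwards to level `N' q`, then
there is a `p`-adic Galois representation `ρ'` over `O` with
`charpoly ρ'(Frob_ℓ) = X² - a_ℓ X + ℓ` at the good primes, unramified outside `N' q q p`, which is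
NOT unipotent on the inertia groups at `q`. -/
theorem twlg_if_main (hpS : p ∈ S) (hNS : ∀ r : ℕ, r.Prime → r ∣ N' * q * q → r ∈ S)
    (hq : q.Prime) (hqp : q ≠ p) (hqN' : ¬ q ∣ N')
    (hp : (p : O) ∈ maximalIdeal O) (a : ℕ → O)
    (hev : ∃ v : K ⊗[ℤ_[p]] tj_T (N' * q * q) p, v ≠ 0 ∧
      (∀ ℓ, pk_Good (N' * q * q) S ℓ →
        (tjp_Tl (N' * q * q) p S ℓ).baseChange K v = algebraMap O K (a ℓ) • v) ∧
      (s35p_P1 (N' * q) q p).baseChange K v = 0 ∧ (s35p_P2 (N' * q) q p).baseChange K v = 0) :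
    ∃ ρ' : GaloisRepAdic O,
      (∀ ℓ : ℕ, pk_Good (N' * q * q) S ℓ → ∀ A : ValuationSubring Qbar, A.LiesOverPrime ℓ →
        ∀ φ : GQ, A.IsFrobeniusAt φ ℓ →
          LinearMap.charpoly (ρ'.ρ φ) = X ^ 2 - C (a ℓ) * X + C ((ℓ : O))) ∧
      (∀ r : ℕ, r.Prime → ¬ r ∣ N' * q * q → r ≠ p → ρ'.IsUnramifiedAt r) ∧
      ¬ ρ'.IsUnipotentOnInertiaAt q := by
  have hinjO : Function.Injective (algebraMap ℤ_[p] O) := pk_padic_injective p (algebraMap ℤ_[p] O)
  have hinj : Function.Injective (algebraMap ℤ_[p] K) := by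
    rw [IsScalarTower.algebraMap_eq ℤ_[p] O K]
    exact (IsFractionRing.injective O K).comp hinjO
  set D : pk_Tate p (N' * q * q) S :=
    tjp_tate (N' * q * q) p S hpS (tji_nodeE (N' * q * q)) (tji_S18 (N' * q * q)) with hD
  set Z : Submodule K (K ⊗[ℤ_[p]] tj_T (N' * q * q) p) :=
    LinearMap.ker ((s35p_P1 (N' * q) q p).baseChange K) ⊓
      LinearMap.ker ((s35p_P2 (N' * q) q p).baseChange K) with hZ
  have hZst : ∀ σ, Z ≤ Z.comap (pk_bc K (tj_rho (N' * q * q) p) σ) := by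
    intro σ u hu
    rw [Submodule.mem_comap, pk_bc_apply]
    refine ⟨LinearMap.mem_ker.2 ?_, LinearMap.mem_ker.2 ?_⟩
    · rw [← LinearMap.comp_apply, ← LinearMap.baseChange_comp,
        s35p_P1_rho_comp, LinearMap.baseChange_comp, LinearMap.comp_apply,
        LinearMap.mem_ker.1 hu.1, map_zero]
    · rw [← LinearMap.comp_apply, ← LinearMap.baseChange_comp,
        s35p_P2_rho_comp, LinearMap.baseChange_comp, LinearMap.comp_apply,
        LinearMap.mem_ker.1 hu.2, map_zero]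
  obtain ⟨v, hv0, hv, hv1, hv2⟩ := hev
  obtain ⟨ρ', h1, h2, h3⟩ := twlg_if_core p (N' * q * q) S (tj_rho (N' * q * q) p)
    (tjp_Tl (N' * q * q) p S) O K hpS hNS D.cont D.unram D.Tl_ρ D.frob hp a Z hZst
    ⟨v, hv0, ⟨LinearMap.mem_ker.2 hv1, LinearMap.mem_ker.2 hv2⟩, hv⟩
  refine ⟨ρ', h1, h2, h3 q hq hqp ?_⟩
  obtain ⟨A, hA⟩ := smos_exists_place q hq
  refine ⟨A, hA, fun w hwZ _ hfix => ?_⟩
  exact twlg_tn_inv0_K N' q p K hinj hq hqp hqN' A hA w hfix (LinearMap.mem_ker.1 hwZ.1)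
    (LinearMap.mem_ker.1 hwZ.2)

end main

end Fermat.Agent.TW
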