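/-
Project ONE MACHINE (S43), block [A] LG: A3-TATE + A3-CUT + A3-TRANSFER assembled (helper2; prefix
`twlg_nm_`).

`twlg_nm_not_unip` : input (iii) of the matching lemma in its final form. Level `N' q q`, `q ∤ N'`
prime, `q ≠ p`. Given the two transfers `VA VB : gh_H (N' q) →+ gh_H (N' q q)` (cell A3-BR:
intertwined by the lattices with `s35p_P1`, `s35p_P2`) and a NONZERO Betti class
`c : gh_H (N' q q) →+ K` which is an eigenvector of the good Hecke operators with eigenvalues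
`a ℓ ∈ O` and is killed by `VA` and `VB`: EVERY `ρ : GaloisRepAdic O` with
`charpoly ρ(Frob_ℓ) = X² - a_ℓ X + ℓ` at the good primes is NOT unipotent on the inertia groups
at `q`.
-/
import Mathlib
import Fermat.Agent.TW.LG.InertiaFree
import Fermat.Agent.TW.LG.Transfer

set_option autoImplicit false
set_option linter.unusedSectionVars false
set_option linter.unusedVariables false
set_option linter.style.haveILetI false
set_option synthInstance.maxHeartbeats 400000
set_option maxHeartbeats 1000000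

noncomputable section

namespace Fermat.Agent.TW

open IsLocalRing TensorProduct Polynomial ModularCurve Fermat.Agent.JT3 Fermat.Agent.S35
  Fermat.Agent.S36

local notation "GQ" => (AlgebraicClosure ℚ ≃ₐ[ℚ] AlgebraicClosure ℚ)
local notation "Qbar" => AlgebraicClosure ℚ

variable (N' q p : ℕ) [NeZero N'] [NeZero q] [Fact p.Prime] (S : Finset ℕ)
  (O : Type) [CommRing O] [IsDomain O] [IsDiscreteValuationRing O]
  [IsAdicComplete (maximalIdeal O) O] [CharZero O] [Algebra ℤ_[p] O]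
  (K : Type) [Field K] [Algebra O K] [IsFractionRing O K] [Algebra ℤ_[p] K]
  [IsScalarTower ℤ_[p] O K]

/-- **Input (iii) of the matching lemma**, final form. -/
theorem twlg_nm_not_unip (hpS : p ∈ S) (hNS : ∀ r : ℕ, r.Prime → r ∣ N' * q * q → r ∈ S)
    (hq : q.Prime) (hqp : q ≠ p) (hqN' : ¬ q ∣ N') (hp : (p : O) ∈ maximalIdeal O)
    (VA VB : gh_H (N' * q) →+ gh_H (N' * q * q))
    (hVA : ∀ x : tj_T (N' * q * q) p,
      tjp_lattice (N' * q) p (s35p_P1 (N' * q) q p x) = (tjp_lattice (N' * q * q) p x).comp VA)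
    (hVB : ∀ x : tj_T (N' * q * q) p,
      tjp_lattice (N' * q) p (s35p_P2 (N' * q) q p x) = (tjp_lattice (N' * q * q) p x).comp VB)
    (a : ℕ → O) (c : gh_H (N' * q * q) →+ K) (hc0 : c ≠ 0)
    (hce : ∀ ℓ, pk_Good (N' * q * q) S ℓ → ∀ h,
      c (t2f_TH (N' * q * q) ℓ h) = algebraMap O K (a ℓ) * c h)
    (hcA : ∀ h, c (VA h) = 0) (hcB : ∀ h, c (VB h) = 0)
    (ρ : GaloisRepAdic O)
    (hρ : ∀ ℓ : ℕ, pk_Good (N' * q * q) S ℓ → ∀ A : ValuationSubring Qbar, A.LiesOverPrime ℓ →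
      ∀ φ : GQ, A.IsFrobeniusAt φ ℓ →
        LinearMap.charpoly (ρ.ρ φ) = X ^ 2 - C (a ℓ) * X + C ((ℓ : O))) :
    ¬ ρ.IsUnipotentOnInertiaAt q := by
  have hinjO : Function.Injective (algebraMap ℤ_[p] O) := pk_padic_injective p (algebraMap ℤ_[p] O)
  have hinj : Function.Injective (algebraMap ℤ_[p] K) := by
    rw [IsScalarTower.algebraMap_eq ℤ_[p] O K]
    exact (IsFractionRing.injective O K).comp hinjO
  obtain ⟨ρ', h1, -, h3⟩ := twlg_if_main N' q p S O K hpS hNS hq hqp hqN' hp a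
    (twlg_tn_exists (N' * q) q p S K hinj VA VB hVA hVB (fun ℓ => algebraMap O K (a ℓ)) c hc0
      hce hcA hcB)
  intro hun
  apply h3
  refine (twlg_tr_unip_iff ρ' ρ S (fun ℓ hℓ hℓS A hA φ hφ => ?_) q).2 hun
  have hgood : pk_Good (N' * q * q) S ℓ :=
    ⟨hℓ, fun hdvd => hℓS (hNS ℓ hℓ hdvd), fun h => hℓS (Finset.mem_coe.1 h)⟩
  rw [h1 ℓ hgood A hA φ hφ, hρ ℓ hgood A hA φ hφ]

end Fermat.Agent.TW
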