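import Mathlib
import Fermat.Agent.TW.LG.NewMain
import Fermat.Agent.TW.LG.GatewayDegLattice

/-!
# TW / [A]: input (iii) of the matching lemma, CLOSED (prefix `twlg_gd_`)

`twlg_gd_not_unip` = helper2's `twlg_nm_not_unip` with the two transfers instantiated
(`VA = twlg_gd_VA (N' * q) q _`, `VB = twlg_gd_VB (N' * q) q _`) and its hypotheses `hVA`, `hVB`
discharged by the lattice form of (BR) (`twlg_gd_lattice_P1/P2`).  No open input is left:

level `N' q q`, `q ∤ N'` prime, `q ≠ p`; a NONZERO class `c : gh_H (N' q q) →+ K` which is an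
eigenvector of the good Hecke operators with eigenvalues `a ℓ ∈ O` and is killed by the two
transfers from level `N' q`; then EVERY `ρ : GaloisRepAdic O` with
`charpoly ρ(Frob_ℓ) = X² - a_ℓ X + ℓ` at the good primes is NOT unipotent on inertia at `q`.
-/

set_option autoImplicit false
set_option linter.unusedSectionVars false
set_option linter.unusedVariables false
set_option linter.style.haveILetI false
set_option synthInstance.maxHeartbeats 400000
set_option maxHeartbeats 1000000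

noncomputable section

namespace Fermat.Agent.TW

open IsLocalRing TensorProduct Polynomial ModularCurve Fermat.Agent.JT3 Fermat.Agent.S35
  Fermat.Agent.S36

local notation "GQ" => (AlgebraicClosure ℚ ≃ₐ[ℚ] AlgebraicClosure ℚ)
local notation "Qbar" => AlgebraicClosure ℚ

variable (N' q p : ℕ) [NeZero N'] [NeZero q] [Fact p.Prime] (S : Finset ℕ)
  (O : Type) [CommRing O] [IsDomain O] [IsDiscreteValuationRing O]
  [IsAdicComplete (maximalIdeal O) O] [CharZero O] [Algebra ℤ_[p] O]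
  (K : Type) [Field K] [Algebra O K] [IsFractionRing O K] [Algebra ℤ_[p] K]
  [IsScalarTower ℤ_[p] O K]

/-- `q ∣ N' * q` -/
theorem twlg_gd_dvd_mul (N' q : ℕ) : q ∣ N' * q := Dvd.intro_left N' rfl

/-- **Input (iii) of the matching lemma, closed.** -/
theorem twlg_gd_not_unip (hpS : p ∈ S) (hNS : ∀ r : ℕ, r.Prime → r ∣ N' * q * q → r ∈ S)
    (hq : q.Prime) (hqp : q ≠ p) (hqN' : ¬ q ∣ N') (hp : (p : O) ∈ maximalIdeal O)
    (a : ℕ → O) (c : gh_H (N' * q * q) →+ K) (hc0 : c ≠ 0)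
    (hce : ∀ ℓ, pk_Good (N' * q * q) S ℓ → ∀ h,
      c (t2f_TH (N' * q * q) ℓ h) = algebraMap O K (a ℓ) * c h)
    (hcA : ∀ h, c (twlg_gd_VA (N' * q) q (twlg_gd_dvd_mul N' q) h) = 0)
    (hcB : ∀ h, c (twlg_gd_VB (N' * q) q (twlg_gd_dvd_mul N' q) h) = 0)
    (ρ : GaloisRepAdic O)
    (hρ : ∀ ℓ : ℕ, pk_Good (N' * q * q) S ℓ → ∀ A : ValuationSubring Qbar, A.LiesOverPrime ℓ →
      ∀ φ : GQ, A.IsFrobeniusAt φ ℓ →
        LinearMap.charpoly (ρ.ρ φ) = X ^ 2 - C (a ℓ) * X + C ((ℓ : O))) :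
    ¬ ρ.IsUnipotentOnInertiaAt q :=
  twlg_nm_not_unip N' q p S O K hpS hNS hq hqp hqN' hp
    (twlg_gd_VA (N' * q) q (twlg_gd_dvd_mul N' q)) (twlg_gd_VB (N' * q) q (twlg_gd_dvd_mul N' q))
    (fun x => twlg_gd_lattice_P1 (N' * q) q p hq (twlg_gd_dvd_mul N' q) x)
    (fun x => twlg_gd_lattice_P2 (N' * q) q p hq (twlg_gd_dvd_mul N' q) x)
    a c hc0 hce hcA hcB ρ hρ

end Fermat.Agent.TW

end
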