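import Mathlib
import Fermat.Agent.TW.Aut.SeamsLG
import Fermat.Agent.TW.LG.GatewayDegMain
import Fermat.Agent.JT3.Pack.DVRExt
import Fermat.Agent.JT3.Algebra.CycloAdic

/-!
# TW / [A] A4-NEW-DESC: descent of the NEW-AT-`t` clause to a complete DVR (prefix `twlg_nd_`)

The `∃`-block of `twe_NewAt` (TW/Aut/SeamsLG.lean) produces, for an eigen-system
`χ : T_X → K` into a big field `K`, a nonzero class `c : H₁(X₀(N' t t)) → K` with the Hecke
eigenvalues of `χ`, killed by the two transfers from level `N' t`.  Here this is descended to the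
complete DVR `O' :=` the normalisation of `T_X ⧸ ker χ` (inside `E := Frac (T_X ⧸ ker χ) ⊆ K`)
by composing `c` with an `E`-linear functional `K → E`, and `twlg_gd_not_unip` then shows that
`ρ_X ⊗ O'` is NOT unipotent on inertia at `t`.

* `twlg_nd_exists_dvr` : the normalisation `O'` of `T_X ⧸ ker χ`, with its fraction field `E ⊆ K`;
* `twlg_nd_not_unip`   : the descent of the class and the call of `twlg_gd_not_unip`, for an
  abstract `(O', E, ψ, ι_E)`;
* `twlg_nd_main`       : the cell.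
-/

set_option autoImplicit false
set_option linter.unusedSectionVars false
set_option linter.unusedVariables false
set_option linter.style.haveILetI false
set_option synthInstance.maxHeartbeats 400000
set_option maxHeartbeats 1000000

namespace Fermat.Agent.TW

open Polynomial CuspForm IsLocalRing Fermat.Agent.JT3
open scoped TensorProduct

attribute [local instance] FractionRing.liftAlgebra FractionRing.isScalarTower_liftAlgebra

noncomputable section

/-- a nonzero vector of a vector space is seen by a linear functional -/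
theorem twlg_nd_exists_dual {E V : Type} [Field E] [AddCommGroup V] [Module E V] {v : V}
    (hv : v ≠ 0) : ∃ r : V →ₗ[E] E, r v ≠ 0 := by
  by_contra hcon
  push Not at hcon
  exact hv ((Module.forall_dual_apply_eq_zero_iff E v).mp hcon)

/-- the normalisation of `T ⧸ ker χ` inside `K`, with its fraction field -/
theorem twlg_nd_exists_dvr {𝒪 : Type} [CommRing 𝒪] [IsDomain 𝒪] [IsDiscreteValuationRing 𝒪]
    [IsAdicComplete (maximalIdeal 𝒪) 𝒪] [CharZero 𝒪]
    {p : ℕ} (hp𝒪 : (p : 𝒪) ∈ maximalIdeal 𝒪)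
    {TX : Type} [CommRing TX] [IsLocalRing TX] [Algebra 𝒪 TX] [Module.Finite 𝒪 TX]
    (K : Type) [Field K] [Algebra 𝒪 K] (hK : Function.Injective (algebraMap 𝒪 K))
    (χ : TX →ₐ[𝒪] K) :
    ∃ (O' : Type) (_ : CommRing O') (_ : IsDomain O') (_ : IsDiscreteValuationRing O')
      (_ : IsAdicComplete (maximalIdeal O') O') (_ : CharZero O')
      (E : Type) (_ : Field E) (_ : Algebra O' E) (_ : IsFractionRing O' E)
      (ψ : TX →+* O') (_ : IsLocalHom ψ) (ιE : E →+* K),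
      (∀ x, ιE (algebraMap O' E (ψ x)) = χ x) ∧ (p : O') ∈ maximalIdeal O' := by
  classical
  let χr : TX →+* K := (χ : TX →+* K)
  let I : Ideal TX := RingHom.ker χr
  haveI hIprime : I.IsPrime := RingHom.ker_isPrime χr
  haveI : Module.Finite 𝒪 (TX ⧸ I) :=
    Module.Finite.of_surjective (Ideal.Quotient.mkₐ 𝒪 I).toLinearMap
      (Ideal.Quotient.mkₐ_surjective 𝒪 I)
  have hinjD : Function.Injective (algebraMap 𝒪 (TX ⧸ I)) := by
    rw [injective_iff_map_eq_zero]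
    intro x hx
    have h1 : algebraMap 𝒪 TX x ∈ I := by
      rw [← Ideal.Quotient.eq_zero_iff_mem]
      exact hx
    have h2 : χ (algebraMap 𝒪 TX x) = 0 := h1
    rw [AlgHom.commutes] at h2
    exact hK (h2.trans (map_zero _).symm)
  haveI : Module.IsTorsionFree 𝒪 (TX ⧸ I) :=
    Module.isTorsionFree_iff_algebraMap_injective.mpr hinjD
  let χD : TX ⧸ I →+* K := RingHom.kerLift χr
  have hχD : Function.Injective χD := RingHom.kerLift_injective χr
  let Kf := FractionRing 𝒪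
  let E := FractionRing (TX ⧸ I)
  haveI : FiniteDimensional Kf E := inferInstance
  let ιE : E →+* K := IsFractionRing.lift hχD
  have hιE : ∀ d : TX ⧸ I, ιE (algebraMap (TX ⧸ I) E d) = χD d := fun d =>
    IsFractionRing.lift_algebraMap hχD d
  haveI hloc : IsLocalRing (integralClosure 𝒪 E) := pkd_isLocalRing 𝒪 Kf E
  haveI hdvr : IsDiscreteValuationRing (integralClosure 𝒪 E) := pkd_isDVR 𝒪 Kf E
  haveI hcomp : IsAdicComplete (maximalIdeal (integralClosure 𝒪 E)) (integralClosure 𝒪 E) :=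
    pkd_isAdicComplete 𝒪 Kf E
  haveI hchar : CharZero (integralClosure 𝒪 E) := pkd_charZero 𝒪 Kf E
  have hint : ∀ d : TX ⧸ I, algebraMap (TX ⧸ I) E d ∈ integralClosure 𝒪 E := fun d =>
    (Algebra.IsIntegral.isIntegral (R := 𝒪) d).map (IsScalarTower.toAlgHom 𝒪 (TX ⧸ I) E)
  let φ : (TX ⧸ I) →ₐ[𝒪] integralClosure 𝒪 E :=
    (IsScalarTower.toAlgHom 𝒪 (TX ⧸ I) E).codRestrict (integralClosure 𝒪 E) hint
  have hφinj : Function.Injective φ := by
    intro a b hab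
    have := congrArg (algebraMap (integralClosure 𝒪 E) E) hab
    exact IsFractionRing.injective (TX ⧸ I) E this
  have hφint : (φ : TX ⧸ I →+* integralClosure 𝒪 E).IsIntegral := by
    intro x
    have hx : IsIntegral 𝒪 x := Algebra.IsIntegral.isIntegral (R := 𝒪) x
    obtain ⟨P, hPm, hP0⟩ := hx
    refine ⟨P.map (algebraMap 𝒪 (TX ⧸ I)), hPm.map _, ?_⟩
    rw [Polynomial.eval₂_map]
    have : (φ : TX ⧸ I →+* integralClosure 𝒪 E).comp (algebraMap 𝒪 (TX ⧸ I)) =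
        algebraMap 𝒪 (integralClosure 𝒪 E) := by
      ext a
      simp
    rw [this]
    exact hP0
  let ψ : TX →+* integralClosure 𝒪 E :=
    (φ : TX ⧸ I →+* integralClosure 𝒪 E).comp (Ideal.Quotient.mk I)
  haveI h1 : IsLocalHom (Ideal.Quotient.mk I) :=
    IsLocalHom.of_surjective _ Ideal.Quotient.mk_surjective
  haveI h2 : IsLocalHom (φ : TX ⧸ I →+* integralClosure 𝒪 E) := hφint.isLocalHom hφinj
  have hψ : IsLocalHom ψ := RingHom.isLocalHom_comp _ _
  have hιψ : ∀ x : TX, ιE (algebraMap (integralClosure 𝒪 E) E (ψ x)) = χ x := by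
    intro x
    show ιE (algebraMap (TX ⧸ I) E (Ideal.Quotient.mk I x)) = χ x
    rw [hιE]
    rfl
  have hp' : (p : integralClosure 𝒪 E) ∈ maximalIdeal (integralClosure 𝒪 E) := by
    haveI := pkd_isLocalHom 𝒪 Kf E
    have := map_nonunit (algebraMap 𝒪 (integralClosure 𝒪 E)) (p : 𝒪) hp𝒪
    rwa [map_natCast] at this
  exact ⟨integralClosure 𝒪 E, inferInstance, inferInstance, hdvr, hcomp, hchar, E, inferInstance,
    inferInstance, integralClosure.isFractionRing_of_finite_extension Kf E, ψ, hψ, ιE, hιψ, hp'⟩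

/-- the descent of the class and the call of `twlg_gd_not_unip`, abstract `(O', E, ψ, ι_E)` -/
theorem twlg_nd_not_unip {𝒪 : Type} [CommRing 𝒪] [IsDomain 𝒪] [IsDiscreteValuationRing 𝒪]
    [IsAdicComplete (maximalIdeal 𝒪) 𝒪]
    {p : ℕ} [Fact p.Prime]
    {Nb : ℕ} [NeZero Nb] {S' : Finset ℕ}
    {θX : heckeAlgebra Nb 2 (↑S' : Set ℕ) →+* ResidueField 𝒪}
    {TX : Type} [CommRing TX] [IsLocalRing TX] [IsNoetherianRing TX]
    [IsAdicComplete (maximalIdeal TX) TX] [Algebra 𝒪 TX] [IsLocalHom (algebraMap 𝒪 TX)]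
    [Module.Finite 𝒪 TX] [Module.Free 𝒪 TX]
    (HX : HeckeGaloisRepDatum Nb (↑S' : Set ℕ) 𝒪 θX TX)
    (hpS : p ∈ S') (hNS : ∀ r : ℕ, r.Prime → r ∣ Nb → r ∈ S')
    (K : Type) [Field K] [Algebra 𝒪 K]
    (χ : TX →ₐ[𝒪] K) (N' t : ℕ) [NeZero N'] [NeZero t] (hNb : Nb = N' * t * t)
    (ht : t.Prime) (htp : t ≠ p) (htN' : ¬ t ∣ N')
    (c : gh_H (N' * t * t) →+ K) (hc0 : c ≠ 0)
    (hce : ∀ (ℓ : ℕ) (hℓ : ℓ.Prime) (h1 : ¬ ℓ ∣ Nb) (h2 : ℓ ∉ (↑S' : Set ℕ))
      (h : gh_H (N' * t * t)),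
      c (t2f_TH (N' * t * t) ℓ h) = χ (HX.π (heckeAlgebra.T hℓ h1 h2)) * c h)
    (hcA : ∀ h : gh_H (N' * t), c (twlg_gd_VA (N' * t) t (dvd_mul_left t N') h) = 0)
    (hcB : ∀ h : gh_H (N' * t), c (twlg_gd_VB (N' * t) t (dvd_mul_left t N') h) = 0)
    (O' : Type) [CommRing O'] [IsDomain O'] [IsDiscreteValuationRing O']
    [IsAdicComplete (maximalIdeal O') O'] [CharZero O']
    (E : Type) [Field E] [Algebra O' E] [IsFractionRing O' E]
    (ψ : TX →+* O') (hψ : IsLocalHom ψ) (ιE : E →+* K)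
    (hιψ : ∀ x, ιE (algebraMap O' E (ψ x)) = χ x) (hp' : (p : O') ∈ maximalIdeal O') :
    ¬ (HX.ρ.baseChangeAlong ψ hψ).IsUnipotentOnInertiaAt t := by
  classical
  subst hNb
  letI : Algebra E K := ιE.toAlgebra
  obtain ⟨h₀, hh₀⟩ : ∃ h₀, c h₀ ≠ 0 := by
    by_contra hcon
    push Not at hcon
    exact hc0 (AddMonoidHom.ext fun h => by rw [hcon h]; rfl)
  obtain ⟨r, hr⟩ := twlg_nd_exists_dual (E := E) hh₀
  let c' : gh_H (N' * t * t) →+ E := (r : K →+ E).comp c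
  have hc'0 : c' ≠ 0 := by
    intro h0
    apply hr
    have := DFunLike.congr_fun h0 h₀
    exact this
  letI : Algebra ℤ_[p] O' := (cya_padicHom p O' hp').toAlgebra
  letI : Algebra ℤ_[p] E := ((algebraMap O' E).comp (algebraMap ℤ_[p] O')).toAlgebra
  haveI : IsScalarTower ℤ_[p] O' E := IsScalarTower.of_algebraMap_eq fun _ => rfl
  let a : ℕ → O' := fun ℓ =>
    if h : pk_Good (N' * t * t) S' ℓ then ψ (HX.π (heckeAlgebra.T h.1 h.2.1 h.2.2)) else 0
  refine twlg_gd_not_unip N' t p S' O' E hpS hNS ht htp htN' hp' a c' hc'0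
    ?_ ?_ ?_ (HX.ρ.baseChangeAlong ψ hψ) ?_
  · intro ℓ hℓ h
    show r (c (t2f_TH (N' * t * t) ℓ h)) = algebraMap O' E (a ℓ) * r (c h)
    rw [hce ℓ hℓ.1 hℓ.2.1 hℓ.2.2 h]
    have ha : a ℓ = ψ (HX.π (heckeAlgebra.T hℓ.1 hℓ.2.1 hℓ.2.2)) := dif_pos hℓ
    have h3 : χ (HX.π (heckeAlgebra.T hℓ.1 hℓ.2.1 hℓ.2.2)) =
        algebraMap E K (algebraMap O' E (a ℓ)) := by
      rw [ha]
      exact (hιψ _).symm
    rw [h3, ← Algebra.smul_def, map_smul, smul_eq_mul]
  · intro h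
    show r (c _) = 0
    rw [hcA h, map_zero]
  · intro h
    show r (c _) = 0
    rw [hcB h, map_zero]
  · intro ℓ hℓ A hA σ hσ
    have h6 := HX.charpoly_frob ℓ hℓ.1 hℓ.2.1 hℓ.2.2 A hA σ hσ
    have ha : a ℓ = ψ (HX.π (heckeAlgebra.T hℓ.1 hℓ.2.1 hℓ.2.2)) := dif_pos hℓ
    letI : Algebra TX O' := ψ.toAlgebra
    change LinearMap.charpoly ((HX.ρ.ρ σ).baseChange O') = _
    rw [LinearMap.charpoly_baseChange, h6, ha]
    simp only [Polynomial.map_add, Polynomial.map_sub, Polynomial.map_mul, Polynomial.map_pow,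
      Polynomial.map_X, Polynomial.map_C, Polynomial.map_natCast, map_natCast]
    rfl

/-- **A4-NEW-DESC**: the `∃`-block of `twe_NewAt` gives a complete DVR point of `T_X` at which
`ρ_X` is not unipotent on inertia at `t`. -/
theorem twlg_nd_main {𝒪 : Type} [CommRing 𝒪] [IsDomain 𝒪] [IsDiscreteValuationRing 𝒪]
    [IsAdicComplete (maximalIdeal 𝒪) 𝒪] [Finite (ResidueField 𝒪)] [CharZero 𝒪]
    {p : ℕ} [Fact p.Prime] (hp𝒪 : (p : 𝒪) ∈ maximalIdeal 𝒪)
    {Nb : ℕ} [NeZero Nb] {S' : Finset ℕ}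
    {θX : heckeAlgebra Nb 2 (↑S' : Set ℕ) →+* ResidueField 𝒪}
    {TX : Type} [CommRing TX] [IsLocalRing TX] [IsNoetherianRing TX]
    [IsAdicComplete (maximalIdeal TX) TX] [Algebra 𝒪 TX] [IsLocalHom (algebraMap 𝒪 TX)]
    [Module.Finite 𝒪 TX] [Module.Free 𝒪 TX]
    (HX : HeckeGaloisRepDatum Nb (↑S' : Set ℕ) 𝒪 θX TX)
    (hpS : p ∈ S') (hNS : ∀ r : ℕ, r.Prime → r ∣ Nb → r ∈ S')
    (K : Type) [Field K] [Algebra 𝒪 K] (hK : Function.Injective (algebraMap 𝒪 K))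
    (χ : TX →ₐ[𝒪] K) (N' t : ℕ) [NeZero N'] [NeZero t] (hNb : Nb = N' * t * t)
    (ht : t.Prime) (htp : t ≠ p) (htN' : ¬ t ∣ N')
    (c : gh_H (N' * t * t) →+ K) (hc0 : c ≠ 0)
    (hce : ∀ (ℓ : ℕ) (hℓ : ℓ.Prime) (h1 : ¬ ℓ ∣ Nb) (h2 : ℓ ∉ (↑S' : Set ℕ))
      (h : gh_H (N' * t * t)),
      c (t2f_TH (N' * t * t) ℓ h) = χ (HX.π (heckeAlgebra.T hℓ h1 h2)) * c h)
    (hcA : ∀ h : gh_H (N' * t), c (twlg_gd_VA (N' * t) t (dvd_mul_left t N') h) = 0)
    (hcB : ∀ h : gh_H (N' * t), c (twlg_gd_VB (N' * t) t (dvd_mul_left t N') h) = 0) :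
    ∃ (O' : Type) (_ : CommRing O') (_ : IsDomain O') (_ : IsDiscreteValuationRing O')
      (_ : IsAdicComplete (maximalIdeal O') O') (_ : CharZero O')
      (ψ : TX →+* O') (hψ : IsLocalHom ψ) (ι : O' →+* K),
      Function.Injective ι ∧ (∀ x, ι (ψ x) = χ x) ∧ (p : O') ∈ maximalIdeal O' ∧
      ¬ (HX.ρ.baseChangeAlong ψ hψ).IsUnipotentOnInertiaAt t := by
  obtain ⟨O', _, _, _, _, _, E, _, _, _, ψ, hψ, ιE, hιψ, hp'⟩ :=
    twlg_nd_exists_dvr hp𝒪 K hK χ
  refine ⟨O', inferInstance, inferInstance, inferInstance, inferInstance, inferInstance, ψ, hψ,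
    ιE.comp (algebraMap O' E), ιE.injective.comp (IsFractionRing.injective O' E), hιψ, hp', ?_⟩
  exact twlg_nd_not_unip HX hpS hNS K χ N' t hNb ht htp htN' c hc0 hce hcA hcB O' E ψ hψ ιE
    hιψ hp'

end

end Fermat.Agent.TW
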