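/-
Project TW (S43), block [A] LG, cell A4 (Assembly), part 2 `AsRel` (helper29).  Prefix `twlg_as_`.

* `twlg_as_rel`         : the tame relation `ρ(φ_ℓ) ρ(σ_ℓ) = ρ(σ_ℓ)^ℓ ρ(φ_ℓ)` for a `GaloisRepAdic`
                          over a noetherian local ring which is `≡ 1 mod 𝔪` on the inertia group at
                          `ℓ` (transport of helper13's framed `twc_lr_rel` along `exists_framedRep`);
* `twlg_as_diag_rel`    : on a common eigenbasis: `a i * u i = u i ^ t * a i`;
* `twlg_as_diag_unit`   : eigenvalues of an invertible endomorphism on a basis are units;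
* `twlg_as_diag_coeffs` : `charpoly = X² - (u 0 + u 1) X + u 0 u 1` for a diagonal endomorphism;
* `twlg_as_pow_sub_one` : `a i * u i = u i ^ t * a i`, `a i`, `u i` units ⟹ `u i ^ (t - 1) = 1`;
* `twlg_as_pow_one`     : `u ∈ 1 + 𝔪`, `u ^ n = 1`, `p ∈ 𝔪` ⟹ `u ^ p ^ v_p(n) = 1`.
-/
import Mathlib
import Fermat.Agent.TW.Def.LocRel
import Fermat.Agent.TW.Patch.InertiaBridge

set_option autoImplicit false
set_option linter.unusedSectionVars false
set_option linter.style.haveILetI false

open Polynomial IsLocalRing ExtCitation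
open Fermat.Agent.S53 Fermat.Agent.S56 Fermat.Agent.JT3

namespace Fermat.Agent.TW

noncomputable section

local notation "GQ" => (AlgebraicClosure ℚ ≃ₐ[ℚ] AlgebraicClosure ℚ)
local notation "Qbar" => AlgebraicClosure ℚ

section rel

variable {A : Type} [CommRing A] [IsLocalRing A] [IsNoetherianRing A]

/-- **the tame relation for a `GaloisRepAdic`.** -/
theorem twlg_as_rel {p : ℕ} {Th : Finset Nat.Primes} (td : twc_TameData p Th)
    (hp : (p : A) ∈ maximalIdeal A) (ρ : GaloisRepAdic A) (ℓ : Nat.Primes) (hℓ : ℓ ∈ Th)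
    (hres : ∀ τ ∈ (primeLocalPlace ℓ).inertiaSubgroupIn ℚ,
      gcl_Small (maximalIdeal A) (ρ.ρ τ - 1)) :
    ρ.ρ (td.gφ ℓ) * ρ.ρ (td.gσ ℓ) = ρ.ρ (td.gσ ℓ) ^ (ℓ : ℕ) * ρ.ρ (td.gφ ℓ) := by
  obtain ⟨r, ⟨e⟩⟩ := exists_framedRep ρ
  -- equal matrices give equal endomorphisms
  have key : ∀ g g' : GQ, r g = r g' → ρ.ρ g = ρ.ρ g' := by
    intro g g' h
    refine LinearMap.ext fun x => e.toLinearEquiv.injective ?_
    rw [e.map_apply, e.map_apply]
    show Matrix.toLin' (r.toMonoidHom g) _ = Matrix.toLin' (r.toMonoidHom g') _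
    have h' : r.toMonoidHom g = r.toMonoidHom g' := h
    rw [h']
  have hres' : ∀ τ ∈ (primeLocalPlace ℓ).inertiaSubgroupIn ℚ,
      twc_lr_In (maximalIdeal A) (r τ - 1) := by
    intro τ hτ
    have h1 : gcl_Small (maximalIdeal A) (r.toGaloisRepAdic.ρ τ - 1) := by
      intro v
      have h2 : (r.toGaloisRepAdic.ρ τ - 1) v =
          e.toLinearEquiv ((ρ.ρ τ - 1) (e.toLinearEquiv.symm v)) := by
        rw [LinearMap.sub_apply, LinearMap.sub_apply, Module.End.one_apply, Module.End.one_apply,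
          map_sub, e.map_apply, LinearEquiv.apply_symm_apply]
      rw [h2]
      have h3 := hres τ hτ (e.toLinearEquiv.symm v)
      have h4 : e.toLinearEquiv ((ρ.ρ τ - 1) (e.toLinearEquiv.symm v)) ∈
          (maximalIdeal A • (⊤ : Submodule A ρ.V)).map e.toLinearEquiv.toLinearMap :=
        Submodule.mem_map_of_mem h3
      rw [Submodule.map_smul''] at h4
      exact Submodule.smul_mono le_rfl le_top h4
    exact (twib_framed_small_iff r _ τ).1 h1
  have hrel := twc_lr_rel td hp r ℓ hℓ hres'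
  rw [← map_mul, ← map_pow, ← map_mul]
  apply key
  rw [r.map_mul, r.map_mul, hrel]
  congr 1
  exact (map_pow r.toMonoidHom (td.gσ ℓ) (ℓ : ℕ)).symm

end rel

section diag

variable {T : Type*} [CommRing T] {V : Type*} [AddCommGroup V] [Module T V]

/-- powers of a diagonal endomorphism. -/
theorem twlg_as_diag_pow (b : Module.Basis (Fin 2) T V) (Sg : Module.End T V) (u : Fin 2 → T)
    (hSg : ∀ i, Sg (b i) = u i • b i) (k : ℕ) (i : Fin 2) : (Sg ^ k) (b i) = (u i) ^ k • b i := by
  induction k with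
  | zero => simp
  | succ k ih =>
    rw [pow_succ, Module.End.mul_apply, hSg, map_smul, ih, smul_smul, pow_succ, mul_comm]

/-- the tame relation on a common eigenbasis. -/
theorem twlg_as_diag_rel (t : ℕ) (b : Module.Basis (Fin 2) T V) (Sg Ph : Module.End T V)
    (u a : Fin 2 → T) (hSg : ∀ i, Sg (b i) = u i • b i) (hPh : ∀ i, Ph (b i) = a i • b i)
    (hrel : Ph * Sg = Sg ^ t * Ph) (i : Fin 2) : a i * u i = u i ^ t * a i := by
  have h1 : Ph (Sg (b i)) = (Sg ^ t) (Ph (b i)) := by
    rw [← Module.End.mul_apply, hrel, Module.End.mul_apply]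
  rw [hSg, map_smul, hPh, map_smul, twlg_as_diag_pow b Sg u hSg, smul_smul, smul_smul] at h1
  have h2 := congrArg (fun v => b.repr v i) h1
  simp only [map_smul, Module.Basis.repr_self, Finsupp.smul_apply, Finsupp.single_eq_same,
    smul_eq_mul, mul_one] at h2
  rw [mul_comm (u i) (a i), mul_comm (a i) (u i ^ t)] at h2
  exact h2

/-- eigenvalues of an invertible endomorphism on a basis are units. -/
theorem twlg_as_diag_unit (b : Module.Basis (Fin 2) T V) (f g : Module.End T V)
    (hgf : g * f = 1) (a : Fin 2 → T) (hf : ∀ i, f (b i) = a i • b i) (i : Fin 2) :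
    IsUnit (a i) := by
  have h1 : g (f (b i)) = b i := by
    rw [← Module.End.mul_apply, hgf, Module.End.one_apply]
  rw [hf, map_smul] at h1
  have h2 := congrArg (fun v => b.repr v i) h1
  simp only [map_smul, Finsupp.smul_apply, smul_eq_mul, Module.Basis.repr_self,
    Finsupp.single_eq_same] at h2
  exact IsUnit.of_mul_eq_one _ h2

/-- the characteristic polynomial of a diagonal endomorphism in rank two. -/
theorem twlg_as_diag_charpoly [Nontrivial T] [Module.Free T V] [Module.Finite T V]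
    (b : Module.Basis (Fin 2) T V) (Sg : Module.End T V) (u : Fin 2 → T)
    (hSg : ∀ i, Sg (b i) = u i • b i) :
    LinearMap.charpoly Sg = X ^ 2 - C (u 0 + u 1) * X + C (u 0 * u 1) := by
  classical
  have hmat : LinearMap.toMatrix b b Sg = Matrix.diagonal u := by
    ext i j
    rw [LinearMap.toMatrix_apply, hSg, map_smul, Module.Basis.repr_self, Finsupp.smul_apply,
      Finsupp.single_apply, Matrix.diagonal_apply, smul_eq_mul]
    by_cases h : i = j
    · subst h; simp
    · rw [if_neg (Ne.symm h), if_neg h, mul_zero]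
  rw [← LinearMap.charpoly_toMatrix Sg b, hmat, Matrix.charpoly_diagonal, Fin.prod_univ_two]
  simp only [map_add, map_mul]
  ring

/-- `a u = u^t a` with `a`, `u` units gives `u ^ (t - 1) = 1`. -/
theorem twlg_as_pow_sub_one (t : ℕ) (ht : 1 ≤ t) (a u : T) (ha : IsUnit a) (hu : IsUnit u)
    (hrel : a * u = u ^ t * a) : u ^ (t - 1) = 1 := by
  have h1 : u = u ^ t := by
    have h' : a * u = a * u ^ t := by rw [hrel, mul_comm]
    exact ha.mul_left_cancel h'
  have h2 : u * u ^ (t - 1) = u * 1 := by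
    rw [mul_one, ← pow_succ', Nat.sub_add_cancel ht]
    exact h1.symm
  exact hu.mul_left_cancel h2

end diag

section powone

variable {T : Type*} [CommRing T] [IsLocalRing T]

/-- a natural number prime to `p` is a unit of a local ring with `p ∈ 𝔪`. -/
theorem twlg_as_natCast_isUnit {p : ℕ} (hpp : p.Prime) (hp : (p : T) ∈ maximalIdeal T) (r : ℕ)
    (hr : ¬ p ∣ r) : IsUnit (r : T) := by
  have hcop : Nat.Coprime r p := ((Nat.Prime.coprime_iff_not_dvd hpp).2 hr).symm
  have hb : ((r.gcdA p : ℤ) : T) * (r : T) + ((r.gcdB p : ℤ) : T) * (p : T) = 1 := by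
    have h := Nat.gcd_eq_gcd_ab r p
    rw [hcop.gcd_eq_one] at h
    have h2 := congrArg (fun z : ℤ => (z : T)) h
    simp only [Int.cast_add, Int.cast_mul, Int.cast_natCast, Nat.cast_one, Int.cast_one] at h2
    rw [h2]; ring
  have hmem : ((r.gcdB p : ℤ) : T) * (p : T) ∈ maximalIdeal T := Ideal.mul_mem_left _ _ hp
  have hunit : IsUnit (((r.gcdA p : ℤ) : T) * (r : T)) := by
    have h3 : ((r.gcdA p : ℤ) : T) * (r : T) = 1 - ((r.gcdB p : ℤ) : T) * (p : T) := by
      rw [← hb]; ring
    rw [h3]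
    by_contra hnu
    have h4 : 1 - ((r.gcdB p : ℤ) : T) * (p : T) ∈ maximalIdeal T := hnu
    have h5 : (1 : T) ∈ maximalIdeal T := by
      have := Ideal.add_mem _ h4 hmem
      rwa [sub_add_cancel] at this
    exact (Ideal.ne_top_iff_one _).1 Ideal.IsPrime.ne_top' h5
  exact isUnit_of_mul_isUnit_right hunit

/-- **the exponent of a `1`-unit of finite order is a power of `p`.** -/
theorem twlg_as_pow_one {p : ℕ} (hpp : p.Prime) (hp : (p : T) ∈ maximalIdeal T) (u : T)
    (hu : u - 1 ∈ maximalIdeal T) (n : ℕ) (hn : n ≠ 0) (hun : u ^ n = 1) :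
    u ^ p ^ padicValNat p n = 1 := by
  haveI : Fact p.Prime := ⟨hpp⟩
  obtain ⟨r, hr, hnr⟩ : ∃ r : ℕ, ¬ p ∣ r ∧ n = p ^ padicValNat p n * r := by
    obtain ⟨e, r, hr, hnr⟩ := Nat.exists_eq_pow_mul_and_not_dvd hn p hpp.ne_one
    refine ⟨r, hr, ?_⟩
    have he : padicValNat p n = e := by
      rw [hnr, padicValNat.mul (pow_ne_zero _ hpp.ne_zero) (fun h => hr (by rw [h]; exact dvd_zero p)),
        padicValNat.prime_pow, padicValNat.eq_zero_of_not_dvd hr, add_zero]
    rw [he]; exact hnr
  set w : T := u ^ p ^ padicValNat p n with hw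
  have hwr : w ^ r = 1 := by rw [hw, ← pow_mul, ← hnr, hun]
  -- `w ≡ 1 mod 𝔪`
  have hpow : ∀ k : ℕ, u ^ k - 1 ∈ maximalIdeal T := by
    intro k
    have : u ^ k - 1 = (u - 1) * ∑ i ∈ Finset.range k, u ^ i := by
      rw [mul_geom_sum]
    rw [this]
    exact Ideal.mul_mem_right _ _ hu
  have hw1 : w - 1 ∈ maximalIdeal T := hpow _
  have hwk : ∀ k : ℕ, w ^ k - 1 ∈ maximalIdeal T := by
    intro k
    have : w ^ k - 1 = (w - 1) * ∑ i ∈ Finset.range k, w ^ i := by
      rw [mul_geom_sum]
    rw [this]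
    exact Ideal.mul_mem_right _ _ hw1
  -- the geometric sum is a unit
  have hs : IsUnit (∑ i ∈ Finset.range r, w ^ i) := by
    have h1 : (∑ i ∈ Finset.range r, w ^ i) - (r : T) ∈ maximalIdeal T := by
      have : (∑ i ∈ Finset.range r, w ^ i) - (r : T) = ∑ i ∈ Finset.range r, (w ^ i - 1) := by
        rw [Finset.sum_sub_distrib]; simp
      rw [this]
      exact Ideal.sum_mem _ fun i _ => hwk i
    have h2 : IsUnit (r : T) := twlg_as_natCast_isUnit hpp hp r hr
    by_contra hnu
    have h3 : (∑ i ∈ Finset.range r, w ^ i) ∈ maximalIdeal T := hnu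
    have h4 : (r : T) ∈ maximalIdeal T := by
      have := Ideal.sub_mem _ h3 h1
      rwa [sub_sub_cancel] at this
    exact h4 h2
  have h0 : (w - 1) * ∑ i ∈ Finset.range r, w ^ i = 0 := by
    rw [mul_geom_sum, hwr, sub_self]
  have h1 : w - 1 = 0 := by
    have := hs.mul_left_eq_zero.1 h0
    exact this
  exact sub_eq_zero.1 h1

end powone

end

end Fermat.Agent.TW
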