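/-
Project TW (S43), block [A] LG, cell A4 (Assembly), part 4 `AsNew` (helper29).  Prefix `twlg_as_`.

From the (E→A iii) clause NEW-AT-`t` (`twe_NewAt`, `TW/Aut/SeamsLG.lean`) to the eigenvector
statement consumed by `twlg_as_hH3` (Taylor–Wiles primes) and by the injectivity of `tr r(σ_ℓ) - 2`
(hard primes):

* `twlg_as_small_baseChange` : `ρ(τ) ≡ 1 mod 𝔪` passes to a base change along a local homomorphism;
* `twlg_as_new_charpoly`     : for an eigenvector `v ≠ 0` of `K ⊗ M_X` (character `χ`) with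
                               `δ_t`-eigenvalue `≠ 1`: `χ(charpoly ρ_X(σ_t)) ≠ (X - 1)²`
                               (`σ_t = td.gσ`, a tame datum with inertia generation);
* `twlg_as_new_u`            : on a `σ_t`-eigenbasis with `u 0 * u 1 = 1`: `χ (u i) ≠ 1`.
-/
import Mathlib
import Fermat.Agent.TW.LG.AsNewDesc
import Fermat.Agent.TW.LG.AsRel
import Fermat.Agent.TW.Patch.InertiaBridge

set_option autoImplicit false
set_option linter.unusedSectionVars false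
set_option linter.style.haveILetI false

open Polynomial CuspForm IsLocalRing ExtCitation Fermat.Agent.JT3
open Fermat.Agent.S53 Fermat.Agent.S56
open scoped TensorProduct

namespace Fermat.Agent.TW

noncomputable section

local notation "GQ" => (AlgebraicClosure ℚ ≃ₐ[ℚ] AlgebraicClosure ℚ)
local notation "Qbar" => AlgebraicClosure ℚ

/-- `ρ(τ) ≡ 1 mod 𝔪` passes to the base change along a local homomorphism. -/
theorem twlg_as_small_baseChange {A B : Type} [CommRing A] [IsLocalRing A] [CommRing B]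
    [IsLocalRing B] (φ : A →+* B) (hφ : IsLocalHom φ) (ρ : GaloisRepAdic A) (τ : GQ)
    (h : gcl_Small (maximalIdeal A) (ρ.ρ τ - 1)) :
    gcl_Small (maximalIdeal B) ((ρ.baseChangeAlong φ hφ).ρ τ - 1) := by
  letI : Algebra A B := φ.toAlgebra
  have hmap : (maximalIdeal A).map φ ≤ maximalIdeal B :=
    Ideal.map_le_iff_le_comap.mpr fun a ha => Ideal.mem_comap.mpr (map_nonunit φ a ha)
  have hpure : ∀ (b : B) (v : ρ.V),
      ((ρ.ρ τ).baseChange B - 1) (b ⊗ₜ[A] v) ∈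
        maximalIdeal B • (⊤ : Submodule B (B ⊗[A] ρ.V)) := by
    intro b v
    rw [LinearMap.sub_apply, Module.End.one_apply, LinearMap.baseChange_tmul,
      ← TensorProduct.tmul_sub]
    have h1 : ρ.ρ τ v - v ∈ maximalIdeal A • (⊤ : Submodule A ρ.V) := by
      simpa using h v
    refine Submodule.smul_induction_on (p := fun x => b ⊗ₜ[A] x ∈
      maximalIdeal B • (⊤ : Submodule B (B ⊗[A] ρ.V))) h1 ?_ ?_
    · intro a ha w _
      rw [TensorProduct.tmul_smul, TensorProduct.smul_tmul', Algebra.smul_def, ← smul_eq_mul,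
        ← TensorProduct.smul_tmul']
      exact Submodule.smul_mem_smul (hmap (Ideal.mem_map_of_mem φ ha)) Submodule.mem_top
    · intro x y hx hy
      rw [TensorProduct.tmul_add]
      exact Submodule.add_mem _ hx hy
  intro w
  change ((ρ.ρ τ).baseChange B - 1) w ∈ _
  induction w using TensorProduct.induction_on with
  | zero => rw [map_zero]; exact Submodule.zero_mem _
  | tmul b v => exact hpure b v
  | add x y hx hy =>
    rw [map_add]
    exact Submodule.add_mem _ hx hy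

section new

variable {𝒪 : Type} [CommRing 𝒪] [IsDomain 𝒪] [IsDiscreteValuationRing 𝒪]
  [IsAdicComplete (maximalIdeal 𝒪) 𝒪] [Finite (ResidueField 𝒪)] [CharZero 𝒪]
  {Nb : ℕ} [NeZero Nb] {S' : Finset ℕ}
  {θX : heckeAlgebra Nb 2 (↑S' : Set ℕ) →+* ResidueField 𝒪}
  {TX : Type} [CommRing TX] [IsLocalRing TX] [IsNoetherianRing TX]
  [IsAdicComplete (maximalIdeal TX) TX] [Algebra 𝒪 TX] [IsLocalHom (algebraMap 𝒪 TX)]
  [Module.Finite 𝒪 TX] [Module.Free 𝒪 TX]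
  {HX : HeckeGaloisRepDatum Nb (↑S' : Set ℕ) 𝒪 θX TX}
  {MX : Type} [AddCommGroup MX] [Module 𝒪 MX] [Module TX MX] [IsScalarTower 𝒪 TX MX]
  {δ : MX →ₗ[𝒪] MX}

/-- **NEW-AT-`t` ⟹ the specialisation of `ρ_X(σ_t)` is not unipotent.**  `v ≠ 0` an eigenvector of
`K ⊗ M_X` with character `χ` and `δ_t`-eigenvalue `z ≠ 1`; `td` a tame datum with inertia
generation, `ℓ ∈ Th`; `ρ_X ≡ 1 mod 𝔪` on the inertia group at `ℓ`.  Then the image under `χ` of
the characteristic polynomial of `ρ_X(σ_ℓ)` is not `(X - 1)²`. -/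
theorem twlg_as_new_charpoly {p : ℕ} [Fact p.Prime] (hp𝒪 : (p : 𝒪) ∈ maximalIdeal 𝒪)
    (hpS : p ∈ S') (hNS : ∀ r : ℕ, r.Prime → r ∣ Nb → r ∈ S')
    {Th : Finset Nat.Primes} (td : twc_TameData p Th) (hgen : twib_InertiaGen td)
    (ℓ : Nat.Primes) (hℓ : ℓ ∈ Th) (hℓp : (ℓ : ℕ) ≠ p)
    (hnew : twe_NewAt HX δ (ℓ : ℕ))
    (hres : ∀ τ ∈ (primeLocalPlace ℓ).inertiaSubgroupIn ℚ,
      gcl_Small (maximalIdeal TX) (HX.ρ.ρ τ - 1))
    (K : Type) [Field K] [IsAlgClosed K] [Algebra 𝒪 K] (hK : Function.Injective (algebraMap 𝒪 K))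
    (χ : TX →ₐ[𝒪] K) (v : K ⊗[𝒪] MX) (hv0 : v ≠ 0)
    (hv : ∀ x : TX, (twe_act (MX := MX) x).baseChange K v = χ x • v)
    (z : K) (hz : z ≠ 1) (hδ : δ.baseChange K v = z • v) :
    (LinearMap.charpoly (HX.ρ.ρ (td.gσ ℓ))).map (χ : TX →+* K) ≠ (X - 1) ^ 2 := by
  intro hcp
  obtain ⟨N', _, _, hNb, htN', c, hc0, hce, hcA, hcB⟩ := hnew K hK χ v hv0 hv z hz hδ
  obtain ⟨O', _, _, _, _, _, ψ, hψ, ι, hι, hιψ, hpO', hnot⟩ :=
    twlg_nd_main hp𝒪 HX hpS hNS K hK χ N' (ℓ : ℕ) hNb ℓ.2 hℓp htN' c hc0 hce hcA hcB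
  apply hnot
  -- the pushed-forward representation
  set ρ' : GaloisRepAdic O' := HX.ρ.baseChangeAlong ψ hψ with hρ'
  have hres' : ∀ τ ∈ (primeLocalPlace ℓ).inertiaSubgroupIn ℚ,
      gcl_Small (maximalIdeal O') (ρ'.ρ τ - 1) := fun τ hτ =>
    twlg_as_small_baseChange ψ hψ HX.ρ τ (hres τ hτ)
  refine twib_unip_of_gen' td hgen hℓ ρ' hpO' hres' ?_
  -- the characteristic polynomial of `ρ'(σ_ℓ)`
  letI : Algebra TX O' := ψ.toAlgebra
  have h1 : LinearMap.charpoly (ρ'.ρ (td.gσ ℓ)) =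
      (LinearMap.charpoly (HX.ρ.ρ (td.gσ ℓ))).map ψ := by
    change LinearMap.charpoly ((HX.ρ.ρ (td.gσ ℓ)).baseChange O') = _
    rw [LinearMap.charpoly_baseChange]
    rfl
  rw [h1]
  apply Polynomial.map_injective ι hι
  rw [Polynomial.map_map]
  have h2 : ι.comp ψ = (χ : TX →+* K) := RingHom.ext fun x => hιψ x
  rw [h2, hcp]
  simp

/-- **NEW-AT-`t` for a Taylor–Wiles prime**: on a `σ_t`-eigenbasis with eigenvalues `u 0 * u 1 = 1`,
`χ (u i) ≠ 1` for every eigen-system with `δ_t`-eigenvalue `≠ 1`. -/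
theorem twlg_as_new_u {p : ℕ} [Fact p.Prime] (hp𝒪 : (p : 𝒪) ∈ maximalIdeal 𝒪)
    (hpS : p ∈ S') (hNS : ∀ r : ℕ, r.Prime → r ∣ Nb → r ∈ S')
    {Th : Finset Nat.Primes} (td : twc_TameData p Th) (hgen : twib_InertiaGen td)
    (ℓ : Nat.Primes) (hℓ : ℓ ∈ Th) (hℓp : (ℓ : ℕ) ≠ p)
    (hnew : twe_NewAt HX δ (ℓ : ℕ))
    (hres : ∀ τ ∈ (primeLocalPlace ℓ).inertiaSubgroupIn ℚ,
      gcl_Small (maximalIdeal TX) (HX.ρ.ρ τ - 1))
    (b : Module.Basis (Fin 2) TX HX.ρ.V) (u : Fin 2 → TX)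
    (hSg : ∀ i, HX.ρ.ρ (td.gσ ℓ) (b i) = u i • b i) (hu01 : u 0 * u 1 = 1)
    (K : Type) [Field K] [IsAlgClosed K] [Algebra 𝒪 K] (hK : Function.Injective (algebraMap 𝒪 K))
    (χ : TX →ₐ[𝒪] K) (v : K ⊗[𝒪] MX) (hv0 : v ≠ 0)
    (hv : ∀ x : TX, (twe_act (MX := MX) x).baseChange K v = χ x • v)
    (z : K) (hz : z ≠ 1) (hδ : δ.baseChange K v = z • v) (i : Fin 2) :
    χ (u i) ≠ 1 := by
  intro hi
  have h01 : χ (u 0) * χ (u 1) = 1 := by rw [← map_mul, hu01, map_one]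
  have hboth : χ (u 0) = 1 ∧ χ (u 1) = 1 := by
    fin_cases i
    · have h0 : χ (u 0) = 1 := hi
      refine ⟨h0, ?_⟩
      rw [h0, one_mul] at h01
      exact h01
    · have h1 : χ (u 1) = 1 := hi
      refine ⟨?_, h1⟩
      rw [h1, mul_one] at h01
      exact h01
  refine twlg_as_new_charpoly hp𝒪 hpS hNS td hgen ℓ hℓ hℓp hnew hres K hK χ v hv0 hv z hz hδ ?_
  rw [twlg_as_diag_charpoly b _ u hSg]
  simp only [Polynomial.map_add, Polynomial.map_sub, Polynomial.map_mul, Polynomial.map_pow,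
    Polynomial.map_X, Polynomial.map_C, RingHom.coe_coe, map_add, map_mul, hboth.1, hboth.2]
  simp only [map_one]
  ring

end new

end

end Fermat.Agent.TW
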