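/-
Project ONE MACHINE (S43), block [A] LG, cell A3-UNIP (helper13).

The exact form (S1) of helper29's table #4588: at a prime `t ‖ N`, `t ≠ p`, the Hecke Galois
representation `ρ` over an `𝒪`-flat Hecke ring `T` is unipotent on inertia (S34 on main).  If
moreover `ρ(σ)` (`σ` in inertia) and `ρ(φ)` are simultaneously diagonal in a basis (the Hensel
splitting `ρ|G_t = χ_α ⊕ χ_β` of a Taylor–Wiles prime) and `ρ(φ) ρ(σ) = ρ(σ)^t ρ(φ)` (tame relation),
then `ρ(σ) = 1`: write `u` for an eigenvalue; `(u - 1)² = 0` from the characteristic polynomial,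
`u^(t-1) = 1` from the tame relation, hence `(t - 1)(u - 1) = 0`, and `T` is `𝒪`-torsion-free.

* `twlg_un_pow_eq`            : `(1 + e)^n = 1 + n e` when `e² = 0`;
* `twlg_un_eq_one`            : the ring core;
* `twlg_un_diag`              : the `2 × 2` diagonal core over a commutative ring;
* `twlg_un_natCast_mul_cancel`: `n ≠ 0` is a non-zero-divisor on a free module over a char-0 domain;
* `twlg_un_end_eq_one`        : endomorphism form, over any commutative ring `T`;
* `twlg_un_trace`             : hard prime form: `tr ρ(σ) = 2`, `det ρ(σ) = 1` (S34 verbatim);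
* `twlg_un_main`              : the statement for a `HeckeGaloisRepDatum`.
-/
import Mathlib
import Fermat.Agent.S34

set_option autoImplicit false

open IsLocalRing Polynomial

namespace Fermat.Agent.TW

/-- `(1 + e)^n = 1 + n e` when `e² = 0`. -/
theorem twlg_un_pow_eq {A : Type*} [CommRing A] (e : A) (he : e ^ 2 = 0) (n : ℕ) :
    (1 + e) ^ n = 1 + (n : A) * e := by
  induction n with
  | zero => simp
  | succ k ih =>
    rw [pow_succ, ih]
    push_cast
    have : e * e = 0 := by rw [← pow_two]; exact he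
    linear_combination (k : A) * this

/-- **Ring core.** If `(u - 1)² = 0`, `u^n = 1` and `n` is a non-zero-divisor, then `u = 1`. -/
theorem twlg_un_eq_one {A : Type*} [CommRing A] (n : ℕ)
    (hn : ∀ a : A, (n : A) * a = 0 → a = 0) (u : A) (h1 : (u - 1) ^ 2 = 0) (h2 : u ^ n = 1) :
    u = 1 := by
  have h := twlg_un_pow_eq (u - 1) h1 n
  rw [show (1 : A) + (u - 1) = u by ring, h2] at h
  have h0 : (n : A) * (u - 1) = 0 := by linear_combination -h
  have := hn _ h0
  linear_combination this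

/-- **Diagonal core.** `u₀ + u₁ = 2`, `u₀ u₁ = 1` (characteristic polynomial `(X - 1)²`) and
`aᵢ uᵢ = uᵢ^t aᵢ` with `aᵢ` units (tame relation on each eigenline) force `u₀ = u₁ = 1`. -/
theorem twlg_un_diag {A : Type*} [CommRing A] (t : ℕ) (ht : 1 ≤ t)
    (hn : ∀ a : A, ((t - 1 : ℕ) : A) * a = 0 → a = 0) (u a : Fin 2 → A)
    (hsum : u 0 + u 1 = 2) (hprod : u 0 * u 1 = 1)
    (ha : ∀ i, IsUnit (a i)) (hrel : ∀ i, a i * u i = u i ^ t * a i) :
    ∀ i, u i = 1 := by
  have hsq : ∀ i, (u i - 1) ^ 2 = 0 := by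
    intro i
    fin_cases i
    · show (u 0 - 1) ^ 2 = 0
      linear_combination (u 0) * hsum - hprod
    · show (u 1 - 1) ^ 2 = 0
      linear_combination (u 1) * hsum - hprod
  have hunit : ∀ i, IsUnit (u i) := by
    intro i
    fin_cases i
    · exact IsUnit.of_mul_eq_one _ hprod
    · exact IsUnit.of_mul_eq_one _ (by rw [mul_comm]; exact hprod)
  intro i
  refine twlg_un_eq_one (t - 1) hn (u i) (hsq i) ?_
  have h1 : u i = u i ^ t := by
    have := hrel i
    have h' : a i * u i = a i * u i ^ t := by rw [this, mul_comm]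
    exact (ha i).mul_left_cancel h'
  have h2 : u i * u i ^ (t - 1) = u i * 1 := by
    rw [mul_one, ← pow_succ', Nat.sub_add_cancel ht]
    exact h1.symm
  exact (hunit i).mul_left_cancel h2

/-- A nonzero natural number is a non-zero-divisor on a free module over a domain of
characteristic `0`. -/
theorem twlg_un_natCast_mul_cancel {𝒪 T : Type*} [CommRing 𝒪] [IsDomain 𝒪] [CharZero 𝒪]
    [CommRing T] [Algebra 𝒪 T] [Module.Free 𝒪 T] (n : ℕ) (hn : n ≠ 0) (a : T)
    (h : (n : T) * a = 0) : a = 0 := by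
  have h' : (n : 𝒪) • a = 0 := by
    rw [Algebra.smul_def, map_natCast]
    exact h
  have hn' : (n : 𝒪) ≠ 0 := by exact_mod_cast hn
  let b := Module.Free.chooseBasis 𝒪 T
  apply b.repr.injective
  ext i
  have h2 := congrArg (fun v => b.repr v i) h'
  simp only [map_smul, Finsupp.smul_apply, smul_eq_mul, map_zero, Finsupp.zero_apply] at h2
  rw [map_zero, Finsupp.zero_apply]
  exact (mul_eq_zero.mp h2).resolve_left hn'

/-- **Endomorphism form.** `V` a module over a commutative ring `T` with a basis `b` indexed by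
`Fin 2`; `Σ`, `Φ` endomorphisms diagonal in `b` with eigenvalues `u i`, `a i`; `a i` units;
`charpoly Σ = (X - 1)²`; `Φ Σ = Σ^t Φ`; `t - 1` a non-zero-divisor of `T`.  Then `Σ = 1`. -/
theorem twlg_un_end_eq_one {T : Type*} [CommRing T] [Nontrivial T] {V : Type*} [AddCommGroup V]
    [Module T V] [Module.Free T V] [Module.Finite T V] (t : ℕ) (ht : 1 ≤ t)
    (hn : ∀ a : T, ((t - 1 : ℕ) : T) * a = 0 → a = 0)
    (b : Module.Basis (Fin 2) T V) (Sg Ph : Module.End T V) (u a : Fin 2 → T)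
    (hSg : ∀ i, Sg (b i) = u i • b i) (hPh : ∀ i, Ph (b i) = a i • b i)
    (ha : ∀ i, IsUnit (a i))
    (hchar : LinearMap.charpoly Sg = (X - 1 : T[X]) ^ 2)
    (hrel : Ph * Sg = Sg ^ t * Ph) : Sg = 1 := by
  classical
  -- the matrix of `Sg` in `b` is diagonal
  have hmat : LinearMap.toMatrix b b Sg = Matrix.diagonal u := by
    ext i j
    rw [LinearMap.toMatrix_apply, hSg, map_smul, Module.Basis.repr_self, Finsupp.smul_apply,
      Finsupp.single_apply, Matrix.diagonal_apply, smul_eq_mul]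
    by_cases h : i = j
    · subst h; simp
    · rw [if_neg (Ne.symm h), if_neg h, mul_zero]
  have hcp : (Matrix.diagonal u).charpoly = (X - 1 : T[X]) ^ 2 := by
    rw [← hmat, LinearMap.charpoly_toMatrix]; exact hchar
  rw [Matrix.charpoly_diagonal, Fin.prod_univ_two] at hcp
  -- compare coefficients
  have hc1 := congrArg (fun q : T[X] => q.coeff 1) hcp
  have hc0 := congrArg (fun q : T[X] => q.coeff 0) hcp
  have e1 : ((X - C (u 0)) * (X - C (u 1)) : T[X]) =
      X ^ 2 - C (u 0 + u 1) * X + C (u 0 * u 1) := by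
    simp only [map_add, map_mul]; ring
  have e2 : ((X - 1) ^ 2 : T[X]) = X ^ 2 - C (2 : T) * X + C (1 : T) := by
    simp only [map_ofNat, map_one]; ring
  simp only [e1, e2] at hc1 hc0
  simp only [coeff_add, coeff_sub, coeff_X_pow, coeff_C_mul, coeff_X_one,
    coeff_X_zero, coeff_C] at hc1 hc0
  norm_num at hc1 hc0
  -- the tame relation on eigenlines
  have hpow : ∀ (k : ℕ) (i : Fin 2), (Sg ^ k) (b i) = (u i) ^ k • b i := by
    intro k i
    induction k with
    | zero => simp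
    | succ k ih =>
      rw [pow_succ, Module.End.mul_apply, hSg, map_smul, ih, smul_smul, pow_succ, mul_comm]
  have hrel' : ∀ i, a i * u i = u i ^ t * a i := by
    intro i
    have h1 : Ph (Sg (b i)) = (Sg ^ t) (Ph (b i)) := by
      rw [← Module.End.mul_apply, hrel, Module.End.mul_apply]
    rw [hSg, map_smul, hPh, map_smul, hpow, smul_smul, smul_smul] at h1
    have h2 := congrArg (fun v => b.repr v i) h1
    simp only [map_smul, Module.Basis.repr_self, Finsupp.smul_apply, Finsupp.single_eq_same,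
      smul_eq_mul, mul_one] at h2
    rw [mul_comm (u i) (a i), mul_comm (a i) (u i ^ t)] at h2
    exact h2
  have hs : u 0 + u 1 = 2 := by linear_combination -hc1
  have hu := twlg_un_diag t ht hn u a hs hc0 ha hrel'
  refine b.ext fun i => ?_
  rw [hSg, hu i, one_smul, Module.End.one_apply]

end Fermat.Agent.TW

namespace Fermat.Agent.TW

/-- trace and determinant of an endomorphism of a free module of rank 2 with characteristic
polynomial `(X - 1)²`. -/
theorem twlg_un_trace_det_of_charpoly {T : Type*} [CommRing T] [Nontrivial T] {V : Type*}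
    [AddCommGroup V] [Module T V] [Module.Free T V] [Module.Finite T V]
    (hrk : Module.finrank T V = 2) (f : Module.End T V)
    (hchar : LinearMap.charpoly f = (X - 1 : T[X]) ^ 2) :
    LinearMap.trace T V f = 2 ∧ LinearMap.det f = 1 := by
  classical
  let b := Module.finBasisOfFinrankEq T V hrk
  have hcp : (LinearMap.toMatrix b b f).charpoly = (X - 1 : T[X]) ^ 2 := by
    rw [LinearMap.charpoly_toMatrix]; exact hchar
  have e2 : ((X - 1) ^ 2 : T[X]) = X ^ 2 - C (2 : T) * X + C (1 : T) := by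
    simp only [map_ofNat, map_one]; ring
  constructor
  · rw [LinearMap.trace_eq_matrix_trace T b, Matrix.trace_eq_neg_charpoly_coeff, hcp, e2]
    simp only [Fintype.card_fin, coeff_add, coeff_sub, coeff_X_pow, coeff_C_mul, coeff_C]
    norm_num
  · rw [← LinearMap.det_toMatrix b, Matrix.det_eq_sign_charpoly_coeff, hcp, e2]
    simp only [Fintype.card_fin, coeff_add, coeff_sub, coeff_X_pow, coeff_C_mul, coeff_C]
    norm_num

section Datum

open CuspForm

variable {𝒪 : Type} [CommRing 𝒪] [IsDomain 𝒪] [IsDiscreteValuationRing 𝒪]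
  [IsAdicComplete (maximalIdeal 𝒪) 𝒪] [Finite (ResidueField 𝒪)] [CharZero 𝒪]
  {p : ℕ} {N : ℕ} [NeZero N] {S : Finset ℕ}
  {θ : CuspForm.heckeAlgebra N 2 (↑S : Set ℕ) →+* ResidueField 𝒪}
  {T : Type} [CommRing T] [IsLocalRing T] [IsNoetherianRing T]
  [IsAdicComplete (maximalIdeal T) T] [Algebra 𝒪 T] [IsLocalHom (algebraMap 𝒪 T)]
  [Module.Finite 𝒪 T] [Module.Free 𝒪 T]

/-- **A3-UNIP, hard-prime form** (S34 verbatim): at `q ‖ N`, `q ≠ p`, every inertia element has
trace `2` and determinant `1` on the Hecke Galois representation. -/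
theorem twlg_un_trace (hp : p.Prime) (hp𝒪 : (p : 𝒪) ∈ maximalIdeal 𝒪) (hpS : p ∈ S)
    (hNS : ∀ q : ℕ, q.Prime → q ∣ N → q ∈ S)
    (H : CuspForm.HeckeGaloisRepDatum N (↑S : Set ℕ) 𝒪 θ T)
    (q : ℕ) (hq : q.Prime) (hqp : q ≠ p) (hqN : q ∣ N) (hq2 : ¬ q ^ 2 ∣ N)
    (P : ValuationSubring (AlgebraicClosure ℚ)) (hP : P.LiesOverPrime q)
    (σ : AlgebraicClosure ℚ ≃ₐ[ℚ] AlgebraicClosure ℚ) (hσ : σ ∈ P.inertiaSubgroupIn ℚ) :
    H.ρ.trace σ = 2 ∧ LinearMap.det (H.ρ.ρ σ) = 1 :=
  twlg_un_trace_det_of_charpoly H.ρ.finrank_eq _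
    (Fermat.Agent.S34.result hp hp𝒪 hpS hNS H q hq hqp hqN hq2 P hP σ hσ)

/-- **A3-UNIP, Taylor–Wiles form (S1).**  At `t ‖ N`, `t ≠ p`: if `ρ(σ)` (`σ` in the inertia group
of `P` over `t`) and `ρ(φ)` are diagonal in one basis `b` of `ρ.V`, with `ρ(φ) ρ(σ) = ρ(σ)^t ρ(φ)`,
then `ρ(σ) = 1`.  (`T` is `𝒪`-free and `𝒪` has characteristic `0`, so `t - 1` is a non-zero-divisor;
the eigenvalues `a i` of `ρ(φ)` are units because `ρ(φ)` is invertible.) -/
theorem twlg_un_main (hp : p.Prime) (hp𝒪 : (p : 𝒪) ∈ maximalIdeal 𝒪) (hpS : p ∈ S)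
    (hNS : ∀ q : ℕ, q.Prime → q ∣ N → q ∈ S)
    (H : CuspForm.HeckeGaloisRepDatum N (↑S : Set ℕ) 𝒪 θ T)
    (t : ℕ) (ht : t.Prime) (htp : t ≠ p) (htN : t ∣ N) (ht2 : ¬ t ^ 2 ∣ N)
    (P : ValuationSubring (AlgebraicClosure ℚ)) (hP : P.LiesOverPrime t)
    (σ φ : AlgebraicClosure ℚ ≃ₐ[ℚ] AlgebraicClosure ℚ) (hσ : σ ∈ P.inertiaSubgroupIn ℚ)
    (hrel : H.ρ.ρ φ * H.ρ.ρ σ = H.ρ.ρ σ ^ t * H.ρ.ρ φ)
    (b : Module.Basis (Fin 2) T H.ρ.V) (u a : Fin 2 → T)
    (hSg : ∀ i, H.ρ.ρ σ (b i) = u i • b i) (hPh : ∀ i, H.ρ.ρ φ (b i) = a i • b i) :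
    H.ρ.ρ σ = 1 := by
  have hchar := Fermat.Agent.S34.result hp hp𝒪 hpS hNS H t ht htp htN ht2 P hP σ hσ
  -- the `a i` are units
  have ha : ∀ i, IsUnit (a i) := by
    intro i
    have h1 : H.ρ.ρ φ⁻¹ (H.ρ.ρ φ (b i)) = b i := by
      rw [← Module.End.mul_apply, ← map_mul, inv_mul_cancel, map_one, Module.End.one_apply]
    rw [hPh, map_smul] at h1
    have h2 := congrArg (fun v => b.repr v i) h1
    simp only [map_smul, Finsupp.smul_apply, smul_eq_mul, Module.Basis.repr_self,
      Finsupp.single_eq_same] at h2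
    exact IsUnit.of_mul_eq_one _ h2
  have hn : ∀ x : T, ((t - 1 : ℕ) : T) * x = 0 → x = 0 := fun x hx =>
    twlg_un_natCast_mul_cancel (𝒪 := 𝒪) (t - 1) (by have := ht.two_le; omega) x hx
  exact twlg_un_end_eq_one t ht.one_le hn b _ _ u a hSg hPh ha hchar hrel

end Datum

end Fermat.Agent.TW
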