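/-
Project TW (S43), block [A] LG, cell A4 (Assembly), part 3 `AsOld` (helper29).  Prefix `twlg_as_`.

From the (E→A ii) clause OLD-AT-`t` (`twe_OldAt`, `TW/Aut/SeamsLG.lean`) to hypothesis `hH2` of the
matching lemma:

* `twlg_as_isLocalHom`  : an `𝒪`-algebra homomorphism `A → B` of local rings, `A` integral over the
                          local ring `𝒪`, `𝒪 → B` local, is local;
* `twlg_as_old_charpoly`: `charpoly (ρ_X(σ))` pushed to `T_t` is `(X - 1)²` for `σ` in an inertia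
                          group at `t` (S34 at level `Nb / t` + transfer of characteristic polynomials);
* `twlg_as_old_pi`      : on a common eigenbasis of `ρ_X(σ)`, `ρ_X(φ)` with the tame relation:
                          `π_t (u i) = 1`;
* `twlg_as_old_hH2`     : `(u i - 1) • m = δ m' - m'`.
-/
import Mathlib
import Fermat.Agent.TW.Aut.SeamsLG
import Fermat.Agent.TW.LG.Transfer
import Fermat.Agent.TW.LG.Unip
import Fermat.Agent.TW.LG.AsRel
import Fermat.Agent.S34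

set_option autoImplicit false
set_option linter.unusedSectionVars false
set_option linter.style.haveILetI false

open Polynomial CuspForm IsLocalRing Fermat.Agent.JT3
open scoped TensorProduct

namespace Fermat.Agent.TW

noncomputable section

local notation "GQ" => (AlgebraicClosure ℚ ≃ₐ[ℚ] AlgebraicClosure ℚ)
local notation "Qbar" => AlgebraicClosure ℚ

/-- an `𝒪`-algebra homomorphism `A → B` of local rings with `A` integral over the local ring `𝒪`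
and `𝒪 → B` local is a local homomorphism. -/
theorem twlg_as_isLocalHom {𝒪 A B : Type*} [CommRing 𝒪] [IsLocalRing 𝒪] [CommRing A]
    [IsLocalRing A] [CommRing B] [IsLocalRing B] [Algebra 𝒪 A] [Algebra 𝒪 B]
    [Algebra.IsIntegral 𝒪 A] [IsLocalHom (algebraMap 𝒪 B)] (f : A →ₐ[𝒪] B) :
    IsLocalHom (f : A →+* B) := by
  -- the prime `𝔮 = f⁻¹(𝔪_B)` lies over `𝔪_𝒪`, hence is maximal, hence is `𝔪_A`
  set 𝔮 : Ideal A := (maximalIdeal B).comap (f : A →+* B) with h𝔮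
  haveI : 𝔮.IsPrime := Ideal.comap_isPrime _ _
  have hcomap : 𝔮.comap (algebraMap 𝒪 A) = maximalIdeal 𝒪 := by
    ext c
    rw [Ideal.mem_comap, h𝔮, Ideal.mem_comap]
    have : (f : A →+* B) (algebraMap 𝒪 A c) = algebraMap 𝒪 B c := f.commutes c
    rw [this]
    constructor
    · intro h
      rw [mem_maximalIdeal, mem_nonunits_iff] at h ⊢
      exact fun hu => h (hu.map _)
    · intro h
      exact map_nonunit (algebraMap 𝒪 B) c h
  have hmax : 𝔮.IsMaximal := by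
    apply Ideal.isMaximal_of_isIntegral_of_isMaximal_comap (R := 𝒪) 𝔮
    rw [hcomap]
    infer_instance
  have h𝔮eq : 𝔮 = maximalIdeal A := IsLocalRing.eq_maximalIdeal hmax
  constructor
  intro x hx
  by_contra hnu
  have h1 : x ∈ maximalIdeal A := hnu
  rw [← h𝔮eq, h𝔮, Ideal.mem_comap] at h1
  exact h1 hx

attribute [local instance] twe_OldAt.instCommRing twe_OldAt.instIsLocalRing
  twe_OldAt.instIsNoetherianRing twe_OldAt.instIsAdicComplete twe_OldAt.instAlgebra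
  twe_OldAt.instIsLocalHom twe_OldAt.instFinite twe_OldAt.instFree

section old

variable {𝒪 : Type} [CommRing 𝒪] [IsDomain 𝒪] [IsDiscreteValuationRing 𝒪]
  [IsAdicComplete (maximalIdeal 𝒪) 𝒪] [Finite (ResidueField 𝒪)] [CharZero 𝒪]
  {Nb : ℕ} [NeZero Nb] {S' : Finset ℕ}
  {θX : heckeAlgebra Nb 2 (↑S' : Set ℕ) →+* ResidueField 𝒪}
  {TX : Type} [CommRing TX] [IsLocalRing TX] [IsNoetherianRing TX]
  [IsAdicComplete (maximalIdeal TX) TX] [Algebra 𝒪 TX] [IsLocalHom (algebraMap 𝒪 TX)]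
  [Module.Finite 𝒪 TX] [Module.Free 𝒪 TX]
  {HX : HeckeGaloisRepDatum Nb (↑S' : Set ℕ) 𝒪 θX TX}
  {MX : Type} [AddCommGroup MX] [Module 𝒪 MX] [Module TX MX]
  {δ : MX →ₗ[𝒪] MX} {t : ℕ} [NeZero (Nb / t)]

/-- `π_t` is a local homomorphism. -/
theorem twlg_as_old_isLocalHom (Od : twe_OldAt HX δ t) : IsLocalHom (Od.πt : TX →+* Od.Tt) :=
  twlg_as_isLocalHom Od.πt

/-- **the characteristic polynomial of `ρ_X(σ)`, pushed to level `Nb / t`, is `(X - 1)²`** for `σ`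
in an inertia group at `t`. -/
theorem twlg_as_old_charpoly (Od : twe_OldAt HX δ t) {p : ℕ} (hp : p.Prime)
    (hp𝒪 : (p : 𝒪) ∈ maximalIdeal 𝒪) (hpS : p ∈ S')
    (hNS : ∀ q : ℕ, q.Prime → q ∣ Nb → q ∈ S') (htNb : t ∣ Nb)
    (ht : t.Prime) (htp : t ≠ p) (htN : t ∣ Nb / t) (ht2 : ¬ t ^ 2 ∣ Nb / t)
    (P : ValuationSubring Qbar) (hP : P.LiesOverPrime t) (σ : GQ)
    (hσ : σ ∈ P.inertiaSubgroupIn ℚ) :
    (LinearMap.charpoly (HX.ρ.ρ σ)).map (Od.πt : TX →+* Od.Tt) = (X - 1) ^ 2 := by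
  have hloc := twlg_as_old_isLocalHom Od
  have hdvd : Nb / t ∣ Nb := Nat.div_dvd_of_dvd htNb
  have hNS' : ∀ q : ℕ, q.Prime → q ∣ Nb / t → q ∈ S' := fun q hq hqd =>
    hNS q hq (dvd_trans hqd hdvd)
  -- the pushed-forward representation
  set ρ1 : GaloisRepAdic Od.Tt := HX.ρ.baseChangeAlong (Od.πt : TX →+* Od.Tt) hloc with hρ1
  letI : Algebra TX Od.Tt := (Od.πt : TX →+* Od.Tt).toAlgebra
  have hcp : ∀ g : GQ, LinearMap.charpoly (ρ1.ρ g) =
      (LinearMap.charpoly (HX.ρ.ρ g)).map (Od.πt : TX →+* Od.Tt) := by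
    intro g
    change LinearMap.charpoly ((HX.ρ.ρ g).baseChange Od.Tt) = _
    rw [LinearMap.charpoly_baseChange]
    rfl
  have hfrob : ∀ ℓ : ℕ, ℓ.Prime → ℓ ∉ S' → ∀ A : ValuationSubring Qbar, A.LiesOverPrime ℓ →
      ∀ φ : GQ, A.IsFrobeniusAt φ ℓ →
        LinearMap.charpoly (ρ1.ρ φ) = LinearMap.charpoly (Od.Ht.ρ.ρ φ) := by
    intro ℓ hℓ hℓS A hA φ hφ
    have h1 : ¬ ℓ ∣ Nb := fun h => hℓS (hNS ℓ hℓ h)
    have h3 : ¬ ℓ ∣ Nb / t := fun h => hℓS (hNS' ℓ hℓ h)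
    have h2 : ℓ ∉ (↑S' : Set ℕ) := by simpa using hℓS
    rw [hcp, HX.charpoly_frob ℓ hℓ h1 h2 A hA φ hφ, Od.Ht.charpoly_frob ℓ hℓ h3 h2 A hA φ hφ,
      ← Od.πt_T ℓ hℓ h1 h2 h3]
    simp only [Polynomial.map_add, Polynomial.map_sub, Polynomial.map_mul, Polynomial.map_pow,
      Polynomial.map_X, Polynomial.map_C, map_natCast, Polynomial.map_natCast]
    rfl
  rw [← hcp, twlg_tr_charpoly_eq ρ1 Od.Ht.ρ S' hfrob σ]
  exact Fermat.Agent.S34.result hp hp𝒪 hpS hNS' Od.Ht t ht htp htN ht2 P hP σ hσ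

/-- **OLD-AT-`t` ⟹ the Galois eigenvalues are `1` at level `Nb / t`.**  On a common eigenbasis `b`
of `ρ_X(σ)` (eigenvalues `u i`) and `ρ_X(φ)` (eigenvalues `a i`) with the tame relation
`ρ_X(φ) ρ_X(σ) = ρ_X(σ)^t ρ_X(φ)`, `σ` in an inertia group at `t`: `π_t (u i) = 1`. -/
theorem twlg_as_old_pi (Od : twe_OldAt HX δ t) {p : ℕ} (hp : p.Prime)
    (hp𝒪 : (p : 𝒪) ∈ maximalIdeal 𝒪) (hpS : p ∈ S')
    (hNS : ∀ q : ℕ, q.Prime → q ∣ Nb → q ∈ S') (htNb : t ∣ Nb)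
    (ht : t.Prime) (htp : t ≠ p) (htN : t ∣ Nb / t) (ht2 : ¬ t ^ 2 ∣ Nb / t)
    (P : ValuationSubring Qbar) (hP : P.LiesOverPrime t) (σ φ : GQ)
    (hσ : σ ∈ P.inertiaSubgroupIn ℚ)
    (hrel : HX.ρ.ρ φ * HX.ρ.ρ σ = HX.ρ.ρ σ ^ t * HX.ρ.ρ φ)
    (b : Module.Basis (Fin 2) TX HX.ρ.V) (u a : Fin 2 → TX)
    (hSg : ∀ i, HX.ρ.ρ σ (b i) = u i • b i) (hPh : ∀ i, HX.ρ.ρ φ (b i) = a i • b i) (i : Fin 2) :
    Od.πt (u i) = 1 := by
  have hchar := twlg_as_old_charpoly Od hp hp𝒪 hpS hNS htNb ht htp htN ht2 P hP σ hσ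
  rw [twlg_as_diag_charpoly b _ u hSg] at hchar
  -- compare coefficients
  have e2 : ((X - 1) ^ 2 : Od.Tt[X]) = X ^ 2 - C (2 : Od.Tt) * X + C (1 : Od.Tt) := by
    simp only [map_ofNat, map_one]; ring
  rw [e2] at hchar
  simp only [Polynomial.map_add, Polynomial.map_sub, Polynomial.map_mul, Polynomial.map_pow,
    Polynomial.map_X, Polynomial.map_C] at hchar
  have hc1 := congrArg (fun q : Od.Tt[X] => q.coeff 1) hchar
  have hc0 := congrArg (fun q : Od.Tt[X] => q.coeff 0) hchar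
  simp only [coeff_add, coeff_sub, coeff_X_pow, coeff_C_mul, coeff_X_one,
    coeff_X_zero, coeff_C] at hc1 hc0
  norm_num at hc1 hc0
  have hsum : Od.πt (u 0) + Od.πt (u 1) = 2 := by linear_combination -hc1
  have hprod : Od.πt (u 0) * Od.πt (u 1) = 1 := hc0
  -- units and the tame relation on eigenlines
  have ha : ∀ j, IsUnit (a j) := fun j =>
    twlg_as_diag_unit b (HX.ρ.ρ φ) (HX.ρ.ρ φ⁻¹)
      (by rw [← map_mul, inv_mul_cancel, map_one]) a hPh j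
  have hrel' : ∀ j, a j * u j = u j ^ t * a j := fun j =>
    twlg_as_diag_rel t b _ _ u a hSg hPh hrel j
  have hn : ∀ x : Od.Tt, ((t - 1 : ℕ) : Od.Tt) * x = 0 → x = 0 := fun x hx =>
    twlg_un_natCast_mul_cancel (𝒪 := 𝒪) (t - 1) (by have := ht.two_le; omega) x hx
  exact twlg_un_diag t ht.one_le hn (fun j => Od.πt (u j)) (fun j => Od.πt (a j)) hsum hprod
    (fun j => (ha j).map Od.πt)
    (fun j => by
      have := congrArg Od.πt (hrel' j)
      simpa only [map_mul, map_pow] using this) i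

/-- **`hH2`**: `(u i - 1) M ⊆ (δ - 1) M`. -/
theorem twlg_as_old_hH2 (Od : twe_OldAt HX δ t) {p : ℕ} (hp : p.Prime)
    (hp𝒪 : (p : 𝒪) ∈ maximalIdeal 𝒪) (hpS : p ∈ S')
    (hNS : ∀ q : ℕ, q.Prime → q ∣ Nb → q ∈ S') (htNb : t ∣ Nb)
    (ht : t.Prime) (htp : t ≠ p) (htN : t ∣ Nb / t) (ht2 : ¬ t ^ 2 ∣ Nb / t)
    (P : ValuationSubring Qbar) (hP : P.LiesOverPrime t) (σ φ : GQ)
    (hσ : σ ∈ P.inertiaSubgroupIn ℚ)
    (hrel : HX.ρ.ρ φ * HX.ρ.ρ σ = HX.ρ.ρ σ ^ t * HX.ρ.ρ φ)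
    (b : Module.Basis (Fin 2) TX HX.ρ.V) (u a : Fin 2 → TX)
    (hSg : ∀ i, HX.ρ.ρ σ (b i) = u i • b i) (hPh : ∀ i, HX.ρ.ρ φ (b i) = a i • b i) (i : Fin 2)
    (m : MX) : ∃ m' : MX, (u i - 1) • m = δ m' - m' := by
  refine Od.kills (u i - 1) ?_ m
  rw [map_sub, map_one,
    twlg_as_old_pi Od hp hp𝒪 hpS hNS htNb ht htp htN ht2 P hP σ φ hσ hrel b u a hSg hPh i, sub_self]

end old

end

end Fermat.Agent.TW
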