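/-
Project ONE MACHINE (S43), block [A] LG, cell A5-DIAG (helper26): THE DEFINITION OF `u_t`.

At a Taylor–Wiles prime `t` (`t ≡ 1` in the residue field, `ρ̄(Frob_t)` with distinct eigenvalues
`al ≠ be`) the local representation `ρ|G_t` over a complete (Henselian) local ring `T` splits as
`χ_α ⊕ χ_β`: in the Hensel eigenbasis of `ρ(φ)` the tame generator `ρ(σ)` is diagonal as well.

* `twlg_dg_pow_entries` : entries of `Sg ^ k` modulo `m · I` (`I ∋` the off-diagonal entries);
* `twlg_dg_offdiag`     : (D1) matrix core over ANY local ring (Nakayama, no noetherian hypothesis):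
                          `diagonal a * Sg = Sg ^ t * diagonal a`, `a 0 - a 1` a unit, `Sg ≡ 1`,
                          `t ≡ 1` modulo the maximal ideal  ⟹  `Sg 0 1 = 0 ∧ Sg 1 0 = 0`;
* `twlg_dg_offdiag_end` : the same for two endomorphisms and a basis;
* `twlg_dg_eigenbasis`  : (D2) Hensel eigenbasis of an endomorphism of a free rank-2 module whose
                          characteristic polynomial is residually `(X - al)(X - be)`, `al ≠ be`;
* `twlg_dg_main`        : (D3) the `GaloisRepAdic` form: basis `b`, `a`, `u` with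
                          `ρ φ (b i) = a i • b i` and `ρ σ (b i) = u i • b i`.
-/
import Mathlib
import Fermat.Prelude.Def_GaloisRep_Adic

set_option autoImplicit false

open IsLocalRing Polynomial

namespace Fermat.Agent.TW

/-- Entries of `Sg ^ k` when `Sg ≡ 1` modulo `m` and the off-diagonal entries lie in `I ≤ m`:
the diagonal stays `≡ 1` modulo `m`, the off-diagonal entries are `k` times those of `Sg`
modulo `m * I`. -/
theorem twlg_dg_pow_entries {T : Type*} [CommRing T] (m I : Ideal T) (hI : I ≤ m)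
    (Sg : Matrix (Fin 2) (Fin 2) T)
    (h00 : Sg 0 0 - 1 ∈ m) (h11 : Sg 1 1 - 1 ∈ m) (h01 : Sg 0 1 ∈ I) (h10 : Sg 1 0 ∈ I) (k : ℕ) :
    (Sg ^ k) 0 0 - 1 ∈ m ∧ (Sg ^ k) 1 1 - 1 ∈ m ∧
      (Sg ^ k) 0 1 - (k : T) * Sg 0 1 ∈ m * I ∧ (Sg ^ k) 1 0 - (k : T) * Sg 1 0 ∈ m * I := by
  induction k with
  | zero => simp
  | succ k ih =>
    obtain ⟨i00, i11, i01, i10⟩ := ih
    have e00 : (Sg ^ (k + 1)) 0 0 = (Sg ^ k) 0 0 * Sg 0 0 + (Sg ^ k) 0 1 * Sg 1 0 := by
      rw [pow_succ, Matrix.mul_apply, Fin.sum_univ_two]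
    have e01 : (Sg ^ (k + 1)) 0 1 = (Sg ^ k) 0 0 * Sg 0 1 + (Sg ^ k) 0 1 * Sg 1 1 := by
      rw [pow_succ, Matrix.mul_apply, Fin.sum_univ_two]
    have e10 : (Sg ^ (k + 1)) 1 0 = (Sg ^ k) 1 0 * Sg 0 0 + (Sg ^ k) 1 1 * Sg 1 0 := by
      rw [pow_succ, Matrix.mul_apply, Fin.sum_univ_two]
    have e11 : (Sg ^ (k + 1)) 1 1 = (Sg ^ k) 1 0 * Sg 0 1 + (Sg ^ k) 1 1 * Sg 1 1 := by
      rw [pow_succ, Matrix.mul_apply, Fin.sum_univ_two]
    refine ⟨?_, ?_, ?_, ?_⟩
    · have : (Sg ^ (k + 1)) 0 0 - 1
          = ((Sg ^ k) 0 0 - 1) * Sg 0 0 + (Sg 0 0 - 1) + (Sg ^ k) 0 1 * Sg 1 0 := by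
        rw [e00]; ring
      rw [this]
      exact m.add_mem (m.add_mem (m.mul_mem_right _ i00) h00) (m.mul_mem_left _ (hI h10))
    · have : (Sg ^ (k + 1)) 1 1 - 1
          = (Sg ^ k) 1 0 * Sg 0 1 + ((Sg ^ k) 1 1 - 1) * Sg 1 1 + (Sg 1 1 - 1) := by
        rw [e11]; ring
      rw [this]
      exact m.add_mem (m.add_mem (m.mul_mem_left _ (hI h01)) (m.mul_mem_right _ i11)) h11
    · have : (Sg ^ (k + 1)) 0 1 - ((k + 1 : ℕ) : T) * Sg 0 1
          = ((Sg ^ k) 0 0 - 1) * Sg 0 1 + ((Sg ^ k) 0 1 - (k : T) * Sg 0 1) * Sg 1 1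
            + (k : T) * ((Sg 1 1 - 1) * Sg 0 1) := by
        rw [e01]; push_cast; ring
      rw [this]
      exact (m * I).add_mem ((m * I).add_mem (Ideal.mul_mem_mul i00 h01)
        ((m * I).mul_mem_right _ i01)) ((m * I).mul_mem_left _ (Ideal.mul_mem_mul h11 h01))
    · have : (Sg ^ (k + 1)) 1 0 - ((k + 1 : ℕ) : T) * Sg 1 0
          = ((Sg ^ k) 1 0 - (k : T) * Sg 1 0) * Sg 0 0 + (k : T) * ((Sg 0 0 - 1) * Sg 1 0)
            + ((Sg ^ k) 1 1 - 1) * Sg 1 0 := by
        rw [e10]; push_cast; ring
      rw [this]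
      exact (m * I).add_mem ((m * I).add_mem ((m * I).mul_mem_right _ i10)
        ((m * I).mul_mem_left _ (Ideal.mul_mem_mul h00 h10))) (Ideal.mul_mem_mul i11 h10)

/-- **(D1) matrix core.**  Over a local ring: if `Ph = diagonal a` with `a 0 - a 1` a unit,
`Sg ≡ 1` and `t ≡ 1` modulo the maximal ideal, and `Ph * Sg = Sg ^ t * Ph`, then `Sg` is diagonal.
(The ideal `I` spanned by the two off-diagonal entries satisfies `I ≤ m • I`; Nakayama.) -/
theorem twlg_dg_offdiag {T : Type*} [CommRing T] [IsLocalRing T]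
    (Sg : Matrix (Fin 2) (Fin 2) T) (a : Fin 2 → T) (t : ℕ)
    (ha : IsUnit (a 0 - a 1))
    (hSg : ∀ i j, (Sg - 1) i j ∈ maximalIdeal T)
    (ht : (t : T) - 1 ∈ maximalIdeal T)
    (hrel : Matrix.diagonal a * Sg = Sg ^ t * Matrix.diagonal a) :
    Sg 0 1 = 0 ∧ Sg 1 0 = 0 := by
  set m := maximalIdeal T with hm
  set I : Ideal T := Ideal.span {Sg 0 1, Sg 1 0} with hIdef
  have h01 : Sg 0 1 ∈ I := Ideal.subset_span (by simp)
  have h10 : Sg 1 0 ∈ I := Ideal.subset_span (by simp)
  have h00m : Sg 0 0 - 1 ∈ m := by simpa using hSg 0 0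
  have h11m : Sg 1 1 - 1 ∈ m := by simpa using hSg 1 1
  have h01m : Sg 0 1 ∈ m := by simpa using hSg 0 1
  have h10m : Sg 1 0 ∈ m := by simpa using hSg 1 0
  have hI : I ≤ m := by
    rw [hIdef, Ideal.span_le]
    intro x hx
    rcases hx with rfl | rfl
    · exact h01m
    · exact h10m
  obtain ⟨-, -, p01, p10⟩ := twlg_dg_pow_entries m I hI Sg h00m h11m h01 h10 t
  -- the two off-diagonal entries of the relation
  have r01 : a 0 * Sg 0 1 = (Sg ^ t) 0 1 * a 1 := by
    have := congrFun (congrFun hrel 0) 1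
    rwa [Matrix.diagonal_mul, Matrix.mul_diagonal] at this
  have r10 : a 1 * Sg 1 0 = (Sg ^ t) 1 0 * a 0 := by
    have := congrFun (congrFun hrel 1) 0
    rwa [Matrix.diagonal_mul, Matrix.mul_diagonal] at this
  have q01 : (a 0 - a 1) * Sg 0 1 ∈ m * I := by
    have : (a 0 - a 1) * Sg 0 1
        = ((Sg ^ t) 0 1 - (t : T) * Sg 0 1) * a 1 + a 1 * (((t : T) - 1) * Sg 0 1) := by
      linear_combination r01
    rw [this]
    exact (m * I).add_mem ((m * I).mul_mem_right _ p01)
      ((m * I).mul_mem_left _ (Ideal.mul_mem_mul ht h01))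
  have q10 : (a 0 - a 1) * Sg 1 0 ∈ m * I := by
    have : (a 0 - a 1) * Sg 1 0
        = -(((Sg ^ t) 1 0 - (t : T) * Sg 1 0) * a 0 + a 0 * (((t : T) - 1) * Sg 1 0)) := by
      linear_combination -r10
    rw [this]
    exact (m * I).neg_mem ((m * I).add_mem ((m * I).mul_mem_right _ p10)
      ((m * I).mul_mem_left _ (Ideal.mul_mem_mul ht h10)))
  obtain ⟨c, hc⟩ := ha.exists_left_inv
  have s01 : Sg 0 1 ∈ m * I := by
    have : Sg 0 1 = c * ((a 0 - a 1) * Sg 0 1) := by rw [← mul_assoc, hc, one_mul]
    rw [this]; exact (m * I).mul_mem_left _ q01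
  have s10 : Sg 1 0 ∈ m * I := by
    have : Sg 1 0 = c * ((a 0 - a 1) * Sg 1 0) := by rw [← mul_assoc, hc, one_mul]
    rw [this]; exact (m * I).mul_mem_left _ q10
  have hle : I ≤ m • I := by
    rw [smul_eq_mul, hIdef, Ideal.span_le]
    intro x hx
    rcases hx with rfl | rfl
    · exact s01
    · exact s10
  have hbot : I = ⊥ :=
    Submodule.eq_bot_of_le_smul_of_le_jacobson_bot m I
      (Submodule.fg_span (Set.toFinite _)) hle (IsLocalRing.maximalIdeal_le_jacobson _)
  rw [hbot, Ideal.mem_bot] at h01 h10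
  exact ⟨h01, h10⟩

/-- A linear functional maps `I • ⊤` into `I`. -/
theorem twlg_dg_functional_mem {T : Type*} [CommRing T] {V : Type*} [AddCommGroup V] [Module T V]
    (I : Ideal T) (l : V →ₗ[T] T) {x : V} (hx : x ∈ I • (⊤ : Submodule T V)) : l x ∈ I := by
  refine Submodule.smul_induction_on hx ?_ ?_
  · intro r hr v _
    rw [map_smul, smul_eq_mul]; exact I.mul_mem_right _ hr
  · intro x y hx hy
    rw [map_add]; exact I.add_mem hx hy

/-- **(D1), endomorphism form.**  `f` diagonal in the basis `b` with eigenvalues `a 0`, `a 1`,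
`a 0 - a 1` a unit; `g ≡ 1` and `t ≡ 1` modulo the maximal ideal; `f * g = g ^ t * f`.  Then `g` is
diagonal in `b` too, with eigenvalues `≡ 1`. -/
theorem twlg_dg_offdiag_end {T : Type*} [CommRing T] [IsLocalRing T]
    {V : Type*} [AddCommGroup V] [Module T V] (b : Module.Basis (Fin 2) T V)
    (f g : Module.End T V) (a : Fin 2 → T) (t : ℕ)
    (hf : ∀ i, f (b i) = a i • b i) (ha : IsUnit (a 0 - a 1))
    (hg : ∀ v, g v - v ∈ maximalIdeal T • (⊤ : Submodule T V))
    (ht : (t : T) - 1 ∈ maximalIdeal T)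
    (hrel : f * g = g ^ t * f) :
    ∃ u : Fin 2 → T, (∀ i, g (b i) = u i • b i) ∧ ∀ i, u i - 1 ∈ maximalIdeal T := by
  classical
  set Sg : Matrix (Fin 2) (Fin 2) T := LinearMap.toMatrix b b g with hSgdef
  have hPh : LinearMap.toMatrix b b f = Matrix.diagonal a := by
    ext i j
    rw [LinearMap.toMatrix_apply, hf, map_smul, Finsupp.smul_apply, Module.Basis.repr_self,
      Finsupp.single_apply, Matrix.diagonal_apply, smul_eq_mul]
    by_cases h : i = j
    · subst h; simp
    · rw [if_neg (Ne.symm h), if_neg h, mul_zero]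
  have hSg1 : ∀ i j, (Sg - 1) i j ∈ maximalIdeal T := by
    intro i j
    have h1 : (Sg - 1) i j = b.coord i (g (b j) - b j) := by
      rw [Matrix.sub_apply, hSgdef, LinearMap.toMatrix_apply, map_sub, Module.Basis.coord_apply,
        Module.Basis.coord_apply, Module.Basis.repr_self, Finsupp.single_apply,
        Matrix.one_apply]
      by_cases h : i = j
      · subst h; simp
      · rw [if_neg (Ne.symm h), if_neg h]
    rw [h1]
    exact twlg_dg_functional_mem _ _ (hg (b j))
  have hrelM : Matrix.diagonal a * Sg = Sg ^ t * Matrix.diagonal a := by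
    rw [← hPh, hSgdef, ← LinearMap.toMatrix_mul, LinearMap.toMatrix_pow, ← LinearMap.toMatrix_mul]
    exact congrArg _ hrel
  obtain ⟨h01, h10⟩ := twlg_dg_offdiag Sg a t ha hSg1 ht hrelM
  have hsum : ∀ j, g (b j) = Sg 0 j • b 0 + Sg 1 j • b 1 := by
    intro j
    have := b.sum_repr (g (b j))
    rw [Fin.sum_univ_two] at this
    rw [← this, hSgdef, LinearMap.toMatrix_apply, LinearMap.toMatrix_apply]
  refine ⟨fun i => Sg i i, ?_, ?_⟩
  · intro i
    fin_cases i
    · show g (b 0) = Sg 0 0 • b 0
      rw [hsum 0, h10, zero_smul, add_zero]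
    · show g (b 1) = Sg 1 1 • b 1
      rw [hsum 1, h01, zero_smul, zero_add]
  · intro i
    have := hSg1 i i
    rwa [Matrix.sub_apply, Matrix.one_apply_eq] at this

/-- In a local ring, a unit plus a non-unit is a unit. -/
theorem twlg_dg_isUnit_add {T : Type*} [CommRing T] [IsLocalRing T] {u r : T} (hu : IsUnit u)
    (hr : r ∈ maximalIdeal T) : IsUnit (u + r) := by
  by_contra h
  have h1 : u + r ∈ maximalIdeal T := (IsLocalRing.mem_maximalIdeal _).2 h
  have h2 : u ∈ maximalIdeal T := by
    have : u = (u + r) - r := by ring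
    rw [this]; exact (maximalIdeal T).sub_mem h1 hr
  exact (IsLocalRing.mem_maximalIdeal _).1 h2 hu

/-- Two eigenvectors (given in coordinates with respect to a basis `e`) whose coordinate determinant
is a unit form a basis. -/
theorem twlg_dg_basis_of_eigvec {T : Type*} [CommRing T] {V : Type*} [AddCommGroup V] [Module T V]
    (e : Module.Basis (Fin 2) T V) (f : Module.End T V) (x y z w : T)
    (hf0 : f (e 0) = x • e 0 + z • e 1) (hf1 : f (e 1) = y • e 0 + w • e 1)
    (a0 a1 c0 c1 d0 d1 : T)
    (hc0 : x * c0 + y * c1 = a0 * c0) (hc1 : z * c0 + w * c1 = a0 * c1)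
    (hd0 : x * d0 + y * d1 = a1 * d0) (hd1 : z * d0 + w * d1 = a1 * d1)
    (hdet : IsUnit (c0 * d1 - d0 * c1)) :
    ∃ b : Module.Basis (Fin 2) T V, f (b 0) = a0 • b 0 ∧ f (b 1) = a1 • b 1 := by
  classical
  set v : Fin 2 → V := ![c0 • e 0 + c1 • e 1, d0 • e 0 + d1 • e 1] with hv
  have hv0 : v 0 = c0 • e 0 + c1 • e 1 := rfl
  have hv1 : v 1 = d0 • e 0 + d1 • e 1 := rfl
  have hdetv : e.det v = c0 * d1 - d0 * c1 := by
    rw [Module.Basis.det_apply, Matrix.det_fin_two]
    simp only [Module.Basis.toMatrix_apply, hv0, hv1, map_add, map_smul, Module.Basis.repr_self,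
      Finsupp.add_apply, Finsupp.smul_apply, Finsupp.single_apply, smul_eq_mul]
    simp
  have hb := (Module.Basis.is_basis_iff_det e (v := v)).2 (by rw [hdetv]; exact hdet)
  refine ⟨Module.Basis.mk hb.1 hb.2.ge, ?_, ?_⟩
  · rw [Module.Basis.mk_apply, hv0, map_add, map_smul, map_smul, hf0, hf1]
    simp only [smul_add, smul_smul]
    have e1 : c0 * x + c1 * y = a0 * c0 := by linear_combination hc0
    have e2 : c0 * z + c1 * w = a0 * c1 := by linear_combination hc1
    rw [← e1, ← e2]
    simp only [add_smul]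
    abel
  · rw [Module.Basis.mk_apply, hv1, map_add, map_smul, map_smul, hf0, hf1]
    simp only [smul_add, smul_smul]
    have e1 : d0 * x + d1 * y = a1 * d0 := by linear_combination hd0
    have e2 : d0 * z + d1 * w = a1 * d1 := by linear_combination hd1
    rw [← e1, ← e2]
    simp only [add_smul]
    abel

/-- **(D2) Hensel eigenbasis.**  `T` a Henselian local ring (e.g. complete), `V` free of rank `2`,
`f : End_T V` whose characteristic polynomial is residually `(X - al)(X - be)` with `al ≠ be`.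
Then `V` has a basis of eigenvectors of `f`, with eigenvalues lifting `al` and `be`. -/
theorem twlg_dg_eigenbasis {T : Type*} [CommRing T] [IsLocalRing T]
    [HenselianRing T (maximalIdeal T)]
    {V : Type*} [AddCommGroup V] [Module T V] [Module.Free T V] [Module.Finite T V]
    (hV : Module.finrank T V = 2) (f : Module.End T V) (al be : ResidueField T) (hab : al ≠ be)
    (hf : (LinearMap.charpoly f).map (residue T) = (X - C al) * (X - C be)) :
    ∃ (b : Module.Basis (Fin 2) T V) (a : Fin 2 → T),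
      (∀ i, f (b i) = a i • b i) ∧ residue T (a 0) = al ∧ residue T (a 1) = be := by
  classical
  have e : Module.Basis (Fin 2) T V := Module.finBasisOfFinrankEq T V hV
  set M := LinearMap.toMatrix e e f with hM
  set x := M 0 0 with hx
  set y := M 0 1 with hy
  set z := M 1 0 with hz
  set w := M 1 1 with hw
  have hfe : ∀ j, f (e j) = M 0 j • e 0 + M 1 j • e 1 := by
    intro j
    have := e.sum_repr (f (e j))
    rw [Fin.sum_univ_two] at this
    rw [← this, hM, LinearMap.toMatrix_apply, LinearMap.toMatrix_apply]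
  have hP : LinearMap.charpoly f = X ^ 2 - C (x + w) * X + C (x * w - y * z) := by
    rw [← LinearMap.charpoly_toMatrix f e, Matrix.charpoly_fin_two, Matrix.trace_fin_two,
      Matrix.det_fin_two]
  -- residues of trace and determinant
  have hf' : X ^ 2 - C (residue T (x + w)) * X + C (residue T (x * w - y * z))
      = (X - C al) * (X - C be) := by
    rw [← hf, hP]
    simp only [Polynomial.map_sub, Polynomial.map_add, Polynomial.map_mul, Polynomial.map_pow,
      Polynomial.map_X, Polynomial.map_C]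
  have hdet : residue T (x * w - y * z) = al * be := by
    have := congrArg (Polynomial.eval 0) hf'
    simpa using this
  have htr : residue T (x + w) = al + be := by
    have := congrArg (Polynomial.eval 1) hf'
    simp only [eval_sub, eval_add, eval_mul, eval_pow, eval_X, eval_C, one_pow, mul_one] at this
    rw [hdet] at this
    linear_combination -this
  -- Hensel
  obtain ⟨a₀, ha₀⟩ := Ideal.Quotient.mk_surjective (I := maximalIdeal T) al
  have ha₀' : residue T a₀ = al := ha₀
  have h₁ : (LinearMap.charpoly f).eval a₀ ∈ maximalIdeal T := by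
    rw [← Ideal.Quotient.eq_zero_iff_mem]
    show residue T _ = 0
    rw [hP]
    simp only [eval_sub, eval_add, eval_mul, eval_pow, eval_X, eval_C, map_sub, map_add, map_mul,
      map_pow]
    rw [ha₀']
    have h1 : residue T x + residue T w = al + be := by rw [← map_add]; exact htr
    have h2 : residue T x * residue T w - residue T y * residue T z = al * be := by
      rw [← map_mul, ← map_mul, ← map_sub]; exact hdet
    linear_combination (-al) * h1 + h2
  have h₂ : IsUnit (Ideal.Quotient.mk (maximalIdeal T)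
      ((LinearMap.charpoly f).derivative.eval a₀)) := by
    show IsUnit (residue T _)
    rw [isUnit_iff_ne_zero, hP]
    simp only [derivative_mul, derivative_X_pow, derivative_X,
      derivative_C, eval_sub, eval_add, eval_mul, eval_X, eval_C, map_sub, map_add,
      map_mul, zero_mul, mul_one, zero_add, add_zero, eval_zero, map_zero,
      Nat.cast_ofNat, pow_one, Nat.add_one_sub_one]
    have h1 : residue T x + residue T w = al + be := by rw [← map_add]; exact htr
    rw [ha₀']
    intro h
    apply hab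
    have h2 : (residue T) (2 : T) = 2 := map_ofNat _ 2
    rw [h2] at h
    linear_combination h + h1
  obtain ⟨a0, hroot, hmem⟩ :=
    HenselianRing.is_henselian (LinearMap.charpoly f) (LinearMap.charpoly_monic f) a₀ h₁ h₂
  have ha0 : residue T a0 = al := by
    rw [← ha₀', ← sub_eq_zero, ← map_sub]
    exact (Ideal.Quotient.eq_zero_iff_mem).2 hmem
  set a1 := x + w - a0 with ha1def
  have ha1 : residue T a1 = be := by
    rw [ha1def, map_sub, htr, ha0]; ring
  have hs : a0 + a1 = x + w := by rw [ha1def]; ring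
  have hpr : a0 * a1 = x * w - y * z := by
    have : a0 ^ 2 - (x + w) * a0 + (x * w - y * z) = 0 := by
      have := hroot
      rw [Polynomial.IsRoot.def, hP] at this
      simpa using this
    rw [ha1def]; linear_combination -this
  have hunit : IsUnit (a0 - a1) := by
    rw [← IsLocalRing.residue_ne_zero_iff_isUnit, map_sub, ha0, ha1]
    exact sub_ne_zero.2 hab
  have key : ∀ (c0 c1 d0 d1 : T), x * c0 + y * c1 = a0 * c0 → z * c0 + w * c1 = a0 * c1 →
      x * d0 + y * d1 = a1 * d0 → z * d0 + w * d1 = a1 * d1 → IsUnit (c0 * d1 - d0 * c1) →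
      ∃ (b : Module.Basis (Fin 2) T V) (a : Fin 2 → T),
        (∀ i, f (b i) = a i • b i) ∧ residue T (a 0) = al ∧ residue T (a 1) = be := by
    intro c0 c1 d0 d1 hc0 hc1 hd0 hd1 hdt
    obtain ⟨b, hb0, hb1⟩ := twlg_dg_basis_of_eigvec e f x y z w (hfe 0) (hfe 1) a0 a1 c0 c1 d0 d1
      hc0 hc1 hd0 hd1 hdt
    refine ⟨b, ![a0, a1], ?_, ha0, ha1⟩
    intro i
    fin_cases i
    · exact hb0
    · exact hb1
  by_cases hzu : IsUnit z
  · refine key (x - a1) z (x - a0) z ?_ ?_ ?_ ?_ ?_
    · linear_combination (-x) * hs + hpr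
    · linear_combination (-z) * hs
    · linear_combination (-x) * hs + hpr
    · linear_combination (-z) * hs
    · have : (x - a1) * z - (x - a0) * z = (a0 - a1) * z := by ring
      rw [this]; exact hunit.mul hzu
  by_cases hyu : IsUnit y
  · refine key y (w - a1) y (w - a0) ?_ ?_ ?_ ?_ ?_
    · linear_combination (-y) * hs
    · linear_combination (-w) * hs + hpr
    · linear_combination (-y) * hs
    · linear_combination (-w) * hs + hpr
    · have : y * (w - a0) - y * (w - a1) = -((a0 - a1) * y) := by ring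
      rw [this]; exact (hunit.mul hyu).neg
  have hzm : z ∈ maximalIdeal T := (IsLocalRing.mem_maximalIdeal _).2 hzu
  have hyzm : y * z ∈ maximalIdeal T := (maximalIdeal T).mul_mem_left _ hzm
  by_cases hxu : IsUnit (x - a0)
  · refine key y (w - a1) (x - a0) z ?_ ?_ ?_ ?_ ?_
    · linear_combination (-y) * hs
    · linear_combination (-w) * hs + hpr
    · linear_combination (-x) * hs + hpr
    · linear_combination (-z) * hs
    · have : y * z - (x - a0) * (w - a1) = (x - a0) ^ 2 + y * z := by
        linear_combination (x - a0) * hs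
      rw [this]; exact twlg_dg_isUnit_add (hxu.pow 2) hyzm
  · have hxm : x - a0 ∈ maximalIdeal T := (IsLocalRing.mem_maximalIdeal _).2 hxu
    have hxu' : IsUnit (x - a1) := by
      have : x - a1 = (a0 - a1) + (x - a0) := by ring
      rw [this]; exact twlg_dg_isUnit_add hunit hxm
    refine key (x - a1) z y (w - a0) ?_ ?_ ?_ ?_ ?_
    · linear_combination (-x) * hs + hpr
    · linear_combination (-z) * hs
    · linear_combination (-y) * hs
    · linear_combination (-w) * hs + hpr
    · have : (x - a1) * (w - a0) - y * z = -((x - a1) ^ 2 + y * z) := by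
        linear_combination (-(x - a1)) * hs
      rw [this]; exact (twlg_dg_isUnit_add (hxu'.pow 2) hyzm).neg

/-- **(D3), endomorphism form.**  `T` Henselian local, `V` free of rank `2`, `f g : End_T V` with
`f * g = g ^ t * f`, `t ≡ 1` and `g ≡ 1` modulo the maximal ideal, and the characteristic polynomial
of `f` residually `(X - al)(X - be)`, `al ≠ be`.  Then `f` and `g` are simultaneously diagonal. -/
theorem twlg_dg_main_end {T : Type*} [CommRing T] [IsLocalRing T]
    [HenselianRing T (maximalIdeal T)]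
    {V : Type*} [AddCommGroup V] [Module T V] [Module.Free T V] [Module.Finite T V]
    (hV : Module.finrank T V = 2) (f g : Module.End T V) (t : ℕ)
    (ht : (t : T) - 1 ∈ maximalIdeal T)
    (hrel : f * g = g ^ t * f)
    (hg : ∀ v, g v - v ∈ maximalIdeal T • (⊤ : Submodule T V))
    (al be : ResidueField T) (hab : al ≠ be)
    (hf : (LinearMap.charpoly f).map (residue T) = (X - C al) * (X - C be)) :
    ∃ (b : Module.Basis (Fin 2) T V) (a u : Fin 2 → T),
      (∀ i, f (b i) = a i • b i) ∧ (∀ i, g (b i) = u i • b i) ∧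
        residue T (a 0) = al ∧ residue T (a 1) = be ∧ ∀ i, u i - 1 ∈ maximalIdeal T := by
  obtain ⟨b, a, hfa, h0, h1⟩ := twlg_dg_eigenbasis hV f al be hab hf
  have hunit : IsUnit (a 0 - a 1) := by
    rw [← IsLocalRing.residue_ne_zero_iff_isUnit, map_sub, h0, h1]
    exact sub_ne_zero.2 hab
  obtain ⟨u, hu, hu1⟩ := twlg_dg_offdiag_end b f g a t hfa hunit hg ht hrel
  exact ⟨b, a, u, hfa, hu, h0, h1, hu1⟩

/-- **(D3) THE DEFINITION OF `u_t`.**  `ρ : GaloisRepAdic T` over a Henselian (e.g. complete) local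
ring, `φ σ` two Galois elements with the tame relation `ρ(φ) ρ(σ) = ρ(σ)^t ρ(φ)`, `t ≡ 1` and
`ρ(σ) ≡ 1` modulo the maximal ideal, the characteristic polynomial of `ρ(φ)` residually
`(X - al)(X - be)` with `al ≠ be`.  Then there are a basis `b` and `a u : Fin 2 → T` with
`ρ φ (b i) = a i • b i` and `ρ σ (b i) = u i • b i`; `u_t := u 0` is the unit on the `al`-line. -/
theorem twlg_dg_main {T : Type} [CommRing T] [IsLocalRing T]
    [HenselianRing T (maximalIdeal T)] (ρ : GaloisRepAdic T)
    (φ σ : AlgebraicClosure ℚ ≃ₐ[ℚ] AlgebraicClosure ℚ) (t : ℕ)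
    (ht : (t : T) - 1 ∈ maximalIdeal T)
    (hrel : ρ.ρ φ * ρ.ρ σ = ρ.ρ σ ^ t * ρ.ρ φ)
    (hσ : ∀ v, ρ.ρ σ v - v ∈ maximalIdeal T • (⊤ : Submodule T ρ.V))
    (al be : ResidueField T) (hab : al ≠ be)
    (hφ : (LinearMap.charpoly (ρ.ρ φ)).map (residue T) = (X - C al) * (X - C be)) :
    ∃ (b : Module.Basis (Fin 2) T ρ.V) (a u : Fin 2 → T),
      (∀ i, ρ.ρ φ (b i) = a i • b i) ∧ (∀ i, ρ.ρ σ (b i) = u i • b i) ∧
        residue T (a 0) = al ∧ residue T (a 1) = be ∧ ∀ i, u i - 1 ∈ maximalIdeal T :=
  twlg_dg_main_end ρ.finrank_eq (ρ.ρ φ) (ρ.ρ σ) t ht hrel hσ al be hab hφ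

/-- The same for a complete local ring (instance check: `IsAdicComplete` gives `HenselianRing`). -/
theorem twlg_dg_main_complete {T : Type} [CommRing T] [IsLocalRing T]
    [IsAdicComplete (maximalIdeal T) T] (ρ : GaloisRepAdic T)
    (φ σ : AlgebraicClosure ℚ ≃ₐ[ℚ] AlgebraicClosure ℚ) (t : ℕ)
    (ht : (t : T) - 1 ∈ maximalIdeal T)
    (hrel : ρ.ρ φ * ρ.ρ σ = ρ.ρ σ ^ t * ρ.ρ φ)
    (hσ : ∀ v, ρ.ρ σ v - v ∈ maximalIdeal T • (⊤ : Submodule T ρ.V))
    (al be : ResidueField T) (hab : al ≠ be)
    (hφ : (LinearMap.charpoly (ρ.ρ φ)).map (residue T) = (X - C al) * (X - C be)) :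
    ∃ (b : Module.Basis (Fin 2) T ρ.V) (a u : Fin 2 → T),
      (∀ i, ρ.ρ φ (b i) = a i • b i) ∧ (∀ i, ρ.ρ σ (b i) = u i • b i) ∧
        residue T (a 0) = al ∧ residue T (a 1) = be ∧ ∀ i, u i - 1 ∈ maximalIdeal T :=
  twlg_dg_main ρ φ σ t ht hrel hσ al be hab hφ

/-- **Uniqueness of the eigen-data (`u_t` is well defined).**  Two simultaneous eigenbases of `f`
and `g` whose `f`-eigenvalues have the same, distinct, residues have the same eigenvalues:
`a' = a` and `u' = u`.  (Any local ring; no Henselian hypothesis.) -/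
theorem twlg_dg_unique {T : Type*} [CommRing T] [IsLocalRing T]
    {V : Type*} [AddCommGroup V] [Module T V] (f g : Module.End T V)
    (b b' : Module.Basis (Fin 2) T V) (a u a' u' : Fin 2 → T)
    (hfa : ∀ i, f (b i) = a i • b i) (hgu : ∀ i, g (b i) = u i • b i)
    (hfa' : ∀ i, f (b' i) = a' i • b' i) (hgu' : ∀ i, g (b' i) = u' i • b' i)
    (h0 : residue T (a' 0) = residue T (a 0)) (h1 : residue T (a' 1) = residue T (a 1))
    (hab : residue T (a 0) ≠ residue T (a 1)) :
    a' = a ∧ u' = u := by
  classical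
  -- the general step: an `f`-eigenvector `b' i` with eigenvalue `≡ a i`, `≢ a j`, is a unit
  -- multiple of `b i`
  have step : ∀ i j : Fin 2, i ≠ j → residue T (a' i) = residue T (a i) →
      residue T (a i) ≠ residue T (a j) → a' i = a i ∧ u' i = u i := by
    intro i j hij hres hne
    have huniv : ∀ k : Fin 2, k = i ∨ k = j := by
      intro k; fin_cases i <;> fin_cases j <;> fin_cases k <;> simp_all
    -- coordinates of `b' i` in `b`
    have hsum : b' i = b.repr (b' i) i • b i + b.repr (b' i) j • b j := by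
      have hu2 : (Finset.univ : Finset (Fin 2)) = {i, j} := by
        ext k; simp only [Finset.mem_univ, Finset.mem_insert, Finset.mem_singleton, true_iff]
        exact huniv k
      conv_lhs => rw [← b.sum_repr (b' i), hu2, Finset.sum_pair hij]
    set α := b.repr (b' i) i with hα
    set β := b.repr (b' i) j with hβ
    -- apply `f`
    have hf1 : f (b' i) = (α * a i) • b i + (β * a j) • b j := by
      rw [hsum, map_add, map_smul, map_smul, hfa, hfa, smul_smul, smul_smul]
    have hf2 : f (b' i) = (a' i * α) • b i + (a' i * β) • b j := by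
      rw [hfa' i]
      conv_lhs => rw [hsum]
      rw [smul_add, smul_smul, smul_smul]
    have hcoord := hf1.symm.trans hf2
    have hci : α * a i = a' i * α := by
      have := congrArg (fun v => b.repr v i) hcoord
      simpa [Finsupp.single_apply, hij, hij.symm] using this
    have hcj : β * a j = a' i * β := by
      have := congrArg (fun v => b.repr v j) hcoord
      simpa [Finsupp.single_apply, hij, hij.symm] using this
    have hunit : IsUnit (a' i - a j) := by
      rw [← IsLocalRing.residue_ne_zero_iff_isUnit, map_sub, hres]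
      exact sub_ne_zero.2 hne
    have hβ0 : β = 0 := by
      have : (a' i - a j) * β = 0 := by linear_combination -hcj
      exact (hunit.mul_right_eq_zero).1 this
    have hbi : b' i = α • b i := by rw [hsum, hβ0, zero_smul, add_zero]
    -- `α` is a unit
    have hαu : IsUnit α := by
      have h2 := b'.sum_repr (b i)
      have h3 : b'.repr (b' i) i = 1 := by simp
      have h4 : b'.repr (b' i) i = α * b'.repr (b i) i := by
        conv_lhs => rw [hbi]
        simp
      exact IsUnit.of_mul_eq_one _ (h4.symm.trans h3)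
    have ha : a' i = a i := by
      have : α * (a' i - a i) = 0 := by linear_combination -hci
      have := (hαu.mul_right_eq_zero).1 this
      linear_combination this
    refine ⟨ha, ?_⟩
    have hg1 : g (b' i) = (α * u i) • b i := by
      rw [hbi, map_smul, hgu, smul_smul]
    have hg2 : g (b' i) = (u' i * α) • b i := by
      rw [hgu' i]
      conv_lhs => rw [hbi]
      rw [smul_smul]
    have := congrArg (fun v => b.repr v i) (hg1.symm.trans hg2)
    have h5 : α * u i = u' i * α := by simpa using this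
    have : α * (u' i - u i) = 0 := by linear_combination -h5
    have := (hαu.mul_right_eq_zero).1 this
    linear_combination this
  have s0 := step 0 1 (by decide) h0 hab
  have s1 := step 1 0 (by decide) h1 (Ne.symm hab)
  constructor
  · funext i; fin_cases i
    · exact s0.1
    · exact s1.1
  · funext i; fin_cases i
    · exact s0.2
    · exact s1.2

end Fermat.Agent.TW
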