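/-
Project TW (S43), block [A] LG, cell A4 (Assembly), part 5a `AsOne` (helper29).  Prefix `twlg_as_`.

ONE Taylor–Wiles prime `t`: from the clauses OLD-AT-`t` and NEW-AT-`t` of `TW/Aut/SeamsLG.lean` for a
Hecke ring `T_X` with datum `H_X` (level `Nb`, `t² ∥ Nb`) acting on `M_X`, to the GALOIS DIAMOND
`u_t ∈ T_X`:

`twlg_as_one` : `∃ u : T_X`, `u - 1 ∈ 𝔪`, `u ^ p ^ v_p(t - 1) = 1`, `(u - 1) M_X ⊆ (δ_t - 1) M_X`,
and `χ(u) ≠ 1` for every eigen-system `χ` of `K̄ ⊗ M_X` whose `δ_t`-eigenvalue is `≠ 1`.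

`u` is the eigenvalue of `ρ_X(σ_t)` on the `α`-eigenline of `ρ_X(φ_t)` (`σ_t`, `φ_t` the tame
generators of `twib_td`), `α ≠ β` the residual Frobenius eigenvalues.
-/
import Mathlib
import Fermat.Agent.TW.LG.AsOld
import Fermat.Agent.TW.LG.AsNew
import Fermat.Agent.TW.LG.Diag
import Fermat.Agent.TW.Top.ResidEquiv
import Fermat.Agent.TW.Top.DatumLocal
import Fermat.Agent.S56.Asm.M

set_option autoImplicit false
set_option linter.unusedSectionVars false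
set_option linter.style.haveILetI false

open Polynomial CuspForm IsLocalRing ExtCitation Fermat.Agent.JT3
open Fermat.Agent.S53 Fermat.Agent.S56 Fermat.Agent.SS
open scoped TensorProduct

namespace Fermat.Agent.TW

noncomputable section

local notation "GQ" => (AlgebraicClosure ℚ ≃ₐ[ℚ] AlgebraicClosure ℚ)
local notation "Qbar" => AlgebraicClosure ℚ

section one

variable {𝒪 : Type} [CommRing 𝒪] [IsDomain 𝒪] [IsDiscreteValuationRing 𝒪]
  [IsAdicComplete (maximalIdeal 𝒪) 𝒪] [Finite (ResidueField 𝒪)] [CharZero 𝒪]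
  {Nb : ℕ} [NeZero Nb] {S' : Finset ℕ}
  {θX : heckeAlgebra Nb 2 (↑S' : Set ℕ) →+* ResidueField 𝒪}
  {TX : Type} [CommRing TX] [IsLocalRing TX] [IsNoetherianRing TX]
  [IsAdicComplete (maximalIdeal TX) TX] [Algebra 𝒪 TX] [IsLocalHom (algebraMap 𝒪 TX)]
  [Module.Finite 𝒪 TX] [Module.Free 𝒪 TX]
  {HX : HeckeGaloisRepDatum Nb (↑S' : Set ℕ) 𝒪 θX TX}
  {MX : Type} [AddCommGroup MX] [Module 𝒪 MX] [Module TX MX] [IsScalarTower 𝒪 TX MX]
  {δ : MX →ₗ[𝒪] MX}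

/-- the residual characteristic polynomial of `ρ_X(φ)` is the image of that of `ρ̄(φ)`. -/
theorem twlg_as_resid_charpoly (ρbar : ResidualGaloisRep (ResidueField 𝒪))
    (hcompat : twt_Compat θX ρbar) (φ : GQ) :
    (LinearMap.charpoly (HX.ρ.ρ φ)).map (residue TX) =
      (LinearMap.charpoly (ρbar.ρ φ)).map (ResidueField.map (algebraMap 𝒪 TX)) := by
  obtain ⟨e⟩ := twt_re_datum HX ρbar hcompat
  have h1 := s56am_charpoly_of_equiv e φ
  letI : Algebra (ResidueField 𝒪) (ResidueField TX) :=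
    (ResidueField.map (algebraMap 𝒪 TX)).toAlgebra
  change LinearMap.charpoly ((HX.ρ.ρ φ).baseChange (ResidueField TX)) =
    LinearMap.charpoly ((ρbar.ρ φ).baseChange (ResidueField TX)) at h1
  rw [LinearMap.charpoly_baseChange, LinearMap.charpoly_baseChange] at h1
  exact h1

/-- **the Galois diamond at ONE Taylor–Wiles prime.** -/
theorem twlg_as_one {p : ℕ} [hpF : Fact p.Prime] (hp𝒪 : (p : 𝒪) ∈ maximalIdeal 𝒪)
    (hpS : p ∈ S') (hNS : ∀ r : ℕ, r.Prime → r ∣ Nb → r ∈ S')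
    (ρbar : ResidualGaloisRep (ResidueField 𝒪)) (hcompat : twt_Compat θX ρbar)
    (t : ℕ) (ht : t.Prime) (htp : t ≠ p) (htmod : t % p = 1)
    (hunr : ρbar.IsUnramifiedAt t)
    (hsplit : ∀ P : ValuationSubring Qbar, P.LiesOverPrime t → ∀ φ : GQ, P.IsFrobeniusAt φ t →
      ∃ α β : ResidueField 𝒪, α ≠ β ∧ LinearMap.charpoly (ρbar.ρ φ) = (X - C α) * (X - C β))
    (htNb : t ∣ Nb) [NeZero (Nb / t)] (htN : t ∣ Nb / t) (ht2 : ¬ t ^ 2 ∣ Nb / t)
    (Od : twe_OldAt HX δ t) (hnew : twe_NewAt HX δ t) :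
    ∃ u : TX, u - 1 ∈ maximalIdeal TX ∧ u ^ p ^ padicValNat p (t - 1) = 1 ∧
      (∀ m : MX, ∃ m' : MX, (u - 1) • m = δ m' - m') ∧
      ∀ (K : Type) [Field K] [IsAlgClosed K] [Algebra 𝒪 K],
        Function.Injective (algebraMap 𝒪 K) →
        ∀ (χ : TX →ₐ[𝒪] K) (v : K ⊗[𝒪] MX), v ≠ 0 →
          (∀ x : TX, (twe_act (MX := MX) x).baseChange K v = χ x • v) →
          ∀ z : K, z ≠ 1 → δ.baseChange K v = z • v → χ u ≠ 1 := by
  classical
  have hp : p.Prime := hpF.out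
  -- the tame datum at `t`
  set ℓ : Nat.Primes := ⟨t, ht⟩ with hℓdef
  have hpdvd : p ∣ t - 1 := by
    have h1 : 1 ≡ t [MOD p] := by
      rw [Nat.ModEq, htmod, Nat.mod_eq_of_lt hp.one_lt]
    exact (Nat.modEq_iff_dvd' ht.one_le).1 h1
  have hTh : ∀ q ∈ ({ℓ} : Finset Nat.Primes), (q : ℕ) ≠ p ∧ p ∣ (q : ℕ) - 1 := by
    intro q hq
    rw [Finset.mem_singleton] at hq
    subst hq
    exact ⟨htp, hpdvd⟩
  set td := twib_td p {ℓ} hTh with htd
  have hgen := twib_td_inertiaGen p {ℓ} hTh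
  have hℓmem : ℓ ∈ ({ℓ} : Finset Nat.Primes) := Finset.mem_singleton_self ℓ
  have hℓt : (ℓ : ℕ) = t := rfl
  -- residual facts
  have hpT : (p : TX) ∈ maximalIdeal TX := twt_dl_p_mem hp𝒪
  have hresid : HX.ρ.residual.IsUnramifiedAt t := twt_re_datum_unram HX ρbar hcompat t hunr
  have hres : ∀ τ ∈ (primeLocalPlace ℓ).inertiaSubgroupIn ℚ,
      gcl_Small (maximalIdeal TX) (HX.ρ.ρ τ - 1) :=
    fun τ hτ => twib_hres_of_residual HX.ρ hresid _ (s56ld_liesOver ℓ) hτ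
  have hrel : HX.ρ.ρ (td.gφ ℓ) * HX.ρ.ρ (td.gσ ℓ) = HX.ρ.ρ (td.gσ ℓ) ^ t * HX.ρ.ρ (td.gφ ℓ) :=
    twlg_as_rel td hpT HX.ρ ℓ hℓmem hres
  have hσmem : td.gσ ℓ ∈ (primeLocalPlace ℓ).inertiaSubgroupIn ℚ := td.σ_mem ℓ hℓmem
  -- the residual Frobenius polynomial
  obtain ⟨α, β, hαβ, hcp⟩ := hsplit (primeLocalPlace ℓ) (s56ld_liesOver ℓ) (td.gφ ℓ)
    (td.φ_frob ℓ hℓmem)
  have hφres : (LinearMap.charpoly (HX.ρ.ρ (td.gφ ℓ))).map (residue TX) =
      (X - C (ResidueField.map (algebraMap 𝒪 TX) α)) *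
        (X - C (ResidueField.map (algebraMap 𝒪 TX) β)) := by
    rw [twlg_as_resid_charpoly ρbar hcompat, hcp]
    simp only [Polynomial.map_mul, Polynomial.map_sub, Polynomial.map_X, Polynomial.map_C]
  have hαβ' : ResidueField.map (algebraMap 𝒪 TX) α ≠ ResidueField.map (algebraMap 𝒪 TX) β :=
    fun h => hαβ ((ResidueField.map (algebraMap 𝒪 TX)).injective h)
  have htm : (t : TX) - 1 ∈ maximalIdeal TX := by
    obtain ⟨k, hk⟩ := hpdvd
    have h1 : t = p * k + 1 := by have := ht.one_le; omega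
    rw [h1]
    push_cast
    rw [add_sub_cancel_right]
    exact Ideal.mul_mem_right _ _ hpT
  -- the simultaneous eigenbasis
  obtain ⟨b, a, u, hPh, hSg, -, -, hu1⟩ := twlg_dg_main_complete HX.ρ (td.gφ ℓ) (td.gσ ℓ) t htm
    hrel (fun v => by simpa using hres _ hσmem v) _ _ hαβ' hφres
  -- `u 0 * u 1 = det ρ(σ) = 1`
  have hdet : LinearMap.det (HX.ρ.ρ (td.gσ ℓ)) = 1 :=
    twt_da_det_inertia hpT hNS HX.π HX.ρ HX.charpoly_frob ht htp _ (s56ld_liesOver ℓ) hσmem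
  have hu01 : u 0 * u 1 = 1 := by
    have h1 := twlg_as_diag_charpoly b (HX.ρ.ρ (td.gσ ℓ)) u hSg
    rw [sst_charpoly_rank_two HX.ρ.finrank_eq, hdet] at h1
    have h0 := congrArg (fun q : TX[X] => q.coeff 0) h1
    simp only [coeff_add, coeff_sub, coeff_X_pow, coeff_C_mul, coeff_X_zero, coeff_C_zero] at h0
    norm_num at h0
    exact h0.symm
  -- units
  have ha : ∀ j, IsUnit (a j) := fun j =>
    twlg_as_diag_unit b (HX.ρ.ρ (td.gφ ℓ)) (HX.ρ.ρ (td.gφ ℓ)⁻¹)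
      (by rw [← map_mul, inv_mul_cancel, map_one]) a hPh j
  have hu0 : IsUnit (u 0) := IsUnit.of_mul_eq_one _ hu01
  have hrel0 : a 0 * u 0 = u 0 ^ t * a 0 := twlg_as_diag_rel t b _ _ u a hSg hPh hrel 0
  have hpow : u 0 ^ (t - 1) = 1 := twlg_as_pow_sub_one t ht.one_le (a 0) (u 0) (ha 0) hu0 hrel0
  have hpow' : u 0 ^ p ^ padicValNat p (t - 1) = 1 :=
    twlg_as_pow_one hp hpT (u 0) (hu1 0) (t - 1) (by have := ht.two_le; omega) hpow
  refine ⟨u 0, hu1 0, hpow', ?_, ?_⟩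
  · -- `hH2`
    intro m
    exact twlg_as_old_hH2 Od hp hp𝒪 hpS hNS htNb ht htp htN ht2 (primeLocalPlace ℓ)
      (s56ld_liesOver ℓ) (td.gσ ℓ) (td.gφ ℓ) hσmem hrel b u a hSg hPh 0 m
  · -- the eigenvector statement
    intro K _ _ _ hK χ v hv0 hv z hz hδ
    exact twlg_as_new_u hp𝒪 hpS hNS td hgen ℓ hℓmem htp hnew hres b u hSg hu01 K hK χ v hv0 hv z
      hz hδ 0

end one

end

end Fermat.Agent.TW
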