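/-
Project ONE MACHINE (S43), block [A] LG, cell A4-CHI (helper26; prefix `twlg_ac_`; statements of
helper29's table #4830).  Pure linear algebra: the part of (A-X) which makes an operator `u - 1`
injective on `M^χ = Mb ⧸ twc_chiSub χ`.

* `twlg_ac_field`     (C1): `V` over an algebraically closed field, commuting set `𝒮 ∋ a i, u`,
  `a i ^ d = 1`, `d ≠ 0`: if no common eigenvector `v ≠ 0` of `𝒮` has `a i v = ζ i • v` for all `i`
  and `u v = v`, then `u - 1` is injective modulo `⨆ i, range (a i - ζ i)`.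
* `twlg_ac_main`      (C2): the same for a finite `O`-module `M`, with eigenvectors in `K ⊗ M`.
* `twlg_ac_chiSub_eq` (C3): `twc_chiSub χ = ⨆ i, range (δ_i - χ δ_i)` for the chosen generators
  `δ_i` of `∏ i, ℤ/P i`.
* `twlg_ac_pi_pow`    (C4): `(ζ - 1) ^ (p - 1) = p * e` for a primitive `p`-th root of unity `ζ`.
-/
import Mathlib
import Fermat.Agent.TW.LG.AsLift
import Fermat.Agent.TW.LG.MatchSeam
import Fermat.Agent.TW.Def.SeamA

set_option autoImplicit false
set_option linter.unusedSectionVars false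

open scoped TensorProduct
open Polynomial

namespace Fermat.Agent.TW

/-! ### (C1) -/

section C1

variable {K V : Type*} [Field K] [IsAlgClosed K] [AddCommGroup V] [Module K V]
  [FiniteDimensional K V]

/-- polynomials in an element of a commuting set commute with the set. -/
theorem twlg_ac_aeval_comm {K V : Type*} [Field K] [AddCommGroup V] [Module K V]
    (𝒮 : Set (Module.End K V)) (hcomm : ∀ s ∈ 𝒮, ∀ s' ∈ 𝒮, Commute s s')
    (a : Module.End K V) (ha𝒮 : a ∈ 𝒮) (f : K[X]) (s : Module.End K V) (hs : s ∈ 𝒮) :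
    Commute (aeval a f) s := by
  have hc : Commute a s := hcomm a ha𝒮 s hs
  induction f using Polynomial.induction_on' with
  | add f g hf hg => rw [map_add]; exact hf.add_left hg
  | monomial k c =>
    rw [← C_mul_X_pow_eq_monomial, map_mul, aeval_C, map_pow, aeval_X]
    exact (Algebra.commute_algebraMap_left c s).mul_left (hc.pow_left k)

/-- the projector attached to a finite set of indices. -/
theorem twlg_ac_proj {K V : Type*} [Field K] [AddCommGroup V] [Module K V]
    {ι : Type*} (d : ℕ) (hdK : (d : K) ≠ 0)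
    (𝒮 : Set (Module.End K V)) (hcomm : ∀ s ∈ 𝒮, ∀ s' ∈ 𝒮, Commute s s')
    (a : ι → Module.End K V) (ζ : ι → K) (ha𝒮 : ∀ i, a i ∈ 𝒮)
    (ha : ∀ i, a i ^ d = 1) (hζ : ∀ i, ζ i ^ d = 1) (W : Submodule K V)
    (hW : ∀ i, LinearMap.range (a i - algebraMap K (Module.End K V) (ζ i)) ≤ W)
    (s : Finset ι) :
    ∃ e : Module.End K V, (∀ t ∈ 𝒮, Commute e t) ∧
      (∀ i ∈ s, (a i - algebraMap K (Module.End K V) (ζ i)) * e = 0) ∧
      (∀ x : V, x - e x ∈ W) := by
  classical
  induction s using Finset.induction_on with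
  | empty =>
    refine ⟨1, fun t _ => Commute.one_left t, fun i hi => absurd hi (Finset.notMem_empty i),
      fun x => ?_⟩
    rw [Module.End.one_apply, sub_self]
    exact W.zero_mem
  | insert j s hjs ih =>
    obtain ⟨e, hec, hes, hex⟩ := ih
    obtain ⟨G, R, S, hG, hRS⟩ := twlg_as_bezout K d hdK (ζ j) (hζ j)
    -- `Ψ(a_j) = a_j - ζ_j`
    have hΨ : aeval (a j) (X - C (ζ j) : K[X]) =
        a j - algebraMap K (Module.End K V) (ζ j) := by
      rw [map_sub, aeval_X, aeval_C]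
    have hzero : (a j - algebraMap K (Module.End K V) (ζ j)) * aeval (a j) G = 0 := by
      rw [← hΨ, ← map_mul, hG, map_sub, map_pow, aeval_X, map_one, ha j, sub_self]
    have hone : aeval (a j) R * (a j - algebraMap K (Module.End K V) (ζ j)) +
        aeval (a j) S * aeval (a j) G = 1 := by
      rw [← hΨ, ← map_mul, ← map_mul, ← map_add, hRS, map_one]
    set ej : Module.End K V := aeval (a j) S * aeval (a j) G with hej
    have hejc : ∀ t ∈ 𝒮, Commute ej t := fun t ht =>
      (twlg_ac_aeval_comm 𝒮 hcomm (a j) (ha𝒮 j) S t ht).mul_left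
        (twlg_ac_aeval_comm 𝒮 hcomm (a j) (ha𝒮 j) G t ht)
    -- `(a_j - ζ_j) e_j = 0`
    have hΨej : (a j - algebraMap K (Module.End K V) (ζ j)) * ej = 0 := by
      have hcS : Commute (a j - algebraMap K (Module.End K V) (ζ j)) (aeval (a j) S) := by
        rw [← hΨ]; exact (Commute.all _ S).map (Polynomial.aeval (a j))
      rw [hej, ← mul_assoc, hcS.eq, mul_assoc, hzero, mul_zero]
    -- `1 - e_j = (a_j - ζ_j) R(a_j)`
    have h1ej : (1 : Module.End K V) - ej =
        (a j - algebraMap K (Module.End K V) (ζ j)) * aeval (a j) R := by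
      have hcR : Commute (a j - algebraMap K (Module.End K V) (ζ j)) (aeval (a j) R) := by
        rw [← hΨ]; exact (Commute.all _ R).map (Polynomial.aeval (a j))
      rw [hcR.eq, ← hone, hej]; abel
    -- scalars commute with everything
    have hsc : ∀ (i : ι) (t : Module.End K V), t ∈ 𝒮 →
        Commute (a i - algebraMap K (Module.End K V) (ζ i)) t := fun i t ht =>
      (hcomm (a i) (ha𝒮 i) t ht).sub_left (Algebra.commute_algebraMap_left (ζ i) t)
    refine ⟨ej * e, fun t ht => (hejc t ht).mul_left (hec t ht), ?_, fun x => ?_⟩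
    · intro i hi
      rcases Finset.mem_insert.1 hi with rfl | hi
      · rw [← mul_assoc, hΨej, zero_mul]
      · have hc : Commute (a i - algebraMap K (Module.End K V) (ζ i)) ej := by
          have h1 := hejc (a i) (ha𝒮 i)
          exact (h1.symm).sub_left (Algebra.commute_algebraMap_left (ζ i) ej)
        rw [← mul_assoc, hc.eq, mul_assoc, hes i hi, mul_zero]
    · have h2 : x - (ej * e) x = (x - e x) + ((1 : Module.End K V) - ej) (e x) := by
        rw [Module.End.mul_apply, LinearMap.sub_apply, Module.End.one_apply]; abel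
      rw [h2, h1ej]
      refine W.add_mem (hex x) (hW j ?_)
      rw [Module.End.mul_apply]
      exact LinearMap.mem_range_self _ _

/-- **(C1)** several operators, field form. -/
theorem twlg_ac_field {ι : Type*} [Fintype ι] (d : ℕ) (hdK : (d : K) ≠ 0)
    (𝒮 : Set (Module.End K V)) (hcomm : ∀ s ∈ 𝒮, ∀ s' ∈ 𝒮, Commute s s')
    (a : ι → Module.End K V) (ζ : ι → K) (u : Module.End K V) (ha𝒮 : ∀ i, a i ∈ 𝒮)
    (hu𝒮 : u ∈ 𝒮) (ha : ∀ i, a i ^ d = 1) (hζ : ∀ i, ζ i ^ d = 1)
    (h : ∀ v : V, v ≠ 0 → (∀ s ∈ 𝒮, ∃ c : K, s v = c • v) → (∀ i, a i v = ζ i • v) → u v ≠ v)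
    (x : V)
    (hx : (u - 1 : Module.End K V) x ∈
      ⨆ i, LinearMap.range (a i - algebraMap K (Module.End K V) (ζ i))) :
    x ∈ ⨆ i, LinearMap.range (a i - algebraMap K (Module.End K V) (ζ i)) := by
  classical
  set W : Submodule K V := ⨆ i, LinearMap.range (a i - algebraMap K (Module.End K V) (ζ i))
    with hW
  obtain ⟨e, hec, hes, hex⟩ := twlg_ac_proj d hdK 𝒮 hcomm a ζ ha𝒮 ha hζ W
    (fun i => le_iSup (fun i => LinearMap.range (a i - algebraMap K (Module.End K V) (ζ i))) i)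
    Finset.univ
  have hsc : ∀ (i : ι) (t : Module.End K V), t ∈ 𝒮 →
      Commute (a i - algebraMap K (Module.End K V) (ζ i)) t := fun i t ht =>
    (hcomm (a i) (ha𝒮 i) t ht).sub_left (Algebra.commute_algebraMap_left (ζ i) t)
  -- `e` kills `W`
  have heW : ∀ w ∈ W, e w = 0 := by
    intro w hw
    rw [hW] at hw
    refine Submodule.iSup_induction _ (motive := fun w => e w = 0) hw ?_ (map_zero e) ?_
    · rintro i _ ⟨y, rfl⟩
      have hc : Commute e (a i - algebraMap K (Module.End K V) (ζ i)) := by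
        exact (hec (a i) (ha𝒮 i)).sub_right (Algebra.commute_algebraMap_right (ζ i) e)
      have h1 : e * (a i - algebraMap K (Module.End K V) (ζ i)) = 0 := by
        rw [hc.eq, hes i (Finset.mem_univ i)]
      have := LinearMap.congr_fun h1 y
      simpa [Module.End.mul_apply] using this
    · intro y z hy hz
      rw [map_add, hy, hz, add_zero]
  -- the stable subspace `W₀`
  let W0 : Submodule K V :=
    (⨅ i, LinearMap.ker (a i - algebraMap K (Module.End K V) (ζ i))) ⊓
      LinearMap.ker (u - 1 : Module.End K V)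
  have hW0 : W0 = ⊥ := by
    by_contra hne
    have hstab : ∀ s ∈ 𝒮, ∀ w ∈ W0, s w ∈ W0 := by
      intro s hs w hw
      refine ⟨?_, ?_⟩
      · refine (Submodule.mem_iInf _).2 fun i => ?_
        have h1 : (a i - algebraMap K (Module.End K V) (ζ i)) w = 0 :=
          (Submodule.mem_iInf _).1 hw.1 i
        have hc := LinearMap.congr_fun (hsc i s hs).eq w
        simp only [Module.End.mul_apply] at hc
        show (a i - algebraMap K (Module.End K V) (ζ i)) (s w) = 0
        rw [hc, h1, map_zero]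
      · have h2 : (u - 1 : Module.End K V) w = 0 := hw.2
        have hcu : Commute (u - 1 : Module.End K V) s :=
          (hcomm u hu𝒮 s hs).sub_left (Commute.one_left s)
        have hc := LinearMap.congr_fun hcu.eq w
        simp only [Module.End.mul_apply] at hc
        show (u - 1 : Module.End K V) (s w) = 0
        rw [hc, h2, map_zero]
    obtain ⟨v, hvW, hv0, hv⟩ := twlg_ei_common_eigenvector 𝒮 hcomm W0 hne hstab
    have h1 : ∀ i, a i v = ζ i • v := by
      intro i
      have h3 : (a i - algebraMap K (Module.End K V) (ζ i)) v = 0 :=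
        (Submodule.mem_iInf _).1 hvW.1 i
      rw [LinearMap.sub_apply, Module.algebraMap_end_apply, sub_eq_zero] at h3
      exact h3
    have h2 : (u - 1 : Module.End K V) v = 0 := hvW.2
    rw [LinearMap.sub_apply, Module.End.one_apply, sub_eq_zero] at h2
    exact h v hv0 hv h1 h2
  -- `e x ∈ W₀`
  have hex0 : e x ∈ W0 := by
    refine ⟨?_, ?_⟩
    · refine (Submodule.mem_iInf _).2 fun i => ?_
      have := LinearMap.congr_fun (hes i (Finset.mem_univ i)) x
      simpa [Module.End.mul_apply] using this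
    · have hcu : Commute (u - 1 : Module.End K V) e :=
        ((hec u hu𝒮).symm).sub_left (Commute.one_left e)
      have hc := LinearMap.congr_fun hcu.eq x
      simp only [Module.End.mul_apply] at hc
      show (u - 1 : Module.End K V) (e x) = 0
      rw [hc]
      exact heW _ hx
  rw [hW0, Submodule.mem_bot] at hex0
  have := hex x
  rwa [hex0, sub_zero] at this

end C1

/-! ### (C2) -/

section C2

variable {O K M : Type*} [CommRing O] [Field K] [IsAlgClosed K] [Algebra O K] [AddCommGroup M]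
  [Module O M] [Module.Finite O M]

/-- **(C2)** several operators, descent form. -/
theorem twlg_ac_main {ι : Type*} [Fintype ι] (d : ℕ) (hdK : (d : K) ≠ 0)
    (𝒮 : Set (Module.End O M)) (hcomm : ∀ s ∈ 𝒮, ∀ s' ∈ 𝒮, Commute s s')
    (a : ι → Module.End O M) (ζ : ι → O) (u : Module.End O M) (ha𝒮 : ∀ i, a i ∈ 𝒮)
    (hu𝒮 : u ∈ 𝒮) (ha : ∀ i, a i ^ d = 1) (hζ : ∀ i, ζ i ^ d = 1)
    (W : Submodule O M)
    (hW : W = ⨆ i, LinearMap.range (a i - algebraMap O (Module.End O M) (ζ i)))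
    (hinj : Function.Injective (fun q : M ⧸ W => (1 : K) ⊗ₜ[O] q))
    (h : ∀ v : K ⊗[O] M, v ≠ 0 → (∀ s ∈ 𝒮, ∃ c : K, s.baseChange K v = c • v) →
      (∀ i, (a i).baseChange K v = algebraMap O K (ζ i) • v) → u.baseChange K v ≠ v)
    (m : M) (hm : (u - 1 : Module.End O M) m ∈ W) : m ∈ W := by
  classical
  -- `(a i - ζ i)_K = (a i)_K - ζ_K`
  have hΨK : ∀ i, (a i).baseChange K - algebraMap K (Module.End K (K ⊗[O] M))
      (algebraMap O K (ζ i)) =
      (a i - algebraMap O (Module.End O M) (ζ i)).baseChange K := by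
    intro i
    rw [LinearMap.baseChange_sub]
    congr 1
    ext x
    simp [Algebra.algebraMap_eq_smul_one, TensorProduct.smul_tmul']
  set WK : Submodule K (K ⊗[O] M) := ⨆ i, LinearMap.range
    ((a i).baseChange K - algebraMap K (Module.End K (K ⊗[O] M)) (algebraMap O K (ζ i)))
    with hWK
  -- `1 ⊗ w ∈ W_K` for `w ∈ W`
  have hWWK : ∀ w ∈ W, (1 : K) ⊗ₜ[O] w ∈ WK := by
    intro w hw
    rw [hW] at hw
    refine Submodule.iSup_induction _ (motive := fun w => (1 : K) ⊗ₜ[O] w ∈ WK) hw ?_ ?_ ?_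
    · rintro i _ ⟨y, rfl⟩
      refine Submodule.mem_iSup_of_mem i ⟨(1 : K) ⊗ₜ[O] y, ?_⟩
      rw [hΨK, LinearMap.baseChange_tmul]
    · rw [TensorProduct.tmul_zero]; exact WK.zero_mem
    · intro y z hy hz
      rw [TensorProduct.tmul_add]; exact WK.add_mem hy hz
  have hK : (1 : K) ⊗ₜ[O] m ∈ WK := by
    refine twlg_ac_field d hdK ((fun s : Module.End O M => s.baseChange K) '' 𝒮) ?_
      (fun i => (a i).baseChange K) (fun i => algebraMap O K (ζ i)) (u.baseChange K)
      (fun i => ⟨a i, ha𝒮 i, rfl⟩) ⟨u, hu𝒮, rfl⟩ ?_ ?_ ?_ _ ?_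
    · rintro _ ⟨s, hs, rfl⟩ _ ⟨s', hs', rfl⟩
      have := (hcomm s hs s' hs').eq
      show s.baseChange K * s'.baseChange K = s'.baseChange K * s.baseChange K
      rw [← LinearMap.baseChange_mul, ← LinearMap.baseChange_mul, this]
    · intro i
      show (a i).baseChange K ^ d = 1
      rw [← LinearMap.baseChange_pow, ha i, LinearMap.baseChange_one]
    · intro i
      show algebraMap O K (ζ i) ^ d = 1
      rw [← map_pow, hζ i, map_one]
    · intro v hv0 hv hav
      exact h v hv0 (fun s hs => hv _ ⟨s, hs, rfl⟩) hav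
    · have h1 : (u.baseChange K - 1 : Module.End K (K ⊗[O] M)) ((1 : K) ⊗ₜ[O] m) =
          (1 : K) ⊗ₜ[O] ((u - 1 : Module.End O M) m) := by
        simp [LinearMap.sub_apply, TensorProduct.tmul_sub]
      rw [h1]
      exact hWWK _ hm
  -- push to the quotient
  let π : M →ₗ[O] M ⧸ W := W.mkQ
  have hπK : ∀ z ∈ WK, π.baseChange K z = 0 := by
    intro z hz
    rw [hWK] at hz
    refine Submodule.iSup_induction _ (motive := fun z => π.baseChange K z = 0) hz ?_
      (map_zero _) ?_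
    · rintro i _ ⟨y, rfl⟩
      rw [hΨK]
      have h2 : π ∘ₗ (a i - algebraMap O (Module.End O M) (ζ i)) = 0 := by
        ext z
        simp only [LinearMap.comp_apply, LinearMap.zero_apply, π, Submodule.mkQ_apply,
          Submodule.Quotient.mk_eq_zero]
        rw [hW]
        exact Submodule.mem_iSup_of_mem i (LinearMap.mem_range_self _ _)
      have h3 : π.baseChange K ∘ₗ (a i - algebraMap O (Module.End O M) (ζ i)).baseChange K = 0 := by
        rw [← LinearMap.baseChange_comp, h2, LinearMap.baseChange_zero]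
      exact LinearMap.congr_fun h3 y
    · intro y z hy hz
      rw [map_add, hy, hz, add_zero]
  have h0 : (1 : K) ⊗ₜ[O] π m = 0 := by
    have h1 : π.baseChange K ((1 : K) ⊗ₜ[O] m) = (1 : K) ⊗ₜ[O] π m :=
      LinearMap.baseChange_tmul _ _ _
    rw [← h1]
    exact hπK _ hK
  have h1 : π m = 0 := hinj (by simpa using h0)
  simpa [π, Submodule.mkQ_apply, Submodule.Quotient.mk_eq_zero] using h1

end C2

/-! ### (C4) -/

section C4

/-- `(ζ - 1) ^ m` is associated to `∏_{k < m} (ζ ^ (k + 1) - 1)` for `m < p`. -/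
theorem twlg_ac_assoc_prod {O : Type*} [CommRing O] [IsDomain O] (p : ℕ) [hp : Fact p.Prime]
    (ζ : O) (hζ : IsPrimitiveRoot ζ p) (m : ℕ) (hm : m < p) :
    Associated ((ζ - 1) ^ m) (∏ k ∈ Finset.range m, (ζ ^ (k + 1) - 1)) := by
  induction m with
  | zero => simp
  | succ m ih =>
    rw [pow_succ, Finset.prod_range_succ]
    refine (ih (by omega)).mul_mul ?_
    apply hζ.associated_sub_one_pow_sub_one_of_coprime
    apply Nat.Coprime.symm
    rw [Nat.Prime.coprime_iff_not_dvd hp.out]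
    intro hdvd
    have := Nat.le_of_dvd (by omega) hdvd
    omega

/-- **(C4)** `(ζ - 1) ^ (p - 1) = p * e` for a primitive `p`-th root of unity `ζ`. -/
theorem twlg_ac_pi_pow {O : Type*} [CommRing O] [IsDomain O] (p : ℕ) [hp : Fact p.Prime] (ζ : O)
    (hζ : IsPrimitiveRoot ζ p) : ∃ e : O, (ζ - 1) ^ (p - 1) = (p : O) * e := by
  obtain ⟨n, hn⟩ : ∃ n, p = n + 1 := ⟨p - 1, by have := hp.out.pos; omega⟩
  have hζ' : IsPrimitiveRoot ζ (n + 1) := hn ▸ hζ
  have h1 := hζ'.prod_pow_sub_one_eq_order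
  obtain ⟨w, hw⟩ := twlg_ac_assoc_prod p ζ hζ n (by omega)
  have hpn : p - 1 = n := by omega
  rw [hpn]
  -- `(ζ - 1) ^ n * w = ∏`, `(-1) ^ n * ∏ = p`
  refine ⟨(-1) ^ n * ((w⁻¹ : Oˣ) : O), ?_⟩
  have h2 : (p : O) = (-1) ^ n * ((ζ - 1) ^ n * (w : O)) := by
    rw [hw, h1, hn]; push_cast; ring
  rw [h2]
  have h3 : (w : O) * ((w⁻¹ : Oˣ) : O) = 1 := by rw [← Units.val_mul, mul_inv_cancel, Units.val_one]
  have h4 : ((-1 : O) ^ n) * ((-1 : O) ^ n) = 1 := by
    rw [← mul_pow]; simp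
  calc (ζ - 1) ^ n = (ζ - 1) ^ n * ((w : O) * ((w⁻¹ : Oˣ) : O)) * ((-1 : O) ^ n * (-1 : O) ^ n) := by
        rw [h3, h4, mul_one, mul_one]
    _ = (-1) ^ n * ((ζ - 1) ^ n * (w : O)) * ((-1) ^ n * ((w⁻¹ : Oˣ) : O)) := by ring

end C4

/-! ### (C3) -/

section C3

variable {𝒪 : Type} [CommRing 𝒪] {G : Type} [Monoid G] {ι : Type} [Fintype ι] [DecidableEq ι]
  (P : ι → ℕ) [∀ i, NeZero (P i)] {Mb : Type} [AddCommGroup Mb] [Module 𝒪 Mb]
  [Module (MonoidAlgebra 𝒪 (G × Multiplicative (∀ i, ZMod (P i)))) Mb]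
  [IsScalarTower 𝒪 (MonoidAlgebra 𝒪 (G × Multiplicative (∀ i, ZMod (P i)))) Mb]

/-- the operator `m ↦ of (1, δ) • m - χ δ • m`. -/
noncomputable def twlg_ac_D (χ : Multiplicative (∀ i, ZMod (P i)) →* 𝒪ˣ)
    (δ : Multiplicative (∀ i, ZMod (P i))) : Module.End 𝒪 Mb :=
  Algebra.lsmul 𝒪 𝒪 Mb (MonoidAlgebra.of 𝒪 (G × Multiplicative (∀ i, ZMod (P i))) ((1 : G), δ)) -
    algebraMap 𝒪 (Module.End 𝒪 Mb) ((χ δ : 𝒪ˣ) : 𝒪)

theorem twlg_ac_D_apply (χ : Multiplicative (∀ i, ZMod (P i)) →* 𝒪ˣ)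
    (δ : Multiplicative (∀ i, ZMod (P i))) (m : Mb) :
    twlg_ac_D (G := G) P χ δ m =
      MonoidAlgebra.of 𝒪 (G × Multiplicative (∀ i, ZMod (P i))) ((1 : G), δ) • m -
        ((χ δ : 𝒪ˣ) : 𝒪) • m := by
  simp [twlg_ac_D, Module.algebraMap_end_apply]

/-- `D (δ δ') = of (1, δ) ∘ D δ' + χ δ' • D δ`. -/
theorem twlg_ac_D_mul (χ : Multiplicative (∀ i, ZMod (P i)) →* 𝒪ˣ)
    (δ δ' : Multiplicative (∀ i, ZMod (P i))) (m : Mb) :
    twlg_ac_D (G := G) P χ (δ * δ') m =
      MonoidAlgebra.of 𝒪 (G × Multiplicative (∀ i, ZMod (P i))) ((1 : G), δ) •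
        twlg_ac_D (G := G) P χ δ' m + ((χ δ' : 𝒪ˣ) : 𝒪) • twlg_ac_D (G := G) P χ δ m := by
  simp only [twlg_ac_D_apply]
  have h1 : MonoidAlgebra.of 𝒪 (G × Multiplicative (∀ i, ZMod (P i))) ((1 : G), δ * δ') =
      MonoidAlgebra.of 𝒪 (G × Multiplicative (∀ i, ZMod (P i))) ((1 : G), δ) *
        MonoidAlgebra.of 𝒪 (G × Multiplicative (∀ i, ZMod (P i))) ((1 : G), δ') := by
    rw [← map_mul, Prod.mk_mul_mk, mul_one]
  rw [h1, mul_smul, map_mul, Units.val_mul, smul_sub, smul_sub, mul_smul,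
    smul_comm (MonoidAlgebra.of 𝒪 (G × Multiplicative (∀ i, ZMod (P i))) ((1 : G), δ))
      ((χ δ' : 𝒪ˣ) : 𝒪) m, smul_comm ((χ δ : 𝒪ˣ) : 𝒪) ((χ δ' : 𝒪ˣ) : 𝒪) m]
  abel

/-- **(C3)** the `χ`-augmentation submodule is generated by the chosen generators. -/
theorem twlg_ac_chiSub_eq (χ : Multiplicative (∀ i, ZMod (P i)) →* 𝒪ˣ) :
    twc_chiSub (G := G) (Mb := Mb) χ =
      ⨆ i : ι, LinearMap.range
        ((Algebra.lsmul 𝒪 𝒪 Mb (MonoidAlgebra.of 𝒪 (G × Multiplicative (∀ i, ZMod (P i)))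
          ((1 : G), Multiplicative.ofAdd (Pi.single i (1 : ZMod (P i)))))) -
          algebraMap 𝒪 (Module.End 𝒪 Mb)
            ((χ (Multiplicative.ofAdd (Pi.single i (1 : ZMod (P i)))) : 𝒪ˣ) : 𝒪)) := by
  set W : Submodule 𝒪 Mb := ⨆ i : ι, LinearMap.range (twlg_ac_D (G := G) (Mb := Mb) P χ
    (Multiplicative.ofAdd (Pi.single i (1 : ZMod (P i))))) with hW
  show twc_chiSub (G := G) (Mb := Mb) χ = W
  -- `W` is stable under `of (1, δ)`
  have hstab : ∀ (δ : Multiplicative (∀ i, ZMod (P i))) (w : Mb), w ∈ W →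
      MonoidAlgebra.of 𝒪 (G × Multiplicative (∀ i, ZMod (P i))) ((1 : G), δ) • w ∈ W := by
    intro δ w hw
    rw [hW] at hw
    refine Submodule.iSup_induction _ (motive := fun w =>
      MonoidAlgebra.of 𝒪 (G × Multiplicative (∀ i, ZMod (P i))) ((1 : G), δ) • w ∈ W) hw ?_ ?_ ?_
    · rintro i _ ⟨m, rfl⟩
      have h1 : MonoidAlgebra.of 𝒪 (G × Multiplicative (∀ i, ZMod (P i))) ((1 : G), δ) •
          twlg_ac_D (G := G) P χ (Multiplicative.ofAdd (Pi.single i (1 : ZMod (P i)))) m =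
          twlg_ac_D (G := G) P χ (Multiplicative.ofAdd (Pi.single i (1 : ZMod (P i))))
            (MonoidAlgebra.of 𝒪 (G × Multiplicative (∀ i, ZMod (P i))) ((1 : G), δ) • m) := by
        simp only [twlg_ac_D_apply]
        rw [smul_sub, smul_smul, smul_smul, ← map_mul, ← map_mul, Prod.mk_mul_mk, Prod.mk_mul_mk,
          mul_comm δ, smul_comm]
      rw [h1]
      exact Submodule.mem_iSup_of_mem i ⟨_, rfl⟩
    · rw [smul_zero]; exact W.zero_mem
    · intro x y hx hy
      rw [smul_add]; exact W.add_mem hx hy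
  -- the set of `δ` with `range (D δ) ≤ W` is a submonoid containing the generators
  let S : Submonoid (Multiplicative (∀ i, ZMod (P i))) :=
    { carrier := {δ | ∀ m : Mb, twlg_ac_D (G := G) P χ δ m ∈ W}
      one_mem' := by
        intro m
        have : twlg_ac_D (G := G) P χ 1 m = 0 := by
          rw [twlg_ac_D_apply]
          have : MonoidAlgebra.of 𝒪 (G × Multiplicative (∀ i, ZMod (P i))) ((1 : G), 1) = 1 := by
            rw [← Prod.one_eq_mk, map_one]
          rw [this, map_one, Units.val_one, one_smul, one_smul, sub_self]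
        rw [this]; exact W.zero_mem
      mul_mem' := by
        intro δ δ' hδ hδ' m
        rw [twlg_ac_D_mul]
        exact W.add_mem (hstab δ _ (hδ' m)) (W.smul_mem _ (hδ m)) }
  have hgen : ∀ i, twlg_gen P i ∈ S := fun i m =>
    Submodule.mem_iSup_of_mem i ⟨m, rfl⟩
  have hall : ∀ δ : Multiplicative (∀ i, ZMod (P i)), δ ∈ S := by
    intro δ
    obtain ⟨k, rfl⟩ := (twlg_expEquiv P).surjective δ
    rw [← twlg_prod_gen]
    exact Submonoid.prod_mem _ fun i _ => Submonoid.pow_mem _ (hgen i) _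
  apply le_antisymm
  · rw [twc_chiSub, Submodule.span_le]
    rintro x ⟨δ, m, rfl⟩
    have := hall δ m
    rwa [twlg_ac_D_apply] at this
  · rw [hW]
    refine iSup_le fun i => ?_
    rintro _ ⟨m, rfl⟩
    rw [twlg_ac_D_apply]
    exact Submodule.subset_span ⟨_, m, rfl⟩

end C3

end Fermat.Agent.TW
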