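/-
Project TW (S43), block [A] LG, cell A1' `TraceVar` (helper29): the order bound at a HARD prime
("trace variant" of the matching lemma).  Mathlib + `TW/LG/Match.lean`.  Prefix `twlg_tv_`.

At a hard prime `ℓ` the module `M^χ` lives where the diamond operator `a` at `ℓ` is a primitive `p`-th
root of unity `ζ`, and `tr ρ(σ_ℓ) - 2` vanishes on `M / (a - 1) M` (level `ℓ ‖ N`: S34), hence is
divisible by `π = ζ - 1` on `M^χ`:  `tr Σ - 2 = π z`.  With `det Σ = 1` Cayley–Hamilton reads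
`(Σ - 1)² = π z Σ`.  Since `π^(p-1) ∈ p 𝒪`, an element `Σ` of `p`-power order with this property has
order dividing `p`:

* `twlg_tv_pow_p_sub_one` : `(1 + V)^p - 1 = V (V^(p-1) + p (1 + V v))`;
* `twlg_tv_step0`         : `(Σ^p - 1)² = p π g`;
* `twlg_tv_stepk`         : `W = 1 + Y₁`, `Y₁² = p π g` ⟹ `W^(p^k) - 1 = p^k Y₁ (1 + n_k)`, `n_k ∈ (π, Y₁, p)`;
* `twlg_tv_pow_le`        : `(π, Y₁, p)^(p+2) ≤ (p)`;
* `twlg_tv_main`          : **`Σ^p = 1`** on a finite `p`-torsion-free `𝒪`-module (`p ∈ rad 𝒪`).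
-/
import Mathlib
import Fermat.Agent.TW.LG.Match

set_option autoImplicit false

namespace Fermat.Agent.TW

open Polynomial Finset

section Core

variable {C : Type*} [CommRing C] (p : ℕ) [hp : Fact p.Prime]

/-- `(1 + V)^p - 1 = V (V^(p-1) + p (1 + V v))` -/
theorem twlg_tv_pow_p_sub_one (V : C) :
    ∃ v : C, (1 + V) ^ p - 1 = V * (V ^ (p - 1) + (p : C) * (1 + V * v)) := by
  obtain ⟨v, hv⟩ := twlg_id1 p V
  refine ⟨v, ?_⟩
  have h := twlg_Phi_mul p (1 + V)
  rw [← h, hv]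
  ring

include hp in
/-- `p - 1 = 2 m`, `1 ≤ m` for an odd prime -/
theorem twlg_tv_half (hp2 : p ≠ 2) : ∃ m : ℕ, p - 1 = 2 * m ∧ 1 ≤ m := by
  rcases hp.out.eq_two_or_odd' with h | h
  · exact absurd h hp2
  · obtain ⟨k, hk⟩ := h
    have := hp.out.two_le
    exact ⟨k, by omega, by omega⟩

include hp in
/-- first step: `(Σ^p - 1)² = p π g` -/
theorem twlg_tv_step0 (hp2 : p ≠ 2) (Sg z ϖ e : C) (hϖ : ϖ ^ (p - 1) = (p : C) * e)
    (hCH : (Sg - 1) ^ 2 = ϖ * z * Sg) :
    ∃ g : C, (Sg ^ p - 1) ^ 2 = (p : C) * ϖ * g := by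
  obtain ⟨m, hm, -⟩ := twlg_tv_half p hp2
  obtain ⟨v, hv⟩ := twlg_tv_pow_p_sub_one p (Sg - 1)
  rw [show (1 : C) + (Sg - 1) = Sg by ring] at hv
  set Y : C := Sg - 1 with hY
  have hYp : Y ^ (p - 1) = ϖ ^ m * (z * Sg) ^ m := by
    rw [hm, pow_mul, hCH, ← mul_pow]
    congr 1
    ring
  have hϖm : (ϖ ^ m) ^ 2 = (p : C) * e := by
    rw [← pow_mul, mul_comm, ← hm, hϖ]
  set c : C := (z * Sg) ^ m with hc
  set w : C := 1 + Y * v with hw
  refine ⟨z * Sg * (e * c ^ 2 + 2 * ϖ ^ m * c * w + (p : C) * w ^ 2), ?_⟩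
  rw [hv, hYp]
  linear_combination (ϖ ^ m * c + (p : C) * w) ^ 2 * hCH + ϖ * z * Sg * c ^ 2 * hϖm

include hp in
/-- the induction: `W^(p^k) - 1 = p^k Y₁ (1 + n_k)` with `n_k ∈ (ϖ, Y₁, p)` -/
theorem twlg_tv_stepk (hp2 : p ≠ 2) (W Y1 ϖ g : C) (hW : W = 1 + Y1)
    (hY1 : Y1 ^ 2 = (p : C) * ϖ * g) (k : ℕ) (hk : 1 ≤ k) :
    ∃ n ∈ Ideal.span ({ϖ, Y1, (p : C)} : Set C), W ^ p ^ k - 1 = (p : C) ^ k * Y1 * (1 + n) := by
  obtain ⟨m, hm, hm1⟩ := twlg_tv_half p hp2
  have hϖJ : ϖ ∈ Ideal.span ({ϖ, Y1, (p : C)} : Set C) := Ideal.subset_span (by simp)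
  have hYJ : Y1 ∈ Ideal.span ({ϖ, Y1, (p : C)} : Set C) := Ideal.subset_span (by simp)
  have hpJ : (p : C) ∈ Ideal.span ({ϖ, Y1, (p : C)} : Set C) := Ideal.subset_span (by simp)
  induction k, hk using Nat.le_induction with
  | base =>
    obtain ⟨v1, hv1⟩ := twlg_tv_pow_p_sub_one p Y1
    rw [← hW] at hv1
    have hYp : Y1 ^ (p - 1) = (p : C) * (ϖ * ((p : C) ^ (m - 1) * ϖ ^ (m - 1) * g ^ m)) := by
      rw [hm, pow_mul, hY1, mul_pow, mul_pow]
      have e1 : (p : C) ^ m = (p : C) * (p : C) ^ (m - 1) := by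
        rw [← pow_succ']
        congr 1
        omega
      have e2 : ϖ ^ m = ϖ * ϖ ^ (m - 1) := by
        rw [← pow_succ']
        congr 1
        omega
      rw [e1, e2]
      ring
    refine ⟨ϖ * ((p : C) ^ (m - 1) * ϖ ^ (m - 1) * g ^ m) + Y1 * v1, ?_, ?_⟩
    · exact Ideal.add_mem _ (Ideal.mul_mem_right _ _ hϖJ) (Ideal.mul_mem_right _ _ hYJ)
    · rw [pow_one, pow_one, hv1, hYp]
      ring
  | succ k hk ih =>
    obtain ⟨n, hn, hV⟩ := ih
    set V : C := W ^ p ^ k - 1 with hVdef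
    obtain ⟨v', hv'⟩ := twlg_tv_pow_p_sub_one p V
    have hWV : (1 : C) + V = W ^ p ^ k := by rw [hVdef]; ring
    rw [hWV, ← pow_mul, ← pow_succ] at hv'
    have hp3 : p - 1 = 2 + (p - 3) := by
      have := hp.out.two_le
      omega
    obtain ⟨j, hj⟩ : ∃ j : ℕ, 2 * k = 2 + j := ⟨2 * k - 2, by omega⟩
    -- `V ^ (p - 1) = p * (p * s)`
    set s : C := (p : C) ^ j * Y1 ^ 2 * (1 + n) ^ 2 * V ^ (p - 3) with hs
    have hVp : V ^ (p - 1) = (p : C) * ((p : C) * s) := by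
      rw [hp3, pow_add, hs]
      have : V ^ 2 = (p : C) ^ (2 * k) * Y1 ^ 2 * (1 + n) ^ 2 := by
        rw [hV]
        ring
      rw [this, hj, pow_add]
      ring
    refine ⟨n + ((p : C) * s + V * v') + n * ((p : C) * s + V * v'), ?_, ?_⟩
    · have h1 : (p : C) * s + V * v' ∈ Ideal.span ({ϖ, Y1, (p : C)} : Set C) := by
        apply Ideal.add_mem
        · exact Ideal.mul_mem_right _ _ hpJ
        · rw [hV]
          have : (p : C) ^ k * Y1 * (1 + n) * v' = Y1 * ((p : C) ^ k * (1 + n) * v') := by ring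
          rw [this]
          exact Ideal.mul_mem_right _ _ hYJ
      exact Ideal.add_mem _ (Ideal.add_mem _ hn h1) (Ideal.mul_mem_left _ _ h1)
    · rw [hv', hVp, hV]
      ring

include hp in
/-- `(ϖ, Y₁, p)^(p+2) ≤ (p)` when `ϖ^(p-1), Y₁² ∈ (p)` -/
theorem twlg_tv_pow_le (ϖ Y1 e g' : C) (hϖ : ϖ ^ (p - 1) = (p : C) * e)
    (hY1 : Y1 ^ 2 = (p : C) * g') :
    Ideal.span ({ϖ, Y1, (p : C)} : Set C) ^ (p + 2) ≤ Ideal.span {(p : C)} := by
  have h1 : Ideal.span ({ϖ, Y1, (p : C)} : Set C) =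
      (Ideal.span {ϖ} ⊔ Ideal.span {Y1}) ⊔ Ideal.span {(p : C)} := by
    rw [Ideal.span_insert, Ideal.span_insert, sup_assoc]
  have hp2 : p + 2 = ((p - 1) + 2) + 1 := by
    have := hp.out.two_le
    omega
  rw [h1, hp2]
  refine Ideal.sup_pow_add_le_pow_sup_pow.trans (sup_le ?_ ?_)
  · refine Ideal.sup_pow_add_le_pow_sup_pow.trans (sup_le ?_ ?_)
    · rw [Ideal.span_singleton_pow, hϖ]
      rw [Ideal.span_singleton_le_span_singleton]
      exact ⟨e, rfl⟩
    · rw [Ideal.span_singleton_pow, hY1]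
      rw [Ideal.span_singleton_le_span_singleton]
      exact ⟨g', rfl⟩
  · rw [pow_one]

end Core

section Main

variable {O C P : Type*} [CommRing O] [CommRing C] [Algebra O C] [AddCommGroup P] [Module O P]
  [Module C P] [IsScalarTower O C P] [Module.Finite O P]
variable (p : ℕ) [hp : Fact p.Prime]

omit hp [Module.Finite O P] in
/-- `p^j`-torsion-freeness from `p`-torsion-freeness -/
theorem twlg_tv_pow_torsion (hpt : ∀ m : P, p • m = 0 → m = 0) (j : ℕ) (x : P)
    (hx : (p ^ j) • x = 0) : x = 0 := by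
  induction j with
  | zero => simpa using hx
  | succ j ih =>
    apply ih
    apply hpt
    rw [← mul_smul, ← pow_succ']
    exact hx

omit hp in
/-- **Nakayama for `X = n X`, `n` topologically nilpotent**: if `n ^ K ∈ I C` for an ideal `I` of `O`
in the Jacobson radical and `X = n X` on `P`, then `X = 0` on `P`. -/
theorem twlg_tv_nak (I : Ideal O) (hI : I ≤ Ideal.jacobson (⊥ : Ideal O)) (X n : C) (K : ℕ)
    (hK : n ^ K ∈ I.map (algebraMap O C)) (h : ∀ m : P, X • m = (n * X) • m) :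
    ∀ m : P, X • m = 0 := by
  have hiter : ∀ (k : ℕ) (m : P), X • m = (n ^ k * X) • m := by
    intro k
    induction k with
    | zero => intro m; rw [pow_zero, one_mul]
    | succ k ih =>
      intro m
      rw [ih m, mul_smul, h m, ← mul_smul, pow_succ]
      congr 1
      ring
  have hmem : ∀ y ∈ I.map (algebraMap O C), ∀ m : P,
      (y * X) • m ∈ I • twlg_img (O := O) (Q := P) X := by
    intro y hy
    unfold Ideal.map at hy
    induction hy using Submodule.span_induction with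
    | mem y hy =>
      obtain ⟨o, ho, rfl⟩ := hy
      intro m
      rw [mul_smul, algebraMap_smul]
      exact Submodule.smul_mem_smul ho (twlg_mem_img.2 ⟨m, rfl⟩)
    | zero => intro m; rw [zero_mul, zero_smul]; exact Submodule.zero_mem _
    | add y y' _ _ hy hy' =>
      intro m
      rw [add_mul, add_smul]
      exact Submodule.add_mem _ (hy m) (hy' m)
    | smul c y _ hy =>
      intro m
      have : (c • y * X) • m = (y * X) • (c • m) := by
        rw [smul_eq_mul, ← mul_smul]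
        congr 1
        ring
      rw [this]
      exact hy (c • m)
  have hbot : twlg_img (O := O) (Q := P) X = ⊥ := by
    apply Submodule.eq_bot_of_le_smul_of_le_jacobson_bot I _ (twlg_img_fg X) _ hI
    intro s hs
    obtain ⟨m, rfl⟩ := twlg_mem_img.1 hs
    rw [hiter K m]
    exact hmem _ hK m
  intro m
  have hm : X • m ∈ twlg_img (O := O) (Q := P) X := twlg_mem_img.2 ⟨m, rfl⟩
  rwa [hbot, Submodule.mem_bot] at hm

include hp in
/-- **The trace variant (order bound at a hard prime).** `C` a commutative `O`-algebra acting on a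
finite `p`-torsion-free `O`-module `P`, `p` in the Jacobson radical of `O`; `π ∈ O` with
`π^(p-1) ∈ p O` (e.g. `π = ζ_p - 1`); `Σ, z ∈ C` with `(Σ - 1)² = π z Σ` (Cayley–Hamilton for
`det Σ = 1`, `tr Σ - 2 = π z`) and `Σ` of `p`-power order on `P`. Then `Σ^p = 1` on `P`. -/
theorem twlg_tv_main (hp2 : p ≠ 2) (hpJ : (p : O) ∈ Ideal.jacobson (⊥ : Ideal O))
    (hpt : ∀ m : P, p • m = 0 → m = 0)
    (Sg z : C) (π e : O) (hπ : π ^ (p - 1) = (p : O) * e)
    (hCH : (Sg - 1) ^ 2 = algebraMap O C π * z * Sg)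
    (N : ℕ) (hord : ∀ m : P, Sg ^ p ^ N • m = m) : ∀ m : P, Sg ^ p • m = m := by
  set ϖ : C := algebraMap O C π with hϖdef
  have hϖ : ϖ ^ (p - 1) = (p : C) * algebraMap O C e := by
    rw [hϖdef, ← map_pow, hπ, map_mul, map_natCast]
  obtain ⟨g, hg⟩ := twlg_tv_step0 p hp2 Sg z ϖ (algebraMap O C e) hϖ hCH
  rcases N with _ | N
  · intro m
    refine twlg_pow_smul_eq Sg (fun q => ?_) p m
    have := hord q
    rwa [pow_zero, pow_one] at this
  rcases N with _ | N
  · intro m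
    have := hord m
    rwa [zero_add, pow_one] at this
  set Y1 : C := Sg ^ p - 1 with hY1def
  obtain ⟨n, hn, hV⟩ := twlg_tv_stepk p hp2 (Sg ^ p) Y1 ϖ g (by rw [hY1def]; ring) hg (N + 1)
    (by omega)
  -- `Y₁ (1 + n)` kills `P`
  have hkill : ∀ m : P, (Y1 * (1 + n)) • m = 0 := by
    intro m
    apply twlg_tv_pow_torsion p hpt (N + 1)
    have h0 : ((p : C) ^ (N + 1) * Y1 * (1 + n)) • m = 0 := by
      rw [← hV, sub_smul, one_smul, ← pow_mul, ← pow_succ', hord m, sub_self]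
    rw [mul_assoc, mul_smul, ← Nat.cast_pow, Nat.cast_smul_eq_nsmul] at h0
    exact h0
  have hneg : ∀ m : P, Y1 • m = (-n * Y1) • m := by
    intro m
    have h := hkill m
    rw [mul_add, mul_one, add_smul] at h
    rw [neg_mul, neg_smul, mul_comm n Y1]
    exact eq_neg_of_add_eq_zero_left h
  -- `n ^ (p + 2) ∈ (p)`
  have hle := twlg_tv_pow_le p ϖ Y1 (algebraMap O C e) (ϖ * g) hϖ (by rw [hg]; ring)
  have hnK : n ^ (p + 2) ∈ Ideal.span {(p : C)} := hle (Ideal.pow_mem_pow hn (p + 2))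
  have hmap : (Ideal.span {(p : O)}).map (algebraMap O C) = Ideal.span {(p : C)} := by
    rw [Ideal.map_span, Set.image_singleton, map_natCast]
  have hY0 : ∀ m : P, Y1 • m = 0 := by
    refine twlg_tv_nak (Ideal.span {(p : O)}) ?_ Y1 (-n) (p + 2) ?_ hneg
    · rw [Ideal.span_le]
      intro x hx
      rw [Set.mem_singleton_iff] at hx
      rw [hx]
      exact hpJ
    · rw [hmap, neg_pow]
      exact Ideal.mul_mem_left _ _ hnK
  intro m
  have hm := hY0 m
  rwa [hY1def, sub_smul, one_smul, sub_eq_zero] at hm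

omit hp in
/-- `∑_{i<k} B^i = k + (B - 1) G` -/
theorem twlg_tv_geom {C : Type*} [CommRing C] (B : C) (k : ℕ) :
    ∃ G : C, ∑ i ∈ range k, B ^ i = (k : C) + (B - 1) * G := by
  induction k with
  | zero => exact ⟨0, by simp⟩
  | succ k ih =>
    obtain ⟨G, hG⟩ := ih
    refine ⟨G + ∑ i ∈ range k, B ^ i, ?_⟩
    have h := geom_sum_mul B k
    rw [Finset.sum_range_succ]
    push_cast
    linear_combination hG - h

omit hp in
/-- if `X (k + Y G) = 0` on `P`, `k` a unit of `O` and `Y` topologically nilpotent, then `X = 0`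
on `P` -/
theorem twlg_tv_unit_nak (I : Ideal O) (hI : I ≤ Ideal.jacobson (⊥ : Ideal O)) (X Y G : C)
    (u : O) (k K : ℕ) (hu : u * (k : O) = 1) (hYK : Y ^ K ∈ I.map (algebraMap O C))
    (h : ∀ m : P, (X * ((k : C) + Y * G)) • m = 0) : ∀ m : P, X • m = 0 := by
  refine twlg_tv_nak I hI X (-(algebraMap O C u * G) * Y) K ?_ ?_
  · rw [mul_pow]
    exact Ideal.mul_mem_left _ _ hYK
  · intro m
    have h1 := h m
    have huC : algebraMap O C u * (k : C) = 1 := by
      rw [← map_natCast (algebraMap O C), ← map_mul, hu, map_one]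
    have e : X = -(algebraMap O C u * G) * Y * X + algebraMap O C u * (X * ((k : C) + Y * G)) := by
      linear_combination (-X) * huC
    conv_lhs => rw [e]
    rw [add_smul, mul_smul (algebraMap O C u), h1, smul_zero, add_zero]

omit hp in
/-- **Finite order from the tame relation.**  `Σ Σ' = 1`, `(Σ - 1)² = π z Σ`, and `Σ^ℓ` is again a
root of `X² - (Σ + Σ') X + 1` (`Φ Σ Φ⁻¹ = Σ^ℓ`), `ℓ = p^N r + 1` with `r` and `ℓ + 1` units of `O`.
Then `(Σ - 1) (Σ^(p^N) - 1) = 0` on `P`. -/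
theorem twlg_tv_fin_order (hpJ : (p : O) ∈ Ideal.jacobson (⊥ : Ideal O))
    (Sg Sg' z : C) (hinv : Sg * Sg' = 1) (π e : O) (hπ : π ^ (p - 1) = (p : O) * e)
    (hCH : (Sg - 1) ^ 2 = algebraMap O C π * z * Sg)
    (ℓ N r : ℕ) (hℓ : ℓ = p ^ N * r + 1) (u1 u2 : O) (hu1 : u1 * ((ℓ + 1 : ℕ) : O) = 1)
    (hu2 : u2 * (r : O) = 1)
    (hrel : Sg ^ (2 * ℓ) - (Sg + Sg') * Sg ^ ℓ + 1 = 0) :
    ∀ m : P, ((Sg - 1) * (Sg ^ p ^ N - 1)) • m = 0 := by
  have hIJ : Ideal.span {(p : O)} ≤ Ideal.jacobson (⊥ : Ideal O) := by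
    rw [Ideal.span_le]
    intro x hx
    rw [Set.mem_singleton_iff] at hx
    rw [hx]
    exact hpJ
  have hmap : (Ideal.span {(p : O)}).map (algebraMap O C) = Ideal.span {(p : C)} := by
    rw [Ideal.map_span, Set.image_singleton, map_natCast]
  -- `Σ - 1` is topologically nilpotent
  have hYK : (Sg - 1) ^ (2 * (p - 1)) ∈ (Ideal.span {(p : O)}).map (algebraMap O C) := by
    rw [hmap, pow_mul, hCH, mul_pow, mul_pow, ← map_pow, hπ, map_mul, map_natCast]
    rw [Ideal.mem_span_singleton]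
    exact ⟨algebraMap O C e * z ^ (p - 1) * Sg ^ (p - 1), by ring⟩
  obtain ⟨L, hL⟩ : ∃ L : ℕ, L = p ^ N * r := ⟨_, rfl⟩
  rw [← hL] at hℓ
  -- `(Σ^L - 1) (Σ^(L+2) - 1) = 0`
  have h0 : (Sg ^ L - 1) * (Sg ^ (L + 2) - 1) = 0 := by
    rw [hℓ] at hrel
    have e1 : Sg ^ (2 * (L + 1)) = Sg ^ L * Sg ^ L * Sg ^ 2 := by ring
    have e2 : Sg ^ (L + 1) = Sg ^ L * Sg := by ring
    have e3 : Sg ^ (L + 2) = Sg ^ L * Sg ^ 2 := by ring
    rw [e1, e2] at hrel
    rw [e3]
    linear_combination hrel + Sg ^ L * hinv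
  obtain ⟨G, hG⟩ := twlg_tv_geom Sg (L + 2)
  have hgs := geom_sum_mul Sg (L + 2)
  -- first Nakayama: `X = (Σ^L - 1) (Σ - 1)` vanishes on `P`
  have hX : ∀ m : P, ((Sg ^ L - 1) * (Sg - 1)) • m = 0 := by
    refine twlg_tv_unit_nak (Ideal.span {(p : O)}) hIJ _ (Sg - 1) G u1 (L + 2) (2 * (p - 1)) ?_
      hYK ?_
    · have : ℓ + 1 = L + 2 := by omega
      rw [← this]
      exact hu1
    · intro m
      have : (Sg ^ L - 1) * (Sg - 1) * (((L + 2 : ℕ) : C) + (Sg - 1) * G) = 0 := by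
        rw [← hG]
        linear_combination h0 + (Sg ^ L - 1) * hgs
      rw [this, zero_smul]
  -- second Nakayama
  obtain ⟨B, hB⟩ : ∃ B : C, B = Sg ^ p ^ N := ⟨_, rfl⟩
  obtain ⟨Gr, hGr⟩ := twlg_tv_geom B r
  have hgsB := geom_sum_mul B r
  have hgsS := geom_sum_mul Sg (p ^ N)
  rw [← hB] at hgsS
  have hBL : B ^ r = Sg ^ L := by rw [hB, hL, pow_mul]
  have hX' : ∀ m : P, ((B - 1) * (Sg - 1)) • m = 0 := by
    refine twlg_tv_unit_nak (Ideal.span {(p : O)}) hIJ _ (Sg - 1)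
      ((∑ i ∈ range (p ^ N), Sg ^ i) * Gr) u2 r (2 * (p - 1)) hu2 hYK ?_
    intro m
    have : (B - 1) * (Sg - 1) * ((r : C) + (Sg - 1) * ((∑ i ∈ range (p ^ N), Sg ^ i) * Gr)) =
        (Sg ^ L - 1) * (Sg - 1) := by
      linear_combination (B - 1) * (Sg - 1) * Gr * hgsS - (B - 1) * (Sg - 1) * hGr +
        (Sg - 1) * hgsB + (Sg - 1) * hBL
    rw [this]
    exact hX m
  intro m
  rw [mul_comm, ← hB]
  exact hX' m

include hp in
/-- **(A-X), commutative core**: under the hypotheses of `twlg_tv_fin_order` and `twlg_tv_main`, if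
moreover `Σ - 1` is injective on `P`, then `Φ_p(Σ) = ∑_{k<p} Σ^k` vanishes on `P`. -/
theorem twlg_tv_Phi (hp2 : p ≠ 2) (hpJ : (p : O) ∈ Ideal.jacobson (⊥ : Ideal O))
    (hpt : ∀ m : P, p • m = 0 → m = 0)
    (Sg Sg' z : C) (hinv : Sg * Sg' = 1) (π e : O) (hπ : π ^ (p - 1) = (p : O) * e)
    (hCH : (Sg - 1) ^ 2 = algebraMap O C π * z * Sg)
    (ℓ N r : ℕ) (hℓ : ℓ = p ^ N * r + 1) (u1 u2 : O) (hu1 : u1 * ((ℓ + 1 : ℕ) : O) = 1)
    (hu2 : u2 * (r : O) = 1)
    (hrel : Sg ^ (2 * ℓ) - (Sg + Sg') * Sg ^ ℓ + 1 = 0)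
    (hinj : ∀ m : P, (Sg - 1) • m = 0 → m = 0) :
    ∀ m : P, (∑ k ∈ range p, Sg ^ k) • m = 0 := by
  have h1 := twlg_tv_fin_order (P := P) p hpJ Sg Sg' z hinv π e hπ hCH ℓ N r hℓ u1 u2 hu1 hu2 hrel
  have hord : ∀ m : P, Sg ^ p ^ N • m = m := by
    intro m
    have := hinj _ (by rw [← mul_smul]; exact h1 m)
    rwa [sub_smul, one_smul, sub_eq_zero] at this
  have h2 := twlg_tv_main p hp2 hpJ hpt Sg z π e hπ hCH N hord
  intro m
  apply hinj
  rw [← mul_smul, mul_comm, geom_sum_mul, sub_smul, one_smul, h2 m, sub_self]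

end Main

section Sub

open scoped IsMulCommutative

/-- **(A-X) in a finite (possibly noncommutative) `O`-algebra `E`**: `Σ, Σ', z` lie in a commutative
subalgebra `C` of `E`. -/
theorem twlg_tv_Phi_sub {O E : Type*} [CommRing O] [Ring E] [Algebra O E] [Module.Finite O E]
    (p : ℕ) [hp : Fact p.Prime] (hp2 : p ≠ 2) (hpJ : (p : O) ∈ Ideal.jacobson (⊥ : Ideal O))
    (hpt : ∀ x : E, p • x = 0 → x = 0) (C : Subalgebra O E) [IsMulCommutative C]
    (Sg Sg' z : E) (hSg : Sg ∈ C) (hSg' : Sg' ∈ C) (hz : z ∈ C)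
    (hinv : Sg * Sg' = 1) (π e : O) (hπ : π ^ (p - 1) = (p : O) * e)
    (hCH : (Sg - 1) ^ 2 = π • (z * Sg))
    (ℓ N r : ℕ) (hℓ : ℓ = p ^ N * r + 1) (u1 u2 : O) (hu1 : u1 * ((ℓ + 1 : ℕ) : O) = 1)
    (hu2 : u2 * (r : O) = 1)
    (hrel : Sg ^ (2 * ℓ) - (Sg + Sg') * Sg ^ ℓ + 1 = 0)
    (hinj : ∀ x : E, (Sg - 1) * x = 0 → x = 0) :
    ∑ k ∈ range p, Sg ^ k = 0 := by
  have key := twlg_tv_Phi (O := O) (C := C) (P := E) p hp2 hpJ hpt ⟨Sg, hSg⟩ ⟨Sg', hSg'⟩ ⟨z, hz⟩
    (Subtype.ext (by simpa using hinv)) π e hπ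
    (Subtype.ext (by
      simp only [Subalgebra.coe_pow, Subalgebra.coe_sub, Subalgebra.coe_one, Subalgebra.coe_mul,
        Subalgebra.coe_algebraMap]
      rw [hCH, Algebra.smul_def, mul_assoc]))
    ℓ N r hℓ u1 u2 hu1 hu2
    (Subtype.ext (by
      simp only [Subalgebra.coe_pow, Subalgebra.coe_sub, Subalgebra.coe_one, Subalgebra.coe_mul,
        Subalgebra.coe_add, Subalgebra.coe_zero]
      exact hrel))
    (fun x hx => hinj x (by
      rw [Subalgebra.smul_def] at hx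
      simpa using hx))
  have h1 := key 1
  rw [Subalgebra.smul_def, smul_eq_mul, mul_one] at h1
  simpa using h1

end Sub

section Final

open Matrix

/-- Cayley–Hamilton for `2 × 2` matrices -/
theorem twlg_tv_ch {T : Type*} [CommRing T] (A : Matrix (Fin 2) (Fin 2) T) :
    A * A = A.trace • A - A.det • (1 : Matrix (Fin 2) (Fin 2) T) := by
  ext i j
  fin_cases i <;> fin_cases j <;>
    simp [Matrix.mul_apply, Fin.sum_univ_two, Matrix.trace_fin_two, Matrix.det_fin_two] <;> ring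

/-- `A + adj A = tr A` for `2 × 2` matrices -/
theorem twlg_tv_add_adj {T : Type*} [CommRing T] (A : Matrix (Fin 2) (Fin 2) T) :
    A + A.adjugate = A.trace • (1 : Matrix (Fin 2) (Fin 2) T) := by
  ext i j
  fin_cases i <;> fin_cases j <;>
    simp [Matrix.adjugate_fin_two, Matrix.trace_fin_two] <;> ring

/-- `det (A - 1) = det A - tr A + 1` for `2 × 2` matrices -/
theorem twlg_tv_det_sub_one {T : Type*} [CommRing T] (A : Matrix (Fin 2) (Fin 2) T) :
    (A - 1).det = A.det - A.trace + 1 := by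
  simp [Matrix.det_fin_two, Matrix.trace_fin_two]
  ring

variable {O T M : Type*} [CommRing O] [CommRing T] [Algebra O T] [AddCommGroup M] [Module O M]
  [Module T M] [IsScalarTower O T M]

/-- the division of `τ` by `π` on a `π`-torsion-free module `M` with `τ M ⊆ π M` -/
noncomputable def twlg_tv_div (π : O) (τ : T) (hπt : ∀ m : M, π • m = 0 → m = 0)
    (hdiv : ∀ m : M, ∃ m', τ • m = π • m') : Module.End O M where
  toFun m := (hdiv m).choose
  map_add' a b := by
    have ha := (hdiv a).choose_spec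
    have hb := (hdiv b).choose_spec
    have hab := (hdiv (a + b)).choose_spec
    generalize (hdiv a).choose = ca at ha ⊢
    generalize (hdiv b).choose = cb at hb ⊢
    generalize (hdiv (a + b)).choose = cab at hab ⊢
    apply sub_eq_zero.1
    apply hπt
    rw [smul_sub, smul_add, ← ha, ← hb, ← hab, smul_add, sub_self]
  map_smul' c a := by
    have ha := (hdiv a).choose_spec
    have hca := (hdiv (c • a)).choose_spec
    generalize (hdiv a).choose = ca at ha ⊢
    generalize (hdiv (c • a)).choose = cca at hca ⊢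
    apply sub_eq_zero.1
    apply hπt
    rw [smul_sub, ← hca, RingHom.id_apply, smul_comm π c, ← ha, smul_comm τ c, sub_self]

theorem twlg_tv_div_spec (π : O) (τ : T) (hπt : ∀ m : M, π • m = 0 → m = 0)
    (hdiv : ∀ m : M, ∃ m', τ • m = π • m') (m : M) :
    π • (twlg_tv_div π τ hπt hdiv m) = τ • m :=
  ((hdiv m).choose_spec).symm

theorem twlg_tv_div_comm (π : O) (τ : T) (hπt : ∀ m : M, π • m = 0 → m = 0)
    (hdiv : ∀ m : M, ∃ m', τ • m = π • m') (x : T) (m : M) :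
    twlg_tv_div π τ hπt hdiv (x • m) = x • twlg_tv_div π τ hπt hdiv m := by
  apply sub_eq_zero.1
  apply hπt
  rw [smul_sub, twlg_tv_div_spec, smul_comm π x, twlg_tv_div_spec, smul_comm τ x, sub_self]

open scoped IsMulCommutative in
/-- **(A-X), final form.**  `M` a finite free `O`-module, `p`-torsion-free and `π`-torsion-free
(`π^(p-1) ∈ p O`), `T` a commutative `O`-algebra acting on `M`; `Σ, Φ ∈ M₂(T)` with `det Σ = 1`,
`det Φ` a unit and the tame relation `Φ Σ = Σ^ℓ Φ`, `ℓ = p^N r + 1` with `r`, `ℓ + 1` units of `O`;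
`(tr Σ - 2) M ⊆ π M` and `tr Σ - 2` injective on `M`.  Then every entry of `Φ_p(Σ) = ∑_{k<p} Σ^k`
kills `M`. -/
theorem twlg_tv_final [Module.Finite O M] [Module.Free O M]
    (p : ℕ) [hp : Fact p.Prime] (hp2 : p ≠ 2) (hpJ : (p : O) ∈ Ideal.jacobson (⊥ : Ideal O))
    (hpt : ∀ m : M, p • m = 0 → m = 0)
    (Sg Ph : Matrix (Fin 2) (Fin 2) T) (hdet : Sg.det = 1) (hPh : IsUnit Ph.det)
    (ℓ N r : ℕ) (hℓ : ℓ = p ^ N * r + 1) (u1 u2 : O) (hu1 : u1 * ((ℓ + 1 : ℕ) : O) = 1)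
    (hu2 : u2 * (r : O) = 1) (htame : Ph * Sg = Sg ^ ℓ * Ph)
    (π e : O) (hπ : π ^ (p - 1) = (p : O) * e) (hπt : ∀ m : M, π • m = 0 → m = 0)
    (hdiv : ∀ m : M, ∃ m', (Sg.trace - 2) • m = π • m')
    (hinj : ∀ m : M, (Sg.trace - 2) • m = 0 → m = 0) :
    ∀ (i j : Fin 2) (m : M), ((∑ k ∈ range p, Sg ^ k) i j) • m = 0 := by
  classical
  set act : T →ₐ[O] Module.End O M := Algebra.lsmul O O M with hact
  have hact_apply : ∀ (x : T) (m : M), act x m = x • m := fun x m => rfl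
  set z : Module.End O M := twlg_tv_div π (Sg.trace - 2) hπt hdiv with hz
  set F : Matrix (Fin 2) (Fin 2) T →+* Matrix (Fin 2) (Fin 2) (Module.End O M) :=
    act.toRingHom.mapMatrix with hF
  have hFapp : ∀ (A : Matrix (Fin 2) (Fin 2) T) (i j : Fin 2), F A i j = act (A i j) :=
    fun A i j => rfl
  -- identities in `M₂(T)`
  have h1 : Sg * Sg.adjugate = 1 := by rw [Matrix.mul_adjugate, hdet, one_smul]
  have h1' : Sg.adjugate * Sg = 1 := by rw [Matrix.adjugate_mul, hdet, one_smul]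
  have hCH : (Sg - 1) ^ 2 = (Sg.trace - 2) • Sg := by
    have h := twlg_tv_ch Sg
    rw [hdet, one_smul] at h
    rw [pow_two, sub_mul, mul_sub, mul_one, one_mul, h, sub_smul]
    module
  have hrelT : Sg ^ (2 * ℓ) - (Sg + Sg.adjugate) * Sg ^ ℓ + 1 = 0 := by
    have hinvP : Ph * Ph⁻¹ = 1 := Matrix.mul_nonsing_inv Ph hPh
    have hinvP' : Ph⁻¹ * Ph = 1 := Matrix.nonsing_inv_mul Ph hPh
    have hconj : Sg ^ ℓ = Ph * Sg * Ph⁻¹ := by
      rw [htame, mul_assoc, hinvP, mul_one]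
    have htr : (Sg ^ ℓ).trace = Sg.trace := by
      rw [hconj, Matrix.trace_mul_comm, ← mul_assoc, hinvP', one_mul]
    have hdt : (Sg ^ ℓ).det = 1 := by rw [Matrix.det_pow, hdet, one_pow]
    have h := twlg_tv_ch (Sg ^ ℓ)
    rw [htr, hdt, one_smul] at h
    rw [twlg_tv_add_adj, smul_mul_assoc, one_mul, two_mul, pow_add, h]
    abel
  -- the images in `E = M₂(End_O M)`
  have hzact : ∀ x : T, z * act x = act x * z := by
    intro x
    refine LinearMap.ext fun m => ?_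
    rw [Module.End.mul_apply, Module.End.mul_apply, hact_apply, hact_apply]
    exact twlg_tv_div_comm π (Sg.trace - 2) hπt hdiv x m
  have hzF : ∀ A : Matrix (Fin 2) (Fin 2) T,
      Matrix.diagonal (fun _ : Fin 2 => z) * F A = F A * Matrix.diagonal (fun _ : Fin 2 => z) := by
    intro A
    ext i j
    rw [Matrix.diagonal_mul, Matrix.mul_diagonal, hFapp, hzact]
  have hS1 : F Sg * F Sg.adjugate = 1 := by rw [← map_mul, h1, map_one]
  have hS1' : F Sg.adjugate * F Sg = 1 := by rw [← map_mul, h1', map_one]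
  have hτ : act (Sg.trace - 2) = π • z := by
    refine LinearMap.ext fun m => ?_
    rw [hact_apply, LinearMap.smul_apply]
    exact (twlg_tv_div_spec π (Sg.trace - 2) hπt hdiv m).symm
  have hFsmul : ∀ (x : T) (A : Matrix (Fin 2) (Fin 2) T),
      F (x • A) = Matrix.diagonal (fun _ : Fin 2 => act x) * F A := by
    intro x A
    ext i j
    rw [Matrix.diagonal_mul, hFapp, hFapp, Matrix.smul_apply, smul_eq_mul, map_mul]
  have hCHE : (F Sg - 1) ^ 2 = π • (Matrix.diagonal (fun _ : Fin 2 => z) * F Sg) := by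
    have h := congrArg F hCH
    rw [map_pow, map_sub, map_one, hFsmul, hτ] at h
    rw [h, ← smul_mul_assoc]
    congr 1
    ext i j
    by_cases hij : i = j
    · subst hij
      rw [Matrix.smul_apply, Matrix.diagonal_apply_eq, Matrix.diagonal_apply_eq]
    · rw [Matrix.smul_apply, Matrix.diagonal_apply_ne _ hij, Matrix.diagonal_apply_ne _ hij,
        smul_zero]
  have hrelE : F Sg ^ (2 * ℓ) - (F Sg + F Sg.adjugate) * F Sg ^ ℓ + 1 = 0 := by
    have h := congrArg F hrelT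
    rwa [map_add, map_sub, map_mul, map_add, map_pow, map_pow, map_one, map_zero] at h
  -- the commutative subalgebra
  have hcomm : ∀ a ∈ ({F Sg, F Sg.adjugate, Matrix.diagonal (fun _ : Fin 2 => z)} :
      Set (Matrix (Fin 2) (Fin 2) (Module.End O M))),
      ∀ b ∈ ({F Sg, F Sg.adjugate, Matrix.diagonal (fun _ : Fin 2 => z)} :
      Set (Matrix (Fin 2) (Fin 2) (Module.End O M))), a * b = b * a := by
    intro a ha b hb
    simp only [Set.mem_insert_iff, Set.mem_singleton_iff] at ha hb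
    rcases ha with rfl | rfl | rfl <;> rcases hb with rfl | rfl | rfl
    · rfl
    · rw [hS1, hS1']
    · exact (hzF Sg).symm
    · rw [hS1, hS1']
    · rfl
    · exact (hzF Sg.adjugate).symm
    · exact hzF Sg
    · exact hzF Sg.adjugate
    · rfl
  have := Algebra.isMulCommutative_adjoin O hcomm
  -- torsion-freeness and injectivity in `E`
  have hptE : ∀ X : Matrix (Fin 2) (Fin 2) (Module.End O M), p • X = 0 → X = 0 := by
    intro X hX
    ext i j m
    apply hpt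
    have := congrArg (fun Y : Matrix (Fin 2) (Fin 2) (Module.End O M) => Y i j m) hX
    simpa using this
  have hinjE : ∀ X : Matrix (Fin 2) (Fin 2) (Module.End O M), (F Sg - 1) * X = 0 → X = 0 := by
    intro X hX
    have hadj : F (Sg - 1).adjugate * (F Sg - 1) =
        Matrix.diagonal (fun _ : Fin 2 => act (-(Sg.trace - 2))) := by
      have h : (Sg - 1).adjugate * (Sg - 1) = (-(Sg.trace - 2)) • (1 : Matrix (Fin 2) (Fin 2) T) := by
        rw [Matrix.adjugate_mul, twlg_tv_det_sub_one, hdet]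
        congr 1
        ring
      have h' := congrArg F h
      rw [map_mul, map_sub, map_one, hFsmul, map_one, mul_one] at h'
      exact h'
    have h0 : Matrix.diagonal (fun _ : Fin 2 => act (-(Sg.trace - 2))) * X = 0 := by
      rw [← hadj, mul_assoc, hX, mul_zero]
    ext i j m
    apply hinj
    have := congrArg (fun Y : Matrix (Fin 2) (Fin 2) (Module.End O M) => Y i j m) h0
    simp only [Matrix.diagonal_mul, Matrix.zero_apply, LinearMap.zero_apply,
      Module.End.mul_apply, hact_apply, neg_smul, neg_eq_zero] at this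
    exact this
  have key := twlg_tv_Phi_sub (O := O) p hp2 hpJ hptE
    (Algebra.adjoin O ({F Sg, F Sg.adjugate, Matrix.diagonal (fun _ : Fin 2 => z)} :
      Set (Matrix (Fin 2) (Fin 2) (Module.End O M))))
    (F Sg) (F Sg.adjugate) (Matrix.diagonal (fun _ : Fin 2 => z))
    (Algebra.subset_adjoin (by simp)) (Algebra.subset_adjoin (by simp))
    (Algebra.subset_adjoin (by simp)) hS1 π e hπ hCHE ℓ N r hℓ u1 u2 hu1 hu2 hrelE hinjE
  intro i j m
  have h2 : F (∑ k ∈ range p, Sg ^ k) = 0 := by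
    rw [map_sum]
    simp only [map_pow]
    exact key
  have := congrArg (fun Y : Matrix (Fin 2) (Fin 2) (Module.End O M) => Y i j m) h2
  simpa [hFapp, hact_apply] using this

end Final

end Fermat.Agent.TW
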