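/-
Project TW (S43), block [A] LG, cell A4 (Assembly), part 6a `AsXCore` (statement: helper29,
proof: helper6).  Prefix `twlg_ax_`.  The abstract core of **(A-X)**: on
`M^χ = Mb ⧸ twc_chiSub χ` the entries of `Φ_p(Σ) = ∑_{k<p} Σ^k` vanish.
-/
import Mathlib
import Fermat.Agent.TW.LG.TraceVar
import Fermat.Agent.TW.LG.AsChi
import Fermat.Agent.TW.LG.AsLift
import Fermat.Agent.TW.LG.AsAux
import Fermat.Agent.TW.LG.MatchSeam
import Fermat.Agent.TW.Aut.ChiBridge

set_option autoImplicit false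
set_option linter.unusedSectionVars false
set_option linter.style.haveILetI false
set_option maxHeartbeats 1000000

open scoped TensorProduct
open Polynomial IsLocalRing

namespace Fermat.Agent.TW

noncomputable section

section core

variable {O T Mb : Type} [CommRing O] [IsDomain O] [IsLocalRing O] [IsPrincipalIdealRing O]
  [CharZero O] [CommRing T] [Algebra O T] [AddCommGroup Mb] [Module O Mb] [Module T Mb]
  [IsScalarTower O T Mb]
  {G : Type} [CommGroup G] [Finite G] {ι : Type} [Fintype ι] [DecidableEq ι]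

/-- `twc_chiSub χ` is stable under every ring acting `𝒪[G × H]`-linearly. -/
theorem twlg_ax_stab {H : Type} [CommGroup H]
    [Module (MonoidAlgebra O (G × H)) Mb] [IsScalarTower O (MonoidAlgebra O (G × H)) Mb]
    [SMulCommClass T (MonoidAlgebra O (G × H)) Mb] (χ : H →* Oˣ) (x : T) {m : Mb}
    (hm : m ∈ twc_chiSub (G := G) (Mb := Mb) χ) :
    x • m ∈ twc_chiSub (G := G) (Mb := Mb) χ := by
  have h := twe_chi_twc_map_mem χ
    ({ toFun := fun m => x • m
       map_add' := smul_add x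
       map_smul' := fun r m => smul_comm x r m } :
      Module.End (MonoidAlgebra O (G × H)) Mb) hm
  exact h

/-- `twc_chiSub χ` as a `T`-submodule. -/
def twlg_ax_sub {H : Type} [CommGroup H]
    [Module (MonoidAlgebra O (G × H)) Mb] [IsScalarTower O (MonoidAlgebra O (G × H)) Mb]
    [SMulCommClass T (MonoidAlgebra O (G × H)) Mb] (χ : H →* Oˣ) : Submodule T Mb where
  carrier := twc_chiSub (G := G) (Mb := Mb) χ
  add_mem' := (twc_chiSub (G := G) (Mb := Mb) χ).add_mem
  zero_mem' := (twc_chiSub (G := G) (Mb := Mb) χ).zero_mem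
  smul_mem' := fun x _ hm => twlg_ax_stab χ x hm

theorem twlg_ax_mem_sub {H : Type} [CommGroup H]
    [Module (MonoidAlgebra O (G × H)) Mb] [IsScalarTower O (MonoidAlgebra O (G × H)) Mb]
    [SMulCommClass T (MonoidAlgebra O (G × H)) Mb] (χ : H →* Oˣ) (m : Mb) :
    m ∈ twlg_ax_sub (T := T) (G := G) (Mb := Mb) χ ↔ m ∈ twc_chiSub (G := G) (Mb := Mb) χ :=
  Iff.rfl

theorem twlg_ax_restrict {H : Type} [CommGroup H]
    [Module (MonoidAlgebra O (G × H)) Mb] [IsScalarTower O (MonoidAlgebra O (G × H)) Mb]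
    [SMulCommClass T (MonoidAlgebra O (G × H)) Mb] (χ : H →* Oˣ) :
    (twlg_ax_sub (T := T) (G := G) (Mb := Mb) χ).restrictScalars O =
      twc_chiSub (G := G) (Mb := Mb) χ :=
  Submodule.ext fun _ => Iff.rfl

/-- `Mb ⧸ W''` (quotient by the `T`-submodule) is `O`-linearly `Mb ⧸ twc_chiSub χ`. -/
def twlg_ax_equiv {H : Type} [CommGroup H]
    [Module (MonoidAlgebra O (G × H)) Mb] [IsScalarTower O (MonoidAlgebra O (G × H)) Mb]
    [SMulCommClass T (MonoidAlgebra O (G × H)) Mb] (χ : H →* Oˣ) :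
    (Mb ⧸ twc_chiSub (G := G) (Mb := Mb) χ) ≃ₗ[O]
      (Mb ⧸ twlg_ax_sub (T := T) (G := G) (Mb := Mb) χ) :=
  (Submodule.quotEquivOfEq _ _ (twlg_ax_restrict (T := T) χ).symm).trans
    (Submodule.Quotient.restrictScalarsEquiv O (twlg_ax_sub (T := T) (G := G) (Mb := Mb) χ))

/-- **(A-X), abstract core.** -/
theorem twlg_ax_core (p : ℕ) [hp : Fact p.Prime] (hp2 : p ≠ 2)
    (hpO : (p : O) ∈ maximalIdeal O)
    (P : ι → ℕ) [∀ i, NeZero (P i)]
    [Module (MonoidAlgebra O (G × Multiplicative (∀ i, ZMod (P i)))) Mb]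
    [IsScalarTower O (MonoidAlgebra O (G × Multiplicative (∀ i, ZMod (P i)))) Mb]
    [SMulCommClass T (MonoidAlgebra O (G × Multiplicative (∀ i, ZMod (P i)))) Mb]
    [Module.Finite (MonoidAlgebra O (G × Multiplicative (∀ i, ZMod (P i)))) Mb]
    [Module.Free (MonoidAlgebra O (G × Multiplicative (∀ i, ZMod (P i)))) Mb]
    (χ : Multiplicative (∀ i, ZMod (P i)) →* Oˣ) (i₀ : ι)
    (hχ : IsPrimitiveRoot ((χ (twlg_gen P i₀) : Oˣ) : O) p)
    (Sg Ph : Matrix (Fin 2) (Fin 2) T) (hdet : Sg.det = 1) (hPh : IsUnit Ph.det)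
    (ℓ N r : ℕ) (hℓ : ℓ = p ^ N * r + 1) (u1 u2 : O) (hu1 : u1 * ((ℓ + 1 : ℕ) : O) = 1)
    (hu2 : u2 * (r : O) = 1) (htame : Ph * Sg = Sg ^ ℓ * Ph)
    (hdiv : ∀ m : Mb, ∃ m' : Mb, (Sg.trace - 2) • m =
      MonoidAlgebra.of O (G × Multiplicative (∀ i, ZMod (P i))) (1, twlg_gen P i₀) • m' - m')
    (heig : ∀ (K : Type) [Field K] [IsAlgClosed K] [Algebra O K],
      Function.Injective (algebraMap O K) →
      ∀ (χ' : T →ₐ[O] K) (v : K ⊗[O] Mb), v ≠ 0 →
        (∀ x : T, (Algebra.lsmul O O Mb x).baseChange K v = χ' x • v) →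
        ∀ z : K, z ≠ 1 →
          (Algebra.lsmul O O Mb (MonoidAlgebra.of O (G × Multiplicative (∀ i, ZMod (P i)))
            (1, twlg_gen P i₀))).baseChange K v = z • v → χ' (Sg.trace - 2) ≠ 0) :
    ∀ (i j : Fin 2) (m : Mb), ((∑ k ∈ Finset.range p, Sg ^ k) i j) • m ∈
      twc_chiSub (G := G) (Mb := Mb) χ := by
  classical
  set H := Multiplicative (∀ i, ZMod (P i)) with hH
  set R := MonoidAlgebra O (G × H) with hR
  set W : Submodule O Mb := twc_chiSub (G := G) (Mb := Mb) χ with hW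
  set W'' : Submodule T Mb := twlg_ax_sub (T := T) (G := G) (Mb := Mb) χ with hW''
  haveI : Finite H := inferInstanceAs (Finite (Multiplicative (∀ i, ZMod (P i))))
  haveI hfinMb : Module.Finite O Mb := Module.Finite.trans R Mb
  haveI hfinQ : Module.Finite O (Mb ⧸ W) := inferInstance
  haveI hfreeQ : Module.Free O (Mb ⧸ W) := twe_chi_twc_free χ
  haveI hfinM : Module.Finite O (Mb ⧸ W'') :=
    Module.Finite.equiv (twlg_ax_equiv (T := T) (G := G) (Mb := Mb) χ)
  haveI hfreeM : Module.Free O (Mb ⧸ W'') :=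
    Module.Free.of_equiv (twlg_ax_equiv (T := T) (G := G) (Mb := Mb) χ)
  -- the root of unity and the uniformizer-like element
  set ζ : O := ((χ (twlg_gen P i₀) : Oˣ) : O) with hζdef
  have hζ1 : ζ ≠ 1 := twlg_as_zeta_ne_one hp.out ζ hχ
  set π : O := ζ - 1 with hπdef
  have hπ0 : π ≠ 0 := sub_ne_zero.2 hζ1
  obtain ⟨e, he⟩ := twlg_ac_pi_pow p ζ hχ
  have hpJ : (p : O) ∈ Ideal.jacobson (⊥ : Ideal O) := by
    rw [IsLocalRing.jacobson_eq_maximalIdeal ⊥ bot_ne_top]; exact hpO
  have htfc : ∀ (c : O), c ≠ 0 → ∀ m : Mb ⧸ W'', c • m = 0 → m = 0 := by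
    intro c hc m hm
    exact (smul_eq_zero.1 hm).resolve_left hc
  have hpt : ∀ m : Mb ⧸ W'', p • m = 0 → m = 0 := by
    intro m hm
    refine htfc (p : O) (by exact_mod_cast hp.out.ne_zero) m ?_
    rw [Nat.cast_smul_eq_nsmul]; exact hm
  have hπt : ∀ m : Mb ⧸ W'', π • m = 0 → m = 0 := htfc π hπ0
  -- the generator `δ` and its membership
  set δ : R := MonoidAlgebra.of O (G × H) (1, twlg_gen P i₀) with hδ
  have hgenmem : ∀ m : Mb, δ • m - ζ • m ∈ W := by
    intro m
    exact Submodule.subset_span ⟨twlg_gen P i₀, m, rfl⟩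
  -- `hdiv` on `M`
  have hdivM : ∀ m : Mb ⧸ W'', ∃ m', (Sg.trace - 2) • m = π • m' := by
    intro m
    obtain ⟨m0, rfl⟩ := Submodule.Quotient.mk_surjective W'' m
    obtain ⟨m0', hm0'⟩ := hdiv m0
    refine ⟨Submodule.Quotient.mk m0', ?_⟩
    rw [← Submodule.Quotient.mk_smul, ← Submodule.Quotient.mk_smul, hm0']
    rw [Submodule.Quotient.eq]
    have h1 : δ • m0' - m0' - π • m0' = δ • m0' - ζ • m0' := by
      rw [hπdef, sub_smul, one_smul]; abel
    rw [h1]
    exact hgenmem m0'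
  -- injectivity of `tr Σ - 2` on `M`
  have hinj0 : ∀ m0 : Mb, (Sg.trace - 2) • m0 ∈ W → m0 ∈ W := by
    intro m0 hm0
    let K := AlgebraicClosure (FractionRing O)
    have hK : Function.Injective (algebraMap O K) := by
      rw [IsScalarTower.algebraMap_eq O (FractionRing O) K]
      exact (algebraMap (FractionRing O) K).injective.comp
        (IsFractionRing.injective O (FractionRing O))
    set d : ℕ := Nat.card H with hd
    have hd0 : d ≠ 0 := Nat.card_pos.ne'
    have hdK : ((d : ℕ) : K) ≠ 0 := by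
      have h1 : ((d : ℕ) : O) ≠ 0 := by exact_mod_cast hd0
      intro h0
      apply h1
      apply hK
      rw [map_natCast, map_zero]; exact h0
    have hgenpow : ∀ i, twlg_gen P i ^ d = 1 := fun i => pow_card_eq_one'
    set a : ι → Module.End O Mb := fun i =>
      Algebra.lsmul O O Mb (MonoidAlgebra.of O (G × H) ((1 : G), twlg_gen P i)) with ha
    set ζs : ι → O := fun i => ((χ (twlg_gen P i) : Oˣ) : O) with hζs
    set u : Module.End O Mb := Algebra.lsmul O O Mb (Sg.trace - 1) with hu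
    have hapow : ∀ i, a i ^ d = 1 := by
      intro i
      rw [ha]
      simp only
      rw [← map_pow, ← map_pow, Prod.pow_mk, one_pow, hgenpow i, ← Prod.one_eq_mk, map_one,
        map_one]
    have hζpow : ∀ i, ζs i ^ d = 1 := by
      intro i
      rw [hζs]
      simp only
      rw [← Units.val_pow_eq_pow_val, ← map_pow, hgenpow i, map_one, Units.val_one]
    have hcomm : ∀ s ∈ twlg_two_set O R T Mb, ∀ s' ∈ twlg_two_set O R T Mb, Commute s s' :=
      fun s hs s' hs' => twlg_two_comm s hs s' hs'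
    have hWeq : W = ⨆ i, LinearMap.range (a i - algebraMap O (Module.End O Mb) (ζs i)) :=
      twlg_ac_chiSub_eq (G := G) P χ
    have hinjQ : Function.Injective (fun q : Mb ⧸ W => (1 : K) ⊗ₜ[O] q) :=
      twlg_el_hinj_of_free hK
    have heigen : ∀ v : K ⊗[O] Mb, v ≠ 0 →
        (∀ s ∈ twlg_two_set O R T Mb, ∃ c : K, s.baseChange K v = c • v) →
        (∀ i, (a i).baseChange K v = algebraMap O K (ζs i) • v) → u.baseChange K v ≠ v := by
      intro v hv0 hv hav
      obtain ⟨χ', hχ'⟩ := twlg_as_char_of_eigen (K := K)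
        (Algebra.lsmul O O Mb : T →ₐ[O] Module.End O Mb) v hv0
        (fun x => hv _ (Or.inr ⟨x, rfl⟩))
      have hz : algebraMap O K ζ ≠ 1 := by
        intro h1
        apply hζ1
        apply hK
        rw [h1, map_one]
      have hne := heig K hK χ' v hv0 hχ' (algebraMap O K ζ) hz (hav i₀)
      intro huv
      apply hne
      have h2 : χ' (Sg.trace - 1) • v = v := by rw [← hχ']; exact huv
      have h3 : (χ' (Sg.trace - 1) - 1) • v = 0 := by
        have := sub_smul (χ' (Sg.trace - 1)) 1 v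
        rw [this, h2, one_smul, sub_self]
      have h4 : χ' (Sg.trace - 1) = 1 := by
        rcases smul_eq_zero.1 h3 with h4 | h4
        · exact sub_eq_zero.1 h4
        · exact absurd h4 hv0
      have h5 : Sg.trace - 2 = (Sg.trace - 1) - 1 := by ring
      rw [h5, map_sub, map_one, h4, sub_self]
    refine twlg_ac_main (K := K) d hdK (twlg_two_set O R T Mb) hcomm a ζs u
      (fun i => Or.inl ⟨_, rfl⟩) (Or.inr ⟨_, rfl⟩) hapow hζpow W hWeq hinjQ heigen m0 ?_
    have h6 : (u - 1 : Module.End O Mb) m0 = (Sg.trace - 2) • m0 := by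
      rw [LinearMap.sub_apply, hu, Algebra.lsmul_coe, Module.End.one_apply]
      have h5 : Sg.trace - 2 = (Sg.trace - 1) - 1 := by ring
      rw [h5, sub_smul (Sg.trace - 1) 1 m0, one_smul]
    rw [h6]
    exact hm0
  have hinjM : ∀ m : Mb ⧸ W'', (Sg.trace - 2) • m = 0 → m = 0 := by
    intro m hm
    obtain ⟨m0, rfl⟩ := Submodule.Quotient.mk_surjective W'' m
    rw [← Submodule.Quotient.mk_smul, Submodule.Quotient.mk_eq_zero] at hm
    rw [Submodule.Quotient.mk_eq_zero]
    exact hinj0 m0 hm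
  -- conclusion
  have key := twlg_tv_final (O := O) (T := T) (M := Mb ⧸ W'') p hp2 hpJ hpt Sg Ph hdet hPh ℓ N r hℓ
    u1 u2 hu1 hu2 htame π e he hπt hdivM hinjM
  intro i j m
  have h := key i j (Submodule.Quotient.mk m)
  rw [← Submodule.Quotient.mk_smul, Submodule.Quotient.mk_eq_zero] at h
  exact h

end core

end

end Fermat.Agent.TW
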