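/-
Project TW (S43), block [A] LG, cell A4 (Assembly), part 6b `AsX` (helper29).  Prefix `twlg_ax_`.

**(A-X)**: for every framing `r` of `ρ''` and every hard prime `ℓ ∈ Th`, the entries of
`∑_{k<p} r(σ_ℓ)^k` send `Mb` into the `χ`-augmentation submodule.

* `twlg_ax_trace_eq`, `twlg_ax_det_eq`, `twlg_ax_framed_small` : transport along an equivalence
  `ρ ≃ r.toGaloisRepAdic`;
* `twlg_ax_one` : ONE hard prime at a generic level: `det ρ_X(σ_ℓ) = 1`,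
  `(tr ρ_X(σ_ℓ) - 2) M_X ⊆ (δ_ℓ - 1) M_X` (OLD-AT-`ℓ`) and `χ(tr ρ_X(σ_ℓ) - 2) ≠ 0` on the
  eigen-systems with `δ_ℓ`-eigenvalue `≠ 1` (NEW-AT-`ℓ`).
-/
import Mathlib
import Fermat.Agent.TW.LG.AsOne
import Fermat.Agent.TW.LG.AsLevel
import Fermat.Agent.TW.LG.AsTW
import Fermat.Agent.TW.LG.AsXCore
import Fermat.Agent.TW.Def.SeamA
import Fermat.Agent.TW.Aut.SeamsLG2

set_option autoImplicit false
set_option linter.unusedSectionVars false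
set_option linter.style.haveILetI false

open Polynomial CuspForm IsLocalRing ExtCitation Fermat.Agent.JT3
open Fermat.Agent.S53 Fermat.Agent.S56 Fermat.Agent.SS
open scoped TensorProduct

namespace Fermat.Agent.TW

noncomputable section

local notation "GQ" => (AlgebraicClosure ℚ ≃ₐ[ℚ] AlgebraicClosure ℚ)
local notation "Qbar" => AlgebraicClosure ℚ

section transport

variable {A : Type} [CommRing A] [IsLocalRing A]

/-- the conjugate of `ρ(σ)` by the equivalence is `r(σ)`. -/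
theorem twlg_ax_conj (ρ : GaloisRepAdic A) (r : FramedRep A)
    (e : GaloisRepAdic.Equiv ρ r.toGaloisRepAdic) (σ : GQ) :
    e.toLinearEquiv.conj (ρ.ρ σ) = Matrix.toLin' (r σ) := by
  refine LinearMap.ext fun x => ?_
  rw [LinearEquiv.conj_apply_apply, e.map_apply, LinearEquiv.apply_symm_apply]
  rfl

theorem twlg_ax_trace_eq (ρ : GaloisRepAdic A) (r : FramedRep A)
    (e : GaloisRepAdic.Equiv ρ r.toGaloisRepAdic) (σ : GQ) :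
    (r σ).trace = LinearMap.trace A ρ.V (ρ.ρ σ) := by
  have h1 := LinearMap.trace_conj' (ρ.ρ σ) e.toLinearEquiv
  rw [twlg_ax_conj ρ r e σ] at h1
  rw [← h1]
  have h2 := LinearMap.trace_eq_matrix_trace A (Pi.basisFun A (Fin 2)) (Matrix.toLin' (r σ))
  rw [LinearMap.toMatrix_eq_toMatrix', LinearMap.toMatrix'_toLin'] at h2
  exact h2.symm

theorem twlg_ax_det_eq (ρ : GaloisRepAdic A) (r : FramedRep A)
    (e : GaloisRepAdic.Equiv ρ r.toGaloisRepAdic) (σ : GQ) :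
    (r σ).det = LinearMap.det (ρ.ρ σ) := by
  have h1 := LinearMap.det_conj (ρ.ρ σ) e.toLinearEquiv
  rw [← h1, ← LinearMap.det_toLin']
  congr 1
  exact (twlg_ax_conj ρ r e σ).symm

/-- `ρ(τ) ≡ 1 mod 𝔪` ⟹ the entries of `r(τ) - 1` lie in `𝔪`. -/
theorem twlg_ax_framed_small (ρ : GaloisRepAdic A) (r : FramedRep A)
    (e : GaloisRepAdic.Equiv ρ r.toGaloisRepAdic) (τ : GQ)
    (hres : gcl_Small (maximalIdeal A) (ρ.ρ τ - 1)) :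
    twc_lr_In (maximalIdeal A) (r τ - 1) := by
  have h1 : gcl_Small (maximalIdeal A) (r.toGaloisRepAdic.ρ τ - 1) := by
    intro v
    have h2 : (r.toGaloisRepAdic.ρ τ - 1) v =
        e.toLinearEquiv ((ρ.ρ τ - 1) (e.toLinearEquiv.symm v)) := by
      rw [LinearMap.sub_apply, LinearMap.sub_apply, Module.End.one_apply, Module.End.one_apply,
        map_sub, e.map_apply, LinearEquiv.apply_symm_apply]
    rw [h2]
    have h3 := hres (e.toLinearEquiv.symm v)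
    have h4 : e.toLinearEquiv ((ρ.ρ τ - 1) (e.toLinearEquiv.symm v)) ∈
        (maximalIdeal A • (⊤ : Submodule A ρ.V)).map e.toLinearEquiv.toLinearMap :=
      Submodule.mem_map_of_mem h3
    rw [Submodule.map_smul''] at h4
    exact Submodule.smul_mono le_rfl le_top h4
  exact (twib_framed_small_iff r _ τ).1 h1

end transport

attribute [local instance] twe_OldAt.instCommRing twe_OldAt.instIsLocalRing
  twe_OldAt.instIsNoetherianRing twe_OldAt.instIsAdicComplete twe_OldAt.instAlgebra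
  twe_OldAt.instIsLocalHom twe_OldAt.instFinite twe_OldAt.instFree

section one

variable {𝒪 : Type} [CommRing 𝒪] [IsDomain 𝒪] [IsDiscreteValuationRing 𝒪]
  [IsAdicComplete (maximalIdeal 𝒪) 𝒪] [Finite (ResidueField 𝒪)] [CharZero 𝒪]
  {Nb : ℕ} [NeZero Nb] {S' : Finset ℕ}
  {θX : heckeAlgebra Nb 2 (↑S' : Set ℕ) →+* ResidueField 𝒪}
  {TX : Type} [CommRing TX] [IsLocalRing TX] [IsNoetherianRing TX]
  [IsAdicComplete (maximalIdeal TX) TX] [Algebra 𝒪 TX] [IsLocalHom (algebraMap 𝒪 TX)]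
  [Module.Finite 𝒪 TX] [Module.Free 𝒪 TX]
  {HX : HeckeGaloisRepDatum Nb (↑S' : Set ℕ) 𝒪 θX TX}
  {MX : Type} [AddCommGroup MX] [Module 𝒪 MX] [Module TX MX] [IsScalarTower 𝒪 TX MX]
  {δ : MX →ₗ[𝒪] MX}

/-- **ONE hard prime at a generic level.** -/
theorem twlg_ax_one {p : ℕ} [hpF : Fact p.Prime] (hp𝒪 : (p : 𝒪) ∈ maximalIdeal 𝒪)
    (hpS : p ∈ S') (hNS : ∀ r : ℕ, r.Prime → r ∣ Nb → r ∈ S')
    (ρbar : ResidualGaloisRep (ResidueField 𝒪)) (hcompat : twt_Compat θX ρbar)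
    {Th : Finset Nat.Primes} (td : twc_TameData p Th) (hgen : twib_InertiaGen td)
    (ℓ : Nat.Primes) (hℓ : ℓ ∈ Th) (hℓp : (ℓ : ℕ) ≠ p)
    (hunr : ρbar.IsUnramifiedAt (ℓ : ℕ))
    (hℓNb : (ℓ : ℕ) ∣ Nb) [NeZero (Nb / (ℓ : ℕ))] (hℓN : (ℓ : ℕ) ∣ Nb / (ℓ : ℕ))
    (hℓ2 : ¬ (ℓ : ℕ) ^ 2 ∣ Nb / (ℓ : ℕ))
    (Od : twe_OldAt HX δ (ℓ : ℕ)) (hnew : twe_NewAt HX δ (ℓ : ℕ)) :
    (∀ τ ∈ (primeLocalPlace ℓ).inertiaSubgroupIn ℚ,
      gcl_Small (maximalIdeal TX) (HX.ρ.ρ τ - 1)) ∧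
    LinearMap.det (HX.ρ.ρ (td.gσ ℓ)) = 1 ∧
    (∀ m : MX, ∃ m' : MX,
      (LinearMap.trace TX HX.ρ.V (HX.ρ.ρ (td.gσ ℓ)) - 2) • m = δ m' - m') ∧
    ∀ (K : Type) [Field K] [IsAlgClosed K] [Algebra 𝒪 K],
      Function.Injective (algebraMap 𝒪 K) →
      ∀ (χ : TX →ₐ[𝒪] K) (v : K ⊗[𝒪] MX), v ≠ 0 →
        (∀ x : TX, (twe_act (MX := MX) x).baseChange K v = χ x • v) →
        ∀ z : K, z ≠ 1 → δ.baseChange K v = z • v →
          χ (LinearMap.trace TX HX.ρ.V (HX.ρ.ρ (td.gσ ℓ)) - 2) ≠ 0 := by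
  classical
  have hp : p.Prime := hpF.out
  have hpT : (p : TX) ∈ maximalIdeal TX := twt_dl_p_mem hp𝒪
  have hresid : HX.ρ.residual.IsUnramifiedAt (ℓ : ℕ) :=
    twt_re_datum_unram HX ρbar hcompat (ℓ : ℕ) hunr
  have hres : ∀ τ ∈ (primeLocalPlace ℓ).inertiaSubgroupIn ℚ,
      gcl_Small (maximalIdeal TX) (HX.ρ.ρ τ - 1) :=
    fun τ hτ => twib_hres_of_residual HX.ρ hresid _ (s56ld_liesOver ℓ) hτ
  have hσmem : td.gσ ℓ ∈ (primeLocalPlace ℓ).inertiaSubgroupIn ℚ := td.σ_mem ℓ hℓ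
  have hdet : LinearMap.det (HX.ρ.ρ (td.gσ ℓ)) = 1 :=
    twt_da_det_inertia hpT hNS HX.π HX.ρ HX.charpoly_frob ℓ.2 hℓp _ (s56ld_liesOver ℓ) hσmem
  have hcp := sst_charpoly_rank_two HX.ρ.finrank_eq (HX.ρ.ρ (td.gσ ℓ))
  rw [hdet] at hcp
  refine ⟨hres, hdet, ?_, ?_⟩
  · -- OLD-AT-`ℓ`
    intro m
    have hold := twlg_as_old_charpoly Od hp hp𝒪 hpS hNS hℓNb ℓ.2 hℓp hℓN hℓ2
      (primeLocalPlace ℓ) (s56ld_liesOver ℓ) (td.gσ ℓ) hσmem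
    rw [hcp] at hold
    have h1 := congrArg (fun q : Od.Tt[X] => q.coeff 1) hold
    simp only [Polynomial.map_add, Polynomial.map_sub, Polynomial.map_mul, Polynomial.map_pow,
      Polynomial.map_X, Polynomial.map_C] at h1
    have h2 : ((X : Od.Tt[X]) - 1) ^ 2 = X ^ 2 - C 2 * X + C 1 := by
      rw [map_one, map_ofNat]; ring
    rw [h2] at h1
    simp only [coeff_add, coeff_sub, coeff_X_pow, coeff_C_mul, coeff_X_one, coeff_C] at h1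
    norm_num at h1
    refine Od.kills _ ?_ m
    rw [map_sub, map_ofNat]
    rw [sub_eq_zero]
    exact h1
  · -- NEW-AT-`ℓ`
    intro K _ _ _ hK χ v hv0 hv z hz hδ h0
    refine twlg_as_new_charpoly hp𝒪 hpS hNS td hgen ℓ hℓ hℓp hnew hres K hK χ v hv0 hv z hz hδ ?_
    rw [hcp]
    rw [map_sub, map_ofNat, sub_eq_zero] at h0
    simp only [Polynomial.map_add, Polynomial.map_sub, Polynomial.map_mul, Polynomial.map_pow,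
      Polynomial.map_X, Polynomial.map_C]
    have h3 : (χ : TX →+* K) (LinearMap.trace TX HX.ρ.V (HX.ρ.ρ (td.gσ ℓ))) = 2 := h0
    rw [h3]
    simp only [map_one, map_ofNat]
    ring

end one


section x

variable {𝒪 : Type} [CommRing 𝒪] [IsDomain 𝒪] [IsDiscreteValuationRing 𝒪]
  [IsAdicComplete (maximalIdeal 𝒪) 𝒪] [Finite (ResidueField 𝒪)] [CharZero 𝒪]
  {N : ℕ} [NeZero N] {S : Finset ℕ} {θ : heckeAlgebra N 2 (↑S : Set ℕ) →+* ResidueField 𝒪}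
  {B : twe_Base 𝒪 N S θ} {p : ℕ} {Q : Finset ℕ} [NeZero (twe_Nbal N Q ∅)]
  {L : twe_Level B p Q} {Th : Finset ℕ} [NeZero (twe_Nbal N Q Th)]

/-- the arithmetic of a hard prime `ℓ ≡ 1 mod p`: `ℓ = p ^ v * r + 1` with `r`, `ℓ + 1` prime to
`p`. -/
theorem twlg_ax_arith {p : ℕ} (hp : p.Prime) (hp2 : p ≠ 2) {ℓ : ℕ} (hℓ : ℓ.Prime)
    (hmod : ℓ % p = 1) :
    ∃ v r : ℕ, ℓ = p ^ v * r + 1 ∧ ¬ p ∣ r ∧ ¬ p ∣ ℓ + 1 := by
  have h1 : ℓ - 1 ≠ 0 := by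
    have := hℓ.two_le; omega
  obtain ⟨v, r, hr, hnr⟩ := Nat.exists_eq_pow_mul_and_not_dvd h1 p hp.ne_one
  refine ⟨v, r, ?_, hr, ?_⟩
  · have := hℓ.one_le; omega
  · intro hdvd
    have h2 : (ℓ + 1) % p = 0 := Nat.mod_eq_zero_of_dvd hdvd
    rw [Nat.add_mod, hmod] at h2
    have hp2' := hp.two_le
    rcases Nat.lt_or_ge 2 p with h3 | h3
    · rw [Nat.mod_eq_of_lt (show 1 < p by omega), Nat.mod_eq_of_lt (show 1 + 1 < p by omega)] at h2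
      omega
    · omega

/-- **(A-X)**: the second clause of `twc_ALG`. -/
theorem twlg_as_x [hpF : Fact p.Prime] (hp5 : 5 ≤ p) (hp𝒪 : (p : 𝒪) ∈ maximalIdeal 𝒪)
    (hsq : Squarefree N)
    (hpS : p ∈ S) (hNS : ∀ ℓ : ℕ, ℓ.Prime → ℓ ∣ N → ℓ ∈ S)
    (ρbar : ResidualGaloisRep (ResidueField 𝒪)) (hcompat : twt_Compat θ ρbar)
    (hunr : ∀ ℓ : ℕ, ℓ.Prime → ℓ ≠ 2 → ℓ ≠ p → ρbar.IsUnramifiedAt ℓ)
    (hQS : ∀ t ∈ Q, t ∉ S) (hTW : twe_IsTWSet θ p Q)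
    (hTh : ∀ ℓ ∈ Th, ℓ.Prime ∧ ℓ ∣ N)
    {ThP : Finset Nat.Primes} (td : twc_TameData p ThP) (hgen : twib_InertiaGen td)
    (hThP : ∀ ℓ ∈ ThP, (ℓ : ℕ) ∈ Th ∧ (ℓ : ℕ) ≠ 2 ∧ (ℓ : ℕ) % p = 1)
    (Bg : twe_Big L Th) (hBg : Bg.IsLG2)
    (χ : twe_Delta p Th →* 𝒪ˣ)
    (hχ : ∀ (ℓ : ℕ) (hℓ : ℓ ∈ Th), IsPrimitiveRoot ((χ (twe_gen p Th ℓ hℓ) : 𝒪ˣ) : 𝒪) p) :
    ∀ r : FramedRep Bg.T'', Bg.H''.ρ.IsEquiv r.toGaloisRepAdic →
      ∀ ℓ : Nat.Primes, ℓ ∈ ThP → ∀ (i j : Fin 2) (m : Bg.Mb),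
        (∑ k ∈ Finset.range p, r (td.gσ ℓ) ^ k) i j • m ∈
          twc_chiSub (G := twe_Delta p Q) (Mb := Bg.Mb) χ := by
  classical
  rintro r ⟨e⟩ ℓ hℓP
  have hp : p.Prime := hpF.out
  have hp2 : p ≠ 2 := by omega
  obtain ⟨hℓTh, hℓ2, hℓmod⟩ := hThP ℓ hℓP
  have hℓp : (ℓ : ℕ) ≠ p := by
    intro h
    rw [h, Nat.mod_self] at hℓmod
    omega
  have hQ : ∀ t ∈ Q, t.Prime := fun t ht => (hTW t ht).1
  have hpS' : p ∈ S ∪ Q := Finset.mem_union_left _ hpS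
  have hNS' : ∀ r : ℕ, r.Prime → r ∣ twe_Nbal N Q Th → r ∈ S ∪ Q :=
    twlg_as_level_primes hNS hQ hTh
  obtain ⟨h1, h2, h3⟩ := twlg_as_level_hard hsq hNS hQ hQS hTh (ℓ : ℕ) hℓTh
  obtain ⟨⟨_, ⟨Od⟩⟩, hnew⟩ := hBg.2 (ℓ : ℕ) hℓTh
  obtain ⟨hres, hdet, hold, heigen⟩ := twlg_ax_one hp𝒪 hpS' hNS' ρbar
    (twlg_as_compat_big Bg ρbar hcompat) td hgen ℓ hℓP hℓp (hunr (ℓ : ℕ) ℓ.2 hℓ2 hℓp) h1 h2 h3
    Od hnew
  have hpT : (p : Bg.T'') ∈ maximalIdeal Bg.T'' := twt_dl_p_mem hp𝒪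
  -- the framed data
  have htr := twlg_ax_trace_eq Bg.H''.ρ r e (td.gσ ℓ)
  have hdet' : (r (td.gσ ℓ)).det = 1 := by rw [twlg_ax_det_eq Bg.H''.ρ r e, hdet]
  have hPh : IsUnit (r (td.gφ ℓ)).det :=
    (Matrix.isUnit_iff_isUnit_det _).1 (r.isUnit_apply (td.gφ ℓ))
  have htame : r (td.gφ ℓ) * r (td.gσ ℓ) = r (td.gσ ℓ) ^ (ℓ : ℕ) * r (td.gφ ℓ) :=
    twc_lr_rel td hpT r ℓ hℓP (fun τ hτ => twlg_ax_framed_small Bg.H''.ρ r e τ (hres τ hτ))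
  obtain ⟨v, r', hℓeq, hr', hℓ1⟩ := twlg_ax_arith hp hp2 ℓ.2 hℓmod
  obtain ⟨u1, hu1⟩ := (twlg_as_natCast_isUnit (T := 𝒪) hp hp𝒪 ((ℓ : ℕ) + 1) hℓ1).exists_left_inv
  obtain ⟨u2, hu2⟩ := (twlg_as_natCast_isUnit (T := 𝒪) hp hp𝒪 r' hr').exists_left_inv
  haveI : ∀ i : ↥Th, NeZero (twe_ord p (i : ℕ)) := fun i => ⟨pow_ne_zero _ hp.ne_zero⟩
  exact twlg_ax_core (O := 𝒪) (T := Bg.T'') (Mb := Bg.Mb) (G := twe_Delta p Q) p hp2 hp𝒪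
    (fun i : ↥Th => twe_ord p (i : ℕ)) χ ⟨(ℓ : ℕ), hℓTh⟩ (hχ (ℓ : ℕ) hℓTh)
    (r (td.gσ ℓ)) (r (td.gφ ℓ)) hdet' hPh (ℓ : ℕ) v r' hℓeq u1 u2 hu1 hu2 htame
    (fun m => by
      obtain ⟨m', hm'⟩ := hold m
      refine ⟨m', ?_⟩
      rw [htr, hm']
      rfl)
    (fun K _ _ _ hK χ' w hw0 hw z hz hδ => by
      rw [htr]
      exact heigen K hK χ' w hw0 (fun x => by rw [twlg_as_act_eq]; exact hw x) z hz hδ)

end x

end

end Fermat.Agent.TW
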