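/-
Project TW (S43), block [A] LG, cell A4 (Assembly), the END (helper29).  Prefix `twlg_as_`.

**`twlg_as_A4 : twlg_as_A4_stmt`** — the [A] → [C] seam (version 2 of helper21's `twc_A4_stmt`,
`TW/LG/AsStmt.lean`): (A-TW) = `twlg_as_tw2` (`AsTW2.lean`) and (A-X) = `twlg_as_x` (`AsX.lean`).
-/
import Mathlib
import Fermat.Agent.TW.LG.AsStmt
import Fermat.Agent.TW.LG.AsTW2
import Fermat.Agent.TW.LG.AsX

set_option autoImplicit false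
set_option linter.unusedSectionVars false

open Polynomial CuspForm IsLocalRing
open Fermat.Agent.S53 Fermat.Agent.S56

namespace Fermat.Agent.TW

noncomputable section

/-- **block [A]: the [A] → [C] seam.** -/
theorem twlg_as_A4 : twlg_as_A4_stmt := by
  intro p _ hp5 𝒪 _ _ _ _ _ _ hp𝒪 ζ hζ N _ hsq hpN S hpS hNS θ ρbar hcompat hirr hunr B Q _ hQS hTW
    hsplit L hL ThP hThP td hgen _ Bg hBg χ hχ
  have hTh : ∀ ℓ ∈ ThP.image (fun ℓ : Nat.Primes => (ℓ : ℕ)), ℓ.Prime ∧ ℓ ∣ N := by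
    intro ℓ hℓ
    obtain ⟨ℓ', hℓ', rfl⟩ := Finset.mem_image.1 hℓ
    exact ⟨ℓ'.2, (hThP ℓ' hℓ').1⟩
  refine ⟨twlg_as_tw2 hp5 hp𝒪 ζ hζ hpS hNS ρbar hcompat hunr hQS hTW hsplit hTh Bg hBg, ?_⟩
  intro r hr ℓ hℓ
  have hℓP : ℓ ∈ ThP := by
    obtain ⟨ℓ', hℓ', h⟩ := Finset.mem_image.1 hℓ
    have : ℓ' = ℓ := Subtype.ext h
    rw [← this]; exact hℓ'
  exact twlg_as_x hp5 hp𝒪 hsq hpS hNS ρbar hcompat hunr hQS hTW hTh td hgen
    (fun ℓ' hℓ' => ⟨Finset.mem_image_of_mem _ hℓ', (hThP ℓ' hℓ').2.1, (hThP ℓ' hℓ').2.2.1⟩)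
    Bg hBg χ hχ r hr ℓ hℓP

end

end Fermat.Agent.TW
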