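/-
Project ONE MACHINE (S43), block [A] LG, cell (A2') "LEMMA G" (helper24, finding #4573).

Abstract Borel-kill lemma.  `G` a group acting linearly on a `k`-module `V` (through a monoid hom
`ρ : G →* Module.End k V`), `N T : Subgroup G` finite, `T` normalising `N`, `w : G` normalising `T`,
and a Bruhat-type covering `G = T N ∪ N w T N`.  Let `h : V` be fixed by `N`, an eigenvector of `T`
with "character" `χ : G → k` such that `∑_{t ∈ T} χ t = 0` and `∑_{t ∈ T} χ (w⁻¹ t w) = 0`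
(for a field `k`: `χ|T` and its `w`-conjugate are nontrivial characters).  Then the Borel average
`∑_{n ∈ N} ∑_{t ∈ T} ρ (n t)` kills `ρ g h` for EVERY `g : G`, hence kills the whole `G`-span of `h`;
and for a `T`-invariant vector `v` of that span, `|T| • ∑_{n ∈ N} ρ n v = 0`
(= the trace from the balanced level to the Borel level vanishes).

Mathlib only.  Prefix `twlg_bk_`.
-/
import Mathlib

set_option autoImplicit false

open scoped BigOperators

namespace Fermat.Agent.TW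

section Abstract

variable {G k V : Type*} [Group G] [CommRing k] [AddCommGroup V] [Module k V]
  (ρ : G →* Module.End k V) (N T : Subgroup G) [Fintype N] [Fintype T]

/-- the Borel average `∑_{n ∈ N} ∑_{t ∈ T} ρ (n t)` applied to `v`. -/
def twlg_bk_avg (v : V) : V := ∑ n : N, ∑ t : T, ρ ((n : G) * (t : G)) v

theorem twlg_bk_avg_add (v v' : V) :
    twlg_bk_avg ρ N T (v + v') = twlg_bk_avg ρ N T v + twlg_bk_avg ρ N T v' := by
  unfold twlg_bk_avg
  simp only [map_add, Finset.sum_add_distrib]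

theorem twlg_bk_avg_smul (c : k) (v : V) :
    twlg_bk_avg ρ N T (c • v) = c • twlg_bk_avg ρ N T v := by
  unfold twlg_bk_avg
  simp only [map_smul, Finset.smul_sum]

theorem twlg_bk_avg_zero : twlg_bk_avg ρ N T (0 : V) = 0 := by
  unfold twlg_bk_avg
  simp

/-- absorbing an element of `N` on the right of the Borel average (uses: `T` normalises `N`). -/
theorem twlg_bk_avg_mul_N (hTN : ∀ t ∈ T, ∀ n ∈ N, t * n * t⁻¹ ∈ N) (n' : N) (v : V) :
    twlg_bk_avg ρ N T (ρ (n' : G) v) = twlg_bk_avg ρ N T v := by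
  unfold twlg_bk_avg
  rw [Finset.sum_comm]
  conv_rhs => rw [Finset.sum_comm]
  refine Finset.sum_congr rfl fun t _ => ?_
  -- for fixed `t`: reindex `n ↦ n * (t n' t⁻¹)`
  let m : N := ⟨(t : G) * (n' : G) * (t : G)⁻¹, hTN t t.2 n' n'.2⟩
  rw [← Equiv.sum_comp (Equiv.mulRight m) (fun n : N => ρ ((n : G) * (t : G)) v)]
  refine Finset.sum_congr rfl fun n _ => ?_
  have : ((Equiv.mulRight m n : N) : G) * (t : G) = (n : G) * (t : G) * (n' : G) := by
    simp only [Equiv.coe_mulRight, Subgroup.coe_mul, m]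
    group
  rw [this]
  simp only [map_mul, Module.End.mul_apply]

/-- absorbing an element of `T` on the right of the Borel average, on an arbitrary vector. -/
theorem twlg_bk_avg_mul_T (t' : T) (v : V) :
    twlg_bk_avg ρ N T (ρ (t' : G) v) = twlg_bk_avg ρ N T v := by
  unfold twlg_bk_avg
  refine Finset.sum_congr rfl fun n _ => ?_
  rw [← Equiv.sum_comp (Equiv.mulRight t') (fun t : T => ρ ((n : G) * (t : G)) v)]
  refine Finset.sum_congr rfl fun t _ => ?_
  have : (n : G) * ((Equiv.mulRight t' t : T) : G) = (n : G) * (t : G) * (t' : G) := by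
    simp only [Equiv.coe_mulRight, Subgroup.coe_mul]
    group
  rw [this]
  simp only [map_mul, Module.End.mul_apply]

variable {ρ N T}

/-- **LEMMA G, case `g ∈ T N`.** -/
theorem twlg_bk_avg_eigen {h : V} {χ : G → k}
    (hT : ∀ t ∈ T, ρ t h = χ t • h) (hχ : ∑ t : T, χ (t : G) = 0) :
    twlg_bk_avg ρ N T h = 0 := by
  unfold twlg_bk_avg
  have h1 : ∀ n : N, ∑ t : T, ρ ((n : G) * (t : G)) h = ρ (n : G) ((∑ t : T, χ (t : G)) • h) := by
    intro n
    rw [Finset.sum_smul, map_sum]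
    refine Finset.sum_congr rfl fun t _ => ?_
    rw [map_mul, Module.End.mul_apply, hT t t.2]
  simp only [h1, hχ, zero_smul, map_zero, Finset.sum_const_zero]

/-- **LEMMA G, case `g ∈ N w T N`** (the big cell). -/
theorem twlg_bk_avg_weyl {h : V} {χ : G → k} {w : G}
    (hwT : ∀ t ∈ T, w⁻¹ * t * w ∈ T)
    (hT : ∀ t ∈ T, ρ t h = χ t • h) (hχw : ∑ t : T, χ (w⁻¹ * (t : G) * w) = 0) :
    twlg_bk_avg ρ N T (ρ w h) = 0 := by
  unfold twlg_bk_avg
  have h1 : ∀ n : N, ∑ t : T, ρ ((n : G) * (t : G)) (ρ w h) =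
      ρ ((n : G) * w) ((∑ t : T, χ (w⁻¹ * (t : G) * w)) • h) := by
    intro n
    rw [Finset.sum_smul, map_sum]
    refine Finset.sum_congr rfl fun t _ => ?_
    have e : (n : G) * (t : G) * w = (n : G) * w * (w⁻¹ * (t : G) * w) := by group
    rw [← Module.End.mul_apply, ← map_mul, e, map_mul, Module.End.mul_apply,
      hT _ (hwT t t.2)]
  simp only [h1, hχw, zero_smul, map_zero, Finset.sum_const_zero]

/-- **LEMMA G.** The Borel average kills `ρ g h` for every `g`. -/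
theorem twlg_bk_avg_translate {h : V} {χ : G → k} {w : G}
    (hTN : ∀ t ∈ T, ∀ n ∈ N, t * n * t⁻¹ ∈ N)
    (hwT : ∀ t ∈ T, w⁻¹ * t * w ∈ T)
    (hbruhat : ∀ g : G, (∃ t ∈ T, ∃ n ∈ N, g = t * n) ∨
      (∃ n' ∈ N, ∃ t ∈ T, ∃ n ∈ N, g = n' * w * t * n))
    (hN : ∀ n ∈ N, ρ n h = h)
    (hT : ∀ t ∈ T, ρ t h = χ t • h)
    (hχ : ∑ t : T, χ (t : G) = 0) (hχw : ∑ t : T, χ (w⁻¹ * (t : G) * w) = 0) (g : G) :
    twlg_bk_avg ρ N T (ρ g h) = 0 := by
  rcases hbruhat g with ⟨t, ht, n, hn, rfl⟩ | ⟨n', hn', t, ht, n, hn, rfl⟩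
  · rw [map_mul, Module.End.mul_apply, hN n hn, hT t ht, twlg_bk_avg_smul,
      twlg_bk_avg_eigen hT hχ, smul_zero]
  · have e : ρ (n' * w * t * n) h = ρ n' (χ t • ρ w h) := by
      rw [map_mul, Module.End.mul_apply, hN n hn, map_mul, Module.End.mul_apply, hT t ht,
        map_mul, Module.End.mul_apply, map_smul]
    rw [e, twlg_bk_avg_mul_N ρ N T hTN ⟨n', hn'⟩, twlg_bk_avg_smul,
      twlg_bk_avg_weyl hwT hT hχw, smul_zero]

/-- **LEMMA G on the span.** The Borel average kills the `k`-span of the `G`-orbit of `h`. -/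
theorem twlg_bk_avg_span {h : V} {χ : G → k} {w : G}
    (hTN : ∀ t ∈ T, ∀ n ∈ N, t * n * t⁻¹ ∈ N)
    (hwT : ∀ t ∈ T, w⁻¹ * t * w ∈ T)
    (hbruhat : ∀ g : G, (∃ t ∈ T, ∃ n ∈ N, g = t * n) ∨
      (∃ n' ∈ N, ∃ t ∈ T, ∃ n ∈ N, g = n' * w * t * n))
    (hN : ∀ n ∈ N, ρ n h = h)
    (hT : ∀ t ∈ T, ρ t h = χ t • h)
    (hχ : ∑ t : T, χ (t : G) = 0) (hχw : ∑ t : T, χ (w⁻¹ * (t : G) * w) = 0)
    {v : V} (hv : v ∈ Submodule.span k (Set.range fun g : G => ρ g h)) :
    twlg_bk_avg ρ N T v = 0 := by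
  induction hv using Submodule.span_induction with
  | mem x hx =>
    obtain ⟨g, rfl⟩ := hx
    exact twlg_bk_avg_translate hTN hwT hbruhat hN hT hχ hχw g
  | zero => exact twlg_bk_avg_zero ρ N T
  | add x y _ _ hx hy => rw [twlg_bk_avg_add, hx, hy, add_zero]
  | smul c x _ hx => rw [twlg_bk_avg_smul, hx, smul_zero]

/-- **The trace to the Borel level vanishes** on `T`-invariant vectors of the span:
`|T| • ∑_{n ∈ N} ρ n v = 0`. -/
theorem twlg_bk_trace_eq_zero {h : V} {χ : G → k} {w : G}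
    (hTN : ∀ t ∈ T, ∀ n ∈ N, t * n * t⁻¹ ∈ N)
    (hwT : ∀ t ∈ T, w⁻¹ * t * w ∈ T)
    (hbruhat : ∀ g : G, (∃ t ∈ T, ∃ n ∈ N, g = t * n) ∨
      (∃ n' ∈ N, ∃ t ∈ T, ∃ n ∈ N, g = n' * w * t * n))
    (hN : ∀ n ∈ N, ρ n h = h)
    (hT : ∀ t ∈ T, ρ t h = χ t • h)
    (hχ : ∑ t : T, χ (t : G) = 0) (hχw : ∑ t : T, χ (w⁻¹ * (t : G) * w) = 0)
    {v : V} (hv : v ∈ Submodule.span k (Set.range fun g : G => ρ g h))
    (hvT : ∀ t ∈ T, ρ t v = v) :
    (Fintype.card T) • ∑ n : N, ρ (n : G) v = 0 := by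
  have h0 := twlg_bk_avg_span hTN hwT hbruhat hN hT hχ hχw hv
  unfold twlg_bk_avg at h0
  have h1 : ∀ n : N, ∑ t : T, ρ ((n : G) * (t : G)) v = (Fintype.card T) • ρ (n : G) v := by
    intro n
    have : ∀ t : T, ρ ((n : G) * (t : G)) v = ρ (n : G) v := by
      intro t
      rw [map_mul, Module.End.mul_apply, hvT t t.2]
    simp only [this, Finset.sum_const, Finset.card_univ]
  simp only [h1] at h0
  rw [Finset.smul_sum]
  exact h0

end Abstract

end Fermat.Agent.TW
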