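/-
Project ONE MACHINE (S43), block [A] LG, cell (A2') "LEMMA G" for `SL₂(F)`, `F` a finite field
(helper24, finding #4573): the instance of `TW/LG/BorelKill.lean` with
`N = {[[1,x],[0,1]]}`, `T = {diag(a, a⁻¹)}`, `w = [[0,-1],[1,0]]` and the Bruhat covering.

MAIN RESULTS.  `ρ : SL(2,F) →* Module.End k V`, `k` a domain, `ψ : Fˣ →* k` a NONTRIVIAL character,
`h : V` with `ρ (U x) h = h` and `ρ (D a) h = ψ a • h`.  For every `v` in the `k`-span of the
`SL(2,F)`-orbit of `h` which is fixed by the torus: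
* `twlg_bk_sl2_upper` : `|Fˣ| • ∑_x ρ [[1,x],[0,1]] v = 0`  (trace to the upper Borel level);
* `twlg_bk_sl2_lower` : `|Fˣ| • ∑_x ρ [[1,0],[x,1]] v = 0`  (trace to the lower Borel level).

Mathlib only.  Prefix `twlg_bk_`.
-/
import Mathlib
import Fermat.Agent.TW.LG.BorelKill

set_option autoImplicit false
set_option linter.unusedSectionVars false
set_option linter.style.haveILetI false

open scoped BigOperators MatrixGroups
open Matrix

namespace Fermat.Agent.TW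

section SL2

variable {F : Type*} [Field F]

/-- the matrix `[[1, x], [0, 1]]`. -/
def twlg_bk_Umat (x : F) : SL(2, F) := ⟨!![1, x; 0, 1], by simp [Matrix.det_fin_two]⟩

/-- the matrix `diag(a, a⁻¹)`. -/
def twlg_bk_Dmat (a : Fˣ) : SL(2, F) :=
  ⟨!![(a : F), 0; 0, ((a⁻¹ : Fˣ) : F)], by simp [Matrix.det_fin_two]⟩

/-- the Weyl element `[[0, -1], [1, 0]]`. -/
def twlg_bk_w : SL(2, F) := ⟨!![0, -1; 1, 0], by simp [Matrix.det_fin_two]⟩

/-- the lower unipotent `[[1, 0], [x, 1]]`. -/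
def twlg_bk_L (x : F) : SL(2, F) := ⟨!![1, 0; x, 1], by simp [Matrix.det_fin_two]⟩

@[simp] theorem twlg_bk_Umat_coe (x : F) :
    ((twlg_bk_Umat x : SL(2, F)) : Matrix (Fin 2) (Fin 2) F) = !![1, x; 0, 1] := rfl

@[simp] theorem twlg_bk_Dmat_coe (a : Fˣ) :
    ((twlg_bk_Dmat a : SL(2, F)) : Matrix (Fin 2) (Fin 2) F) =
      !![(a : F), 0; 0, ((a⁻¹ : Fˣ) : F)] := rfl

@[simp] theorem twlg_bk_w_coe :
    ((twlg_bk_w : SL(2, F)) : Matrix (Fin 2) (Fin 2) F) = !![0, -1; 1, 0] := rfl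

@[simp] theorem twlg_bk_L_coe (x : F) :
    ((twlg_bk_L x : SL(2, F)) : Matrix (Fin 2) (Fin 2) F) = !![1, 0; x, 1] := rfl

theorem twlg_bk_Umat_mul (x y : F) : twlg_bk_Umat x * twlg_bk_Umat y = twlg_bk_Umat (x + y) := by
  ext i j
  fin_cases i <;> fin_cases j <;>
    simp [Matrix.SpecialLinearGroup.coe_mul, Matrix.mul_apply, Fin.sum_univ_two, add_comm]

theorem twlg_bk_Dmat_mul (a b : Fˣ) : twlg_bk_Dmat a * twlg_bk_Dmat b = twlg_bk_Dmat (a * b) := by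
  ext i j
  fin_cases i <;> fin_cases j <;>
    simp [Matrix.SpecialLinearGroup.coe_mul, Matrix.mul_apply, Fin.sum_univ_two, mul_comm]

/-- the upper unipotent `[[1, x], [0, 1]]` as a homomorphism. -/
def twlg_bk_U : Multiplicative F →* SL(2, F) where
  toFun x := twlg_bk_Umat (Multiplicative.toAdd x)
  map_one' := by
    ext i j
    fin_cases i <;> fin_cases j <;> simp
  map_mul' x y := by
    rw [twlg_bk_Umat_mul]
    rfl

/-- the torus element `diag(a, a⁻¹)` as a homomorphism. -/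
def twlg_bk_D : Fˣ →* SL(2, F) where
  toFun a := twlg_bk_Dmat a
  map_one' := by
    ext i j
    fin_cases i <;> fin_cases j <;> simp
  map_mul' a b := (twlg_bk_Dmat_mul a b).symm

/-- the upper unipotent subgroup. -/
def twlg_bk_N : Subgroup SL(2, F) := (twlg_bk_U (F := F)).range

/-- the diagonal torus. -/
def twlg_bk_T : Subgroup SL(2, F) := (twlg_bk_D (F := F)).range

@[simp] theorem twlg_bk_U_coe (x : Multiplicative F) :
    ((twlg_bk_U x : SL(2, F)) : Matrix (Fin 2) (Fin 2) F) = !![1, Multiplicative.toAdd x; 0, 1] :=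
  rfl

@[simp] theorem twlg_bk_D_coe (a : Fˣ) :
    ((twlg_bk_D a : SL(2, F)) : Matrix (Fin 2) (Fin 2) F) = !![(a : F), 0; 0, ((a⁻¹ : Fˣ) : F)] :=
  rfl

theorem twlg_bk_U_injective : Function.Injective (twlg_bk_U (F := F)) := by
  intro x y hxy
  have := congrArg (fun g : SL(2, F) => (g : Matrix (Fin 2) (Fin 2) F) 0 1) hxy
  simpa using this

theorem twlg_bk_D_injective : Function.Injective (twlg_bk_D (F := F)) := by
  intro a b hab
  have := congrArg (fun g : SL(2, F) => (g : Matrix (Fin 2) (Fin 2) F) 0 0) hab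
  exact Units.ext (by simpa using this)

/-- `D a * U x = U (a² x) * D a`. -/
theorem twlg_bk_D_mul_U (a : Fˣ) (x : Multiplicative F) :
    twlg_bk_D a * twlg_bk_U x =
      twlg_bk_U (Multiplicative.ofAdd ((a : F) * Multiplicative.toAdd x * (a : F))) *
        twlg_bk_D a := by
  ext i j
  fin_cases i <;> fin_cases j <;>
    simp [Matrix.SpecialLinearGroup.coe_mul, Matrix.mul_apply, Fin.sum_univ_two, mul_assoc]

/-- `D a * U x * (D a)⁻¹ = U (a² x)`. -/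
theorem twlg_bk_D_U_conj (a : Fˣ) (x : Multiplicative F) :
    twlg_bk_D a * twlg_bk_U x * (twlg_bk_D a)⁻¹ =
      twlg_bk_U (Multiplicative.ofAdd ((a : F) * Multiplicative.toAdd x * (a : F))) := by
  rw [twlg_bk_D_mul_U, mul_inv_cancel_right]

/-- `D a * w = w * D a⁻¹`. -/
theorem twlg_bk_D_mul_w (a : Fˣ) :
    twlg_bk_D a * (twlg_bk_w : SL(2, F)) = twlg_bk_w * twlg_bk_D a⁻¹ := by
  ext i j
  fin_cases i <;> fin_cases j <;>
    simp [Matrix.SpecialLinearGroup.coe_mul, Matrix.mul_apply, Fin.sum_univ_two]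

/-- `w⁻¹ * D a * w = D a⁻¹`. -/
theorem twlg_bk_w_D_conj (a : Fˣ) :
    (twlg_bk_w : SL(2, F))⁻¹ * twlg_bk_D a * twlg_bk_w = twlg_bk_D a⁻¹ := by
  rw [mul_assoc, twlg_bk_D_mul_w, inv_mul_cancel_left]

/-- `w * U (-x) = L x * w`. -/
theorem twlg_bk_w_mul_U (x : F) :
    (twlg_bk_w : SL(2, F)) * twlg_bk_U (Multiplicative.ofAdd (-x)) = twlg_bk_L x * twlg_bk_w := by
  ext i j
  fin_cases i <;> fin_cases j <;>
    simp [Matrix.SpecialLinearGroup.coe_mul, Matrix.mul_apply, Fin.sum_univ_two]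

/-- `w * U (-x) * w⁻¹ = L x`. -/
theorem twlg_bk_w_U_conj (x : F) :
    (twlg_bk_w : SL(2, F)) * twlg_bk_U (Multiplicative.ofAdd (-x)) * twlg_bk_w⁻¹ = twlg_bk_L x := by
  rw [twlg_bk_w_mul_U, mul_inv_cancel_right]

theorem twlg_bk_conj_TN :
    ∀ t ∈ twlg_bk_T (F := F), ∀ n ∈ twlg_bk_N (F := F), t * n * t⁻¹ ∈ twlg_bk_N (F := F) := by
  rintro _ ⟨a, rfl⟩ _ ⟨x, rfl⟩
  exact ⟨_, (twlg_bk_D_U_conj a x).symm⟩

theorem twlg_bk_conj_wT :
    ∀ t ∈ twlg_bk_T (F := F), (twlg_bk_w : SL(2, F))⁻¹ * t * twlg_bk_w ∈ twlg_bk_T (F := F) := by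
  rintro _ ⟨a, rfl⟩
  exact ⟨a⁻¹, (twlg_bk_w_D_conj a).symm⟩

/-- **Bruhat covering** of `SL₂(F)`. -/
theorem twlg_bk_bruhat (g : SL(2, F)) :
    (∃ t ∈ twlg_bk_T (F := F), ∃ n ∈ twlg_bk_N (F := F), g = t * n) ∨
      (∃ n' ∈ twlg_bk_N (F := F), ∃ t ∈ twlg_bk_T (F := F), ∃ n ∈ twlg_bk_N (F := F),
        g = n' * twlg_bk_w * t * n) := by
  have hdet : (g : Matrix (Fin 2) (Fin 2) F) 0 0 * (g : Matrix (Fin 2) (Fin 2) F) 1 1 -
      (g : Matrix (Fin 2) (Fin 2) F) 0 1 * (g : Matrix (Fin 2) (Fin 2) F) 1 0 = 1 := by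
    have := g.2
    rwa [Matrix.det_fin_two] at this
  set a := (g : Matrix (Fin 2) (Fin 2) F) 0 0 with ha
  set b := (g : Matrix (Fin 2) (Fin 2) F) 0 1 with hb
  set c := (g : Matrix (Fin 2) (Fin 2) F) 1 0 with hc
  set d := (g : Matrix (Fin 2) (Fin 2) F) 1 1 with hd
  by_cases hc0 : c = 0
  · left
    have had : a * d = 1 := by rw [hc0, mul_zero, sub_zero] at hdet; exact hdet
    have ha0 : a ≠ 0 := left_ne_zero_of_mul_eq_one had
    refine ⟨twlg_bk_D (Units.mk0 a ha0), ⟨_, rfl⟩,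
      twlg_bk_U (Multiplicative.ofAdd (b / a)), ⟨_, rfl⟩, ?_⟩
    have hd' : d = a⁻¹ := eq_inv_of_mul_eq_one_right had
    ext i j
    fin_cases i <;> fin_cases j <;>
      simp [Matrix.SpecialLinearGroup.coe_mul, Matrix.mul_apply, Fin.sum_univ_two, ← ha, ← hb,
        ← hc, ← hd, hc0, hd', mul_div_cancel₀ _ ha0]
  · right
    refine ⟨twlg_bk_U (Multiplicative.ofAdd (a / c)), ⟨_, rfl⟩,
      twlg_bk_D (Units.mk0 c hc0), ⟨_, rfl⟩,
      twlg_bk_U (Multiplicative.ofAdd (d / c)), ⟨_, rfl⟩, ?_⟩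
    have hb' : b = a * (d / c) - c⁻¹ := by
      field_simp
      linear_combination -hdet
    ext i j
    fin_cases i <;> fin_cases j
    · simp [Matrix.SpecialLinearGroup.coe_mul, Matrix.mul_apply, Fin.sum_univ_two, ← ha,
        div_mul_cancel₀ _ hc0]
    · simp [Matrix.SpecialLinearGroup.coe_mul, Matrix.mul_apply, Fin.sum_univ_two, ← hb, hb',
        div_mul_cancel₀ _ hc0]
      ring
    · simp [Matrix.SpecialLinearGroup.coe_mul, Matrix.mul_apply, Fin.sum_univ_two, ← hc]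
    · simp [Matrix.SpecialLinearGroup.coe_mul, Matrix.mul_apply, Fin.sum_univ_two, ← hd,
        mul_div_cancel₀ _ hc0]

/-! ### The packaged statements -/

section Main

variable [Fintype F] [DecidableEq F]

/-- `F ≃ N`. -/
noncomputable def twlg_bk_equivN : F ≃ twlg_bk_N (F := F) :=
  (Multiplicative.ofAdd : F ≃ Multiplicative F).trans
    (MonoidHom.ofInjective (twlg_bk_U_injective (F := F))).toEquiv

/-- `Fˣ ≃ T`. -/
noncomputable def twlg_bk_equivT : Fˣ ≃ twlg_bk_T (F := F) :=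
  (MonoidHom.ofInjective (twlg_bk_D_injective (F := F))).toEquiv

theorem twlg_bk_equivN_coe (x : F) : ((twlg_bk_equivN x : twlg_bk_N (F := F)) : SL(2, F)) =
    twlg_bk_Umat x := rfl

theorem twlg_bk_equivT_coe (a : Fˣ) : ((twlg_bk_equivT a : twlg_bk_T (F := F)) : SL(2, F)) =
    twlg_bk_Dmat a := rfl

theorem twlg_bk_sum_N [Fintype (twlg_bk_N (F := F))] {A : Type*} [AddCommMonoid A]
    (φ : SL(2, F) → A) :
    ∑ n : twlg_bk_N (F := F), φ (n : SL(2, F)) = ∑ x : F, φ (twlg_bk_Umat x) :=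
  (Fintype.sum_equiv twlg_bk_equivN (fun x : F => φ (twlg_bk_Umat x))
    (fun n : twlg_bk_N (F := F) => φ (n : SL(2, F))) (fun _ => rfl)).symm

theorem twlg_bk_sum_T [Fintype (twlg_bk_T (F := F))] {A : Type*} [AddCommMonoid A]
    (φ : SL(2, F) → A) :
    ∑ t : twlg_bk_T (F := F), φ (t : SL(2, F)) = ∑ a : Fˣ, φ (twlg_bk_Dmat a) :=
  (Fintype.sum_equiv twlg_bk_equivT (fun a : Fˣ => φ (twlg_bk_Dmat a))
    (fun t : twlg_bk_T (F := F) => φ (t : SL(2, F))) (fun _ => rfl)).symm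

theorem twlg_bk_card_T [Fintype (twlg_bk_T (F := F))] :
    Fintype.card (twlg_bk_T (F := F)) = Fintype.card Fˣ :=
  (Fintype.card_congr twlg_bk_equivT).symm

variable {k V : Type*} [CommRing k] [IsDomain k] [AddCommGroup V] [Module k V]
  (ρ : SL(2, F) →* Module.End k V)

omit [Fintype F] [DecidableEq F] [IsDomain k] in
/-- the `k`-span of the orbit of `h` is stable under the group. -/
theorem twlg_bk_span_stable {h v : V} (g : SL(2, F))
    (hv : v ∈ Submodule.span k (Set.range fun g : SL(2, F) => ρ g h)) :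
    ρ g v ∈ Submodule.span k (Set.range fun g : SL(2, F) => ρ g h) := by
  induction hv using Submodule.span_induction with
  | mem x hx =>
    obtain ⟨g', rfl⟩ := hx
    refine Submodule.subset_span ⟨g * g', ?_⟩
    simp only [map_mul, Module.End.mul_apply]
  | zero => rw [map_zero]; exact Submodule.zero_mem _
  | add x y _ _ hx hy => rw [map_add]; exact Submodule.add_mem _ hx hy
  | smul c x _ hx => rw [map_smul]; exact Submodule.smul_mem _ c hx

variable {ρ}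

/-- **LEMMA G for `SL₂(F)`, upper Borel.**  `h` fixed by the upper unipotents, torus character
`ψ ≠ 1`; `v` in the span of the orbit of `h`, fixed by the torus.  Then
`|Fˣ| • ∑_x ρ [[1,x],[0,1]] v = 0`. -/
theorem twlg_bk_sl2_upper (ψ : Fˣ →* k) (hψ : ψ ≠ 1) {h : V}
    (hN : ∀ x : F, ρ (twlg_bk_Umat x) h = h)
    (hT : ∀ a : Fˣ, ρ (twlg_bk_Dmat a) h = ψ a • h)
    {v : V} (hv : v ∈ Submodule.span k (Set.range fun g : SL(2, F) => ρ g h))
    (hvT : ∀ a : Fˣ, ρ (twlg_bk_Dmat a) v = v) :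
    (Fintype.card Fˣ) • ∑ x : F, ρ (twlg_bk_Umat x) v = 0 := by
  classical
  haveI : Fintype (twlg_bk_N (F := F)) := Fintype.ofFinite _
  haveI : Fintype (twlg_bk_T (F := F)) := Fintype.ofFinite _
  -- the character as a function on the group
  let χ : SL(2, F) → k := fun g =>
    if hg : (g : Matrix (Fin 2) (Fin 2) F) 0 0 ≠ 0 then
      ψ (Units.mk0 ((g : Matrix (Fin 2) (Fin 2) F) 0 0) hg) else 0
  have hχD : ∀ a : Fˣ, χ (twlg_bk_Dmat a) = ψ a := by
    intro a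
    have h0 : ((twlg_bk_Dmat a : SL(2, F)) : Matrix (Fin 2) (Fin 2) F) 0 0 = (a : F) := by simp
    have hne : ((twlg_bk_Dmat a : SL(2, F)) : Matrix (Fin 2) (Fin 2) F) 0 0 ≠ 0 := by
      rw [h0]; exact a.ne_zero
    show (if hg : ((twlg_bk_Dmat a : SL(2, F)) : Matrix (Fin 2) (Fin 2) F) 0 0 ≠ 0 then
      ψ (Units.mk0 _ hg) else 0) = ψ a
    rw [dif_pos hne]
    congr 1
    exact Units.ext h0
  have hsum : ∑ a : Fˣ, ψ a = 0 := sum_hom_units_eq_zero ψ hψ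
  have hχ : ∑ t : twlg_bk_T (F := F), χ (t : SL(2, F)) = 0 := by
    rw [twlg_bk_sum_T]
    simp only [hχD]
    exact hsum
  have hχw : ∑ t : twlg_bk_T (F := F),
      χ ((twlg_bk_w : SL(2, F))⁻¹ * (t : SL(2, F)) * twlg_bk_w) = 0 := by
    rw [twlg_bk_sum_T (fun g => χ ((twlg_bk_w : SL(2, F))⁻¹ * g * twlg_bk_w))]
    have : ∀ a : Fˣ, χ ((twlg_bk_w : SL(2, F))⁻¹ * twlg_bk_Dmat a * twlg_bk_w) = ψ a⁻¹ := by
      intro a
      have := twlg_bk_w_D_conj (F := F) a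
      change (twlg_bk_w : SL(2, F))⁻¹ * twlg_bk_Dmat a * twlg_bk_w = twlg_bk_Dmat a⁻¹ at this
      rw [this, hχD]
    simp only [this]
    rw [← Equiv.sum_comp (Equiv.inv Fˣ) (fun a => ψ a)] at hsum
    simpa using hsum
  have key := twlg_bk_trace_eq_zero (ρ := ρ) (N := twlg_bk_N (F := F)) (T := twlg_bk_T (F := F))
    (χ := χ) (w := twlg_bk_w) twlg_bk_conj_TN twlg_bk_conj_wT twlg_bk_bruhat
    (by rintro _ ⟨x, rfl⟩; exact hN _)
    (by rintro _ ⟨a, rfl⟩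
        change ρ (twlg_bk_Dmat a) h = χ (twlg_bk_Dmat a) • h
        rw [hχD, hT])
    hχ hχw hv
    (by rintro _ ⟨a, rfl⟩; exact hvT a)
  rw [twlg_bk_card_T, twlg_bk_sum_N (fun g => ρ g v)] at key
  exact key

/-- **LEMMA G for `SL₂(F)`, lower Borel.**  Same hypotheses; then
`|Fˣ| • ∑_x ρ [[1,0],[x,1]] v = 0`. -/
theorem twlg_bk_sl2_lower (ψ : Fˣ →* k) (hψ : ψ ≠ 1) {h : V}
    (hN : ∀ x : F, ρ (twlg_bk_Umat x) h = h)
    (hT : ∀ a : Fˣ, ρ (twlg_bk_Dmat a) h = ψ a • h)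
    {v : V} (hv : v ∈ Submodule.span k (Set.range fun g : SL(2, F) => ρ g h))
    (hvT : ∀ a : Fˣ, ρ (twlg_bk_Dmat a) v = v) :
    (Fintype.card Fˣ) • ∑ x : F, ρ (twlg_bk_L x) v = 0 := by
  set v' : V := ρ (twlg_bk_w : SL(2, F))⁻¹ v with hv'
  have hv'span : v' ∈ Submodule.span k (Set.range fun g : SL(2, F) => ρ g h) :=
    twlg_bk_span_stable ρ _ hv
  have hv'T : ∀ a : Fˣ, ρ (twlg_bk_Dmat a) v' = v' := by
    intro a
    have e : twlg_bk_Dmat a * (twlg_bk_w : SL(2, F))⁻¹ = twlg_bk_w⁻¹ * twlg_bk_Dmat a⁻¹ := by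
      have h1 := twlg_bk_D_mul_w (F := F) a⁻¹
      rw [inv_inv] at h1
      change twlg_bk_Dmat a⁻¹ * (twlg_bk_w : SL(2, F)) = twlg_bk_w * twlg_bk_Dmat a at h1
      calc twlg_bk_Dmat a * (twlg_bk_w : SL(2, F))⁻¹
          = twlg_bk_w⁻¹ * (twlg_bk_w * twlg_bk_Dmat a) * twlg_bk_w⁻¹ := by group
        _ = twlg_bk_w⁻¹ * (twlg_bk_Dmat a⁻¹ * twlg_bk_w) * twlg_bk_w⁻¹ := by rw [h1]
        _ = twlg_bk_w⁻¹ * twlg_bk_Dmat a⁻¹ := by group
    rw [hv', ← Module.End.mul_apply, ← map_mul, e, map_mul, Module.End.mul_apply, hvT]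
  have key := twlg_bk_sl2_upper ψ hψ hN hT hv'span hv'T
  have hL : ∀ x : F, ρ (twlg_bk_L x) v = ρ (twlg_bk_w : SL(2, F)) (ρ (twlg_bk_Umat (-x)) v') := by
    intro x
    have h1 := twlg_bk_w_U_conj (F := F) x
    change (twlg_bk_w : SL(2, F)) * twlg_bk_Umat (-x) * twlg_bk_w⁻¹ = twlg_bk_L x at h1
    rw [hv', ← h1]
    simp only [map_mul, Module.End.mul_apply]
  have hsum : ∑ x : F, ρ (twlg_bk_L x) v =
      ρ (twlg_bk_w : SL(2, F)) (∑ x : F, ρ (twlg_bk_Umat x) v') := by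
    simp only [hL]
    rw [map_sum]
    exact Equiv.sum_comp (Equiv.neg F) (fun y => ρ (twlg_bk_w : SL(2, F)) (ρ (twlg_bk_Umat y) v'))
  rw [hsum, ← map_nsmul, key, map_zero]

end Main

end SL2

end Fermat.Agent.TW
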