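import Mathlib
import Fermat.Agent.LR.MTX.Homology
import Fermat.Agent.TW.LG.GatewayDegVer

/-!
# TW / [A]–[E] bridge: the two transfers `Γ₀(N) → Γ₀(N t)` for a prime `t ∤ N` (prefix `twlg_gq_`)

The coprime twin of `GatewayDegVer.lean`, in the vocabulary of `LR/MTX` (helper5), so that the
transfers on homology are LITERALLY `lrh_At`, `lrh_Bt`:

* `twlg_gq_trOf D x₀ r hr f` : the transfer datum (`twlg_gd_Tr`) attached to an `lrt_Data`, a base
  point `x₀` with representatives `r`, and a homomorphism `f` on the stabiliser of `x₀`;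
  `twlg_gq_verAdd_trOf` : its additive transfer is `lrt_cor … ∘ lrm_pull f`;
* `twlg_gq_trA htN`, `twlg_gq_trB htN` : `X = ℙ¹(𝔽_t)`, base points `∞` (stabiliser `Γ₀(N t)`) and `0`
  (stabiliser `≅ Γ₀(N t)` through conjugation by `diag(1, t)`);
  `twlg_gq_verAdd_trA/trB` : the additive transfers are `lrm_corA`, `lrm_corB`;
* `twlg_gq_At_mk`, `twlg_gq_Bt_mk` : `lrh_At [g] = ∑ₓ [coc_A x g]`, `lrh_Bt [g] = ∑ₓ [coc_B x g]`;
* `twlg_gq_cocA_coe`, `twlg_gq_cocB_spec` : the cocycles through the representatives.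
-/

set_option autoImplicit false
set_option linter.unusedSectionVars false

noncomputable section

open CongruenceSubgroup Matrix.SpecialLinearGroup Function ModularForm
open P2MW.S_ModularForm_heckeT_slash_eq_self_of_mem_Gamma0.ModularForm.HeckeSlashInvariance
open scoped MatrixGroups OnePoint

namespace Fermat.Agent.TW

open Fermat.Agent.JT3 Fermat.Agent.LR

/-! ### abstract: transfer data from `lrt_Data` -/

section abstract

variable {G H X : Type*} [Group G] [Group H] (D : lrt_Data G X) (x₀ : X) (r : X → G)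
  (hr : ∀ x, D.act (r x) x₀ = x) (f : lrt_stab D x₀ →* H)

/-- the transfer datum of a base point with representatives and a homomorphism on its stabiliser -/
def twlg_gq_trOf : twlg_gd_Tr G H X where
  act := D.act
  act_one := D.act_one
  act_mul := D.act_mul
  coc x g := f (lrt_a D x₀ r hr x g)
  coc_one x := by rw [lrt_a_one, map_one]
  coc_mul x g h := by rw [lrt_a_mul, map_mul]

theorem twlg_gq_trOf_act (g : G) (x : X) : (twlg_gq_trOf D x₀ r hr f).act g x = D.act g x := rfl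

theorem twlg_gq_trOf_coc (x : X) (g : G) :
    (twlg_gq_trOf D x₀ r hr f).coc x g = f (lrt_a D x₀ r hr x g) := rfl

variable [Fintype X] {A : Type*} [AddCommGroup A]

/-- the additive transfer of `twlg_gq_trOf` is `lrt_cor ∘ f^*` -/
theorem twlg_gq_verAdd_trOf (ψ : Additive H →+ A) :
    twlg_gd_verAdd (twlg_gq_trOf D x₀ r hr f) ψ = lrt_cor D x₀ r hr (lrm_pull f ψ) := by
  refine lrt_ext fun g => ?_
  show twlg_gd_verAdd (twlg_gq_trOf D x₀ r hr f) ψ (Additive.ofMul g) = _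
  rw [twlg_gd_verAdd_apply, lrt_cor_ev]
  rfl

end abstract

/-! ### the two transfers for `t ∤ N` -/

section coprime

variable {N t : ℕ} [Fact t.Prime]

/-- **the transfer data of (ALPHA), `t ∤ N`**: base point `∞` -/
def twlg_gq_trA (htN : ¬ t ∣ N) :
    twlg_gd_Tr (Gamma0 N) (Gamma0 (N * t)) (OnePoint (ZMod t)) :=
  twlg_gq_trOf (lrm_data htN) ∞ (lrm_rInf htN) (lrm_rInf_spec htN) (lrm_gamInf htN)

/-- **the transfer data of (BETA), `t ∤ N`**: base point `0` -/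
def twlg_gq_trB (htN : ¬ t ∣ N) :
    twlg_gd_Tr (Gamma0 N) (Gamma0 (N * t)) (OnePoint (ZMod t)) :=
  twlg_gq_trOf (lrm_data htN) ((0 : ZMod t) : OnePoint (ZMod t)) (lrm_rZero htN)
    (lrm_rZero_spec htN) (lrm_gamZero htN)

theorem twlg_gq_trA_act (htN : ¬ t ∣ N) (g : Gamma0 N) (x : OnePoint (ZMod t)) :
    (twlg_gq_trA htN).act g x = t2c_act (g : SL(2, ℤ)) x := rfl

theorem twlg_gq_trB_act (htN : ¬ t ∣ N) (g : Gamma0 N) (x : OnePoint (ZMod t)) :
    (twlg_gq_trB htN).act g x = t2c_act (g : SL(2, ℤ)) x := rfl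

/-- the cocycle of (ALPHA) through the representatives: `coc_A x g = r_x g r_{x ⋆ g}⁻¹` -/
theorem twlg_gq_cocA_coe (htN : ¬ t ∣ N) (x : OnePoint (ZMod t)) (g : Gamma0 N) :
    (((twlg_gq_trA htN).coc x g : Gamma0 (N * t)) : SL(2, ℤ)) =
      ((lrm_rInf htN x : Gamma0 N) : SL(2, ℤ)) * (g : SL(2, ℤ)) *
        ((lrm_rInf htN (t2c_act (g : SL(2, ℤ)) x) : Gamma0 N) : SL(2, ℤ))⁻¹ := rfl

/-- `r_x g = coc_A x g · r_{x ⋆ g}` -/
theorem twlg_gq_cocA_spec (htN : ¬ t ∣ N) (x : OnePoint (ZMod t)) (g : Gamma0 N) :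
    ((lrm_rInf htN x : Gamma0 N) : SL(2, ℤ)) * (g : SL(2, ℤ)) =
      (((twlg_gq_trA htN).coc x g : Gamma0 (N * t)) : SL(2, ℤ)) *
        ((lrm_rInf htN (t2c_act (g : SL(2, ℤ)) x) : Gamma0 N) : SL(2, ℤ)) := by
  rw [twlg_gq_cocA_coe, inv_mul_cancel_right]

/-- the element of `Stab(0)` under the cocycle of (BETA) -/
theorem twlg_gq_cocB_eq (htN : ¬ t ∣ N) (x : OnePoint (ZMod t)) (g : Gamma0 N) :
    (twlg_gq_trB htN).coc x g =
      lrm_gamZero htN (lrt_a (lrm_data htN) ((0 : ZMod t) : OnePoint (ZMod t)) (lrm_rZero htN)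
        (lrm_rZero_spec htN) x g) := rfl

/-- conjugation by `diag(1, t)` on the stabiliser of `0`:
`δ_0 s = gamZero(s) δ_0`, `δ_0 = [1 0; 0 t]` -/
theorem twlg_gq_gamZero_spec (htN : ¬ t ∣ N)
    (s : lrt_stab (lrm_data htN) ((0 : ZMod t) : OnePoint (ZMod t))) :
    heckeMatrix t 0 * mapGL ℝ (((s : Gamma0 N)) : SL(2, ℤ)) =
      mapGL ℝ ((lrm_gamZero htN s : Gamma0 (N * t)) : SL(2, ℤ)) * heckeMatrix t 0 := by
  have h := t2c_coc_spec htN ((0 : ZMod t) : OnePoint (ZMod t)) (s : Gamma0 N)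
  rw [(show t2c_act ((s : Gamma0 N) : SL(2, ℤ)) ((0 : ZMod t) : OnePoint (ZMod t)) = _ from s.2),
    lrm_heckeRep_zero] at h
  exact h

/-- `δ_0 r⁰_x g = coc_B x g · δ_0 r⁰_{x ⋆ g}` -/
theorem twlg_gq_cocB_spec (htN : ¬ t ∣ N) (x : OnePoint (ZMod t)) (g : Gamma0 N) :
    heckeMatrix t 0 * mapGL ℝ (((lrm_rZero htN x : Gamma0 N) : SL(2, ℤ)) * (g : SL(2, ℤ))) =
      mapGL ℝ (((twlg_gq_trB htN).coc x g : Gamma0 (N * t)) : SL(2, ℤ)) *
        (heckeMatrix t 0 *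
          mapGL ℝ ((lrm_rZero htN (t2c_act (g : SL(2, ℤ)) x) : Gamma0 N) : SL(2, ℤ))) := by
  rw [twlg_gq_cocB_eq, ← mul_assoc, ← twlg_gq_gamZero_spec, mul_assoc, ← map_mul]
  congr 2
  rw [lrt_a_coe]
  show _ = ((lrm_rZero htN x : Gamma0 N) : SL(2, ℤ)) * (g : SL(2, ℤ)) *
    ((lrm_rZero htN (t2c_act (g : SL(2, ℤ)) x) : Gamma0 N) : SL(2, ℤ))⁻¹ *
      ((lrm_rZero htN (t2c_act (g : SL(2, ℤ)) x) : Gamma0 N) : SL(2, ℤ))
  rw [inv_mul_cancel_right]

variable {A : Type*} [AddCommGroup A]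

/-- the additive transfer of (ALPHA) is `lrm_corA` -/
theorem twlg_gq_verAdd_trA (htN : ¬ t ∣ N) (ψ : Additive (Gamma0 (N * t)) →+ A) :
    twlg_gd_verAdd (twlg_gq_trA htN) ψ = lrm_corA htN ψ :=
  twlg_gq_verAdd_trOf _ _ _ _ _ ψ

/-- the additive transfer of (BETA) is `lrm_corB` -/
theorem twlg_gq_verAdd_trB (htN : ¬ t ∣ N) (ψ : Additive (Gamma0 (N * t)) →+ A) :
    twlg_gd_verAdd (twlg_gq_trB htN) ψ = lrm_corB htN ψ :=
  twlg_gq_verAdd_trOf _ _ _ _ _ ψ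

/-- `lrh_At [g] = ∑ₓ [coc_A x g]` -/
theorem twlg_gq_At_mk (htN : ¬ t ∣ N) (g : Gamma0 N) :
    lrh_At htN (gh_mk N (Additive.ofMul g)) =
      ∑ x : OnePoint (ZMod t), gh_mk (N * t) (Additive.ofMul ((twlg_gq_trA htN).coc x g)) := by
  have h := DFunLike.congr_fun (lrh_At_comp_mk htN) (Additive.ofMul g)
  rw [AddMonoidHom.comp_apply] at h
  rw [h, ← twlg_gq_verAdd_trA, twlg_gd_verAdd_apply]

/-- `lrh_Bt [g] = ∑ₓ [coc_B x g]` -/
theorem twlg_gq_Bt_mk (htN : ¬ t ∣ N) (g : Gamma0 N) :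
    lrh_Bt htN (gh_mk N (Additive.ofMul g)) =
      ∑ x : OnePoint (ZMod t), gh_mk (N * t) (Additive.ofMul ((twlg_gq_trB htN).coc x g)) := by
  have h := DFunLike.congr_fun (lrh_Bt_comp_mk htN) (Additive.ofMul g)
  rw [AddMonoidHom.comp_apply] at h
  rw [h, ← twlg_gq_verAdd_trB, twlg_gd_verAdd_apply]

end coprime

end Fermat.Agent.TW

end
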