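import Mathlib
import Fermat.Agent.JT3.NL.Swap
import Fermat.Agent.JT3.NL.Degree
import Fermat.Agent.TW.LG.GatewayDegCoprimeVer
import Fermat.Agent.TW.LG.GatewayDegLattice

/-!
# TW / [A]–[E] bridge: (BR) for a prime `t ∤ N` (prefix `twlg_gq_`)

The coprime twin of `GatewayDeg.lean` / `GatewayDegLattice.lean`: for a prime `t ∤ N` the two
push-forwards `J₀(N t) → J₀(N)` correspond, on `T_p J₀(·) = Hom(H₁(X₀(·)), ℤ_p)`, to LR's two
transfers `lrh_At`, `lrh_Bt : gh_H N →+ gh_H (N * t)` (index `t + 1`, cosets `ℙ¹(𝔽_t)`):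

* `twlg_gq_lattice_P1` : `tjp_lattice N p (s35p_P1 N t p x) = (tjp_lattice (N t) p x) ∘ lrh_At`,
* `twlg_gq_lattice_P2` : `tjp_lattice N p (s35p_P2 N t p x) = (tjp_lattice (N t) p x) ∘ lrh_Bt`.

The analytic input (the two norm formulas with `t + 1` conjugates) is consumed in the shapes
`twlg_gq_HanA`, `twlg_gq_HanB`; `twlg_gq_hanB_of_W` derives the second from the Atkin–Lehner form
(representatives `W ∘ r_x`).
-/

set_option autoImplicit false
set_option linter.unusedSectionVars false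
set_option linter.style.haveILetI false
set_option synthInstance.maxHeartbeats 400000
set_option maxHeartbeats 1000000

noncomputable section

open UpperHalfPlane hiding I
open Complex CongruenceSubgroup ModularCurve ModularForm
open scoped Real Manifold MatrixGroups OnePoint
open Matrix.SpecialLinearGroup
open P2MW.S_ModularForm_heckeT_slash_eq_self_of_mem_Gamma0.ModularForm.HeckeSlashInvariance

namespace Fermat.Agent.TW

open Fermat.Agent.S24 Fermat.Agent.S24.Br Fermat.Agent.JT3 Fermat.Agent.S35 Fermat.Agent.LR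
  AlgebraicCurve

section reps

variable {N t : ℕ} [Fact t.Prime]

/-- the representatives `lrm_rInf` are pairwise inequivalent modulo `Γ₀(N t)` -/
theorem twlg_gq_rInf_inj (htN : ¬ t ∣ N) (x y : OnePoint (ZMod t))
    (h : ((lrm_rInf htN x : Gamma0 N) : SL(2, ℤ)) * ((lrm_rInf htN y : Gamma0 N) : SL(2, ℤ))⁻¹ ∈
      Gamma0 (N * t)) : x = y := by
  have h1 : t2c_act (((lrm_rInf htN x : Gamma0 N) : SL(2, ℤ)) *
      ((lrm_rInf htN y : Gamma0 N) : SL(2, ℤ))⁻¹) (∞ : OnePoint (ZMod t)) = ∞ :=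
    (lrm_act_infty _).mpr (lrm_dvd_q N ⟨_, h⟩)
  have hx : t2c_act ((lrm_rInf htN x : Gamma0 N) : SL(2, ℤ)) (∞ : OnePoint (ZMod t)) = x :=
    lrm_rInf_spec htN x
  have hy : t2c_act ((lrm_rInf htN y : Gamma0 N) : SL(2, ℤ)) (∞ : OnePoint (ZMod t)) = y :=
    lrm_rInf_spec htN y
  rw [t2c_act_mul, hx] at h1
  have h2 := congrArg (t2c_act ((lrm_rInf htN y : Gamma0 N) : SL(2, ℤ))) h1
  rw [← t2c_act_mul, inv_mul_cancel, t2c_act_one, hy] at h2
  exact h2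

end reps

section shapes

variable (N t : ℕ) [NeZero N] [NeZero t] [Fact t.Prime]

/-- the analytic norm formula along `α`, `t ∤ N`, at the representatives `lrm_rInf` -/
def twlg_gq_HanA (htN : ¬ t ∣ N) : Prop :=
  ∀ (a : A0 (N * t)) (c₁ a₁ : A0 N),
    s35pe_normAlong (heckeAlphaBar Kbar N t) (algebraMap (A0 (N * t)) (Fbar (N * t)) a) *
      algebraMap (A0 N) (Fbar N) c₁ = algebraMap (A0 N) (Fbar N) a₁ →
    ∀ z : ℍ, ff_an N a₁ z = ff_an N c₁ z *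
      ∏ x : OnePoint (ZMod t), ff_an (N * t) a (((lrm_rInf htN x : Gamma0 N) : SL(2, ℤ)) • z)

/-- the analytic norm formula along `β`, `t ∤ N`, at the representatives `δ₀ ∘ lrm_rZero` -/
def twlg_gq_HanB (htN : ¬ t ∣ N) : Prop :=
  ∀ (a : A0 (N * t)) (c₁ a₁ : A0 N),
    s35pe_normAlong (heckeBetaBar Kbar N t) (algebraMap (A0 (N * t)) (Fbar (N * t)) a) *
      algebraMap (A0 N) (Fbar N) c₁ = algebraMap (A0 N) (Fbar N) a₁ →
    ∀ z : ℍ, ff_an N a₁ z = ff_an N c₁ z *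
      ∏ x : OnePoint (ZMod t),
        ff_an (N * t) a (heckeMatrix t 0 • (((lrm_rZero htN x : Gamma0 N) : SL(2, ℤ)) • z))

/-- the analytic norm formula along `β`, `t ∤ N`, in the Atkin–Lehner form (representatives
`W ∘ lrm_rInf`, `W = nls_mat N t a₀ c₀ h`) -/
def twlg_gq_HanW (htN : ¬ t ∣ N) {a₀ c₀ : ℤ} (h : (t : ℤ) * a₀ - N * c₀ = 1) : Prop :=
  ∀ (a : A0 (N * t)) (c₁ a₁ : A0 N),
    s35pe_normAlong (heckeBetaBar Kbar N t) (algebraMap (A0 (N * t)) (Fbar (N * t)) a) *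
      algebraMap (A0 N) (Fbar N) c₁ = algebraMap (A0 N) (Fbar N) a₁ →
    ∀ z : ℍ, ff_an N a₁ z = ff_an N c₁ z *
      ∏ x : OnePoint (ZMod t),
        ff_an (N * t) a (nls_mat N t a₀ c₀ h • (((lrm_rInf htN x : Gamma0 N) : SL(2, ℤ)) • z))

end shapes

/-! ### from the Atkin–Lehner form to the `δ₀`-form -/

section bridge

variable {N t : ℕ} [NeZero N] [NeZero t] [Fact t.Prime]

/-- `r_∞ = [t a, 1; N c, 1] ∈ Γ₀(N)`, with `W = δ₀ r_∞` and `0 ⋆ r_∞ = ∞` -/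
def twlg_gq_rW {a₀ c₀ : ℤ} (h : (t : ℤ) * a₀ - N * c₀ = 1) : Gamma0 N :=
  ⟨⟨!![(t : ℤ) * a₀, 1; (N : ℤ) * c₀, 1], by
    rw [Matrix.det_fin_two_of]; linear_combination h⟩,
    t2c_mem_of_dvd (by
      show (N : ℤ) ∣ (N : ℤ) * c₀
      exact dvd_mul_right _ _)⟩

theorem twlg_gq_rW_act {a₀ c₀ : ℤ} (h : (t : ℤ) * a₀ - N * c₀ = 1) :
    t2c_act ((twlg_gq_rW h : Gamma0 N) : SL(2, ℤ)) ((0 : ZMod t) : OnePoint (ZMod t)) = ∞ := by
  rw [t2c_act, OnePoint.smul_some_eq_ite, redMatrix_apply_one_zero, redMatrix_apply_one_one,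
    mul_zero, zero_add]
  have h00 : ((((twlg_gq_rW h : Gamma0 N) : SL(2, ℤ)) 0 0 : ℤ) : ZMod t) = 0 := by
    show ((((t : ℤ) * a₀ : ℤ)) : ZMod t) = 0
    push_cast
    simp
  rw [if_pos h00]

/-- `W z = δ₀ (r_∞ z)` -/
theorem twlg_gq_mat_smul {a₀ c₀ : ℤ} (h : (t : ℤ) * a₀ - N * c₀ = 1) (z : ℍ) :
    nls_mat N t a₀ c₀ h • z =
      heckeMatrix t 0 • (((twlg_gq_rW h : Gamma0 N) : SL(2, ℤ)) • z) := by
  have ht0 : t ≠ 0 := NeZero.ne t
  have htC : (t : ℂ) ≠ 0 := by exact_mod_cast ht0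
  apply UpperHalfPlane.ext
  have hden := nls_denom_ne_zero h z
  rw [nls_coe_mat_smul, coe_heckeMatrix_smul ht0, UpperHalfPlane.coe_specialLinearGroup_apply]
  simp only [twlg_gq_rW, Matrix.SpecialLinearGroup.coe_mk, Matrix.of_apply, Matrix.cons_val',
    Matrix.cons_val_zero, Matrix.cons_val_one, Matrix.empty_val', Matrix.cons_val_fin_one,
    algebraMap_int_eq, Int.coe_castRingHom]
  have hden' : ((N : ℂ) * c₀) * (z : ℂ) + 1 ≠ 0 := by
    intro h0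
    apply hden
    have : (N : ℂ) * t * c₀ * z + t = (t : ℂ) * (((N : ℂ) * c₀) * (z : ℂ) + 1) := by ring
    rw [this, h0, mul_zero]
  push_cast
  rw [add_zero, div_div]
  congr 1
  ring

/-- `a(δ₀ (u z))` depends only on `0 ⋆ u` for `u ∈ Γ₀(N)` -/
theorem twlg_gq_rep_change (htN : ¬ t ∣ N) (a : A0 (N * t)) (u u' : Gamma0 N)
    (huu : t2c_act (u : SL(2, ℤ)) ((0 : ZMod t) : OnePoint (ZMod t)) =
      t2c_act (u' : SL(2, ℤ)) ((0 : ZMod t) : OnePoint (ZMod t))) (z : ℍ) :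
    ff_an (N * t) a (heckeMatrix t 0 • ((u : SL(2, ℤ)) • z)) =
      ff_an (N * t) a (heckeMatrix t 0 • ((u' : SL(2, ℤ)) • z)) := by
  -- `s = u u'⁻¹` stabilises `0`
  have hs : (lrm_data htN).act (u * u'⁻¹) ((0 : ZMod t) : OnePoint (ZMod t)) =
      ((0 : ZMod t) : OnePoint (ZMod t)) := by
    show t2c_act (((u * u'⁻¹ : Gamma0 N)) : SL(2, ℤ)) _ = _
    rw [Subgroup.coe_mul, t2c_act_mul, huu, ← t2c_act_mul, ← Subgroup.coe_mul, mul_inv_cancel,
      Subgroup.coe_one, t2c_act_one]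
  set s : lrt_stab (lrm_data htN) ((0 : ZMod t) : OnePoint (ZMod t)) := ⟨u * u'⁻¹, hs⟩ with hsdef
  have hu : (u : SL(2, ℤ)) = (((s : Gamma0 N)) : SL(2, ℤ)) * (u' : SL(2, ℤ)) := by
    show (u : SL(2, ℤ)) = (((u * u'⁻¹ : Gamma0 N)) : SL(2, ℤ)) * (u' : SL(2, ℤ))
    rw [← Subgroup.coe_mul, inv_mul_cancel_right]
  have h1 : heckeMatrix t 0 • ((u : SL(2, ℤ)) • z) =
      ((lrm_gamZero htN s : Gamma0 (N * t)) : SL(2, ℤ)) •
        (heckeMatrix t 0 • ((u' : SL(2, ℤ)) • z)) := by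
    rw [hu, mul_smul]
    change heckeMatrix t 0 • (mapGL ℝ (((s : Gamma0 N)) : SL(2, ℤ)) • ((u' : SL(2, ℤ)) • z)) =
      mapGL ℝ ((lrm_gamZero htN s : Gamma0 (N * t)) : SL(2, ℤ)) •
        (heckeMatrix t 0 • ((u' : SL(2, ℤ)) • z))
    rw [← mul_smul, ← mul_smul, twlg_gq_gamZero_spec]
  rw [h1]
  exact gw_an_smul (C := gw_ctxBar (N * t)) a (lrm_gamZero htN s) _

/-- **from the Atkin–Lehner form to the `δ₀`-form** -/
theorem twlg_gq_hanB_of_W (htN : ¬ t ∣ N) {a₀ c₀ : ℤ} (h : (t : ℤ) * a₀ - N * c₀ = 1)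
    (hW : twlg_gq_HanW N t htN h) : twlg_gq_HanB N t htN := by
  intro a c₁ a₁ hN z
  rw [hW a c₁ a₁ hN z]
  congr 1
  refine Finset.prod_congr rfl fun x _ => ?_
  rw [twlg_gq_mat_smul h, ← mul_smul, ← Subgroup.coe_mul]
  refine twlg_gq_rep_change htN a _ _ ?_ z
  rw [Subgroup.coe_mul, t2c_act_mul, twlg_gq_rW_act]
  exact (lrm_rInf_spec htN x).trans (lrm_rZero_spec htN x).symm

end bridge

/-! ### the characters of the two norms -/

section char

variable {N t : ℕ} [NeZero N] [NeZero t] [Fact t.Prime]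

/-- **the character of the norm along `α`**, `t ∤ N` prime -/
theorem twlg_gq_hasChar_normAlpha (htN : ¬ t ∣ N) (hA : twlg_gq_HanA N t htN) {n : ℕ}
    (hn : n ≠ 0) {f : Fbar (N * t)} {χ : ↥(Gamma0 (N * t)) →* ℂˣ}
    (hf : gw_HasChar (gw_ctxBar (N * t)) n f χ) :
    gw_HasChar (gw_ctxBar N) n (s35pe_normAlong (heckeAlphaBar Kbar N t) f)
      (twlg_gd_ver (twlg_gq_trA htN) χ) := by
  refine twlg_gd_hasChar_of (twlg_gq_trA htN) (s35pe_normAlong (heckeAlphaBar Kbar N t))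
    (fun x hx => twlg_gd_normAlpha_ne_zero N t hx)
    (fun x z => ((lrm_rInf htN x : Gamma0 N) : SL(2, ℤ)) • z)
    (fun x => twlg_gd_mdiff_smul _) ?_ hA hn hf
  intro x g z
  show ((lrm_rInf htN x : Gamma0 N) : SL(2, ℤ)) • ((g : SL(2, ℤ)) • z) =
    (((twlg_gq_trA htN).coc x g : Gamma0 (N * t)) : SL(2, ℤ)) •
      (((lrm_rInf htN (t2c_act (g : SL(2, ℤ)) x) : Gamma0 N) : SL(2, ℤ)) • z)
  rw [← mul_smul, ← mul_smul, twlg_gq_cocA_spec htN x g]

/-- **the character of the norm along `β`**, `t ∤ N` prime -/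
theorem twlg_gq_hasChar_normBeta (htN : ¬ t ∣ N) (hB : twlg_gq_HanB N t htN) {n : ℕ}
    (hn : n ≠ 0) {f : Fbar (N * t)} {χ : ↥(Gamma0 (N * t)) →* ℂˣ}
    (hf : gw_HasChar (gw_ctxBar (N * t)) n f χ) :
    gw_HasChar (gw_ctxBar N) n (s35pe_normAlong (heckeBetaBar Kbar N t) f)
      (twlg_gd_ver (twlg_gq_trB htN) χ) := by
  refine twlg_gd_hasChar_of (twlg_gq_trB htN) (s35pe_normAlong (heckeBetaBar Kbar N t))
    (fun x hx => twlg_gd_normBeta_ne_zero N t hx)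
    (fun x z => heckeMatrix t 0 • (((lrm_rZero htN x : Gamma0 N) : SL(2, ℤ)) • z))
    (fun x => (UpperHalfPlane.mdifferentiable_smul (det_heckeMatrix_pos t 0)).comp
      (twlg_gd_mdiff_smul _)) ?_ hB hn hf
  intro x g z
  show heckeMatrix t 0 • (((lrm_rZero htN x : Gamma0 N) : SL(2, ℤ)) • ((g : SL(2, ℤ)) • z)) =
    (((twlg_gq_trB htN).coc x g : Gamma0 (N * t)) : SL(2, ℤ)) •
      (heckeMatrix t 0 •
        (((lrm_rZero htN (t2c_act (g : SL(2, ℤ)) x) : Gamma0 N) : SL(2, ℤ)) • z))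
  rw [← mul_smul]
  change heckeMatrix t 0 •
      (mapGL ℝ (((lrm_rZero htN x : Gamma0 N) : SL(2, ℤ)) * (g : SL(2, ℤ))) • z) =
    mapGL ℝ (((twlg_gq_trB htN).coc x g : Gamma0 (N * t)) : SL(2, ℤ)) •
      (heckeMatrix t 0 •
        (mapGL ℝ ((lrm_rZero htN (t2c_act (g : SL(2, ℤ)) x) : Gamma0 N) : SL(2, ℤ)) • z))
  rw [← mul_smul, ← mul_smul, ← mul_smul, twlg_gq_cocB_spec htN x g, mul_assoc]

end char

/-! ### the gateway and the lattices -/

section main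

variable (N t : ℕ) [NeZero N] [NeZero t] [Fact t.Prime]

/-- **(BR), `t ∤ N`, α-half**: `e_n ((α_t)_* y) = Ver_A (e_n y)` -/
theorem twlg_gq_picEquiv_alpha {n : ℕ} (hn : n ≠ 0) (htN : ¬ t ∣ N) (hA : twlg_gq_HanA N t htN)
    (y : Pic0.torsion Kbar (Fbar (N * t)) n) :
    ((Additive.toMul (gw_picEquiv N hn
        ⟨s35p_P1J N t (y : Pic0 Kbar (Fbar (N * t))), twlg_gd_P1J_mem_torsion N t y⟩) :
      gw_X N n) : ↥(Gamma0 N) →* ℂˣ) =
    twlg_gd_ver (twlg_gq_trA htN)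
      ((Additive.toMul (gw_picEquiv (N * t) hn y) : gw_X (N * t) n) :
        ↥(Gamma0 (N * t)) →* ℂˣ) :=
  twlg_gd_picEquiv_push N t hn (heckeAlphaBar Kbar N t) (hib_alphaIntegral N t)
    (hib_finiteAlong_alpha N t) (hib_normFormulaAlong_alpha N t)
    (twlg_gd_ver (twlg_gq_trA htN))
    (fun _ _ hf => twlg_gq_hasChar_normAlpha htN hA hn hf) y

/-- **(BR), `t ∤ N`, β-half**: `e_n ((β_t)_* y) = Ver_B (e_n y)` -/
theorem twlg_gq_picEquiv_beta {n : ℕ} (hn : n ≠ 0) (htN : ¬ t ∣ N) (hB : twlg_gq_HanB N t htN)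
    (y : Pic0.torsion Kbar (Fbar (N * t)) n) :
    ((Additive.toMul (gw_picEquiv N hn
        ⟨s35p_P2J N t (y : Pic0 Kbar (Fbar (N * t))), twlg_gd_P2J_mem_torsion N t y⟩) :
      gw_X N n) : ↥(Gamma0 N) →* ℂˣ) =
    twlg_gd_ver (twlg_gq_trB htN)
      ((Additive.toMul (gw_picEquiv (N * t) hn y) : gw_X (N * t) n) :
        ↥(Gamma0 (N * t)) →* ℂˣ) :=
  twlg_gd_picEquiv_push N t hn (heckeBetaBar Kbar N t) (hib_betaIntegral N t)
    (hib_finiteAlong_beta N t) (hib_normFormulaAlong_beta N t)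
    (twlg_gd_ver (twlg_gq_trB htN))
    (fun _ _ hf => twlg_gq_hasChar_normBeta htN hB hn hf) y

variable (p : ℕ) [hp : Fact p.Prime]

theorem twlg_gq_chi_P1J (htN : ¬ t ∣ N) (hA : twlg_gq_HanA N t htN) (n : ℕ)
    (y : JZero (N * t)) (hy : p ^ n • y = 0) :
    tj_chi N p n (s35p_P1J N t y) = twlg_gd_ver (twlg_gq_trA htN) (tj_chi (N * t) p n y) := by
  have hTy : p ^ n • s35p_P1J N t y = 0 := by
    rw [← map_nsmul, hy, map_zero]
  rw [tj_chi_eq N p hTy, tj_chi_eq (N * t) p hy]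
  exact twlg_gq_picEquiv_alpha N t (tj_pow_ne_zero p n) htN hA
    ⟨y, (tj_mem_torsion (N * t) p).mpr hy⟩

theorem twlg_gq_chi_P2J (htN : ¬ t ∣ N) (hB : twlg_gq_HanB N t htN) (n : ℕ)
    (y : JZero (N * t)) (hy : p ^ n • y = 0) :
    tj_chi N p n (s35p_P2J N t y) = twlg_gd_ver (twlg_gq_trB htN) (tj_chi (N * t) p n y) := by
  have hTy : p ^ n • s35p_P2J N t y = 0 := by
    rw [← map_nsmul, hy, map_zero]
  rw [tj_chi_eq N p hTy, tj_chi_eq (N * t) p hy]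
  exact twlg_gq_picEquiv_beta N t (tj_pow_ne_zero p n) htN hB
    ⟨y, (tj_mem_torsion (N * t) p).mpr hy⟩

/-- **(BR), `t ∤ N`, lattice form, α-half**: `P₁` is composition with LR's transfer `lrh_At` -/
theorem twlg_gq_lattice_P1 (htN : ¬ t ∣ N) (hA : twlg_gq_HanA N t htN) (x : tj_T (N * t) p) :
    tjp_lattice N p (s35p_P1 N t p x) = (tjp_lattice (N * t) p x).comp (lrh_At htN) := by
  refine gh_hom_ext fun g => ?_
  obtain ⟨γ, rfl⟩ := Additive.ofMul.surjective g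
  rw [tjp_lattice, tjp_lattice, tj_lattice_apply, AddMonoidHom.comp_apply, twlg_gq_At_mk, map_sum]
  have h := twlg_gd_equiv_map2 (tl_rootsComplex p) (tj_charSystem (tjp_surj N p))
    (tj_charSystem (tjp_surj (N * t) p)) (s35p_P1J N t)
    (fun k γ => (twlg_gq_trA htN).coc k γ)
    (fun n y hy γ => by
      show tj_chi N p n (s35p_P1J N t y) γ = _
      rw [twlg_gq_chi_P1J N t p htN hA n y hy, twlg_gd_ver_apply]
      rfl) x γ
  exact h.trans (Finset.sum_congr rfl fun i _ => (tj_lattice_apply (tjp_surj (N * t) p) x _).symm)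

/-- **(BR), `t ∤ N`, lattice form, β-half**: `P₂` is composition with LR's transfer `lrh_Bt` -/
theorem twlg_gq_lattice_P2 (htN : ¬ t ∣ N) (hB : twlg_gq_HanB N t htN) (x : tj_T (N * t) p) :
    tjp_lattice N p (s35p_P2 N t p x) = (tjp_lattice (N * t) p x).comp (lrh_Bt htN) := by
  refine gh_hom_ext fun g => ?_
  obtain ⟨γ, rfl⟩ := Additive.ofMul.surjective g
  rw [tjp_lattice, tjp_lattice, tj_lattice_apply, AddMonoidHom.comp_apply, twlg_gq_Bt_mk, map_sum]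
  have h := twlg_gd_equiv_map2 (tl_rootsComplex p) (tj_charSystem (tjp_surj N p))
    (tj_charSystem (tjp_surj (N * t) p)) (s35p_P2J N t)
    (fun k γ => (twlg_gq_trB htN).coc k γ)
    (fun n y hy γ => by
      show tj_chi N p n (s35p_P2J N t y) γ = _
      rw [twlg_gq_chi_P2J N t p htN hB n y hy, twlg_gd_ver_apply]
      rfl) x γ
  exact h.trans (Finset.sum_congr rfl fun i _ => (tj_lattice_apply (tjp_surj (N * t) p) x _).symm)

end main

end Fermat.Agent.TW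

end
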