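/-
Project ONE MACHINE (S43), cell GatewayDegCoprime, analytic half (helper6; prefix `twlg_gc_`).

**The two analytic norm formulas along the degeneracy maps `α, β : F̄_N → F̄_{N t}`, for arbitrary
coset representatives** (in particular for a prime `t ∤ N`, `t + 1` conjugates).

* `twlg_gc_alpha_an` : `γ : X → SL(2, ℤ)` a system of representatives of `Γ₀(N t) \ Γ₀(N)`
  (`γ x ∈ Γ₀(N)`, pairwise inequivalent, `#X = [F̄_{N t} : F̄_N]`); if
  `Norm_α(a) * c₁ = a₁` then `an a₁ z = an c₁ z * ∏ₓ an a (γ x • z)`.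
  (Same proof as `twlg_na_norm_an`: Taylor-germ embeddings of S24 + `nlp_norm_eq_prod`.)
* `twlg_gc_beta_an` : for a prime `t ∤ N`, `β = W ∘ α` with helper24's Atkin–Lehner endomorphism
  `nls_W` (`(W a)(z) = a(M z)`, `M = nls_mat N t a c h`), hence `Norm_β(a) = Norm_α(W a)` and
  `an a₁ z = an c₁ z * ∏ₓ an a (M • γ x • z)`.
-/
import Mathlib
import Fermat.Agent.JT3.NL.Swap
import Fermat.Agent.S35.DescU.NormBC
import Fermat.Agent.TW.LG.NormAlphaAn

set_option autoImplicit false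
set_option linter.unusedSectionVars false
set_option linter.style.haveILetI false

noncomputable section

open UpperHalfPlane hiding I
open CongruenceSubgroup ModularCurve AlgebraicCurve
open scoped MatrixGroups Manifold

namespace Fermat.Agent.TW

open Fermat.Agent.S24 Fermat.Agent.S24.Br Fermat.Agent.JT3 Fermat.Agent.S36 Fermat.Agent.S35

section alpha

variable (N t : ℕ) [NeZero N] [NeZero t]

/-- **the analytic norm formula along the inclusion `α`, arbitrary representatives.** -/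
theorem twlg_gc_alpha_an {X : Type} [Fintype X] (γ : X → SL(2, ℤ))
    (hγ : ∀ x, γ x ∈ Gamma0 N)
    (hinj : ∀ x y, γ x * (γ y)⁻¹ ∈ Gamma0 (N * t) → x = y)
    (hcard : Fintype.card X = finrankAlong Kbar (heckeAlphaBar Kbar N t))
    (hpos : 0 < Fintype.card X)
    (a : A0 (N * t)) (c₁ a₁ : A0 N)
    (h : (letI := algebraAlong (heckeAlphaBar Kbar N t);
        Algebra.norm (Fbar N) (algebraMap (A0 (N * t)) (Fbar (N * t)) a)) *
          algebraMap (A0 N) (Fbar N) c₁ = algebraMap (A0 N) (Fbar N) a₁) (z : ℍ) :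
    ff_an N a₁ z = ff_an N c₁ z * ∏ x : X, ff_an (N * t) a (γ x • z) := by
  classical
  letI := algebraAlong (heckeAlphaBar Kbar N t)
  haveI := isScalarTower_along (heckeAlphaBar Kbar N t)
  have hG := ff_isGerm z
  have hRN := ff_isRealisation N
  have hRNt := ff_isRealisation (N * t)
  set i₀ : Fbar N →+* LaurentSeries ℂ :=
    (fam_phi0 (F := Fbar N) hG hRN 1 : Fbar N →ₐ[Kbar] LaurentSeries ℂ).toRingHom with hi₀
  set σ : X → (Fbar (N * t) →+* LaurentSeries ℂ) := fun x =>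
    (fam_phi0 (F := Fbar (N * t)) hG hRNt (γ x)⁻¹ :
      Fbar (N * t) →ₐ[Kbar] LaurentSeries ℂ).toRingHom with hσdef
  -- values on `A0`
  have hi₀A : ∀ c : A0 N, i₀ (algebraMap (A0 N) (Fbar N) c) = ff_germ z (ff_an N c) := by
    intro c
    show fam_phi0 (F := Fbar N) hG hRN 1 (algebraMap (A0 N) (Fbar N) c) = _
    rw [fam_phi0_algebraMap]
    congr 1
    ext w
    rw [inv_one, one_smul]
  have hσA : ∀ (x : X) (b : A0 (N * t)),
      σ x (algebraMap (A0 (N * t)) (Fbar (N * t)) b) =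
        ff_germ z (fun w => ff_an (N * t) b (γ x • w)) := by
    intro x b
    show fam_phi0 (F := Fbar (N * t)) hG hRNt (γ x)⁻¹
      (algebraMap (A0 (N * t)) (Fbar (N * t)) b) = _
    rw [fam_phi0_algebraMap, inv_inv]
  -- the `σ_x` extend `i₀`
  have hσ : ∀ x y, σ x (algebraMap (Fbar N) (Fbar (N * t)) y) = i₀ y := by
    intro x
    have hcomp : (σ x).comp (algebraMap (Fbar N) (Fbar (N * t))) = i₀ := by
      refine IsLocalization.ringHom_ext (nonZeroDivisors (A0 N)) (RingHom.ext fun c => ?_)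
      simp only [RingHom.comp_apply]
      rw [hi₀A]
      have hα : algebraMap (Fbar N) (Fbar (N * t)) (algebraMap (A0 N) (Fbar N) c) =
          algebraMap (A0 (N * t)) (Fbar (N * t)) (twlg_na_incl N t c) :=
        twlg_na_alpha_algebraMap N t c
      rw [hα, hσA, twlg_na_an_incl]
      congr 1
      ext w
      exact hRN.inv c _ (hγ x) w
    intro y
    exact DFunLike.congr_fun hcomp y
  -- distinctness
  have hinjσ : Function.Injective σ := by
    intro x x' hxx
    have h1 : fam_phi (F := Fbar (N * t)) hG hRNt (((γ x)⁻¹ : SL(2, ℤ)) : Comb.Q (N * t)) =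
        fam_phi (F := Fbar (N * t)) hG hRNt (((γ x')⁻¹ : SL(2, ℤ)) : Comb.Q (N * t)) := by
      rw [fam_phi_mk, fam_phi_mk]
      exact AlgHom.coe_ringHom_injective hxx
    have h2 := fam_phi_injective hG hRNt h1
    have h3 := QuotientGroup.eq.mp h2
    rw [inv_inv] at h3
    exact hinj x x' h3
  -- degree
  have hdeg : Fintype.card X = Module.finrank (Fbar N) (Fbar (N * t)) := hcard
  haveI : FiniteDimensional (Fbar N) (Fbar (N * t)) :=
    Module.finite_of_finrank_pos (by rw [← hdeg]; exact hpos)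
  have key := nlp_norm_eq_prod i₀ σ hσ hinjσ hdeg (algebraMap (A0 (N * t)) (Fbar (N * t)) a)
  -- apply `i₀` to the hypothesis
  have h' := congrArg i₀ h
  rw [map_mul, key, hi₀A, hi₀A] at h'
  simp only [hσA] at h'
  -- germs of products
  have hMD : ∀ x : X, MDiff (fun w => ff_an (N * t) a (γ x • w)) :=
    fun x => hRNt.adm a _
  have hP1 : MDiff (fun _ : ℍ => (1 : ℂ)) := by
    have := hRN.adm 1 1
    simpa using this
  have hPmul : ∀ f g : ℍ → ℂ, MDiff f → MDiff g → MDiff (f * g) := fun f g hf hg => hf.mul hg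
  obtain ⟨hprodMD, hprod⟩ := twlg_na_germ_prod (P := fun h => MDiff h) hG hP1 hPmul Finset.univ
    (fun x w => ff_an (N * t) a (γ x • w)) (fun x _ => hMD x)
  have hMDc : MDiff (ff_an N c₁) := by
    have := hRN.adm c₁ 1
    simpa using this
  have hMDa : MDiff (ff_an N a₁) := by
    have := hRN.adm a₁ 1
    simpa using this
  rw [← hprod, ← hG.mul _ _ hprodMD hMDc] at h'
  have hfun := hG.inj _ _ (hPmul _ _ hprodMD hMDc) hMDa h'
  have := congrFun hfun z
  simp only [Pi.mul_apply, Finset.prod_apply] at this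
  rw [← this, mul_comm]

end alpha

section beta

variable {N t : ℕ} [NeZero N] [NeZero t] {a c : ℤ} (h : (t : ℤ) * a - N * c = 1)
  (ht : t.Prime) (htN : ¬ t ∣ N)

/-- the Atkin–Lehner endomorphism of `A0 (N t)` is an involution -/
theorem twlg_gc_W0_W0 (x : A0 (N * t)) : nls_W0 h ht htN (nls_W0 h ht htN x) = x := by
  have key : (nls_W0 h ht htN).comp (nls_W0 h ht htN) = AlgHom.id Kbar (A0 (N * t)) := by
    refine AlgHom.ext_of_eq_adjoin (S := A0 (N * t)) (s := barGens (N * t)) rfl ?_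
    rintro _ ⟨d, hd0, hd, rfl⟩
    haveI := hd0
    rcases nls_dvd_cases ht htN hd with hdN | ⟨e, rfl, heN⟩
    · haveI : NeZero (t * d) := ⟨mul_ne_zero (NeZero.ne t) (NeZero.ne d)⟩
      have hd2 : t * d ∣ N * t := by rw [mul_comm]; exact Nat.mul_dvd_mul_right hdN t
      show nls_W0 h ht htN (nls_W0 h ht htN ⟨barGen d, _⟩) = ⟨barGen d, _⟩
      rw [nls_W0_barGen_of_dvd h ht htN hdN hd hd2, nls_W0_barGen_mul h ht htN hdN hd hd2]
    · haveI : NeZero e := ⟨fun h0 => by
        subst h0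
        exact NeZero.ne (t * 0) (by simp)⟩
      have he1 : e ∣ N * t := Dvd.dvd.mul_right heN t
      show nls_W0 h ht htN (nls_W0 h ht htN ⟨barGen (t * e), _⟩) = ⟨barGen (t * e), _⟩
      rw [nls_W0_barGen_mul h ht htN heN he1 hd, nls_W0_barGen_of_dvd h ht htN heN he1 hd]
  exact DFunLike.congr_fun key x

/-- `β = W ∘ α` -/
theorem twlg_gc_beta_eq :
    heckeBetaBar Kbar N t = (nls_W h ht htN).comp (heckeAlphaBar Kbar N t) :=
  AlgHom.ext fun x => (nls_W_alpha h ht htN x).symm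

/-- `W` is surjective on `A0`-fractions: `W (W y) = y` on the image of `A0 (N t)` -/
theorem twlg_gc_W_W_algebraMap (x : A0 (N * t)) :
    nls_W h ht htN (nls_W h ht htN (algebraMap (A0 (N * t)) (Fbar (N * t)) x)) =
      algebraMap (A0 (N * t)) (Fbar (N * t)) x := by
  rw [nls_W_algebraMap, nls_W_algebraMap, twlg_gc_W0_W0]

theorem twlg_gc_W_W (y : Fbar (N * t)) : nls_W h ht htN (nls_W h ht htN y) = y := by
  obtain ⟨r, s, hs, rfl⟩ := IsFractionRing.div_surjective (A := A0 (N * t)) y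
  rw [map_div₀, map_div₀, twlg_gc_W_W_algebraMap, twlg_gc_W_W_algebraMap]

/-- the norm along a bijective `algebraMap` -/
theorem twlg_gc_norm_of_bijective {F E : Type*} [Field F] [Field E] [Algebra F E]
    (hb : Function.Bijective (algebraMap F E)) (y : F) :
    Algebra.norm F (algebraMap F E y) = y := by
  have hrank : Module.finrank F E = 1 := by
    have e := LinearEquiv.ofBijective (Algebra.linearMap F E) hb
    rw [← e.finrank_eq]
    exact Module.finrank_self _
  rw [Algebra.norm_algebraMap, hrank, pow_one]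

/-- the norm along an involutive endomorphism `W`: `N_W (W y) = y` -/
theorem twlg_gc_norm_W (y : Fbar (N * t)) :
    s35pe_normAlong (nls_W h ht htN) (nls_W h ht htN y) = y := by
  have hbij : Function.Bijective (nls_W h ht htN) :=
    ⟨(nls_W h ht htN).toRingHom.injective, fun z => ⟨nls_W h ht htN z, twlg_gc_W_W h ht htN z⟩⟩
  exact @twlg_gc_norm_of_bijective (Fbar (N * t)) (Fbar (N * t)) _ _
    (algebraAlong (nls_W h ht htN)) hbij y

/-- `Norm_β (W y) = Norm_α y` -/
theorem twlg_gc_norm_beta_W (y : Fbar (N * t)) :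
    s35pe_normAlong (heckeBetaBar Kbar N t) (nls_W h ht htN y) =
      s35pe_normAlong (heckeAlphaBar Kbar N t) y := by
  rw [twlg_gc_beta_eq h ht htN, ← s35pe_normAlong_comp, twlg_gc_norm_W]

/-- the analytic realisation of the Atkin–Lehner transform: `(W b)(w) = b(M w)` -/
theorem twlg_gc_an_W0 (b : A0 (N * t)) (w : ℍ) :
    ff_an (N * t) (nls_W0 h ht htN b) w = ff_an (N * t) b (nls_mat N t a c h • w) := by
  rw [ff_an_apply, ff_an_apply]
  exact nls_W0_spec h ht htN b w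

include ht htN in
/-- **the analytic norm formula along `β`, `t ∤ N` prime**: `ρ_x = M ∘ γ_x`, `M` the Atkin–Lehner
matrix `nls_mat N t a c h` (`t a - N c = 1`), `γ` representatives of `Γ₀(N t) \ Γ₀(N)`. -/
theorem twlg_gc_beta_an {X : Type} [Fintype X] (γ : X → SL(2, ℤ))
    (hγ : ∀ x, γ x ∈ Gamma0 N)
    (hinj : ∀ x y, γ x * (γ y)⁻¹ ∈ Gamma0 (N * t) → x = y)
    (hcard : Fintype.card X = finrankAlong Kbar (heckeAlphaBar Kbar N t))
    (hpos : 0 < Fintype.card X)
    (b : A0 (N * t)) (c₁ a₁ : A0 N)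
    (hh : (letI := algebraAlong (heckeBetaBar Kbar N t);
        Algebra.norm (Fbar N) (algebraMap (A0 (N * t)) (Fbar (N * t)) b)) *
          algebraMap (A0 N) (Fbar N) c₁ = algebraMap (A0 N) (Fbar N) a₁) (z : ℍ) :
    ff_an N a₁ z = ff_an N c₁ z *
      ∏ x : X, ff_an (N * t) b (nls_mat N t a c h • (γ x • z)) := by
  have h1 : algebraMap (A0 (N * t)) (Fbar (N * t)) b =
      nls_W h ht htN (algebraMap (A0 (N * t)) (Fbar (N * t)) (nls_W0 h ht htN b)) := by
    rw [nls_W_algebraMap, twlg_gc_W0_W0]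
  have h2 : (letI := algebraAlong (heckeAlphaBar Kbar N t);
      Algebra.norm (Fbar N) (algebraMap (A0 (N * t)) (Fbar (N * t)) (nls_W0 h ht htN b))) *
        algebraMap (A0 N) (Fbar N) c₁ = algebraMap (A0 N) (Fbar N) a₁ := by
    rw [← hh, h1]
    congr 1
    exact (twlg_gc_norm_beta_W h ht htN _).symm
  have h3 := twlg_gc_alpha_an N t γ hγ hinj hcard hpos (nls_W0 h ht htN b) c₁ a₁ h2 z
  rw [h3]
  congr 1
  exact Finset.prod_congr rfl fun x _ => twlg_gc_an_W0 h ht htN b _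

end beta

/-! ### explicit representatives of `Γ₀(N t) \ Γ₀(N)` for a prime `t ∤ N` -/

section reps

variable {N t : ℕ} [NeZero N] [NeZero t] {a c : ℤ} (h : (t : ℤ) * a - N * c = 1)

/-- the extra representative `γ_∞ = [a, c; N, t]` (`t a - N c = 1`) -/
def twlg_gc_gamInf : SL(2, ℤ) :=
  ⟨!![a, c; (N : ℤ), (t : ℤ)], by
    rw [Matrix.det_fin_two_of]
    linear_combination h⟩

/-- representatives of `Γ₀(N t) \ Γ₀(N)`, indexed by `P¹(𝔽_t)`: `γ_j = [1, 0; N j, 1]`,
`γ_∞ = [a, c; N, t]` -/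
def twlg_gc_gam : OnePoint (ZMod t) → SL(2, ℤ)
  | none => twlg_gc_gamInf h
  | some j => twlg_na_gam N t j

theorem twlg_gc_gam_infty : twlg_gc_gam h (OnePoint.infty) = twlg_gc_gamInf h := rfl

theorem twlg_gc_gam_coe (j : ZMod t) : twlg_gc_gam h (j : OnePoint (ZMod t)) = twlg_na_gam N t j :=
  rfl

theorem twlg_gc_gam_mem (x : OnePoint (ZMod t)) : twlg_gc_gam h x ∈ Gamma0 N := by
  rcases x with _ | j
  · show twlg_gc_gamInf h ∈ Gamma0 N
    rw [Gamma0_mem]
    simp [twlg_gc_gamInf]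
  · exact twlg_na_gam_mem N t j

/-- the lower-left entry of `γ_∞ γ_j⁻¹` -/
theorem twlg_gc_gamInf_mul_inv_10 (j : ZMod t) :
    ((twlg_gc_gamInf h * (twlg_na_gam N t j)⁻¹ : SL(2, ℤ)) 1 0 : ℤ) =
      (N : ℤ) * (1 - (t : ℤ) * (j.val : ℤ)) := by
  rw [Matrix.SpecialLinearGroup.coe_mul, Matrix.SpecialLinearGroup.coe_inv,
    Matrix.adjugate_fin_two, Matrix.mul_apply, Fin.sum_univ_two]
  simp [twlg_gc_gamInf, twlg_na_gam]
  ring

theorem twlg_gc_gamInf_not_mem (ht : t.Prime) (j : ZMod t) :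
    twlg_gc_gamInf h * (twlg_na_gam N t j)⁻¹ ∉ Gamma0 (N * t) := by
  intro hmem
  rw [Gamma0_mem, twlg_gc_gamInf_mul_inv_10, ZMod.intCast_zmod_eq_zero_iff_dvd] at hmem
  have hN0 : (N : ℤ) ≠ 0 := by exact_mod_cast NeZero.ne N
  have h2 : (t : ℤ) ∣ 1 - (t : ℤ) * (j.val : ℤ) := by
    have : ((N * t : ℕ) : ℤ) = (N : ℤ) * (t : ℤ) := by push_cast; ring
    rw [this] at hmem
    exact (mul_dvd_mul_iff_left hN0).mp hmem
  have h3 : (t : ℤ) ∣ 1 := by
    have h4 : (t : ℤ) ∣ (t : ℤ) * (j.val : ℤ) := Dvd.intro _ rfl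
    have := dvd_add h2 h4
    rwa [sub_add_cancel] at this
  have h5 : t ∣ 1 := by exact_mod_cast h3
  exact ht.one_lt.ne' (Nat.dvd_one.mp h5)

/-- the representatives are pairwise inequivalent modulo `Γ₀(N t)` -/
theorem twlg_gc_gam_inj (ht : t.Prime) (x y : OnePoint (ZMod t))
    (hxy : twlg_gc_gam h x * (twlg_gc_gam h y)⁻¹ ∈ Gamma0 (N * t)) : x = y := by
  rcases x with _ | j <;> rcases y with _ | j'
  · rfl
  · exact absurd hxy (twlg_gc_gamInf_not_mem h ht j')
  · exfalso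
    have h1 := inv_mem hxy
    rw [mul_inv_rev, inv_inv] at h1
    exact twlg_gc_gamInf_not_mem h ht j h1
  · have h1 : (twlg_na_gam N t j)⁻¹⁻¹ * (twlg_na_gam N t j')⁻¹ ∈ Gamma0 (N * t) := by
      rw [inv_inv]; exact hxy
    exact congrArg _ (twlg_na_gam_coset_inj N t ht.pos h1)

theorem twlg_gc_card : Fintype.card (OnePoint (ZMod t)) = t + 1 := by
  show Fintype.card (Option (ZMod t)) = t + 1
  rw [Fintype.card_option, ZMod.card]

include h in
/-- **α, `t ∤ N`**: `an a₁ z = an c₁ z * ∏_{x ∈ P¹(𝔽_t)} an a (γ_x z)` -/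
theorem twlg_gc_alpha_an_coprime (ht : t.Prime) (htN : ¬ t ∣ N) (b : A0 (N * t)) (c₁ a₁ : A0 N)
    (hh : (letI := algebraAlong (heckeAlphaBar Kbar N t);
        Algebra.norm (Fbar N) (algebraMap (A0 (N * t)) (Fbar (N * t)) b)) *
          algebraMap (A0 N) (Fbar N) c₁ = algebraMap (A0 N) (Fbar N) a₁) (z : ℍ) :
    ff_an N a₁ z = ff_an N c₁ z *
      ∏ x : OnePoint (ZMod t), ff_an (N * t) b (twlg_gc_gam h x • z) :=
  twlg_gc_alpha_an N t (twlg_gc_gam h) (twlg_gc_gam_mem h) (twlg_gc_gam_inj h ht)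
    (by rw [twlg_gc_card, s35d_finrankAlong_alpha Kbar N t ht htN])
    (by rw [twlg_gc_card]; omega) b c₁ a₁ hh z

/-- **β, `t ∤ N`**: `an a₁ z = an c₁ z * ∏_{x ∈ P¹(𝔽_t)} an a (M γ_x z)`, `M = nls_mat N t a c h` -/
theorem twlg_gc_beta_an_coprime (ht : t.Prime) (htN : ¬ t ∣ N) (b : A0 (N * t)) (c₁ a₁ : A0 N)
    (hh : (letI := algebraAlong (heckeBetaBar Kbar N t);
        Algebra.norm (Fbar N) (algebraMap (A0 (N * t)) (Fbar (N * t)) b)) *
          algebraMap (A0 N) (Fbar N) c₁ = algebraMap (A0 N) (Fbar N) a₁) (z : ℍ) :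
    ff_an N a₁ z = ff_an N c₁ z *
      ∏ x : OnePoint (ZMod t), ff_an (N * t) b (nls_mat N t a c h • (twlg_gc_gam h x • z)) :=
  twlg_gc_beta_an h ht htN (twlg_gc_gam h) (twlg_gc_gam_mem h) (twlg_gc_gam_inj h ht)
    (by rw [twlg_gc_card, s35d_finrankAlong_alpha Kbar N t ht htN])
    (by rw [twlg_gc_card]; omega) b c₁ a₁ hh z

end reps

end Fermat.Agent.TW

end
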