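import Mathlib
import Fermat.Agent.TW.LG.NormCoprimeAn
import Fermat.Agent.TW.LG.GatewayDegCoprime

/-!
# TW / [A]–[E] bridge: (BR) for a prime `t ∤ N`, CLOSED (prefix `twlg_gq_`)

`GatewayDegCoprime.lean` proved the lattice form of (BR) for a prime `t ∤ N` from the two analytic
norm formulas `twlg_gq_HanA`, `twlg_gq_HanB`; helper6's `NormCoprimeAn.lean`
(`twlg_gc_alpha_an`, `twlg_gc_beta_an`, arbitrary coset representatives) proves them.  Here they
are plugged together, at LR's representatives `lrm_rInf`: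

* `twlg_gq_hanA`, `twlg_gq_hanW`, `twlg_gq_hanB` : the three analytic formulas;
* `twlg_gq_lattice_alpha` : `tjp_lattice N p (s35p_P1 N t p x) = (tjp_lattice (N t) p x) ∘ lrh_At`;
* `twlg_gq_lattice_beta`  : `tjp_lattice N p (s35p_P2 N t p x) = (tjp_lattice (N t) p x) ∘ lrh_Bt`;

no open hypothesis is left (these are `hVA`, `hVB` of `twe_og_main`, TW/Aut/OldGal.lean, at
`VA := lrh_At htN`, `VB := lrh_Bt htN`).
-/

set_option autoImplicit false
set_option linter.unusedSectionVars false
set_option linter.style.haveILetI false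
set_option synthInstance.maxHeartbeats 400000
set_option maxHeartbeats 1000000

noncomputable section

open UpperHalfPlane hiding I
open Complex CongruenceSubgroup ModularCurve ModularForm
open scoped Real Manifold MatrixGroups OnePoint
open Matrix.SpecialLinearGroup

namespace Fermat.Agent.TW

open Fermat.Agent.S24 Fermat.Agent.S24.Br Fermat.Agent.JT3 Fermat.Agent.S35 Fermat.Agent.LR
  AlgebraicCurve

variable (N t : ℕ) [NeZero N] [NeZero t] [ht : Fact t.Prime]

/-- the number of conjugates: `#ℙ¹(𝔽_t) = t + 1 = [F̄_{N t} : F̄_N]` -/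
theorem twlg_gq_card (htN : ¬ t ∣ N) :
    Fintype.card (OnePoint (ZMod t)) = finrankAlong Kbar (heckeAlphaBar Kbar N t) := by
  rw [lrm_card, s35d_finrankAlong_alpha Kbar N t ht.out htN]

/-- **the analytic norm formula along `α`**, `t ∤ N` prime, at LR's representatives -/
theorem twlg_gq_hanA (htN : ¬ t ∣ N) : twlg_gq_HanA N t htN := by
  intro a c₁ a₁ hN z
  exact twlg_gc_alpha_an N t (fun x => ((lrm_rInf htN x : Gamma0 N) : SL(2, ℤ)))
    (fun x => (lrm_rInf htN x).2) (twlg_gq_rInf_inj htN) (twlg_gq_card N t htN)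
    (by rw [lrm_card]; omega) a c₁ a₁ hN z

/-- **the analytic norm formula along `β`**, Atkin–Lehner form -/
theorem twlg_gq_hanW (htN : ¬ t ∣ N) {a₀ c₀ : ℤ} (h : (t : ℤ) * a₀ - N * c₀ = 1) :
    twlg_gq_HanW N t htN h := by
  intro a c₁ a₁ hN z
  exact twlg_gc_beta_an h ht.out htN (fun x => ((lrm_rInf htN x : Gamma0 N) : SL(2, ℤ)))
    (fun x => (lrm_rInf htN x).2) (twlg_gq_rInf_inj htN) (twlg_gq_card N t htN)
    (by rw [lrm_card]; omega) a c₁ a₁ hN z

/-- **the analytic norm formula along `β`**, `t ∤ N` prime, at the representatives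
`δ₀ ∘ lrm_rZero` -/
theorem twlg_gq_hanB (htN : ¬ t ∣ N) : twlg_gq_HanB N t htN := by
  obtain ⟨a₀, c₀, h⟩ := nls_exists_bezout (N := N) ht.out htN
  exact twlg_gq_hanB_of_W htN h (twlg_gq_hanW N t htN h)

variable (p : ℕ) [hp : Fact p.Prime]

/-- **(BR), `t ∤ N` prime, lattice form, α-half, unconditional**: on
`T_p J₀(·) = Hom(H₁(X₀(·)), ℤ_p)` the push-forward `P₁ = (α_t)_*` is composition with LR's
transfer `lrh_At`. -/
theorem twlg_gq_lattice_alpha (htN : ¬ t ∣ N) (x : tj_T (N * t) p) :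
    tjp_lattice N p (s35p_P1 N t p x) = (tjp_lattice (N * t) p x).comp (lrh_At htN) :=
  twlg_gq_lattice_P1 N t p htN (twlg_gq_hanA N t htN) x

/-- **(BR), `t ∤ N` prime, lattice form, β-half, unconditional**: `P₂ = (β_t)_*` is composition
with LR's transfer `lrh_Bt`. -/
theorem twlg_gq_lattice_beta (htN : ¬ t ∣ N) (x : tj_T (N * t) p) :
    tjp_lattice N p (s35p_P2 N t p x) = (tjp_lattice (N * t) p x).comp (lrh_Bt htN) :=
  twlg_gq_lattice_P2 N t p htN (twlg_gq_hanB N t htN) x

end Fermat.Agent.TW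

end
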