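/-
Project TW (S43), glue cell C/ChiMk (helper29).  Prefix `twlg_cm_`.

**The character `χ`** which `twlg_as_A4_stmt` (`TW/LG/AsStmt.lean`) and `twc_Act_stmt`
(`TW/Def/SigmaSeam.lean`) take as input: `χ : Δ_Th → 𝒪ˣ` with `χ(gen ℓ) = ζ` (a primitive `p`-th
root of unity) for every `ℓ ∈ Th` (`ℓ ≡ 1 mod p`), and `χ ≡ 1 mod 𝔪`.

`χ` is the composite `Δ_Th = ∏_ℓ ℤ/p^{v_ℓ} → ℤ/p → 𝒪ˣ`, `(x_ℓ) ↦ ζ ^ (∑ x_ℓ mod p)`.
-/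
import Mathlib
import Fermat.Agent.TW.Aut.SeamsLG
import Fermat.Agent.TW.LG.AsAux

set_option autoImplicit false
set_option linter.unusedSectionVars false
set_option linter.style.haveILetI false

open IsLocalRing

namespace Fermat.Agent.TW

noncomputable section

section chi

variable {𝒪 : Type} [CommRing 𝒪] [IsDomain 𝒪] [IsLocalRing 𝒪]

/-- `p ∣ twe_ord p ℓ` for a prime `ℓ ≡ 1 mod p`. -/
theorem twlg_cm_dvd_ord {p : ℕ} (hp : p.Prime) {ℓ : ℕ} (hℓ : ℓ.Prime) (hmod : ℓ % p = 1) :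
    p ∣ twe_ord p ℓ := by
  haveI : Fact p.Prime := ⟨hp⟩
  have hpdvd : p ∣ ℓ - 1 := by
    have h1 : 1 ≡ ℓ [MOD p] := by
      rw [Nat.ModEq, hmod, Nat.mod_eq_of_lt hp.one_lt]
    exact (Nat.modEq_iff_dvd' hℓ.one_le).1 h1
  have h2 : 1 ≤ padicValNat p (ℓ - 1) :=
    one_le_padicValNat_of_dvd (by have := hℓ.two_le; omega) hpdvd
  unfold twe_ord
  exact dvd_pow_self p (by omega)

/-- the units `≡ 1 mod 𝔪` form a subgroup. -/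
def twlg_cm_one : Subgroup 𝒪ˣ := (Units.map (residue 𝒪 : 𝒪 →* ResidueField 𝒪)).ker

theorem twlg_cm_mem_one (u : 𝒪ˣ) : u ∈ twlg_cm_one (𝒪 := 𝒪) ↔ (u : 𝒪) - 1 ∈ maximalIdeal 𝒪 := by
  rw [twlg_cm_one, MonoidHom.mem_ker, ← residue_eq_zero_iff, map_sub, map_one, sub_eq_zero,
    Units.ext_iff]
  rfl

/-- **the character `χ`.** -/
theorem twlg_cm_exists (p : ℕ) [hpF : Fact p.Prime] (hp𝒪 : (p : 𝒪) ∈ maximalIdeal 𝒪)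
    (ζ : 𝒪) (hζ : IsPrimitiveRoot ζ p) (Th : Finset ℕ)
    (hTh : ∀ ℓ ∈ Th, ℓ.Prime ∧ ℓ % p = 1) :
    ∃ χ : twe_Delta p Th →* 𝒪ˣ,
      (∀ (ℓ : ℕ) (hℓ : ℓ ∈ Th), ((χ (twe_gen p Th ℓ hℓ) : 𝒪ˣ) : 𝒪) = ζ) ∧
      (∀ (ℓ : ℕ) (hℓ : ℓ ∈ Th), IsPrimitiveRoot ((χ (twe_gen p Th ℓ hℓ) : 𝒪ˣ) : 𝒪) p) ∧
      (∀ δ, ((χ δ : 𝒪ˣ) : 𝒪) - 1 ∈ maximalIdeal 𝒪) ∧
      ∀ lam : 𝒪, maximalIdeal 𝒪 = Ideal.span {lam} →
        ∀ δ, ((χ δ : 𝒪ˣ) : 𝒪) - 1 ∈ Ideal.span {lam} := by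
  classical
  have hp : p.Prime := hpF.out
  -- `ζ` as a unit
  have hζp : ζ ^ p = 1 := hζ.pow_eq_one
  set ζu : 𝒪ˣ := ⟨ζ, ζ ^ (p - 1), by rw [← pow_succ', Nat.sub_add_cancel hp.one_le, hζp],
    by rw [← pow_succ, Nat.sub_add_cancel hp.one_le, hζp]⟩ with hζu
  have hζu_val : (ζu : 𝒪) = ζ := rfl
  have hζup : ζu ^ p = 1 := Units.ext (by rw [Units.val_pow_eq_pow_val, hζu_val, hζp]; rfl)
  -- `ℤ/p → Additive 𝒪ˣ`, `1 ↦ ζ`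
  set f : ℤ →+ Additive 𝒪ˣ := zmultiplesHom (Additive 𝒪ˣ) (Additive.ofMul ζu) with hf
  have hfp : f (p : ℤ) = 0 := by
    rw [hf, zmultiplesHom_apply, natCast_zsmul, ← ofMul_pow, hζup, ofMul_one]
  set F : ZMod p →+ Additive 𝒪ˣ := ZMod.lift p ⟨f, hfp⟩ with hF
  have hF1 : F 1 = Additive.ofMul ζu := by
    have h1 : F ((1 : ℤ) : ZMod p) = f 1 := ZMod.lift_coe p ⟨f, hfp⟩ 1
    rw [Int.cast_one] at h1
    rw [h1, hf, zmultiplesHom_apply, one_zsmul]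
  have hFmem : ∀ y : ZMod p, Additive.toMul (F y) ∈ twlg_cm_one (𝒪 := 𝒪) := by
    intro y
    have h1 : F (((ZMod.cast y : ℤ)) : ZMod p) = f (ZMod.cast y : ℤ) :=
      ZMod.lift_coe p ⟨f, hfp⟩ _
    rw [ZMod.intCast_zmod_cast] at h1
    rw [h1, hf, zmultiplesHom_apply, toMul_zsmul, toMul_ofMul]
    refine Subgroup.zpow_mem _ ?_ _
    rw [twlg_cm_mem_one, hζu_val]
    have := twlg_as_zeta_mem hp hp𝒪 ζ hζ
    rw [← neg_sub]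
    exact Ideal.neg_mem_iff _ |>.2 this
  -- `Δ_Th → ℤ/p`
  have hdvd : ∀ i : ↥Th, p ∣ twe_ord p (i : ℕ) := fun i =>
    twlg_cm_dvd_ord hp (hTh i i.2).1 (hTh i i.2).2
  set g : (∀ i : ↥Th, ZMod (twe_ord p (i : ℕ))) →+ ZMod p :=
    ∑ i : ↥Th, ((ZMod.castHom (hdvd i) (ZMod p)).toAddMonoidHom).comp
      (Pi.evalAddMonoidHom (fun i : ↥Th => ZMod (twe_ord p (i : ℕ))) i) with hg
  have hg_single : ∀ i : ↥Th, g (Pi.single i 1) = 1 := by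
    intro i
    rw [hg, AddMonoidHom.finsetSum_apply]
    rw [Finset.sum_eq_single i]
    · show (ZMod.castHom (hdvd i) (ZMod p))
        ((Pi.single i 1 : ∀ i : ↥Th, ZMod (twe_ord p (i : ℕ))) i) = 1
      rw [Pi.single_eq_same, map_one]
    · intro j _ hji
      show (ZMod.castHom (hdvd j) (ZMod p))
        ((Pi.single i 1 : ∀ i : ↥Th, ZMod (twe_ord p (i : ℕ))) j) = 0
      rw [Pi.single_eq_of_ne hji, map_zero]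
    · intro h; exact absurd (Finset.mem_univ i) h
  set χ : twe_Delta p Th →* 𝒪ˣ := AddMonoidHom.toMultiplicativeLeft (F.comp g) with hχ
  have hχgen : ∀ (ℓ : ℕ) (hℓ : ℓ ∈ Th), ((χ (twe_gen p Th ℓ hℓ) : 𝒪ˣ) : 𝒪) = ζ := by
    intro ℓ hℓ
    have h1 : χ (twe_gen p Th ℓ hℓ) = Additive.toMul (F (g (Pi.single ⟨ℓ, hℓ⟩ 1))) := rfl
    rw [h1, hg_single, hF1, toMul_ofMul]
  have hχone : ∀ δ, ((χ δ : 𝒪ˣ) : 𝒪) - 1 ∈ maximalIdeal 𝒪 := by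
    intro δ
    rw [← twlg_cm_mem_one]
    exact hFmem _
  refine ⟨χ, hχgen, fun ℓ hℓ => by rw [hχgen ℓ hℓ]; exact hζ, hχone, fun lam hlam δ => ?_⟩
  rw [← hlam]
  exact hχone δ

end chi

end

end Fermat.Agent.TW
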