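/-
Project ONE MACHINE (S43), block [A] LG, cell A2 second half (helper24): THE TWISTING VECTOR.

`G = SL₂(F)`, `F` a finite field, `ρ : SL(2,F) →* Module.End k V`, `k` a domain,
`ψ η : Fˣ →* k` with `η(a)² ψ(a) = 1` and `ψ² ≠ 1`;
`h : V` fixed by the upper unipotents with torus character `ψ`
(`ρ (diag(a,a⁻¹)) h = ψ a • h`).  Put

    `W(h) := ∑_{c ∈ Fˣ} η(c) • ρ [[1,0],[c,1]] h`      (`twlg_bt_W`).

* `twlg_bt_W_torus`   : `W(h)` is fixed by the torus;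
* `twlg_bt_W_mem_span`: `W(h)` lies in the `k`-span of the orbit of `h`;
* `twlg_bt_W_upper`, `twlg_bt_W_lower` : `|Fˣ| • ∑_x ρ [[1,x],[0,1]] W(h) = 0`,
  `|Fˣ| • ∑_x ρ [[1,0],[x,1]] W(h) = 0`   (both traces to the Borel levels vanish: LEMMA G);
* `twlg_bt_inversion` : for `x ≠ 0`,
  `P (ρ (w · [[1,x],[0,1]]) W(h)) = |F| • |Fˣ| • (η(-1/x) ψ(1/x)) • h`, where
  `P v = ∑_{n ∈ N} ∑_{t ∈ T} ψ(t)⁻¹ • ρ (n t) v` (weighted Borel average);
* `twlg_bt_W_ne_zero` : `W(h) ≠ 0` as soon as `(|F| · |Fˣ|) • h ≠ 0`.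

Mathlib + `TW/LG/BorelKill*.lean` only.  Prefix `twlg_bt_`.
-/
import Mathlib
import Fermat.Agent.TW.LG.BorelKillSL2

set_option autoImplicit false
set_option linter.unusedSectionVars false
set_option linter.style.haveILetI false

open scoped BigOperators MatrixGroups
open Matrix

namespace Fermat.Agent.TW

/-! ### The weighted Borel average (abstract) -/

section Abstract

variable {G k V : Type*} [Group G] [CommRing k] [AddCommGroup V] [Module k V]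
  (c : G → k) (ρ : G →* Module.End k V) (N T : Subgroup G) [Fintype N] [Fintype T]

/-- the weighted Borel average `∑_{n ∈ N} ∑_{t ∈ T} c(t) • ρ (n t) v`. -/
def twlg_bt_wavg (v : V) : V := ∑ n : N, ∑ t : T, c (t : G) • ρ ((n : G) * (t : G)) v

theorem twlg_bt_wavg_add (v v' : V) :
    twlg_bt_wavg c ρ N T (v + v') = twlg_bt_wavg c ρ N T v + twlg_bt_wavg c ρ N T v' := by
  unfold twlg_bt_wavg
  simp only [map_add, smul_add, Finset.sum_add_distrib]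

theorem twlg_bt_wavg_smul (a : k) (v : V) :
    twlg_bt_wavg c ρ N T (a • v) = a • twlg_bt_wavg c ρ N T v := by
  unfold twlg_bt_wavg
  simp only [map_smul, Finset.smul_sum, smul_comm a]

theorem twlg_bt_wavg_zero : twlg_bt_wavg c ρ N T (0 : V) = 0 := by
  unfold twlg_bt_wavg
  simp

theorem twlg_bt_wavg_sum {ι : Type*} (s : Finset ι) (f : ι → V) :
    twlg_bt_wavg c ρ N T (∑ i ∈ s, f i) = ∑ i ∈ s, twlg_bt_wavg c ρ N T (f i) := by
  classical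
  induction s using Finset.induction_on with
  | empty => simp [twlg_bt_wavg_zero]
  | insert a s ha ih => rw [Finset.sum_insert ha, Finset.sum_insert ha, twlg_bt_wavg_add, ih]

/-- absorbing an element of `N` on the right (uses: `T` normalises `N`). -/
theorem twlg_bt_wavg_mul_N (hTN : ∀ t ∈ T, ∀ n ∈ N, t * n * t⁻¹ ∈ N) (n' : N) (v : V) :
    twlg_bt_wavg c ρ N T (ρ (n' : G) v) = twlg_bt_wavg c ρ N T v := by
  unfold twlg_bt_wavg
  rw [Finset.sum_comm]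
  conv_rhs => rw [Finset.sum_comm]
  refine Finset.sum_congr rfl fun t _ => ?_
  let m : N := ⟨(t : G) * (n' : G) * (t : G)⁻¹, hTN t t.2 n' n'.2⟩
  rw [← Equiv.sum_comp (Equiv.mulRight m) (fun n : N => c (t : G) • ρ ((n : G) * (t : G)) v)]
  refine Finset.sum_congr rfl fun n _ => ?_
  have : ((Equiv.mulRight m n : N) : G) * (t : G) = (n : G) * (t : G) * (n' : G) := by
    simp only [Equiv.coe_mulRight, Subgroup.coe_mul, m]
    group
  rw [this]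
  simp only [map_mul, Module.End.mul_apply]

variable {c ρ N T}

/-- the weighted average of the eigenvector itself. -/
theorem twlg_bt_wavg_eigen {h : V} {χ : G → k}
    (hN : ∀ n ∈ N, ρ n h = h) (hT : ∀ t ∈ T, ρ t h = χ t • h) :
    twlg_bt_wavg c ρ N T h = (Fintype.card N) • ((∑ t : T, c (t : G) * χ (t : G)) • h) := by
  unfold twlg_bt_wavg
  have h1 : ∀ n : N, ∑ t : T, c (t : G) • ρ ((n : G) * (t : G)) h =
      (∑ t : T, c (t : G) * χ (t : G)) • h := by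
    intro n
    rw [Finset.sum_smul]
    refine Finset.sum_congr rfl fun t _ => ?_
    rw [map_mul, Module.End.mul_apply, hT t t.2, map_smul, hN n n.2, smul_smul]
  simp only [h1, Finset.sum_const, Finset.card_univ]

/-- the weighted average of the Weyl translate vanishes. -/
theorem twlg_bt_wavg_weyl {h : V} {χ : G → k} {w : G}
    (hwT : ∀ t ∈ T, w⁻¹ * t * w ∈ T)
    (hT : ∀ t ∈ T, ρ t h = χ t • h)
    (hcχw : ∑ t : T, c (t : G) * χ (w⁻¹ * (t : G) * w) = 0) :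
    twlg_bt_wavg c ρ N T (ρ w h) = 0 := by
  unfold twlg_bt_wavg
  have h1 : ∀ n : N, ∑ t : T, c (t : G) • ρ ((n : G) * (t : G)) (ρ w h) =
      ρ ((n : G) * w) ((∑ t : T, c (t : G) * χ (w⁻¹ * (t : G) * w)) • h) := by
    intro n
    rw [Finset.sum_smul, map_sum]
    refine Finset.sum_congr rfl fun t _ => ?_
    have e : (n : G) * (t : G) * w = (n : G) * w * (w⁻¹ * (t : G) * w) := by group
    rw [← Module.End.mul_apply, ← map_mul, e, map_mul, Module.End.mul_apply,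
      hT _ (hwT t t.2), map_smul, smul_smul, map_smul]
  simp only [h1, hcχw, zero_smul, map_zero, Finset.sum_const_zero]

/-- the weighted average on the Borel cell. -/
theorem twlg_bt_wavg_borel {h : V} {χ : G → k}
    (hN : ∀ n ∈ N, ρ n h = h) (hT : ∀ t ∈ T, ρ t h = χ t • h)
    {t₀ n₀ : G} (ht₀ : t₀ ∈ T) (hn₀ : n₀ ∈ N) :
    twlg_bt_wavg c ρ N T (ρ (t₀ * n₀) h) =
      χ t₀ • ((Fintype.card N) • ((∑ t : T, c (t : G) * χ (t : G)) • h)) := by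
  rw [map_mul, Module.End.mul_apply, hN n₀ hn₀, hT t₀ ht₀, twlg_bt_wavg_smul,
    twlg_bt_wavg_eigen hN hT]

/-- the weighted average vanishes on the big cell. -/
theorem twlg_bt_wavg_bigcell {h : V} {χ : G → k} {w : G}
    (hTN : ∀ t ∈ T, ∀ n ∈ N, t * n * t⁻¹ ∈ N)
    (hwT : ∀ t ∈ T, w⁻¹ * t * w ∈ T)
    (hN : ∀ n ∈ N, ρ n h = h) (hT : ∀ t ∈ T, ρ t h = χ t • h)
    (hcχw : ∑ t : T, c (t : G) * χ (w⁻¹ * (t : G) * w) = 0)
    {n' t₀ n₀ : G} (hn' : n' ∈ N) (ht₀ : t₀ ∈ T) (hn₀ : n₀ ∈ N) :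
    twlg_bt_wavg c ρ N T (ρ (n' * w * t₀ * n₀) h) = 0 := by
  have e : ρ (n' * w * t₀ * n₀) h = ρ n' (χ t₀ • ρ w h) := by
    rw [map_mul, Module.End.mul_apply, hN n₀ hn₀, map_mul, Module.End.mul_apply, hT t₀ ht₀,
      map_mul, Module.End.mul_apply, map_smul]
  rw [e, twlg_bt_wavg_mul_N c ρ N T hTN ⟨n', hn'⟩, twlg_bt_wavg_smul,
    twlg_bt_wavg_weyl hwT hT hcχw, smul_zero]

end Abstract

/-! ### `SL₂(F)`: cells, the twisting vector -/

section SL2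

variable {F : Type*} [Field F]

/-- a matrix of `SL₂(F)` with lower-left entry `0` lies in the Borel cell `T N`. -/
theorem twlg_bt_borel_of (g : SL(2, F)) (hg : (g : Matrix (Fin 2) (Fin 2) F) 1 0 = 0) :
    ∃ (a : Fˣ) (y : F), (a : F) = (g : Matrix (Fin 2) (Fin 2) F) 0 0 ∧
      g = twlg_bk_Dmat a * twlg_bk_Umat y := by
  have hdet : (g : Matrix (Fin 2) (Fin 2) F) 0 0 * (g : Matrix (Fin 2) (Fin 2) F) 1 1 -
      (g : Matrix (Fin 2) (Fin 2) F) 0 1 * (g : Matrix (Fin 2) (Fin 2) F) 1 0 = 1 := by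
    have := g.2
    rwa [Matrix.det_fin_two] at this
  set a := (g : Matrix (Fin 2) (Fin 2) F) 0 0 with ha
  set b := (g : Matrix (Fin 2) (Fin 2) F) 0 1 with hb
  set c := (g : Matrix (Fin 2) (Fin 2) F) 1 0 with hc
  set d := (g : Matrix (Fin 2) (Fin 2) F) 1 1 with hd
  have had : a * d = 1 := by rw [hg, mul_zero, sub_zero] at hdet; exact hdet
  have ha0 : a ≠ 0 := left_ne_zero_of_mul_eq_one had
  have hd' : d = a⁻¹ := eq_inv_of_mul_eq_one_right had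
  refine ⟨Units.mk0 a ha0, b / a, rfl, ?_⟩
  ext i j
  fin_cases i <;> fin_cases j <;>
    simp [Matrix.SpecialLinearGroup.coe_mul, Matrix.mul_apply, Fin.sum_univ_two, ← ha, ← hb,
      ← hc, ← hd, hg, hd', mul_div_cancel₀ _ ha0]

/-- a matrix of `SL₂(F)` with lower-left entry `≠ 0` lies in the big cell `N w T N`. -/
theorem twlg_bt_bigcell_of (g : SL(2, F)) (hg : (g : Matrix (Fin 2) (Fin 2) F) 1 0 ≠ 0) :
    ∃ n' ∈ twlg_bk_N (F := F), ∃ t ∈ twlg_bk_T (F := F), ∃ n ∈ twlg_bk_N (F := F),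
      g = n' * twlg_bk_w * t * n := by
  rcases twlg_bk_bruhat g with ⟨t, ⟨a, rfl⟩, n, ⟨x, rfl⟩, hgtn⟩ | h
  · exfalso
    apply hg
    rw [hgtn]
    simp [Matrix.SpecialLinearGroup.coe_mul, Matrix.mul_apply, Fin.sum_univ_two]
  · exact h

theorem twlg_bt_Umat_mem (x : F) : twlg_bk_Umat x ∈ twlg_bk_N (F := F) :=
  ⟨Multiplicative.ofAdd x, rfl⟩

theorem twlg_bt_Dmat_mem (a : Fˣ) : twlg_bk_Dmat a ∈ twlg_bk_T (F := F) := ⟨a, rfl⟩

/-- `D a * L c = L (a⁻¹ a⁻¹ c) * D a`. -/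
theorem twlg_bt_D_mul_L (a : Fˣ) (c : F) :
    twlg_bk_Dmat a * twlg_bk_L c =
      twlg_bk_L (((a⁻¹ : Fˣ) : F) * ((a⁻¹ : Fˣ) : F) * c) * twlg_bk_Dmat a := by
  ext i j
  fin_cases i <;> fin_cases j <;>
    simp [Matrix.SpecialLinearGroup.coe_mul, Matrix.mul_apply, Fin.sum_univ_two]
  field_simp

/-- the lower-left entry of `w * U x * L c` is `1 + x c`. -/
theorem twlg_bt_wUL_10 (x c : F) :
    ((twlg_bk_w * twlg_bk_Umat x * twlg_bk_L c : SL(2, F)) : Matrix (Fin 2) (Fin 2) F) 1 0 =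
      1 + x * c := by
  simp [Matrix.SpecialLinearGroup.coe_mul, Matrix.mul_apply, Fin.sum_univ_two]

/-- the upper-left entry of `w * U x * L c` is `-c`. -/
theorem twlg_bt_wUL_00 (x c : F) :
    ((twlg_bk_w * twlg_bk_Umat x * twlg_bk_L c : SL(2, F)) : Matrix (Fin 2) (Fin 2) F) 0 0 =
      -c := by
  simp [Matrix.SpecialLinearGroup.coe_mul, Matrix.mul_apply, Fin.sum_univ_two]

variable {k V : Type*} [CommRing k] [AddCommGroup V] [Module k V]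

/-- the function `g ↦ ψ (g₀₀)` on `SL₂(F)` (`0` if `g₀₀ = 0`), extending the torus character. -/
noncomputable def twlg_bt_chi (ψ : Fˣ →* k) (g : SL(2, F)) : k := by
  classical
  exact if hg : (g : Matrix (Fin 2) (Fin 2) F) 0 0 ≠ 0 then
    ψ (Units.mk0 ((g : Matrix (Fin 2) (Fin 2) F) 0 0) hg) else 0

theorem twlg_bt_chi_Dmat (ψ : Fˣ →* k) (a : Fˣ) : twlg_bt_chi ψ (twlg_bk_Dmat a) = ψ a := by
  classical
  have h0 : ((twlg_bk_Dmat a : SL(2, F)) : Matrix (Fin 2) (Fin 2) F) 0 0 = (a : F) := by simp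
  have hne : ((twlg_bk_Dmat a : SL(2, F)) : Matrix (Fin 2) (Fin 2) F) 0 0 ≠ 0 := by
    rw [h0]; exact a.ne_zero
  unfold twlg_bt_chi
  rw [dif_pos hne]
  congr 1
  exact Units.ext h0

/-- **the twisting vector** `W(h) = ∑_{c ∈ Fˣ} η(c) • ρ [[1,0],[c,1]] h`. -/
def twlg_bt_W [Fintype F] [DecidableEq F] (ρ : SL(2, F) →* Module.End k V) (η : Fˣ →* k)
    (h : V) : V :=
  ∑ c : Fˣ, η c • ρ (twlg_bk_L (c : F)) h

section Main

variable [Fintype F] [DecidableEq F] {ρ : SL(2, F) →* Module.End k V} {ψ η : Fˣ →* k} {h : V}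

/-- `W(h)` lies in the span of the orbit of `h`. -/
theorem twlg_bt_W_mem_span :
    twlg_bt_W ρ η h ∈ Submodule.span k (Set.range fun g : SL(2, F) => ρ g h) := by
  unfold twlg_bt_W
  refine Submodule.sum_mem _ fun c _ => Submodule.smul_mem _ _ (Submodule.subset_span ⟨_, rfl⟩)

/-- translates of `W(h)`. -/
theorem twlg_bt_W_translate (g : SL(2, F)) :
    ρ g (twlg_bt_W ρ η h) = ∑ c : Fˣ, η c • ρ (g * twlg_bk_L (c : F)) h := by
  unfold twlg_bt_W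
  rw [map_sum]
  refine Finset.sum_congr rfl fun c _ => ?_
  rw [map_smul, map_mul, Module.End.mul_apply]

/-- **`W(h)` is fixed by the torus** (`η² ψ = 1`). -/
theorem twlg_bt_W_torus (hηψ : ∀ a : Fˣ, η a * η a * ψ a = 1)
    (hT : ∀ a : Fˣ, ρ (twlg_bk_Dmat a) h = ψ a • h) (a : Fˣ) :
    ρ (twlg_bk_Dmat a) (twlg_bt_W ρ η h) = twlg_bt_W ρ η h := by
  rw [twlg_bt_W_translate]
  have key : ∀ c : Fˣ, η c • ρ (twlg_bk_Dmat a * twlg_bk_L (c : F)) h =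
      (η c * ψ a) • ρ (twlg_bk_L (((a⁻¹ * a⁻¹ * c : Fˣ)) : F)) h := by
    intro c
    rw [twlg_bt_D_mul_L, map_mul, Module.End.mul_apply, hT, map_smul, smul_smul]
    simp only [Units.val_mul]
  simp only [key]
  rw [← Equiv.sum_comp (Equiv.mulLeft (a * a))
    (fun c : Fˣ => (η c * ψ a) • ρ (twlg_bk_L (((a⁻¹ * a⁻¹ * c : Fˣ)) : F)) h)]
  unfold twlg_bt_W
  refine Finset.sum_congr rfl fun c _ => ?_
  have e1 : a⁻¹ * a⁻¹ * (Equiv.mulLeft (a * a) c) = c := by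
    simp only [Equiv.coe_mulLeft]
    group
  have e2 : η (Equiv.mulLeft (a * a) c) * ψ a = η c := by
    simp only [Equiv.coe_mulLeft, map_mul]
    calc η a * η a * η c * ψ a = (η a * η a * ψ a) * η c := by ring
      _ = η c := by rw [hηψ, one_mul]
  rw [e1, e2]

/-- **both traces of `W(h)` to the Borel levels vanish** (upper). -/
theorem twlg_bt_W_upper [IsDomain k] (hψ : ψ ≠ 1) (hηψ : ∀ a : Fˣ, η a * η a * ψ a = 1)
    (hN : ∀ x : F, ρ (twlg_bk_Umat x) h = h)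
    (hT : ∀ a : Fˣ, ρ (twlg_bk_Dmat a) h = ψ a • h) :
    (Fintype.card Fˣ) • ∑ x : F, ρ (twlg_bk_Umat x) (twlg_bt_W ρ η h) = 0 :=
  twlg_bk_sl2_upper ψ hψ hN hT twlg_bt_W_mem_span (twlg_bt_W_torus hηψ hT)

/-- **both traces of `W(h)` to the Borel levels vanish** (lower). -/
theorem twlg_bt_W_lower [IsDomain k] (hψ : ψ ≠ 1) (hηψ : ∀ a : Fˣ, η a * η a * ψ a = 1)
    (hN : ∀ x : F, ρ (twlg_bk_Umat x) h = h)
    (hT : ∀ a : Fˣ, ρ (twlg_bk_Dmat a) h = ψ a • h) :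
    (Fintype.card Fˣ) • ∑ x : F, ρ (twlg_bk_L x) (twlg_bt_W ρ η h) = 0 :=
  twlg_bk_sl2_lower ψ hψ hN hT twlg_bt_W_mem_span (twlg_bt_W_torus hηψ hT)

/-- the weighted Borel average `P v = ∑_{y ∈ F} ∑_{a ∈ Fˣ} ψ(a⁻¹) • ρ (U y * D a) v`. -/
def twlg_bt_P (ρ : SL(2, F) →* Module.End k V) (ψ : Fˣ →* k) (v : V) : V :=
  ∑ y : F, ∑ a : Fˣ, ψ a⁻¹ • ρ (twlg_bk_Umat y * twlg_bk_Dmat a) v

theorem twlg_bt_P_eq_wavg [Fintype (twlg_bk_N (F := F))] [Fintype (twlg_bk_T (F := F))] (v : V) :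
    twlg_bt_P ρ ψ v =
      twlg_bt_wavg (twlg_bt_chi (ψ.comp (invMonoidHom : Fˣ →* Fˣ))) ρ (twlg_bk_N (F := F))
        (twlg_bk_T (F := F)) v := by
  unfold twlg_bt_P twlg_bt_wavg
  rw [twlg_bk_sum_N (fun n => ∑ t : twlg_bk_T (F := F),
    twlg_bt_chi (ψ.comp (invMonoidHom : Fˣ →* Fˣ)) (t : SL(2, F)) • ρ (n * (t : SL(2, F))) v)]
  refine Finset.sum_congr rfl fun y _ => ?_
  rw [twlg_bk_sum_T (fun t => twlg_bt_chi (ψ.comp (invMonoidHom : Fˣ →* Fˣ)) t •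
    ρ (twlg_bk_Umat y * t) v)]
  refine Finset.sum_congr rfl fun a _ => ?_
  rw [twlg_bt_chi_Dmat]
  rfl

theorem twlg_bt_P_zero : twlg_bt_P ρ ψ (0 : V) = 0 := by
  unfold twlg_bt_P
  simp

/-- **THE INVERSION IDENTITY.**  For `x ∈ Fˣ`:
`P (ρ (w · [[1,x],[0,1]]) W(h)) = (η(-x⁻¹) ψ(x⁻¹)) • |F| • |Fˣ| • h`. -/
theorem twlg_bt_inversion [IsDomain k] (hψ2 : ψ * ψ ≠ 1)
    (hN : ∀ x : F, ρ (twlg_bk_Umat x) h = h)
    (hT : ∀ a : Fˣ, ρ (twlg_bk_Dmat a) h = ψ a • h) (x : Fˣ) :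
    twlg_bt_P ρ ψ (ρ (twlg_bk_w * twlg_bk_Umat (x : F)) (twlg_bt_W ρ η h)) =
      (η (-x⁻¹) * ψ x⁻¹) • ((Fintype.card F) • ((Fintype.card Fˣ : k) • h)) := by
  classical
  haveI : Fintype (twlg_bk_N (F := F)) := Fintype.ofFinite _
  haveI : Fintype (twlg_bk_T (F := F)) := Fintype.ofFinite _
  set cw : SL(2, F) → k := twlg_bt_chi (ψ.comp (invMonoidHom : Fˣ →* Fˣ)) with hcw
  set χ : SL(2, F) → k := twlg_bt_chi ψ with hχdef
  have hcwD : ∀ a : Fˣ, cw (twlg_bk_Dmat a) = ψ a⁻¹ := fun a => twlg_bt_chi_Dmat _ a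
  have hχD : ∀ a : Fˣ, χ (twlg_bk_Dmat a) = ψ a := fun a => twlg_bt_chi_Dmat _ a
  have hN' : ∀ n ∈ twlg_bk_N (F := F), ρ n h = h := by
    rintro _ ⟨y, rfl⟩; exact hN _
  have hT' : ∀ t ∈ twlg_bk_T (F := F), ρ t h = χ t • h := by
    rintro _ ⟨a, rfl⟩
    change ρ (twlg_bk_Dmat a) h = χ (twlg_bk_Dmat a) • h
    rw [hχD, hT]
  have hinv : ∀ (φ : Fˣ →* k) (a : Fˣ), φ a⁻¹ * φ a = 1 := by
    intro φ a
    rw [← map_mul, inv_mul_cancel, map_one]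
  -- the two character sums
  have hsum1 : ∑ t : twlg_bk_T (F := F), cw (t : SL(2, F)) * χ (t : SL(2, F)) =
      (Fintype.card Fˣ : k) := by
    rw [twlg_bk_sum_T (fun g => cw g * χ g)]
    simp only [hcwD, hχD, hinv, Finset.sum_const, Finset.card_univ, nsmul_eq_mul, mul_one]
  have hsum2 : ∑ t : twlg_bk_T (F := F),
      cw (t : SL(2, F)) * χ ((twlg_bk_w : SL(2, F))⁻¹ * (t : SL(2, F)) * twlg_bk_w) = 0 := by
    rw [twlg_bk_sum_T (fun g => cw g * χ ((twlg_bk_w : SL(2, F))⁻¹ * g * twlg_bk_w))]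
    have hconj : ∀ a : Fˣ,
        χ ((twlg_bk_w : SL(2, F))⁻¹ * twlg_bk_Dmat a * twlg_bk_w) = ψ a⁻¹ := by
      intro a
      have h1 := twlg_bk_w_D_conj (F := F) a
      change (twlg_bk_w : SL(2, F))⁻¹ * twlg_bk_Dmat a * twlg_bk_w = twlg_bk_Dmat a⁻¹ at h1
      rw [h1, hχD]
    simp only [hcwD, hconj]
    have h2 := sum_hom_units_eq_zero (ψ * ψ) hψ2
    rw [← Equiv.sum_comp (Equiv.inv Fˣ) (fun a => (ψ * ψ) a)] at h2
    simpa using h2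
  have hcardN : Fintype.card (twlg_bk_N (F := F)) = Fintype.card F :=
    (Fintype.card_congr twlg_bk_equivN).symm
  rw [twlg_bt_P_eq_wavg, twlg_bt_W_translate, twlg_bt_wavg_sum]
  simp only [twlg_bt_wavg_smul]
  rw [Finset.sum_eq_single (-x⁻¹ : Fˣ)]
  · -- the Borel term
    have h10 : ((twlg_bk_w * twlg_bk_Umat (x : F) * twlg_bk_L (((-x⁻¹ : Fˣ)) : F) : SL(2, F)) :
        Matrix (Fin 2) (Fin 2) F) 1 0 = 0 := by
      rw [twlg_bt_wUL_10]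
      simp
    obtain ⟨a', y, ha', hg⟩ := twlg_bt_borel_of _ h10
    have ha'x : a' = x⁻¹ := by
      apply Units.ext
      rw [ha', twlg_bt_wUL_00]
      simp
    rw [hg, twlg_bt_wavg_borel hN' hT' (twlg_bt_Dmat_mem a') (twlg_bt_Umat_mem y), hsum1, hχD,
      hcardN, ha'x, smul_smul]
  · -- the big cell terms vanish
    intro c _ hc
    have h10 : ((twlg_bk_w * twlg_bk_Umat (x : F) * twlg_bk_L (c : F) : SL(2, F)) :
        Matrix (Fin 2) (Fin 2) F) 1 0 ≠ 0 := by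
      rw [twlg_bt_wUL_10]
      intro h0
      apply hc
      apply Units.ext
      have hx : (x : F) ≠ 0 := x.ne_zero
      have : (c : F) = -(x : F)⁻¹ := by
        field_simp
        linear_combination h0
      simpa using this
    obtain ⟨n', hn', t, ht, n, hn, hg⟩ := twlg_bt_bigcell_of _ h10
    rw [hg, twlg_bt_wavg_bigcell twlg_bk_conj_TN twlg_bk_conj_wT hN' hT' hsum2 hn' ht hn,
      smul_zero]
  · intro hx
    exact absurd (Finset.mem_univ _) hx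

/-- **`W(h) ≠ 0`** as soon as `|F| • |Fˣ| • h ≠ 0`. -/
theorem twlg_bt_W_ne_zero [IsDomain k] (hψ2 : ψ * ψ ≠ 1)
    (hN : ∀ x : F, ρ (twlg_bk_Umat x) h = h)
    (hT : ∀ a : Fˣ, ρ (twlg_bk_Dmat a) h = ψ a • h)
    (hh : (Fintype.card F) • ((Fintype.card Fˣ : k) • h) ≠ 0) :
    twlg_bt_W ρ η h ≠ 0 := by
  intro h0
  have key := twlg_bt_inversion (η := η) hψ2 hN hT (1 : Fˣ)
  rw [h0, map_zero, twlg_bt_P_zero] at key
  apply hh
  have hinv : ∀ (φ : Fˣ →* k) (a : Fˣ), φ a⁻¹ * φ a = 1 := by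
    intro φ a
    rw [← map_mul, inv_mul_cancel, map_one]
  have hu : (η (-(1 : Fˣ)⁻¹)⁻¹ * ψ ((1 : Fˣ)⁻¹)⁻¹) * (η (-(1 : Fˣ)⁻¹) * ψ (1 : Fˣ)⁻¹) = 1 := by
    calc (η (-(1 : Fˣ)⁻¹)⁻¹ * ψ ((1 : Fˣ)⁻¹)⁻¹) * (η (-(1 : Fˣ)⁻¹) * ψ (1 : Fˣ)⁻¹)
        = (η (-(1 : Fˣ)⁻¹)⁻¹ * η (-(1 : Fˣ)⁻¹)) * (ψ ((1 : Fˣ)⁻¹)⁻¹ * ψ (1 : Fˣ)⁻¹) := by ring
      _ = 1 := by rw [hinv, hinv, one_mul]
  calc (Fintype.card F) • ((Fintype.card Fˣ : k) • h)
      = ((η (-(1 : Fˣ)⁻¹)⁻¹ * ψ ((1 : Fˣ)⁻¹)⁻¹) * (η (-(1 : Fˣ)⁻¹) * ψ (1 : Fˣ)⁻¹)) •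
          ((Fintype.card F) • ((Fintype.card Fˣ : k) • h)) := by rw [hu, one_smul]
    _ = (η (-(1 : Fˣ)⁻¹)⁻¹ * ψ ((1 : Fˣ)⁻¹)⁻¹) • (0 : V) := by rw [mul_smul, ← key]
    _ = 0 := smul_zero _

end Main

end SL2

end Fermat.Agent.TW
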