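/-
Project TW (S43), block [A] LG, cell `Inv0Closed` (helper29): the CLOSED form of [INV-0] of S36,
read off the chain under `Fermat/Agent/S36.lean` (no hypothesis left).

* `twlg_inv0 : s36pe_Inv0` : for every level `N q q` (`q ∤ N` prime, `q ≠ λ`) there is a valuation
  ring `A` of `Q̄` over `q` such that the only vector of `T_λ J₀(N q q)` fixed by the inertia group
  `I_A` and killed by the two degeneracy maps `s35p_P1`, `s35p_P2` to level `N q` is `0`.
* `twlg_inv0_at` : the same, unfolded.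
-/
import Fermat.Agent.S36.Desc.Final
import Fermat.Agent.JT3.Tate.Inputs
import Fermat.Agent.S36.Model.AsmHesClosed
import Fermat.Agent.S36.Model.AsmLegLastC
import Fermat.Agent.S36.CReg.PointNFClosed

set_option autoImplicit false

namespace Fermat.Agent.TW

open Fermat.Agent.S36 Fermat.Agent.S35 Fermat.Agent.JT3

/-- **[INV-0], closed.** -/
theorem twlg_inv0 : s36pe_Inv0 :=
  s36d_inv0_of_coreF (s36d_coreFAll_of_coreNF
    (fun N' q _ _ hq hq2 hqN' =>
      haveI : Fact q.Prime := ⟨hq⟩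
      s36asm_coreNF_of6 N' q hq2 hqN'
        (fun L _ _ _ O _ _ hπ ζ hζ _ T3 => s36cn_cOrd L O N' q hq2 hqN' hπ ζ hζ T3))
    (fun N' _ h2N' => s36mhf_coreNF_two N' h2N'))

/-- [INV-0], unfolded: some place `A` over `q` whose inertia group fixes no nonzero `q²`-new vector
of `T_λ J₀(N q q)`. -/
theorem twlg_inv0_at (N q : ℕ) [NeZero N] [NeZero q] (lam : ℕ) [Fact lam.Prime] (hq : q.Prime)
    (hqlam : q ≠ lam) (hqN : ¬ q ∣ N) :
    ∃ A : ValuationSubring (AlgebraicClosure ℚ), A.LiesOverPrime q ∧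
      ∀ x : tj_T (N * q * q) lam,
        (∀ s ∈ A.inertiaSubgroupIn ℚ, tj_rho (N * q * q) lam s x = x) →
          s35p_P1 (N * q) q lam x = 0 → s35p_P2 (N * q) q lam x = 0 → x = 0 :=
  twlg_inv0 N q lam hq hqlam hqN

end Fermat.Agent.TW
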