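/-
Project ONE MACHINE (S43), block [A] LG, cell A4 (2) "AsRel" (helper26; prefix `twlg_tr_`).

The tame relation at a hard prime `ℓ ∈ Th`, directly in the `End`-form of a `GaloisRepAdic`
(no framing needed), and its consequences for the simultaneous eigenbasis of A5-DIAG:

* `twlg_tr_rel` (`twlg_tr_rel'`) : `ρ(φ_ℓ) ρ(σ_ℓ) = ρ(σ_ℓ)^ℓ ρ(φ_ℓ)` for `φ_ℓ = td.gφ ℓ`,
  `σ_ℓ = td.gσ ℓ`, as soon as `p ∈ 𝔪` and `ρ` is residually trivial on the inertia group at `ℓ`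
  (primed: `ρ.residual.IsUnramifiedAt ℓ`).
* `twlg_tr_sigma_small` : `ρ(σ_ℓ) ≡ 1 mod 𝔪`.
* `twlg_tr_eq_one_of_pow` : `u ≡ 1 mod 𝔪`, `u ^ m = 1`, `m ∈ Tˣ` ⟹ `u = 1`.
* `twlg_tr_hu` : `u ≡ 1 mod 𝔪`, `u ^ (t - 1) = 1`, `t - 1 = p ^ v * m`, `p ∈ 𝔪`, `p ∤ m`
  ⟹ `u ^ (p ^ v) = 1`.
* `twlg_tr_eigen_pow` : a common eigenvector `b i` of `f`, `g` with `f g = g ^ t f`, `f` invertible,
  `g`-eigenvalue `u ≡ 1 mod 𝔪` ⟹ `u ^ (t - 1) = 1`.
* `twlg_tr_main` : the simultaneous eigenbasis of `twlg_dg_main_complete` for `ρ(φ_ℓ)`, `ρ(σ_ℓ)`,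
  with `u i ^ (p ^ v) = 1` where `ℓ - 1 = p ^ v * m`, `p ∤ m`.
-/
import Mathlib
import Fermat.Agent.TW.Patch.InertiaBridge
import Fermat.Agent.TW.LG.Diag

set_option autoImplicit false
set_option linter.unusedSectionVars false
set_option linter.unusedVariables false
set_option linter.style.haveILetI false

noncomputable section

namespace Fermat.Agent.TW

open IsLocalRing Polynomial ExtCitation Fermat.Agent.JT3 Fermat.Agent.SS Fermat.Agent.S55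
  Fermat.Agent.S56 Fermat.Agent.DS Fermat.Agent.S53
open scoped TensorProduct Pointwise

local notation "GQ" => (AlgebraicClosure ℚ ≃ₐ[ℚ] AlgebraicClosure ℚ)
local notation "Qbar" => AlgebraicClosure ℚ

section rel

variable {T : Type} [CommRing T] [IsLocalRing T]

/-- **the tame relation, `End`-form**: `ρ(φ_ℓ) ρ(σ_ℓ) = ρ(σ_ℓ)^ℓ ρ(φ_ℓ)`. -/
theorem twlg_tr_rel [IsNoetherianRing T] {p : ℕ} {Th : Finset Nat.Primes}
    (td : twc_TameData p Th) {ℓ : Nat.Primes} (hℓ : ℓ ∈ Th) (ρ : GaloisRepAdic T)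
    (hp : (p : T) ∈ maximalIdeal T)
    (hres : ∀ τ ∈ (primeLocalPlace ℓ).inertiaSubgroupIn ℚ,
      gcl_Small (maximalIdeal T) (ρ.ρ τ - 1)) :
    ρ.ρ (td.gφ ℓ) * ρ.ρ (td.gσ ℓ) = ρ.ρ (td.gσ ℓ) ^ (ℓ : ℕ) * ρ.ρ (td.gφ ℓ) := by
  rw [← sub_eq_zero]
  apply LinearMap.ext
  intro x
  rw [LinearMap.zero_apply]
  have hbot : ((⊥ : Ideal T) • ⊤ : Submodule T ρ.V) = ⊥ := Submodule.bot_smul _
  have key : (ρ.ρ (td.gφ ℓ) * ρ.ρ (td.gσ ℓ) - ρ.ρ (td.gσ ℓ) ^ (ℓ : ℕ) * ρ.ρ (td.gφ ℓ)) x ∈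
      ((⊥ : Ideal T) • ⊤ : Submodule T ρ.V) := by
    apply twib_krull (⊥ : Ideal T)
    intro n
    rw [hbot, bot_sup_eq]
    obtain ⟨L, hL, hLρ⟩ := ρ.isAdicContinuous n
    have hfin : ∃ L : IntermediateField ℚ Qbar, FiniteDimensional ℚ L ∧
        ∀ s : GQ, (∀ x ∈ L, s x = x) → twib_red ρ (maximalIdeal T ^ n) s = 1 := by
      refine ⟨L, hL, fun s hs => ?_⟩
      rw [twib_red, MonoidHom.comp_apply, ← map_one (twib_redEnd (maximalIdeal T ^ n)),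
        twib_redEnd_eq_iff]
      intro v
      simpa using hLρ s hs v
    have hpg : ∀ τ ∈ (primeLocalPlace ℓ).inertiaSubgroupIn ℚ,
        ∃ k : ℕ, twib_red ρ (maximalIdeal T ^ n) τ ^ p ^ k = 1 := by
      intro τ hτ
      refine ⟨n, ?_⟩
      rw [twib_red, MonoidHom.comp_apply, ← map_pow,
        ← map_one (twib_redEnd (maximalIdeal T ^ n)), twib_redEnd_eq_iff]
      exact (twib_small_pow_p_pow hp (hres τ hτ) n).mono (Ideal.pow_le_pow_right (by omega))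
    have h := td.rel ℓ hℓ _ (twib_red ρ (maximalIdeal T ^ n)) hfin hpg
    have h' : twib_redEnd (maximalIdeal T ^ n) (ρ.ρ (td.gφ ℓ) * ρ.ρ (td.gσ ℓ)) =
        twib_redEnd (maximalIdeal T ^ n) (ρ.ρ (td.gσ ℓ) ^ (ℓ : ℕ) * ρ.ρ (td.gφ ℓ)) := by
      rw [map_mul, map_mul, map_pow]
      exact h
    rw [twib_redEnd_eq_iff] at h'
    exact h' x
  rw [hbot] at key
  exact (Submodule.mem_bot T).1 key

/-- `ρ(σ_ℓ) ≡ 1 mod 𝔪`, in the form used by `twlg_dg_main`. -/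
theorem twlg_tr_sigma_small {p : ℕ} {Th : Finset Nat.Primes}
    (td : twc_TameData p Th) {ℓ : Nat.Primes} (hℓ : ℓ ∈ Th) (ρ : GaloisRepAdic T)
    (hres : ∀ τ ∈ (primeLocalPlace ℓ).inertiaSubgroupIn ℚ,
      gcl_Small (maximalIdeal T) (ρ.ρ τ - 1)) :
    ∀ v, ρ.ρ (td.gσ ℓ) v - v ∈ maximalIdeal T • (⊤ : Submodule T ρ.V) := by
  intro v
  have h := hres (td.gσ ℓ) (td.σ_mem ℓ hℓ) v
  rwa [LinearMap.sub_apply, Module.End.one_apply] at h

/-- the residual hypothesis from `ρ.residual.IsUnramifiedAt ℓ`. -/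
theorem twlg_tr_hres (ρ : GaloisRepAdic T) (ℓ : Nat.Primes)
    (h : ρ.residual.IsUnramifiedAt (ℓ : ℕ)) :
    ∀ τ ∈ (primeLocalPlace ℓ).inertiaSubgroupIn ℚ,
      gcl_Small (maximalIdeal T) (ρ.ρ τ - 1) :=
  fun τ hτ => twib_hres_of_residual ρ h (primeLocalPlace ℓ) (s56ld_liesOver ℓ) hτ

/-- the tame relation from `ρ.residual.IsUnramifiedAt ℓ`. -/
theorem twlg_tr_rel' [IsNoetherianRing T] {p : ℕ} {Th : Finset Nat.Primes}
    (td : twc_TameData p Th) {ℓ : Nat.Primes} (hℓ : ℓ ∈ Th) (ρ : GaloisRepAdic T)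
    (hp : (p : T) ∈ maximalIdeal T) (h : ρ.residual.IsUnramifiedAt (ℓ : ℕ)) :
    ρ.ρ (td.gφ ℓ) * ρ.ρ (td.gσ ℓ) = ρ.ρ (td.gσ ℓ) ^ (ℓ : ℕ) * ρ.ρ (td.gφ ℓ) :=
  twlg_tr_rel td hℓ ρ hp (twlg_tr_hres ρ ℓ h)

end rel

/-! ### Roots of unity congruent to `1` -/

section units

variable {T : Type*} [CommRing T] [IsLocalRing T]

/-- `u ≡ 1 mod 𝔪` ⟹ `u ^ k ≡ 1 mod 𝔪`. -/
theorem twlg_tr_pow_sub_one_mem {u : T} (hu : u - 1 ∈ maximalIdeal T) (k : ℕ) :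
    u ^ k - 1 ∈ maximalIdeal T := by
  have h : u ^ k - 1 = (∑ i ∈ Finset.range k, u ^ i) * (u - 1) := (geom_sum_mul u k).symm
  rw [h]
  exact Ideal.mul_mem_left _ _ hu

/-- `u ≡ 1 mod 𝔪`, `u ^ m = 1`, `m` a unit of `T` ⟹ `u = 1`. -/
theorem twlg_tr_eq_one_of_pow {u : T} (hu : u - 1 ∈ maximalIdeal T) (m : ℕ)
    (hm : IsUnit (m : T)) (h : u ^ m = 1) : u = 1 := by
  have h1 : (∑ i ∈ Finset.range m, u ^ i) * (u - 1) = 0 := by
    rw [geom_sum_mul, h, sub_self]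
  have h2 : (∑ i ∈ Finset.range m, u ^ i) - (m : T) ∈ maximalIdeal T := by
    have : (∑ i ∈ Finset.range m, u ^ i) - (m : T) = ∑ i ∈ Finset.range m, (u ^ i - 1) := by
      rw [Finset.sum_sub_distrib, Finset.sum_const, Finset.card_range, nsmul_eq_mul, mul_one]
    rw [this]
    exact Ideal.sum_mem _ fun i _ => twlg_tr_pow_sub_one_mem hu i
  have h3 : IsUnit (∑ i ∈ Finset.range m, u ^ i) := by
    by_contra hne
    have h4 : (∑ i ∈ Finset.range m, u ^ i) ∈ maximalIdeal T := (mem_maximalIdeal _).2 hne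
    have h5 : (m : T) ∈ maximalIdeal T := by
      have := (maximalIdeal T).sub_mem h4 h2
      rwa [sub_sub_cancel] at this
    exact ((mem_maximalIdeal _).1 h5) hm
  have h6 := (h3.mul_right_eq_zero).1 h1
  exact sub_eq_zero.1 h6

/-- a natural number prime to `p` is a unit of a local ring with `p ∈ 𝔪`. -/
theorem twlg_tr_isUnit_natCast {p : ℕ} (hp : (p : T) ∈ maximalIdeal T) {m : ℕ}
    (hm : Nat.Coprime m p) : IsUnit (m : T) := by
  by_contra hne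
  have h1 : (m : T) ∈ maximalIdeal T := (mem_maximalIdeal _).2 hne
  have h2 : ((Nat.gcd m p : ℕ) : T) ∈ maximalIdeal T := by
    have hb := Nat.gcd_eq_gcd_ab m p
    have h3 : ((Nat.gcd m p : ℕ) : T) = (m : T) * ((Nat.gcdA m p : ℤ) : T) +
        (p : T) * ((Nat.gcdB m p : ℤ) : T) := by
      have := congrArg (fun z : ℤ => (z : T)) hb
      simpa using this
    rw [h3]
    exact (maximalIdeal T).add_mem (Ideal.mul_mem_right _ _ h1) (Ideal.mul_mem_right _ _ hp)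
  rw [hm, Nat.cast_one] at h2
  exact (Ideal.ne_top_iff_one _).1 (Ideal.IsPrime.ne_top inferInstance) h2

/-- **(hu)**: `u ≡ 1 mod 𝔪`, `u ^ (t - 1) = 1`, `t - 1 = p ^ v * m`, `p ∈ 𝔪`, `p ∤ m`
⟹ `u ^ (p ^ v) = 1`. -/
theorem twlg_tr_hu {p : ℕ} (hp : (p : T) ∈ maximalIdeal T) {u : T}
    (hu : u - 1 ∈ maximalIdeal T) {t v m : ℕ} (ht : t - 1 = p ^ v * m) (hm : Nat.Coprime m p)
    (h : u ^ (t - 1) = 1) : u ^ (p ^ v) = 1 := by
  apply twlg_tr_eq_one_of_pow (twlg_tr_pow_sub_one_mem hu _) m (twlg_tr_isUnit_natCast hp hm)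
  rw [← pow_mul, ← ht, h]

end units

/-! ### Eigenvalues -/

section eigen

variable {T : Type*} [CommRing T] [IsLocalRing T] {V : Type*} [AddCommGroup V] [Module T V]

/-- a common eigenvector `b i` (member of a basis) of `f`, `g` with `f g = g ^ t f`, `f`
invertible and the `g`-eigenvalue `u ≡ 1 mod 𝔪`, has `u ^ (t - 1) = 1`. -/
theorem twlg_tr_eigen_pow {ι : Type*} (b : Module.Basis ι T V) (f f' g : Module.End T V)
    (hff : f' * f = 1) (t : ℕ) (ht : 0 < t) (hrel : f * g = g ^ t * f) (i : ι) (a u : T)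
    (hfa : f (b i) = a • b i) (hgu : g (b i) = u • b i) (hu : u - 1 ∈ maximalIdeal T) :
    u ^ (t - 1) = 1 := by
  -- `a` is a unit
  have ha : IsUnit a := by
    have h1 : f' (f (b i)) = b i := by
      have := LinearMap.congr_fun hff (b i)
      rwa [Module.End.mul_apply, Module.End.one_apply] at this
    rw [hfa, map_smul] at h1
    have h2 := congrArg (fun x => b.repr x i) h1
    simp only [map_smul, Finsupp.smul_apply, smul_eq_mul, Module.Basis.repr_self,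
      Finsupp.single_eq_same] at h2
    exact IsUnit.of_mul_eq_one _ h2
  -- `u` is a unit
  have huu : IsUnit u := by
    by_contra hne
    have h1 : u ∈ maximalIdeal T := (mem_maximalIdeal _).2 hne
    have h2 : (1 : T) ∈ maximalIdeal T := by
      have := (maximalIdeal T).sub_mem h1 hu
      rwa [sub_sub_cancel] at this
    exact (Ideal.ne_top_iff_one _).1 (Ideal.IsPrime.ne_top inferInstance) h2
  -- `g ^ k (b i) = u ^ k • b i`
  have hgk : ∀ k : ℕ, (g ^ k) (b i) = u ^ k • b i := by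
    intro k
    induction k with
    | zero => simp
    | succ k ih =>
      rw [pow_succ, Module.End.mul_apply, hgu, map_smul, ih, smul_smul, pow_succ, mul_comm]
  have h1 := LinearMap.congr_fun hrel (b i)
  rw [Module.End.mul_apply, Module.End.mul_apply, hgu, hfa, map_smul, map_smul, hfa, hgk,
    smul_smul, smul_smul] at h1
  have h2 : u * a = a * u ^ t := by
    have h3 := congrArg (fun x => b.repr x i) h1
    simpa only [map_smul, Finsupp.smul_apply, smul_eq_mul, Module.Basis.repr_self,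
      Finsupp.single_eq_same, mul_one] using h3
  have h4 : a * u * (u ^ (t - 1) - 1) = 0 := by
    have h5 : u ^ t = u * u ^ (t - 1) := by
      rw [← pow_succ']
      congr 1
      omega
    rw [h5] at h2
    linear_combination -h2
  have h6 := ((ha.mul huu).mul_right_eq_zero).1 h4
  exact sub_eq_zero.1 h6

end eigen

/-! ### The assembled statement -/

section main

variable {T : Type} [CommRing T] [IsLocalRing T] [IsNoetherianRing T]
  [IsAdicComplete (maximalIdeal T) T]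

/-- the abstract form: any `φ`, `σ` with `ρ φ * ρ σ = ρ σ ^ t * ρ φ`, `ρ σ ≡ 1 mod 𝔪`,
`t - 1 = p ^ v * m`, `0 < v`, `p ∤ m`, `p ∈ 𝔪`. -/
theorem twlg_tr_main_gen {p : ℕ} (ρ : GaloisRepAdic T) (hp : (p : T) ∈ maximalIdeal T)
    (φ σ : GQ) (t : ℕ) (ht : 0 < t)
    (hrel : ρ.ρ φ * ρ.ρ σ = ρ.ρ σ ^ t * ρ.ρ φ)
    (hσ : ∀ x, ρ.ρ σ x - x ∈ maximalIdeal T • (⊤ : Submodule T ρ.V))
    {v m : ℕ} (hvm : t - 1 = p ^ v * m) (hv : 0 < v) (hm : Nat.Coprime m p)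
    (al be : ResidueField T) (hab : al ≠ be)
    (hφ : (LinearMap.charpoly (ρ.ρ φ)).map (residue T) = (X - C al) * (X - C be)) :
    ∃ (b : Module.Basis (Fin 2) T ρ.V) (a u : Fin 2 → T),
      (∀ i, ρ.ρ φ (b i) = a i • b i) ∧ (∀ i, ρ.ρ σ (b i) = u i • b i) ∧
        residue T (a 0) = al ∧ residue T (a 1) = be ∧ (∀ i, u i - 1 ∈ maximalIdeal T) ∧
        (∀ i, u i ^ (t - 1) = 1) ∧ (∀ i, u i ^ (p ^ v) = 1) := by
  have htT : (t : T) - 1 ∈ maximalIdeal T := by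
    have h1 : (t : T) - 1 = ((t - 1 : ℕ) : T) := by
      rw [Nat.cast_sub ht, Nat.cast_one]
    rw [h1, hvm, Nat.cast_mul, Nat.cast_pow]
    exact Ideal.mul_mem_right _ _ (Ideal.pow_mem_of_mem _ hp v hv)
  obtain ⟨b, a, u, hfa, hgu, h0, h1, hu⟩ :=
    twlg_dg_main_complete ρ φ σ t htT hrel hσ al be hab hφ
  have hff : ρ.ρ φ⁻¹ * ρ.ρ φ = 1 := by
    rw [← map_mul, inv_mul_cancel, map_one]
  have hpow : ∀ i, u i ^ (t - 1) = 1 := fun i =>
    twlg_tr_eigen_pow b (ρ.ρ φ) (ρ.ρ φ⁻¹) (ρ.ρ σ) hff t ht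
      hrel i (a i) (u i) (hfa i) (hgu i) (hu i)
  exact ⟨b, a, u, hfa, hgu, h0, h1, hu, hpow, fun i => twlg_tr_hu hp (hu i) hvm hm (hpow i)⟩

/-- **A4 (2), assembled**: for `ρ` over a complete noetherian local ring with `p ∈ 𝔪`, residually
unramified at the hard prime `ℓ ∈ Th` and with residual Frobenius polynomial `(X - al)(X - be)`,
`al ≠ be`: a simultaneous eigenbasis of `ρ(φ_ℓ)`, `ρ(σ_ℓ)` whose inertia eigenvalues `u i ≡ 1`
satisfy `u i ^ (ℓ - 1) = 1` and `u i ^ (p ^ v) = 1`, `ℓ - 1 = p ^ v * m`, `p ∤ m`. -/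
theorem twlg_tr_main {p : ℕ} {Th : Finset Nat.Primes} (td : twc_TameData p Th)
    {ℓ : Nat.Primes} (hℓ : ℓ ∈ Th) (ρ : GaloisRepAdic T) (hp : (p : T) ∈ maximalIdeal T)
    (hres : ∀ τ ∈ (primeLocalPlace ℓ).inertiaSubgroupIn ℚ,
      gcl_Small (maximalIdeal T) (ρ.ρ τ - 1))
    {v m : ℕ} (hvm : (ℓ : ℕ) - 1 = p ^ v * m) (hv : 0 < v) (hm : Nat.Coprime m p)
    (al be : ResidueField T) (hab : al ≠ be)
    (hφ : (LinearMap.charpoly (ρ.ρ (td.gφ ℓ))).map (residue T) = (X - C al) * (X - C be)) :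
    ∃ (b : Module.Basis (Fin 2) T ρ.V) (a u : Fin 2 → T),
      (∀ i, ρ.ρ (td.gφ ℓ) (b i) = a i • b i) ∧ (∀ i, ρ.ρ (td.gσ ℓ) (b i) = u i • b i) ∧
        residue T (a 0) = al ∧ residue T (a 1) = be ∧ (∀ i, u i - 1 ∈ maximalIdeal T) ∧
        (∀ i, u i ^ ((ℓ : ℕ) - 1) = 1) ∧ (∀ i, u i ^ (p ^ v) = 1) :=
  twlg_tr_main_gen ρ hp (td.gφ ℓ) (td.gσ ℓ) (ℓ : ℕ) ℓ.2.pos (twlg_tr_rel td hℓ ρ hp hres)
    (twlg_tr_sigma_small td hℓ ρ hres) hvm hv hm al be hab hφ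

/-- the same from `ρ.residual.IsUnramifiedAt ℓ`. -/
theorem twlg_tr_main' {p : ℕ} {Th : Finset Nat.Primes} (td : twc_TameData p Th)
    {ℓ : Nat.Primes} (hℓ : ℓ ∈ Th) (ρ : GaloisRepAdic T) (hp : (p : T) ∈ maximalIdeal T)
    (hunr : ρ.residual.IsUnramifiedAt (ℓ : ℕ))
    {v m : ℕ} (hvm : (ℓ : ℕ) - 1 = p ^ v * m) (hv : 0 < v) (hm : Nat.Coprime m p)
    (al be : ResidueField T) (hab : al ≠ be)
    (hφ : (LinearMap.charpoly (ρ.ρ (td.gφ ℓ))).map (residue T) = (X - C al) * (X - C be)) :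
    ∃ (b : Module.Basis (Fin 2) T ρ.V) (a u : Fin 2 → T),
      (∀ i, ρ.ρ (td.gφ ℓ) (b i) = a i • b i) ∧ (∀ i, ρ.ρ (td.gσ ℓ) (b i) = u i • b i) ∧
        residue T (a 0) = al ∧ residue T (a 1) = be ∧ (∀ i, u i - 1 ∈ maximalIdeal T) ∧
        (∀ i, u i ^ ((ℓ : ℕ) - 1) = 1) ∧ (∀ i, u i ^ (p ^ v) = 1) :=
  twlg_tr_main td hℓ ρ hp (twlg_tr_hres ρ ℓ hunr) hvm hv hm al be hab hφ

end main

end Fermat.Agent.TW
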